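import Fermat.Agent.Regular.FirstCaseBernoulli
import Fermat.Agent.Root.SummaryCyclotomicUnits
import Fermat.Agent.Root.SummaryAbelianZeta
import Mathlib.NumberTheory.NumberField.CMField
import Mathlib.NumberTheory.NumberField.Discriminant.Different

/-!
# The relative class number formula of `ℚ(ζ_p)`, squared

With `h`, `h⁺` the class numbers of `K = ℚ(ζ_p)` and of its maximal real subfield, `Q` the index of
the real units and roots of unity and `S_χ = ∑ a χ(a)`:

`(h⁺ Q ∏_{χ odd} |S_χ|)² = 4^(m-1) p^(m-1) |d⁺| h²`, `m = (p-1)/2`.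
-/

set_option autoImplicit false

noncomputable section

open NumberField
open scoped Classical Real

namespace FA.Regular

variable {p : ℕ} [Fact p.Prime]

theorem LFunction_primitiveCharacter_eq {χ : DirichletCharacter ℂ p} (hχ : χ ≠ 1) :
    DirichletCharacter.LFunction χ.primitiveCharacter 1 = DirichletCharacter.LFunction χ 1 := by
  have hc : χ.conductor = p := FA.OrderTheta.isPrimitive_of_ne_one p hχ
  have : NeZero χ.conductor := ⟨by rw [hc]; exact (Fact.out : p.Prime).ne_zero⟩
  conv_rhs => rw [← DirichletCharacter.changeLevel_primitiveCharacter χ]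
  rw [DirichletCharacter.LFunction_changeLevel _ _
    (Or.inl (FA.AbelianZeta.primitive_ne_one hχ)), Finset.prod_eq_one, mul_one]
  intro q hq
  rw [Nat.Prime.primeFactors (Fact.out : p.Prime), Finset.mem_singleton] at hq
  subst hq
  rw [show ((q : ℕ) : ZMod χ.conductor) = 0 by rw [ZMod.natCast_eq_zero_iff, hc],
    MulChar.map_nonunit _ ?_, zero_mul, sub_zero]
  have : Nontrivial (ZMod χ.conductor) := by
    rw [hc]; exact inferInstance
  exact not_isUnit_zero

theorem norm_sq_gaussSum {χ : DirichletCharacter ℂ p} (hχ : χ ≠ 1) :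
    ‖gaussSum χ ZMod.stdAddChar‖ ^ 2 = p := by
  have hconj : (starRingEnd ℂ) (gaussSum χ ZMod.stdAddChar) =
      gaussSum χ⁻¹ (ZMod.stdAddChar (N := p))⁻¹ := by
    simp only [gaussSum, map_sum, map_mul]
    refine Finset.sum_congr rfl fun a _ => ?_
    rw [← MulChar.star_eq_inv, AddChar.inv_apply, AddChar.map_neg_eq_conj]
    rfl
  have h := gaussSum_mul_gaussSum_eq_card hχ (ψ := ZMod.stdAddChar) (ZMod.isPrimitive_stdAddChar p)
  rw [← hconj, Complex.mul_conj', ZMod.card] at h
  exact_mod_cast h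

theorem sum_inv_mul_log {χ : DirichletCharacter ℂ p} (hχ : χ.Odd) :
    ∑ a : ZMod p, χ⁻¹ a * Complex.log (1 - ZMod.stdAddChar (-a)) =
      -((π : ℂ) * Complex.I / p) * ∑ a : ZMod p, χ⁻¹ a * (a.val : ℂ) := by
  have hodd : χ⁻¹.Odd := by
    show χ⁻¹ (-1) = -1
    rw [MulChar.inv_apply', inv_neg_one]
    exact hχ
  have hne : χ⁻¹ ≠ 1 := fun e => by
    have h' : χ⁻¹ (-1) = -1 := hodd
    rw [e, MulChar.one_apply isUnit_one.neg] at h'
    norm_num at h'
  set g : ZMod p → ℝ := fun a => Real.log (2 * Real.sin (π * ((a.val : ℝ) / p)))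
  have hterm : ∀ a : ZMod p, χ⁻¹ a * Complex.log (1 - ZMod.stdAddChar (-a)) =
      χ⁻¹ a * (g a : ℂ) + -((π : ℂ) * Complex.I) * (χ⁻¹ a * (FA.OrderTheta.sawTooth p a : ℂ)) := by
    intro a
    by_cases ha : a = 0
    · rw [ha, MulChar.map_zero]; ring
    rw [← FA.OrderTheta.circlePoint_val,
      FA.OrderTheta.log_one_sub_circlePoint (FA.OrderTheta.val_div_mem_Ioo (neg_ne_zero.mpr ha)),
      FA.OrderTheta.val_neg_div ha, mul_sub π 1, mul_one, Real.sin_pi_sub,
      FA.OrderTheta.sawTooth, if_neg ha]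
    simp only [g]
    push_cast
    ring
  have hg : ∑ a : ZMod p, χ⁻¹ a * (g a : ℂ) = 0 :=
    FA.OrderTheta.sum_odd_eq_zero fun a => by
      rw [hodd.eval_neg, show g (-a) = g a by
        simp only [g]
        by_cases ha : a = 0
        · rw [ha, neg_zero]
        · rw [FA.OrderTheta.val_neg_div ha, mul_sub π 1, mul_one, Real.sin_pi_sub]]
      ring
  have hsaw : ∀ a : ZMod p, χ⁻¹ a * (FA.OrderTheta.sawTooth p a : ℂ) =
      (p : ℂ)⁻¹ * (χ⁻¹ a * (a.val : ℂ)) - 1 / 2 * χ⁻¹ a := fun a => by
    by_cases ha : a = 0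
    · rw [ha, MulChar.map_zero]; ring
    · rw [FA.OrderTheta.sawTooth, if_neg ha]; push_cast; ring
  rw [Finset.sum_congr rfl fun a _ => hterm a, Finset.sum_add_distrib, hg, zero_add,
    ← Finset.mul_sum, Finset.sum_congr rfl fun a _ => hsaw a, Finset.sum_sub_distrib,
    ← Finset.mul_sum, ← Finset.mul_sum, MulChar.sum_eq_zero_of_ne_one hne]
  ring

theorem norm_sq_LFunction_one {χ : DirichletCharacter ℂ p} (hχ : χ.Odd) :
    ‖DirichletCharacter.LFunction χ 1‖ ^ 2 =
      π ^ 2 / (p : ℝ) ^ 3 * ‖∑ a : ZMod p, χ⁻¹ a * (a.val : ℂ)‖ ^ 2 := by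
  have hne : χ ≠ 1 := fun e => by
    have h' : χ (-1) = -1 := hχ
    rw [e, MulChar.one_apply isUnit_one.neg] at h'
    norm_num at h'
  rw [FA.Summary.lFunction_one_closedForm (Fact.out : p.Prime).one_lt
    (FA.OrderTheta.isPrimitive_of_ne_one p hne), sum_inv_mul_log hχ]
  simp only [norm_mul, norm_neg, norm_div, Complex.norm_natCast, Complex.norm_real,
    Complex.norm_I, Real.norm_eq_abs, abs_of_pos Real.pi_pos]
  rw [mul_pow, div_pow, norm_sq_gaussSum hne]
  have hp : (p : ℝ) ≠ 0 := by exact_mod_cast (Fact.out : p.Prime).ne_zero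
  field_simp

theorem torsionOrder_eq_two_of_real {F : Type*} [Field F] [NumberField F]
    (h : 0 < InfinitePlace.nrRealPlaces F) : Units.torsionOrder F = 2 := by
  let := Fintype.ofFinite (Units.torsion F)
  rw [Units.torsionOrder, Nat.card_eq_fintype_card]
  refine Finset.card_eq_two.2 ⟨1, ⟨-1, neg_one_mem_torsion⟩,
    by simp [← Subtype.coe_ne_coe], Finset.ext fun x ↦ ⟨fun _ ↦ ?_, fun _ ↦ Finset.mem_univ _⟩⟩
  rw [Finset.mem_insert, Finset.mem_singleton, ← Subtype.val_inj, ← Subtype.val_inj]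
  by_cases! hc : 2 < orderOf (x : (𝓞 F)ˣ)
  · have hprim : IsPrimitiveRoot ((x.1 : 𝓞 F) : F) (orderOf (x : (𝓞 F)ˣ)) :=
      (IsPrimitiveRoot.orderOf (x : (𝓞 F)ˣ)).map_of_injective
        (f := (algebraMap (𝓞 F) F).toMonoidHom.comp (Units.coeHom (𝓞 F)))
        (RingOfIntegers.coe_injective.comp Units.val_injective)
    linarith [NumberField.InfinitePlace.IsPrimitiveRoot.nrRealPlaces_eq_zero_of_two_lt hc hprim]
  · interval_cases hi : orderOf (x : (𝓞 F)ˣ)
    · linarith [orderOf_pos_iff.2 ((CommGroup.mem_torsion x.1).1 x.2)]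
    · exact Or.intro_left _ (orderOf_eq_one_iff.1 hi)
    · rw [← orderOf_units, CharP.orderOf_eq_two_iff 0 (by decide)] at hi
      simp [← Units.val_inj, Units.val_neg, Units.val_one, hi]

variable (p)
variable (K : Type*) [Field K] [NumberField K] [IsCyclotomicExtension {p} ℚ K] [IsCMField K]

/-- The maximal real subfield as an intermediate field. -/
def realField : IntermediateField ℚ K :=
  (maximalRealSubfield K).toIntermediateField fun q => by
    intro φ
    rw [eq_ratCast, map_ratCast, Complex.star_def, map_ratCast]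

theorem sigmaK_neg_one_eq (x : K) : FA.Ext.sigmaK p K (-1) x = IsCMField.complexConj K x := by
  let φ : K →+* ℂ := Classical.choice (inferInstance : Nonempty _)
  refine φ.injective ?_
  rw [embedding_sigmaK_neg_one, IsCMField.complexEmbedding_complexConj]

theorem mem_fixingSubgroup_realField (σ : K ≃ₐ[ℚ] K) :
    σ ∈ (realField K).fixingSubgroup ↔
      IsCyclotomicExtension.Rat.galEquivZMod p K σ = 1 ∨
        IsCyclotomicExtension.Rat.galEquivZMod p K σ = -1 := by
  have hc : IsCyclotomicExtension.Rat.galEquivZMod p K (FA.Ext.sigmaK p K (-1)) = -1 :=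
    MulEquiv.apply_symm_apply _ _
  rw [IntermediateField.mem_fixingSubgroup_iff]
  constructor
  · intro h
    let τ : K ≃ₐ[maximalRealSubfield K] K :=
      { σ.toRingEquiv with commutes' := fun r => h r.1 r.2 }
    have hτ : τ ∈ Subgroup.zpowers (IsCMField.complexConj K) := by
      rw [IsCMField.zpowers_complexConj_eq_top]; exact Subgroup.mem_top _
    rw [← mem_powers_iff_mem_zpowers] at hτ
    obtain ⟨n, hn⟩ := hτ
    simp only at hn
    rw [pow_eq_pow_mod n (show IsCMField.complexConj K ^ 2 = 1 by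
      rw [← IsCMField.orderOf_complexConj K]; exact pow_orderOf_eq_one _)] at hn
    rcases Nat.mod_two_eq_zero_or_one n with hm | hm <;> rw [hm] at hn
    · left
      rw [show σ = 1 from AlgEquiv.ext fun x => (DFunLike.congr_fun hn x).symm, map_one]
    · right
      rw [show σ = FA.Ext.sigmaK p K (-1) from AlgEquiv.ext fun x => by
        rw [sigmaK_neg_one_eq]
        exact ((DFunLike.congr_fun hn x).symm).trans (by rw [pow_one]), hc]
  · rintro (h | h) x hx
    · rw [(map_eq_one_iff _ (MulEquiv.injective _)).mp h]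
      rfl
    · rw [show σ = FA.Ext.sigmaK p K (-1) from
        (IsCyclotomicExtension.Rat.galEquivZMod p K).injective (h.trans hc.symm), sigmaK_neg_one_eq]
      exact IsCMField.complexConj_apply_eq_self K ⟨x, hx⟩

theorem mem_fieldChars_realField [IsAbelianGalois ℚ K] (χ : DirichletCharacter ℂ p) :
    χ ∈ FA.AbelianZeta.fieldChars p K (realField K) ↔ χ.Even := by
  rw [FA.AbelianZeta.mem_fieldChars_iff]
  refine ⟨fun h => ?_, fun h σ hσ => ?_⟩
  · have hmem := (mem_fixingSubgroup_realField p K (FA.Ext.sigmaK p K (-1))).mpr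
      (Or.inr (MulEquiv.apply_symm_apply _ _))
    have := h _ hmem
    rw [show IsCyclotomicExtension.Rat.galEquivZMod p K (FA.Ext.sigmaK p K (-1)) = -1 from
      MulEquiv.apply_symm_apply _ _] at this
    simpa [DirichletCharacter.Even] using this
  · rcases (mem_fixingSubgroup_realField p K σ).mp hσ with e | e <;> rw [e]
    · simp
    · simpa [DirichletCharacter.Even] using h

theorem residue_real_eq_prod :
    (dedekindZeta_residue (maximalRealSubfield K) : ℂ) =
      ∏ χ ∈ ((Finset.univ : Finset (DirichletCharacter ℂ p)).filter fun χ => χ.Even).erase 1,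
        DirichletCharacter.LFunction χ 1 := by
  have : IsAbelianGalois ℚ K := IsCyclotomicExtension.isAbelianGalois {p} ℚ K
  have h1 : (1 : DirichletCharacter ℂ p) ∈
      (Finset.univ : Finset (DirichletCharacter ℂ p)).filter fun χ => χ.Even :=
    Finset.mem_filter.mpr ⟨Finset.mem_univ _, by
      show (1 : DirichletCharacter ℂ p) (-1) = 1
      rw [MulChar.one_apply isUnit_one.neg]⟩
  rw [FA.AbelianZeta.residue_eq_prod h1]
  · exact Finset.prod_congr rfl fun χ hχ =>
      LFunction_primitiveCharacter_eq (Finset.ne_of_mem_erase hχ)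
  intro s hs
  let e : maximalRealSubfield K ≃+* realField K :=
    { toFun := fun x => ⟨x.1, x.2⟩
      invFun := fun x => ⟨x.1, x.2⟩
      left_inv := fun _ => rfl
      right_inv := fun _ => rfl
      map_mul' := fun _ _ => rfl
      map_add' := fun _ _ => rfl }
  rw [FA.AbelianZeta.dedekindZeta_congr e, FA.AbelianZeta.dedekindZeta_eq_prod p K (realField K) hs]
  refine Finset.prod_bij (fun χ _ => χ.1)
    (fun χ _ => Finset.mem_filter.mpr ⟨Finset.mem_univ _, (mem_fieldChars_realField p K χ.1).mp χ.2⟩)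
    (fun _ _ _ _ h => Subtype.ext h)
    (fun χ hχ => ⟨⟨χ, (mem_fieldChars_realField p K χ).mpr (Finset.mem_filter.mp hχ).2⟩,
      Finset.mem_univ _, rfl⟩) fun _ _ => rfl

theorem prod_odd_LFunction :
    (∏ χ ∈ (Finset.univ : Finset (DirichletCharacter ℂ p)).filter fun χ => χ.Odd,
      DirichletCharacter.LFunction χ 1) * (dedekindZeta_residue (maximalRealSubfield K) : ℂ) =
      (dedekindZeta_residue K : ℂ) := by
  rw [residue_real_eq_prod p K, ← FA.Summary.classNumberFormula_cyclotomic p K,
    ← Finset.prod_filter_mul_prod_filter_not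
      ((Finset.univ : Finset (DirichletCharacter ℂ p)).erase 1) (fun χ => χ.Odd)]
  congr 1
  · refine Finset.prod_congr ?_ fun χ hχ =>
      (LFunction_primitiveCharacter_eq (Finset.ne_of_mem_erase (Finset.mem_filter.mp hχ).1)).symm
    ext χ
    simp only [Finset.mem_filter, Finset.mem_univ, true_and, Finset.mem_erase, and_true]
    refine ⟨fun h => ⟨fun e => ?_, h⟩, fun h => h.2⟩
    have h' : χ (-1) = -1 := h
    rw [e, MulChar.one_apply isUnit_one.neg] at h'
    norm_num at h'
  · refine Finset.prod_congr ?_ fun χ hχ =>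
      (LFunction_primitiveCharacter_eq (Finset.ne_of_mem_erase (Finset.mem_filter.mp hχ).1)).symm
    ext χ
    simp only [Finset.mem_filter, Finset.mem_univ, true_and, Finset.mem_erase, and_true]
    refine and_congr_right fun _ => ⟨fun he ho => ?_, fun h => (DirichletCharacter.even_or_odd χ).resolve_right h⟩
    have h1 : χ (-1) = 1 := he
    have h2 : χ (-1) = -1 := ho
    rw [h1] at h2
    norm_num at h2

/-- **The relative class number formula**, squared. -/
theorem minus_formula_sq (hp2 : p ≠ 2) :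
    ((classNumber (maximalRealSubfield K) : ℝ) * (IsCMField.indexRealUnits K : ℝ)) ^ 2 *
      ∏ χ ∈ (Finset.univ : Finset (DirichletCharacter ℂ p)).filter (fun χ => χ.Odd),
        ‖∑ a : ZMod p, χ a * (a.val : ℂ)‖ ^ 2 =
      4 ^ ((p - 1) / 2 - 1) * (p : ℝ) ^ ((p - 1) / 2 - 1) *
        |(discr (maximalRealSubfield K) : ℝ)| * (classNumber K : ℝ) ^ 2 := by
  have hp : p.Prime := Fact.out
  have h2p : 2 < p := lt_of_le_of_ne hp.two_le (Ne.symm hp2)
  set m := (p - 1) / 2 with hm
  have hodd := hp.eq_two_or_odd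
  obtain ⟨k, hk⟩ : ∃ k, m = k + 1 := ⟨m - 1, by omega⟩
  have hpm : p = 2 * k + 3 := by omega
  -- the number of odd characters
  set T := (Finset.univ : Finset (DirichletCharacter ℂ p)).filter fun χ => χ.Odd
  have : NeZero p := ⟨hp.ne_zero⟩
  have hS : ∏ χ ∈ T, ‖DirichletCharacter.LFunction χ 1‖ ^ 2 =
      (π ^ 2 / (p : ℝ) ^ 3) ^ T.card * ∏ χ ∈ T, ‖∑ a : ZMod p, χ a * (a.val : ℂ)‖ ^ 2 := by
    rw [Finset.prod_congr rfl fun χ hχ => norm_sq_LFunction_one (Finset.mem_filter.mp hχ).2,
      Finset.prod_mul_distrib, Finset.prod_const]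
    congr 1
    refine Finset.prod_nbij' (fun χ => χ⁻¹) (fun χ => χ⁻¹) ?_ ?_ (fun _ _ => inv_inv _)
      (fun _ _ => inv_inv _) fun _ _ => rfl <;>
    · intro χ hχ
      refine Finset.mem_filter.mpr ⟨Finset.mem_univ _, ?_⟩
      show χ⁻¹ (-1) = -1
      rw [MulChar.inv_apply', inv_neg_one]
      exact (Finset.mem_filter.mp hχ).2
  have hcard : T.card = k + 1 := by
    have hall : (Finset.univ : Finset (DirichletCharacter ℂ p)).card = p - 1 := by
      rw [Finset.card_univ, ← Nat.card_eq_fintype_card,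
        DirichletCharacter.card_eq_totient_of_hasEnoughRootsOfUnity ℂ p, Nat.totient_prime hp]
    have hU : IsUnit ((-1 : ZMod p)) := isUnit_one.neg
    obtain ⟨χ₀, hχ₀⟩ : ∃ χ₀ : DirichletCharacter ℂ p, χ₀.Odd := by
      by_contra hno
      push Not at hno
      have hne : (-1 : ZMod p) ≠ 1 := by
        intro e
        have h2 : ((2 : ℕ) : ZMod p) = 0 := by push_cast; linear_combination -e
        rw [ZMod.natCast_eq_zero_iff] at h2
        exact absurd (Nat.le_of_dvd two_pos h2) (by omega)
      obtain ⟨χ, hχ⟩ := MulChar.exists_apply_ne_one_of_hasEnoughRootsOfUnity (ZMod p) ℂ hne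
      rcases DirichletCharacter.even_or_odd χ with he | ho
      · exact hχ he
      · exact hno χ ho
    have hbij : T.card = ((Finset.univ : Finset (DirichletCharacter ℂ p)).filter fun χ => ¬ χ.Odd).card := by
      refine Finset.card_nbij' (fun χ => χ * χ₀) (fun χ => χ * χ₀⁻¹) ?_ ?_
        (fun χ _ => mul_inv_cancel_right χ χ₀) (fun χ _ => inv_mul_cancel_right χ χ₀)
      · intro χ hχ
        refine Finset.mem_filter.mpr ⟨Finset.mem_univ _, fun h => ?_⟩
        have h1 : (χ * χ₀) (-1) = -1 := h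
        have h2 : χ (-1) = -1 := (Finset.mem_filter.mp hχ).2
        have h3 : χ₀ (-1) = -1 := hχ₀
        rw [MulChar.mul_apply, h2, h3] at h1
        norm_num at h1
      · intro χ hχ
        refine Finset.mem_filter.mpr ⟨Finset.mem_univ _, ?_⟩
        have h2 : χ (-1) = 1 := (DirichletCharacter.even_or_odd χ).resolve_right (Finset.mem_filter.mp hχ).2
        have h3 : χ₀ (-1) = -1 := hχ₀
        show (χ * χ₀⁻¹) (-1) = -1
        rw [MulChar.mul_apply, h2, MulChar.inv_apply', inv_neg_one, h3, one_mul]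
    have := Finset.card_filter_add_card_filter_not
      (s := (Finset.univ : Finset (DirichletCharacter ℂ p))) (fun χ => χ.Odd)
    change T.card + _ = _ at this
    rw [← hbij, hall] at this
    omega
  have hL : ∏ χ ∈ T, ‖DirichletCharacter.LFunction χ 1‖ ^ 2 =
      dedekindZeta_residue K ^ 2 / dedekindZeta_residue (maximalRealSubfield K) ^ 2 := by
    have h := congrArg (fun z : ℂ => ‖z‖ ^ 2) (prod_odd_LFunction p K)
    simp only [norm_mul, norm_prod, Complex.norm_real, Real.norm_eq_abs, mul_pow, ← Finset.prod_pow,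
      sq_abs] at h
    rw [eq_div_iff (pow_ne_zero 2 (dedekindZeta_residue_ne_zero _))]
    exact h
  -- the invariants of the two fields
  have hfinK : Module.finrank ℚ K = p - 1 := by
    rw [IsCyclotomicExtension.Rat.finrank p K, Nat.totient_prime hp]
  have hcplxK : InfinitePlace.nrComplexPlaces K = k + 1 := by
    rw [IsCyclotomicExtension.Rat.nrComplexPlaces_eq_totient_div_two (n := p) K,
      Nat.totient_prime hp]
    omega
  have hrealK : InfinitePlace.nrRealPlaces K = 0 :=
    IsCyclotomicExtension.Rat.nrRealPlaces_eq_zero (n := p) K h2p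
  have hwK : Units.torsionOrder K = 2 * p := by
    rw [IsCyclotomicExtension.Rat.torsionOrder_eq (n := p) (K := K), if_neg ?_]
    rw [Nat.even_iff]; omega
  have hdK : |(discr K : ℝ)| = (p : ℝ) ^ (2 * k + 1) := by
    rw [IsCyclotomicExtension.Rat.discr_prime p K]
    push_cast
    rw [abs_mul, abs_pow, abs_neg, abs_one, one_pow, one_mul, abs_pow, Nat.abs_cast]
    congr 1
    omega
  have hrankK : Units.rank K = k := by
    rw [Units.rank, InfinitePlace.card_eq_nrRealPlaces_add_nrComplexPlaces, hrealK, hcplxK]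
    omega
  have hplus : InfinitePlace.nrRealPlaces (maximalRealSubfield K) = k + 1 ∧
      InfinitePlace.nrComplexPlaces (maximalRealSubfield K) = 0 ∧
      Units.torsionOrder (maximalRealSubfield K) = 2 := by
    have h0 : InfinitePlace.nrComplexPlaces (maximalRealSubfield K) = 0 :=
      IsTotallyReal.nrComplexPlaces_eq_zero _
    have h1 := IsCMField.units_rank_eq_units_rank K
    rw [hrankK, Units.rank, InfinitePlace.card_eq_nrRealPlaces_add_nrComplexPlaces, h0] at h1
    have hpos : 0 < InfinitePlace.nrRealPlaces (maximalRealSubfield K) := by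
      have := Fintype.card_pos (α := InfinitePlace (maximalRealSubfield K))
      rw [InfinitePlace.card_eq_nrRealPlaces_add_nrComplexPlaces, h0] at this
      omega
    exact ⟨by omega, h0, torsionOrder_eq_two_of_real hpos⟩
  have hreg := IsCMField.regulator_div_regulator_eq_two_pow_mul_indexRealUnits_inv K
  rw [div_eq_iff (Units.regulator_ne_zero _), hrankK] at hreg
  rw [hS, hcard, dedekindZeta_residue_def, dedekindZeta_residue_def, hrealK, hcplxK, hplus.1,
    hplus.2.1, hplus.2.2, hwK, hreg] at hL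
  have hQ : (IsCMField.indexRealUnits K : ℝ) ≠ 0 := by
    rcases IsCMField.indexRealUnits_eq_one_or_two K with e | e <;> rw [e] <;> norm_num
  have hd : (0 : ℝ) < |(discr (maximalRealSubfield K) : ℝ)| :=
    abs_pos.mpr (Int.cast_ne_zero.mpr (discr_ne_zero _))
  have hp0 : (p : ℝ) ≠ 0 := by exact_mod_cast hp.ne_zero
  have hh : (classNumber (maximalRealSubfield K) : ℝ) ≠ 0 := by
    exact_mod_cast (classNumber_pos _).ne'
  simp only [mul_pow, div_pow, pow_zero, mul_one, one_mul, Nat.cast_mul, Nat.cast_ofNat] at hL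
  rw [Real.sq_sqrt (abs_nonneg _), Real.sq_sqrt (abs_nonneg _), hdK] at hL
  have hR : Units.regulator (maximalRealSubfield K) ≠ 0 := Units.regulator_ne_zero _
  have hk' : (p - 1) / 2 - 1 = k := by omega
  rw [hk']
  generalize ∏ χ ∈ T, ‖∑ a : ZMod p, χ a * (a.val : ℂ)‖ ^ 2 = S at hL ⊢
  generalize |(discr (maximalRealSubfield K) : ℝ)| = D at hL hd ⊢
  generalize Units.regulator (maximalRealSubfield K) = R at hL hR ⊢
  generalize (IsCMField.indexRealUnits K : ℝ) = Q at hL hQ ⊢
  generalize (classNumber (maximalRealSubfield K) : ℝ) = H at hL hh ⊢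
  have hpi := Real.pi_ne_zero
  field_simp at hL
  have h4 : (4 : ℝ) ^ k = (2 : ℝ) ^ k * 2 ^ k := by rw [← mul_pow]; norm_num
  refine mul_left_cancel₀
    (mul_ne_zero (pow_ne_zero (2 * k + 2) hpi) (pow_ne_zero (2 * k + 3) hp0)) ?_
  rw [h4]
  ring_nf at hL ⊢
  linear_combination hL

end FA.Regular
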