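import Fermat.Agent.Regular.Criterion

/-!
# Units congruent to integers when one weight is irregular

If `k` is the only irregular index of `p` and the weight `k` projection `ε` of a cyclotomic unit is no
`p`-th power, every unit congruent to an integer modulo `p` is a power of `ε` times a `p`-th power.
With two irregular indices two such units take the place of `ε`.
-/

set_option autoImplicit false

noncomputable section

open NumberField

namespace FA.Regular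

variable (p : ℕ) [Fact p.Prime] (K : Type*) [Field K] [NumberField K]
  [IsCyclotomicExtension {p} ℚ K]

theorem logDer_pow {j : ℕ} (hj : j + 3 ≤ p) (u : (𝓞 K)ˣ) (n : ℕ) :
    logDer p K j (u ^ n) = n * logDer p K j u := by
  rw [← toAdd_logDerHom p K hj, map_pow, toAdd_pow, nsmul_eq_mul, toAdd_logDerHom]

/-- An eigen unit of weight `k` has no logarithmic derivative in the other weights. -/
theorem logDer_eq_zero_of_eigen {k j : ℕ} (hk : k < p - 1) (hj : j + 3 ≤ p) (hjk : j + 1 ≠ k)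
    {e : (𝓞 K)ˣ} (he : ∀ d : (ZMod p)ˣ, ∃ w : (𝓞 K)ˣ,
      FA.Ext.sigmaU p K d e = e ^ ((d : ZMod p) ^ k).val * w ^ p) : logDer p K j e = 0 := by
  obtain ⟨γ, hγ⟩ := IsCyclic.exists_generator (α := (ZMod p)ˣ)
  obtain ⟨w, hw⟩ := he γ
  have h := congrArg (logDer p K j) hw
  rw [logDer_sigmaU p K hj, logDer_mul p K hj, logDer_pow p K hj, logDer_pow p K hj,
    ZMod.natCast_self, zero_mul, add_zero, ZMod.natCast_zmod_val] at h
  refine (mul_eq_mul_right_iff.mp h).resolve_left fun h' => hjk ?_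
  have hord : orderOf γ = p - 1 := by
    rw [orderOf_eq_card_of_forall_mem_zpowers hγ, Nat.card_eq_fintype_card, ZMod.card_units p]
  refine pow_injOn_Iio_orderOf (x := γ) ?_ ?_ (Units.ext (by simpa using h')) <;>
    simp only [Set.mem_Iio, hord] <;> omega

/-- The projection of an eigen unit of weight `k`. -/
theorem unitProj_eigen {k : ℕ} {e : (𝓞 K)ˣ} (he : ∀ d : (ZMod p)ˣ, ∃ w : (𝓞 K)ˣ,
      FA.Ext.sigmaU p K d e = e ^ ((d : ZMod p) ^ k).val * w ^ p) :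
    ∃ w : (𝓞 K)ˣ, unitProj p K k e = e ^ (p - 1) * w ^ p := by
  have h : ∀ d : (ZMod p)ˣ, ∃ w : (𝓞 K)ˣ,
      FA.Ext.sigmaU p K d⁻¹ e ^ ((d : ZMod p) ^ k).val = e * w ^ p := by
    intro d
    obtain ⟨w, hw⟩ := he d⁻¹
    obtain ⟨v, hv⟩ := FA.Ext.eq_pow_mul_pow_of_cast_eq p e
      (a := (((d⁻¹ : (ZMod p)ˣ) : ZMod p) ^ k).val * ((d : ZMod p) ^ k).val) (b := 1)
      (by rw [Nat.cast_mul, Nat.cast_one, ZMod.natCast_zmod_val, ZMod.natCast_zmod_val, ← mul_pow, Units.inv_mul, one_pow])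
    refine ⟨v * w ^ ((d : ZMod p) ^ k).val, ?_⟩
    rw [hw, mul_pow, mul_pow v, ← pow_mul, hv, pow_one, ← pow_mul, ← pow_mul, mul_comm p, mul_assoc]
  choose w hw using h
  refine ⟨∏ d, w d, ?_⟩
  rw [unitProj_apply, Finset.prod_congr rfl fun d _ => hw d, Finset.prod_mul_distrib,
    Finset.prod_const, Finset.card_univ, ZMod.card_units p, Finset.prod_pow]

/-- A projected cyclotomic unit which is no `p`-th power is no root of unity times one. -/
theorem ne_torsion_mul_pow_of_not_pow (h5 : 5 ≤ p) {k : ℕ} (hk2 : 2 ≤ k) (hk : k ≤ p - 3)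
    {a : ℕ} (ha : (a : ZMod p) ≠ 0)
    (hε : ∀ y : K, y ^ p ≠ ((unitProj p K k (cycU p K ha) : 𝓞 K) : K)) (t w : (𝓞 K)ˣ)
    (ht : t ∈ Units.torsion K) : unitProj p K k (cycU p K ha) ≠ t * w ^ p := by
  intro he
  have h0 := logDer_eq_zero_of_eigen p K (j := 0) (show k < p - 1 by omega) (by omega) (by omega)
    fun d => sigmaU_unitProj p K k d (cycU p K ha)
  rw [he, logDer_mul p K (by omega), logDer_pow p K (by omega), ZMod.natCast_self, zero_mul,
    add_zero] at h0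
  obtain ⟨v, rfl⟩ := torsion_eq_pow p K h5 ht h0
  refine hε (((v * w : (𝓞 K)ˣ) : 𝓞 K) : K) ?_
  rw [← map_pow, ← Units.val_pow_eq_pow_val, mul_pow, ← he]

/-- The projection to another weight of an eigen unit is a `p`-th power up to roots of unity. -/
theorem unitProj_eigen_of_ne {k i : ℕ} (hk : k < p - 1) (hi : i < p - 1) (hik : i ≠ k) {e : (𝓞 K)ˣ}
    (he : ∀ d : (ZMod p)ˣ, ∃ w : (𝓞 K)ˣ,
      FA.Ext.sigmaU p K d e = e ^ ((d : ZMod p) ^ k).val * w ^ p) :
    unitProj p K i e ∈ rootTimesPow p K := by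
  have hp : p.Prime := Fact.out
  obtain ⟨γ, hγ⟩ := IsCyclic.exists_generator (α := (ZMod p)ˣ)
  obtain ⟨w, hw⟩ := sigmaU_unitProj p K i γ e
  obtain ⟨v, hv⟩ := he γ
  rw [sigmaU_unitProj_comm, hv, map_mul, map_pow, map_pow] at hw
  set x := unitProj p K i e
  set a := ((γ : ZMod p) ^ i).val
  set b := ((γ : ZMod p) ^ k).val
  refine pow_mem_rootTimesPow_iff p K (n := a + (p - 1) * b) (fun h => hik ?_)
    ((mem_rootTimesPow p K).mpr ⟨1, one_mem _, x ^ b * unitProj p K i v * w⁻¹, ?_⟩)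
  · rw [← ZMod.natCast_eq_zero_iff, Nat.cast_add, Nat.cast_mul, Nat.cast_sub hp.one_le,
      ZMod.natCast_self, zero_sub, Nat.cast_one, neg_one_mul, ZMod.natCast_zmod_val,
      ZMod.natCast_zmod_val, ← sub_eq_add_neg, sub_eq_zero] at h
    have hord : orderOf γ = p - 1 := by
      rw [orderOf_eq_card_of_forall_mem_zpowers hγ, Nat.card_eq_fintype_card, ZMod.card_units p]
    refine pow_injOn_Iio_orderOf (x := γ) ?_ ?_ (Units.ext (by simpa using h)) <;>
      simp only [Set.mem_Iio, hord] <;> omega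
  · have hxa : x ^ a = x ^ b * unitProj p K i v ^ p * (w ^ p)⁻¹ := eq_mul_inv_of_mul_eq hw.symm
    rw [one_mul, pow_add, hxa, mul_pow, mul_pow, inv_pow, ← pow_mul x b p,
      show b * p = b + (p - 1) * b by
        rw [add_comm, ← Nat.succ_mul, Nat.succ_eq_add_one, Nat.sub_add_cancel hp.one_le, mul_comm],
      pow_add]
    simp only [mul_comm, mul_left_comm, mul_assoc]

/-- A power of an eigen unit of weight `k` which is no root of unity times a `p`-th power kills the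
weight `k` part of any unit. -/
theorem exists_unitProj_mul_pow_mem {k : ℕ} {ε : (𝓞 K)ˣ}
    (hεeig : ∀ d : (ZMod p)ˣ, ∃ w : (𝓞 K)ˣ,
      FA.Ext.sigmaU p K d ε = ε ^ ((d : ZMod p) ^ k).val * w ^ p)
    (hεT : ∀ t w : (𝓞 K)ˣ, t ∈ Units.torsion K → ε ≠ t * w ^ p) (u : (𝓞 K)ˣ) :
    ∃ c : ℕ, unitProj p K k (u * ε ^ c) ∈ rootTimesPow p K := by
  have hp : p.Prime := Fact.out
  obtain ⟨γ, hγ⟩ := IsCyclic.exists_generator (α := (ZMod p)ˣ)
  obtain ⟨c, t, w, ht, huc⟩ := FA.Ext.exists_eq_torsion_mul_pow K p hγ ((γ : ZMod p) ^ k).val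
    (sigmaU_unitProj p K k γ u) (hεeig γ) hεT
  obtain ⟨w₁, hw₁⟩ := unitProj_eigen p K hεeig
  refine ⟨c, ?_⟩
  rw [map_mul, map_pow, huc, hw₁]
  refine (mem_rootTimesPow p K).mpr ⟨t, ht, ε ^ c * w * w₁ ^ c, ?_⟩
  rw [mul_pow, mul_pow, mul_pow (ε ^ (p - 1)), pow_right_comm w₁ c p, ← pow_mul ε c,
    ← pow_mul ε (p - 1), show c * p = c + (p - 1) * c by
      rw [add_comm, ← Nat.succ_mul, Nat.succ_eq_add_one, Nat.sub_add_cancel hp.one_le, mul_comm],
    pow_add]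
  simp only [mul_comm, mul_left_comm, mul_assoc]

/-- A unit congruent to an integer is a power of `ε` times a `p`-th power. -/
theorem exists_eq_pow_mul_pow_of_congr (h5 : 5 ≤ p) {k : ℕ} (hkev : Even k) (hk2 : 2 ≤ k)
    (hk : k ≤ p - 3) (hreg : ∀ i, Even i → 2 ≤ i → i ≤ p - 3 → i ≠ k → ¬ (p : ℤ) ∣ (bernoulli i).num)
    {a : ℕ} (ha : (a : ZMod p) ≠ 0)
    (hε : ∀ y : K, y ^ p ≠ ((unitProj p K k (cycU p K ha) : 𝓞 K) : K))
    {u : (𝓞 K)ˣ} {n : ℤ} (hn : (p : 𝓞 K) ∣ (u : 𝓞 K) - (n : 𝓞 K)) :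
    ∃ (x : ℕ) (v : (𝓞 K)ˣ), u = unitProj p K k (cycU p K ha) ^ x * v ^ p := by
  have hp : p.Prime := Fact.out
  have hpodd := hp.eq_two_or_odd
  set ε := unitProj p K k (cycU p K ha) with hεdef
  have hεeig : ∀ d : (ZMod p)ˣ, ∃ w : (𝓞 K)ˣ,
      FA.Ext.sigmaU p K d ε = ε ^ ((d : ZMod p) ^ k).val * w ^ p :=
    fun d => sigmaU_unitProj p K k d (cycU p K ha)
  have hL : ∀ j, j + 3 ≤ p → j + 1 ≠ k → logDer p K j ε = 0 := fun j hj hjk =>
    logDer_eq_zero_of_eigen p K (by omega) hj hjk hεeig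
  have hεT := ne_torsion_mul_pow_of_not_pow p K h5 hk2 hk ha hε
  obtain ⟨c, hc⟩ := exists_unitProj_mul_pow_mem p K hεeig hεT u
  have hlog : ∀ j, j + 3 ≤ p → j + 1 ≠ k → logDer p K j (u * ε ^ c) = 0 := by
    intro j hj hjk
    rw [logDer_mul p K hj, logDer_eq_zero_of_congr_int p K hj u hn, logDer_pow p K hj, hL j hj hjk,
      mul_zero, add_zero]
  obtain ⟨v, hv⟩ : ∃ v, v ^ p = u * ε ^ c := by
    refine exists_pow_of_even_proj p K h5 (hlog 0 (by omega) (by omega)) fun i hev h2 hi => ?_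
    rcases eq_or_ne i k with hik | hik
    · exact hik ▸ hc
    · rw [Nat.even_iff] at hev hkev
      obtain ⟨j, rfl⟩ : ∃ j, i = j + 2 := ⟨i - 2, by omega⟩
      exact unitProj_mem_of_logDer p K h5 (by omega) (Nat.even_iff.mpr (by omega))
        (hreg _ (Nat.even_iff.mpr hev) (by omega) (by omega) hik) (hlog _ (by omega) (by omega))
  refine ⟨(p - 1) * c, v * (ε ^ c)⁻¹, ?_⟩
  rw [mul_pow, hv, inv_pow, ← pow_mul, eq_comm, ← mul_assoc, mul_inv_eq_iff_eq_mul,
    show c * p = (p - 1) * c + c by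
      rw [← Nat.succ_mul, Nat.succ_eq_add_one, Nat.sub_add_cancel hp.one_le, mul_comm], pow_add]
  ac_rfl

/-- With two irregular weights a unit congruent to an integer is a product of powers of the two
projected units and a `p`-th power. -/
theorem exists_eq_pow_mul_pow_mul_pow_of_congr (h5 : 5 ≤ p) {k l : ℕ} (hkev : Even k) (hk2 : 2 ≤ k)
    (hk : k ≤ p - 3) (hlev : Even l) (hl2 : 2 ≤ l) (hl : l ≤ p - 3) (hkl : k ≠ l)
    (hreg : ∀ i, Even i → 2 ≤ i → i ≤ p - 3 → i ≠ k → i ≠ l → ¬ (p : ℤ) ∣ (bernoulli i).num)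
    {a : ℕ} (ha : (a : ZMod p) ≠ 0)
    (hε : ∀ y : K, y ^ p ≠ ((unitProj p K k (cycU p K ha) : 𝓞 K) : K))
    (hδ : ∀ y : K, y ^ p ≠ ((unitProj p K l (cycU p K ha) : 𝓞 K) : K))
    {u : (𝓞 K)ˣ} {n : ℤ} (hn : (p : 𝓞 K) ∣ (u : 𝓞 K) - (n : 𝓞 K)) :
    ∃ (x y : ℕ) (v : (𝓞 K)ˣ),
      u = unitProj p K k (cycU p K ha) ^ x * unitProj p K l (cycU p K ha) ^ y * v ^ p := by
  have hp : p.Prime := Fact.out
  have hpodd := hp.eq_two_or_odd
  set ε := unitProj p K k (cycU p K ha) with hεdef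
  set δ := unitProj p K l (cycU p K ha) with hδdef
  have hεeig : ∀ d : (ZMod p)ˣ, ∃ w : (𝓞 K)ˣ,
      FA.Ext.sigmaU p K d ε = ε ^ ((d : ZMod p) ^ k).val * w ^ p :=
    fun d => sigmaU_unitProj p K k d (cycU p K ha)
  have hδeig : ∀ d : (ZMod p)ˣ, ∃ w : (𝓞 K)ˣ,
      FA.Ext.sigmaU p K d δ = δ ^ ((d : ZMod p) ^ l).val * w ^ p :=
    fun d => sigmaU_unitProj p K l d (cycU p K ha)
  obtain ⟨c, hc⟩ :=
    exists_unitProj_mul_pow_mem p K hεeig (ne_torsion_mul_pow_of_not_pow p K h5 hk2 hk ha hε) u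
  obtain ⟨d, hd⟩ := exists_unitProj_mul_pow_mem p K hδeig
    (ne_torsion_mul_pow_of_not_pow p K h5 hl2 hl ha hδ) (u * ε ^ c)
  have hlog : ∀ j, j + 3 ≤ p → j + 1 ≠ k → j + 1 ≠ l → logDer p K j (u * ε ^ c * δ ^ d) = 0 := by
    intro j hj hjk hjl
    rw [logDer_mul p K hj, logDer_mul p K hj, logDer_eq_zero_of_congr_int p K hj u hn,
      logDer_pow p K hj, logDer_pow p K hj, logDer_eq_zero_of_eigen p K (by omega) hj hjk hεeig,
      logDer_eq_zero_of_eigen p K (by omega) hj hjl hδeig, mul_zero, mul_zero, add_zero, add_zero]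
  obtain ⟨v, hv⟩ : ∃ v, v ^ p = u * ε ^ c * δ ^ d := by
    refine exists_pow_of_even_proj p K h5 (hlog 0 (by omega) (by omega) (by omega)) fun i hev h2 hi => ?_
    rcases eq_or_ne i l with hil | hil
    · exact hil ▸ hd
    rcases eq_or_ne i k with hik | hik
    · rw [map_mul, hik]
      exact mul_mem hc (by
        rw [map_pow]
        exact pow_mem (unitProj_eigen_of_ne p K (by omega) (by omega) hkl hδeig) d)
    · rw [Nat.even_iff] at hev hkev hlev
      obtain ⟨j, rfl⟩ : ∃ j, i = j + 2 := ⟨i - 2, by omega⟩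
      exact unitProj_mem_of_logDer p K h5 (by omega) (Nat.even_iff.mpr (by omega))
        (hreg _ (Nat.even_iff.mpr hev) (by omega) (by omega) hik hil)
        (hlog _ (by omega) (by omega) (by omega))
  refine ⟨(p - 1) * c, (p - 1) * d, v * (ε ^ c)⁻¹ * (δ ^ d)⁻¹, ?_⟩
  rw [mul_pow, mul_pow, hv, inv_pow, inv_pow, ← pow_mul, ← pow_mul, eq_comm, ← mul_assoc,
    mul_inv_eq_iff_eq_mul, ← mul_assoc, mul_inv_eq_iff_eq_mul,
    show ∀ m, m * p = (p - 1) * m + m from fun m => by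
      rw [← Nat.succ_mul, Nat.succ_eq_add_one, Nat.sub_add_cancel hp.one_le, mul_comm],
    show ∀ m, m * p = (p - 1) * m + m from fun m => by
      rw [← Nat.succ_mul, Nat.succ_eq_add_one, Nat.sub_add_cancel hp.one_le, mul_comm],
    pow_add, pow_add]
  ac_rfl

end FA.Regular
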