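import Fermat.Agent.Regular.Units

/-!
The ring of integers of `ℚ(ζ_p)`: Kummer data, generators of units modulo `p`-th powers and a
computable criterion to be a principal ideal domain.
-/

set_option autoImplicit false
set_option linter.unusedSectionVars false

namespace FA.Regular

open Finset NumberField

variable {K : Type*} [Field K] [NumberField K] {p : ℕ} [hp : Fact p.Prime]
  [IsCyclotomicExtension {p} ℚ K] {ζ : K}

theorem cycloRing_ringOfIntegers (h3 : 3 ≤ p) (hζ : IsPrimitiveRoot ζ p) :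
    CycloRing (𝓞 K) p hζ.toInteger where
  prim := hζ.toInteger_isPrimitiveRoot
  lam_prime := hζ.zeta_sub_one_prime'
  assoc := IsCyclotomicExtension.Rat.associated_zeta_sub_one_pow_prime p hζ
  int_dvd n h := (IsCyclotomicExtension.Rat.zeta_sub_one_dvd_intCast_iff' p hζ).1 h
  residue x := by
    set J := Ideal.span {hζ.toInteger - 1}
    have hcard : Nat.card (𝓞 K ⧸ J) = p := by
      rw [hζ.card_quotient_toInteger_sub_one,
        hζ.norm_toInteger_sub_one_of_prime_ne_two' (by omega)]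
      simp
    have h1 : (1 : 𝓞 K ⧸ J) ≠ 0 := by
      rw [ne_eq, ← map_one (Ideal.Quotient.mk J), Ideal.Quotient.eq_zero_iff_mem,
        Ideal.mem_span_singleton]
      exact fun h => hζ.zeta_sub_one_prime'.not_isUnit (isUnit_of_dvd_one h)
    obtain ⟨n, hn⟩ :=
      AddSubgroup.mem_zmultiples_iff.1 (mem_zmultiples_of_prime_card hcard h1
        (g' := Ideal.Quotient.mk J x))
    refine ⟨n, ?_⟩
    rw [← Ideal.mem_span_singleton, ← Ideal.Quotient.eq_zero_iff_mem, map_sub, map_intCast, ← hn,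
      zsmul_one, sub_self]

theorem exists_gen_mod_pth_powers (h3 : 3 ≤ p) (hζ : IsPrimitiveRoot ζ p) :
    ∃ (ι : Type) (_ : Fintype ι) (g : ι → (𝓞 K)ˣ), Fintype.card ι = (p - 1) / 2 ∧
      ∀ u : (𝓞 K)ˣ, ∃ (e : ι → ℤ) (v : (𝓞 K)ˣ), u = (∏ i, g i ^ e i) * v ^ p := by
  classical
  have hodd : Odd p := hp.out.odd_of_ne_two (by omega)
  obtain ⟨z, hz⟩ := hζ.toInteger_isPrimitiveRoot.isUnit hp.out.ne_zero
  refine ⟨Option (Fin (Units.rank K)), inferInstance,
    fun o => o.elim z (Units.fundSystem K), ?_, ?_⟩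
  · rw [Fintype.card_option, Fintype.card_fin, Units.rank, Nat.sub_add_cancel Fintype.card_pos,
      InfinitePlace.card_eq_nrRealPlaces_add_nrComplexPlaces,
      IsCyclotomicExtension.Rat.nrRealPlaces_eq_zero (n := p) K (by omega),
      IsCyclotomicExtension.Rat.nrComplexPlaces_eq_totient_div_two (n := p) K, zero_add,
      Nat.totient_prime hp.out]
  · intro u
    obtain ⟨⟨⟨x, hx⟩, e⟩, rfl, -⟩ := Units.exist_unique_eq_mul_prod K u
    have hfin : IsOfFinOrder ((x : 𝓞 K) : K) :=
      ((algebraMap (𝓞 K) K).toMonoidHom.comp (Units.coeHom (𝓞 K))).isOfFinOrder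
        ((CommGroup.mem_torsion _).1 hx)
    obtain ⟨r, -, hr⟩ := hζ.exists_pow_or_neg_mul_pow_of_isOfFinOrder hodd hfin
    have hzK : ((z : 𝓞 K) : K) = ζ := by rw [hz]; rfl
    have hxz : x = z ^ r ∨ x = z ^ r * (-1) ^ p := by
      rcases hr with h | h
      · left
        ext
        simp [h, hzK]
      · right
        ext
        simp [h, hzK, hodd.neg_one_pow]
    rcases hxz with rfl | rfl
    · exact ⟨fun o => o.elim (r : ℤ) e, 1, by simp⟩
    · exact ⟨fun o => o.elim (r : ℤ) e, -1, by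
        simp only [Fintype.prod_option, Option.elim_none, Option.elim_some, zpow_natCast]; ac_rfl⟩

/-- Kummer's property for `ℤ[ζ_p]` from certificates. -/
theorem kummerProp_ringOfIntegers (h3 : 3 ≤ p) (hζ : IsPrimitiveRoot ζ p) (Cs : List UnitCert)
    (hok : Cs.all (UnitCert.ok p) = true) (hnodup : (Cs.map UnitCert.d).Nodup)
    (hlen : (p - 1) / 2 ≤ Cs.length) : KummerProp (𝓞 K) p := by
  obtain ⟨ι, _, g, hcard, hg⟩ := exists_gen_mod_pth_powers h3 hζ
  exact kummerProp_of_certs (cycloRing_ringOfIntegers h3 hζ) Cs hok hnodup g (hcard ▸ hlen) hg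

/-- A certificate that some prime above `q` of residue degree `f` is generated by `α = F(ζ)`. -/
structure PrimeCert where
  /-- The rational prime. -/
  q : ℕ
  /-- The residue degree. -/
  f : ℕ
  /-- The common value of the higher coefficients of the product of the conjugates. -/
  c : ℤ
  /-- The coefficients of the generator. -/
  F : List ℤ

/-- The Boolean test of a prime certificate. -/
def PrimeCert.ok (p : ℕ) (C : PrimeCert) : Bool :=
  decide (0 < C.f) && decide (C.q ^ C.f % p = 1) &&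
    (List.range C.f).all (fun m => decide (m = 0) || decide (C.q ^ m % p ≠ 1)) &&
    decide (normL p C.F (p - 1) = (C.c + ((C.q ^ C.f : ℕ) : ℤ)) :: List.replicate (p - 1 - 1) C.c
      ++ [C.c])

theorem natAbs_norm_eq_of_normL (hζ : IsPrimitiveRoot ζ p) {F : List ℤ} {c : ℤ} {Q : ℕ}
    (h : normL p F (p - 1) = (c + (Q : ℤ)) :: List.replicate (p - 1) c) :
    (Algebra.norm ℤ (evalL hζ.toInteger F)).natAbs = Q ∧
      evalL hζ.toInteger F ∣ (Q : 𝓞 K) := by
  set x := hζ.toInteger with hxdef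
  have hx := hζ.toInteger_isPrimitiveRoot
  have hp1 : 1 < p := hp.out.one_lt
  have hprod : ∏ i ∈ range (p - 1), evalL (x ^ (i + 1)) F = (Q : 𝓞 K) := by
    rw [← evalL_normL hx.pow_eq_one, h, evalL, evalL_replicate]
    have h0 : ∑ i ∈ range p, x ^ i = 0 := hx.geom_sum_eq_zero hp1
    rw [← Nat.sub_add_cancel hp.out.one_le, geom_sum_succ] at h0
    rw [← hxdef] at *
    push_cast
    linear_combination (c : 𝓞 K) * h0
  constructor
  · have hconj : ∀ i ∈ range (p - 1),
        Algebra.norm ℤ (evalL (x ^ (i + 1)) F) = Algebra.norm ℤ (evalL x F) := by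
      intro i hi
      rw [Finset.mem_range] at hi
      have hco : (i + 1).Coprime p :=
        (hp.out.coprime_iff_not_dvd.2 (Nat.not_dvd_of_pos_of_lt (by omega) (by omega))).symm
      obtain ⟨σ, hσ⟩ := (IsCyclotomicExtension.Rat.galEquivZMod p K).surjective
        (ZMod.unitOfCoprime (i + 1) hco)
      have hσζ : σ ζ = ζ ^ (i + 1) := by
        rw [IsCyclotomicExtension.Rat.galEquivZMod_apply_of_pow_eq p K σ hζ.pow_eq_one, hσ]
        simp only [ZMod.coe_unitOfCoprime, ZMod.val_natCast]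
        rw [Nat.mod_eq_of_lt (by omega)]
      have hco' : ∀ y : 𝓞 K,
          ((evalL y F : 𝓞 K) : K) = evalL (y : K) F := fun y => map_evalL (algebraMap (𝓞 K) K) y F
      have h1 : ((evalL (x ^ (i + 1)) F : 𝓞 K) : K) = σ ((evalL x F : 𝓞 K) : K) := by
        rw [hco', hco', ← RingHom.coe_coe σ, map_evalL]
        congr 1
        push_cast
        exact hσζ.symm
      apply Int.cast_injective (α := ℚ)
      rw [Algebra.coe_norm_int, Algebra.coe_norm_int, h1, Algebra.norm_eq_of_algEquiv σ]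
    have hN := congrArg (Algebra.norm ℤ) hprod
    rw [map_prod, Finset.prod_congr rfl hconj, Finset.prod_const, Finset.card_range,
      ← map_natCast (algebraMap ℤ (𝓞 K)) Q, Algebra.norm_algebraMap,
      RingOfIntegers.rank, IsCyclotomicExtension.Rat.finrank p K, Nat.totient_prime hp.out] at hN
    have := congrArg Int.natAbs hN
    rw [Int.natAbs_pow, Int.natAbs_pow, Int.natAbs_natCast] at this
    exact Nat.pow_left_injective (by omega) this
  · rw [← hprod]
    have : (0 : ℕ) ∈ range (p - 1) := by simp only [Finset.mem_range]; omega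
    have h := Finset.dvd_prod_of_mem (fun i => evalL (x ^ (i + 1)) F) this
    beta_reduce at h
    rwa [zero_add, pow_one] at h

theorem exists_principal_of_primeCert (hζ : IsPrimitiveRoot ζ p) (C : PrimeCert)
    (hq : C.q.Prime) (hqp : C.q ≠ p) (h : C.ok p = true) :
    ∃ P ∈ Ideal.primesOver (Ideal.span {(C.q : ℤ)}) (𝓞 K), Submodule.IsPrincipal P := by
  simp only [PrimeCert.ok, Bool.and_eq_true, decide_eq_true_eq, List.all_eq_true,
    Bool.or_eq_true, List.mem_range] at h
  obtain ⟨⟨⟨hf, hqf⟩, hmin⟩, hn⟩ := h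
  have hp3 : 1 < p - 1 ∨ p - 1 = 1 := by have := hp.out.one_lt; omega
  have hn' : normL p C.F (p - 1)
      = (C.c + ((C.q ^ C.f : ℕ) : ℤ)) :: List.replicate (p - 1) C.c := by
    rw [hn, List.cons_append, ← List.replicate_succ', Nat.sub_add_cancel (by omega)]
  obtain ⟨hnorm, hdvd⟩ := natAbs_norm_eq_of_normL hζ hn'
  set α := evalL hζ.toInteger C.F
  have habs : Ideal.absNorm (Ideal.span {α}) = C.q ^ C.f := by
    rw [Ideal.absNorm_span_singleton, hnorm]
  have hne : Ideal.span {α} ≠ ⊤ := by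
    intro h
    rw [h, Ideal.absNorm_top] at habs
    exact absurd habs (Nat.one_lt_pow hf.ne' hq.one_lt).ne
  obtain ⟨P, hPmax, hPle⟩ := Ideal.exists_le_maximal _ hne
  have := Fact.mk hq
  have hqP : ((C.q : ℕ) : 𝓞 K) ∈ P := by
    apply hPmax.isPrime.mem_of_pow_mem C.f
    have := hPle (Ideal.mem_span_singleton.2 hdvd)
    simpa using this
  have hlies : P.LiesOver (Ideal.span {(C.q : ℤ)}) := by
    rw [Ideal.liesOver_iff]
    refine Ideal.IsMaximal.eq_of_le (Int.ideal_span_isMaximal_of_prime C.q)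
      Ideal.IsPrime.ne_top' ?_
    rw [Ideal.span_singleton_le_iff_mem, Ideal.mem_comap, algebraMap_int_eq, map_natCast]
    exact hqP
  refine ⟨P, ⟨hPmax.isPrime, hlies⟩, ?_⟩
  have hord : orderOf (C.q : ZMod p) = C.f := by
    rw [orderOf_eq_iff hf]
    refine ⟨?_, fun m hm hm0 hEq => ?_⟩
    · rw [← Nat.cast_pow, ← Nat.cast_one, ZMod.natCast_eq_natCast_iff', hqf,
        Nat.mod_eq_of_lt hp.out.one_lt]
    · rw [← Nat.cast_pow, ← Nat.cast_one, ZMod.natCast_eq_natCast_iff',
        Nat.mod_eq_of_lt hp.out.one_lt] at hEq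
      rcases hmin m hm with h | h
      · omega
      · exact h hEq
  have hPnorm : Ideal.absNorm P = C.q ^ C.f := by
    rw [← Ideal.pow_inertiaDeg C.q P,
      IsCyclotomicExtension.Rat.inertiaDeg_eq_of_not_dvd C.q K P (m := p)
        (fun h => hqp ((Nat.prime_dvd_prime_iff_eq hq hp.out).1 h)), hord]
  obtain ⟨J, hJ⟩ := Ideal.dvd_iff_le.2 hPle
  have hJ1 : J = ⊤ := by
    rw [← Ideal.absNorm_eq_one_iff]
    have h := congrArg Ideal.absNorm hJ
    rw [map_mul, habs, hPnorm] at h
    exact (Nat.eq_of_mul_eq_mul_left (pow_pos hq.pos _) (by rw [mul_one]; exact h)).symm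
  rw [hJ1, ← Ideal.one_eq_top, mul_one] at hJ
  exact ⟨⟨α, hJ.symm⟩⟩

/-- The Boolean test that the certificates `Cs` cover all primes up to `B` for `ℤ[ζ_p]`. -/
def pidCheck (p B : ℕ) (Cs : List PrimeCert) : Bool :=
  Cs.all (PrimeCert.ok p) && decide (B < 2 ^ 10) &&
    (List.range (B + 1)).all fun q =>
      decide (q < 2) || Cs.any (fun C => decide (C.q = q)) ||
        (List.range q).any (fun d => decide (2 ≤ d) && decide (q % d = 0)) ||
        (List.range 10).all (fun f => decide (f = 0) || decide (B < q ^ f) ||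
          decide (q ^ f % p ≠ 1))

/-- `ℤ[ζ_p]` is a principal ideal domain, from certificates. -/
theorem isPrincipalIdealRing_of_pidCheck (hζ : IsPrimitiveRoot ζ p) (B : ℕ)
    (hB : (4 / Real.pi) ^ InfinitePlace.nrComplexPlaces K *
      (((Module.finrank ℚ K).factorial : ℝ) / (Module.finrank ℚ K : ℝ) ^ (Module.finrank ℚ K) *
        Real.sqrt |((NumberField.discr K : ℤ) : ℝ)|) < (B : ℝ) + 1)
    (Cs : List PrimeCert) (hCs : pidCheck p B Cs = true) :
    IsPrincipalIdealRing (𝓞 K) := by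
  have : IsGalois ℚ K := IsCyclotomicExtension.isGalois {p} ℚ K
  simp only [pidCheck, Bool.and_eq_true, decide_eq_true_eq, List.all_eq_true, Bool.or_eq_true,
    List.any_eq_true, List.mem_range] at hCs
  obtain ⟨⟨hok, hB10⟩, hall⟩ := hCs
  refine
    RingOfIntegers.isPrincipalIdealRing_of_isPrincipal_of_lt_or_isPrincipal_of_mem_primesOver_of_mem_Icc
      ?_
  intro q hq hqprime
  rw [Finset.mem_Icc] at hq
  have hfloor : ⌊(4 / Real.pi) ^ InfinitePlace.nrComplexPlaces K *
      (((Module.finrank ℚ K).factorial : ℝ) / (Module.finrank ℚ K : ℝ) ^ (Module.finrank ℚ K) *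
        Real.sqrt |((NumberField.discr K : ℤ) : ℝ)|)⌋₊ < B + 1 := by
    rw [Nat.floor_lt (by positivity)]
    exact_mod_cast hB
  have hqB : q < B + 1 := lt_of_le_of_lt (by simpa using hq.2) hfloor
  by_cases hqp : q = p
  · subst hqp
    obtain ⟨⟨P, hP1, hP2⟩⟩ := (Ideal.span {(q : ℤ)}).nonempty_primesOver (S := 𝓞 K)
    refine ⟨P, ⟨hP1, hP2⟩, Or.inr ⟨⟨hζ.toInteger - 1, ?_⟩⟩⟩
    rw [IsCyclotomicExtension.Rat.eq_span_zeta_sub_one_of_liesOver' q K hζ P]
  rcases hall q hqB with ((h | ⟨C, hC, rfl⟩) | ⟨d, hd, h2, hd0⟩) | h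
  · exact absurd hqprime.two_le (by omega)
  · obtain ⟨P, hP, hP'⟩ := exists_principal_of_primeCert hζ C hqprime hqp (hok C hC)
    exact ⟨P, hP, Or.inr hP'⟩
  · exact absurd (hqprime.eq_one_or_self_of_dvd d (Nat.dvd_of_mod_eq_zero hd0)) (by omega)
  · have := Fact.mk hqprime
    obtain ⟨⟨P, hP1, hP2⟩⟩ := (Ideal.span {(q : ℤ)}).nonempty_primesOver (S := 𝓞 K)
    refine ⟨P, ⟨hP1, hP2⟩, Or.inl ?_⟩
    refine hfloor.trans_le ?_
    rw [IsCyclotomicExtension.Rat.inertiaDeg_eq_of_not_dvd q K P (m := p)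
        (fun h => hqp ((Nat.prime_dvd_prime_iff_eq hqprime hp.out).1 h))]
    set f := orderOf (q : ZMod p)
    have hf0 : 0 < f := orderOf_pos_iff.2 (isOfFinOrder_iff_isUnit.2 (by
      rw [isUnit_iff_ne_zero, ne_eq, ZMod.natCast_eq_zero_iff]
      exact fun h => hqp ((Nat.prime_dvd_prime_iff_eq hp.out hqprime).1 h).symm))
    have hf1 : q ^ f % p = 1 := by
      have := pow_orderOf_eq_one (q : ZMod p)
      rwa [← Nat.cast_pow, ← Nat.cast_one, ZMod.natCast_eq_natCast_iff',
        Nat.mod_eq_of_lt hp.out.one_lt] at this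
    by_contra hlt
    push Not at hlt
    have hf10 : f < 10 := by
      by_contra hge
      have : 2 ^ 10 ≤ q ^ f :=
        (Nat.pow_le_pow_right (by norm_num) (by omega)).trans (Nat.pow_le_pow_left hqprime.two_le _)
      omega
    rcases h f hf10 with (h | h) | h
    · omega
    · omega
    · exact h hf1

end FA.Regular
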