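import Mathlib

/-!
Sophie Germain's criterion for the first case of Fermat's equation with odd prime exponent.
-/

set_option autoImplicit false

namespace FA.Regular

open Finset

/-- The cofactor of `b + c` in `b ^ p + c ^ p` for odd `p`. -/
def sgCofactor (p : ℕ) (b c : ℤ) : ℤ :=
  ∑ i ∈ range p, b ^ i * (-c) ^ (p - 1 - i)

theorem sgCofactor_mul {p : ℕ} (hp : Odd p) (b c : ℤ) :
    sgCofactor p b c * (b + c) = b ^ p + c ^ p := by
  have h := geom_sum₂_mul b (-c) p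
  rw [hp.neg_pow, sub_neg_eq_add, sub_neg_eq_add] at h
  exact h

theorem sgCofactor_intCast_of_eq_neg {R : Type*} [CommRing R] {p : ℕ} {b c : ℤ}
    (h : (b : R) = -(c : R)) :
    ((sgCofactor p b c : ℤ) : R) = (p : R) * (b : R) ^ (p - 1) := by
  rw [sgCofactor]
  push_cast
  rw [← h]
  exact geom_sum₂_self (b : R) p

theorem isCoprime_sum_cofactor {p : ℕ} [hp : Fact p.Prime] (hodd : Odd p) {a b c : ℤ}
    (hsum : a ^ p + b ^ p + c ^ p = 0) (hbc : IsCoprime b c) (ha : ¬ (p : ℤ) ∣ a) :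
    IsCoprime (b + c) (sgCofactor p b c) := by
  rw [Int.isCoprime_iff_nat_coprime]
  refine Nat.coprime_of_dvd fun l hl h1 h2 => ?_
  have hl' : Prime (l : ℤ) := Nat.prime_iff_prime_int.mp hl
  rw [← Int.natCast_dvd] at h1 h2
  have hb : ((b + c : ℤ) : ZMod l) = 0 := (ZMod.intCast_zmod_eq_zero_iff_dvd _ _).2 h1
  have hs : ((sgCofactor p b c : ℤ) : ZMod l) = 0 := (ZMod.intCast_zmod_eq_zero_iff_dvd _ _).2 h2
  push_cast at hb
  rw [sgCofactor_intCast_of_eq_neg (eq_neg_of_add_eq_zero_left hb)] at hs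
  have := Fact.mk hl
  rcases mul_eq_zero.1 hs with h | h
  · have hlp : l = p := by
      have h' : l ∣ p := (ZMod.natCast_eq_zero_iff p l).1 h
      exact (Nat.prime_dvd_prime_iff_eq hl hp.out).1 h'
    subst hlp
    refine ha (hl'.dvd_of_dvd_pow (n := l) ?_)
    have : a ^ l = -((b + c) * sgCofactor l b c) := by
      rw [mul_comm, sgCofactor_mul hodd]; linear_combination hsum
    rw [this]
    exact (dvd_mul_of_dvd_left h1 _).neg_right
  · have hb0 : (b : ZMod l) = 0 := eq_zero_of_pow_eq_zero h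
    have hc0 : (c : ZMod l) = 0 := by simpa [hb0] using hb
    exact hl'.not_isUnit (hbc.isUnit_of_dvd' ((ZMod.intCast_zmod_eq_zero_iff_dvd _ _).1 hb0)
      ((ZMod.intCast_zmod_eq_zero_iff_dvd _ _).1 hc0))

theorem exists_pow_of_sum {p : ℕ} [hp : Fact p.Prime] (hodd : Odd p) {a b c : ℤ}
    (hsum : a ^ p + b ^ p + c ^ p = 0) (hbc : IsCoprime b c) (ha : ¬ (p : ℤ) ∣ a) :
    ∃ A T : ℤ, b + c = A ^ p ∧ sgCofactor p b c = T ^ p ∧ A ∣ a := by
  have h : (b + c) * sgCofactor p b c = (-a) ^ p := by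
    rw [mul_comm, sgCofactor_mul hodd, hodd.neg_pow]; linear_combination hsum
  have hco := isCoprime_sum_cofactor hodd hsum hbc ha
  obtain ⟨A, hA⟩ := Int.eq_pow_of_mul_eq_pow_odd_left hco hodd h
  obtain ⟨T, hT⟩ := Int.eq_pow_of_mul_eq_pow_odd_right hco hodd h
  refine ⟨A, T, hA, hT, ?_⟩
  have : A ^ p ∣ (-a) ^ p := ⟨sgCofactor p b c, by rw [← hA, h]⟩
  rw [Int.pow_dvd_pow_iff hp.out.ne_zero] at this
  exact dvd_neg.1 this

theorem sophie_germain_aux {p q : ℕ} [hp : Fact p.Prime] [hq : Fact q.Prime] (hodd : Odd p)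
    (h1 : ∀ x y z : ZMod q, x ^ p + y ^ p + z ^ p = 0 → x = 0 ∨ y = 0 ∨ z = 0)
    (h2 : ∀ x : ZMod q, x ^ p ≠ (p : ZMod q))
    {a b c : ℤ} (hsum : a ^ p + b ^ p + c ^ p = 0)
    (hab : IsCoprime a b) (hbc : IsCoprime b c) (hca : IsCoprime c a)
    (ha : ¬ (p : ℤ) ∣ a) (hb : ¬ (p : ℤ) ∣ b) (hc : ¬ (p : ℤ) ∣ c)
    (hqa : (a : ZMod q) = 0) : False := by
  obtain ⟨A, T, hA, hT, -⟩ := exists_pow_of_sum hodd hsum hbc ha
  obtain ⟨B, -, hB, -, hBb⟩ :=
    exists_pow_of_sum (a := b) (b := c) (c := a) hodd (by linear_combination hsum) hca hb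
  obtain ⟨C, -, hC, -, hCc⟩ :=
    exists_pow_of_sum (a := c) (b := a) (c := b) hodd (by linear_combination hsum) hab hc
  have hqP : Prime (q : ℤ) := Nat.prime_iff_prime_int.mp hq.out
  have hb0 : (b : ZMod q) ≠ 0 := fun h => hqP.not_isUnit
    (hab.isUnit_of_dvd' ((ZMod.intCast_zmod_eq_zero_iff_dvd _ _).1 hqa)
      ((ZMod.intCast_zmod_eq_zero_iff_dvd _ _).1 h))
  have hc0 : (c : ZMod q) ≠ 0 := fun h => hqP.not_isUnit
    (hca.isUnit_of_dvd' ((ZMod.intCast_zmod_eq_zero_iff_dvd _ _).1 h)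
      ((ZMod.intCast_zmod_eq_zero_iff_dvd _ _).1 hqa))
  have hA' := congrArg (fun n : ℤ => (n : ZMod q)) hA
  have hB' := congrArg (fun n : ℤ => (n : ZMod q)) hB
  have hC' := congrArg (fun n : ℤ => (n : ZMod q)) hC
  push_cast at hA' hB' hC'
  have hBq : (B : ZMod q) ≠ 0 := by
    obtain ⟨k, hk⟩ := hBb
    intro h
    exact hb0 (by rw [hk]; simp [h])
  have hCq : (C : ZMod q) ≠ 0 := by
    obtain ⟨k, hk⟩ := hCc
    intro h
    exact hc0 (by rw [hk]; simp [h])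
  have hAq : (A : ZMod q) = 0 := by
    rcases h1 (-(A : ZMod q)) (B : ZMod q) (C : ZMod q) (by
      rw [hodd.neg_pow, ← hA', ← hB', ← hC', hqa]; ring) with h | h | h
    · exact neg_eq_zero.1 h
    · exact absurd h hBq
    · exact absurd h hCq
  have hbneg : (b : ZMod q) = -(c : ZMod q) := by
    rw [hAq, zero_pow hp.out.ne_zero] at hA'
    exact eq_neg_of_add_eq_zero_left hA'
  have hT' : ((sgCofactor p b c : ℤ) : ZMod q) = (T : ZMod q) ^ p := by
    rw [hT]; push_cast; rfl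
  rw [sgCofactor_intCast_of_eq_neg hbneg] at hT'
  have hbC : (b : ZMod q) = (C : ZMod q) ^ p := by rw [← hC', hqa, zero_add]
  refine h2 ((T : ZMod q) * ((C : ZMod q) ^ (p - 1))⁻¹) ?_
  rw [mul_pow, ← hT', hbC, inv_pow, ← pow_mul, ← pow_mul, mul_comm (p - 1) p]
  rw [mul_inv_cancel_right₀]
  exact pow_ne_zero _ hCq

/-- **Sophie Germain's theorem**: the first case has no solutions if an auxiliary prime exists. -/
theorem sophie_germain {p q : ℕ} [hp : Fact p.Prime] [hq : Fact q.Prime] (hodd : Odd p)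
    (h1 : ∀ x y z : ZMod q, x ^ p + y ^ p + z ^ p = 0 → x = 0 ∨ y = 0 ∨ z = 0)
    (h2 : ∀ x : ZMod q, x ^ p ≠ (p : ZMod q))
    {a b c : ℤ} (hsum : a ^ p + b ^ p + c ^ p = 0)
    (hab : IsCoprime a b) (hbc : IsCoprime b c) (hca : IsCoprime c a)
    (ha : ¬ (p : ℤ) ∣ a) (hb : ¬ (p : ℤ) ∣ b) (hc : ¬ (p : ℤ) ∣ c) : False := by
  have h := congrArg (fun n : ℤ => (n : ZMod q)) hsum
  push_cast at h
  rcases h1 _ _ _ h with h | h | h
  · exact sophie_germain_aux hodd h1 h2 hsum hab hbc hca ha hb hc h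
  · exact sophie_germain_aux hodd h1 h2 (a := b) (b := c) (c := a)
      (by linear_combination hsum) hbc hca hab hb hc ha h
  · exact sophie_germain_aux hodd h1 h2 (a := c) (b := a) (c := b)
      (by linear_combination hsum) hca hab hbc hc ha hb h

end FA.Regular
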