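import Fermat.Agent.ExtVanish.Herbrand
import Fermat.Agent.Regular.Cyclotomic

/-!
# Kummer's first case from the triviality of the minus part

If `p ≥ 5` divides no numerator of `B_k`, `k` even `≤ p - 3`, then `(x^p + y^p)/(x + y)` is not a `p`-th
power for coprime `x`, `y` with `p ∤ x y (x² - y²)`, so the first case of Fermat's equation has no
solutions.  The proof is Kummer's, from Herbrand's theorem; modularity is not used.
-/

set_option autoImplicit false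

noncomputable section

open NumberField IsDedekindDomain
open scoped Classical nonZeroDivisors

namespace FA.Regular

variable {p : ℕ} [Fact p.Prime] {K : Type*} [Field K] [NumberField K]
  [IsCyclotomicExtension {p} ℚ K]

/-- `σ₋₁` is complex conjugation in every embedding. -/
theorem embedding_sigmaK_neg_one (φ : K →+* ℂ) (w : K) :
    φ (FA.Ext.sigmaK p K (-1) w) = (starRingEnd ℂ) (φ w) := by
  have hp : p.Prime := Fact.out
  have : NeZero p := ⟨hp.ne_zero⟩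
  have hζ := IsCyclotomicExtension.zeta_spec p ℚ K
  set ζ := IsCyclotomicExtension.zeta p ℚ K
  suffices (φ.comp (FA.Ext.sigmaK p K (-1)).toRingEquiv.toRingHom).toRatAlgHom =
      ((starRingEnd ℂ).comp φ).toRatAlgHom from DFunLike.congr_fun this w
  refine (hζ.powerBasis ℚ).algHom_ext ?_
  rw [IsPrimitiveRoot.powerBasis_gen]
  show φ (FA.Ext.sigmaK p K (-1) ζ) = (starRingEnd ℂ) (φ ζ)
  have hroot : (φ ζ) ^ p = 1 := by rw [← map_pow, hζ.pow_eq_one, map_one]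
  rw [IsCyclotomicExtension.Rat.galEquivZMod_apply_of_pow_eq p K _ hζ.pow_eq_one,
    show IsCyclotomicExtension.Rat.galEquivZMod p K (FA.Ext.sigmaK p K (-1)) = -1 from
      MulEquiv.apply_symm_apply _ _,
    map_pow, Units.val_neg, Units.val_one, ← Complex.inv_eq_conj
      (Complex.norm_eq_one_of_pow_eq_one hroot hp.ne_zero)]
  refine eq_inv_of_mul_eq_one_left ?_
  obtain ⟨q, rfl⟩ : ∃ q, p = q + 1 := ⟨p - 1, by have := hp.one_le; omega⟩
  rw [ZMod.val_neg_one, ← pow_succ, hroot]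

/-- The quotient of a unit and its conjugate is a root of unity. -/
theorem exists_conj_unit_eq (hp2 : p ≠ 2) (u : (𝓞 K)ˣ) : ∃ (s j : ℕ), j < p ∧
    FA.Ext.sigma p K (-1) (u : 𝓞 K) =
      (-1) ^ s * FA.Ext.zetaInt p K ^ j * (u : 𝓞 K) := by
  have hp : p.Prime := Fact.out
  set t := FA.Ext.sigmaU p K (-1) u * u⁻¹
  have ht : t ∈ NumberField.Units.torsion K := by
    refine (CommGroup.mem_torsion (G := (𝓞 K)ˣ) t).mpr ?_
    have hint : IsIntegral ℤ ((t : 𝓞 K) : K) := RingOfIntegers.isIntegral_coe _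
    obtain ⟨n, hn, h⟩ := NumberField.Embeddings.pow_eq_one_of_norm_eq_one K ℂ hint fun φ => by
      have e : (t : 𝓞 K) * (u : 𝓞 K) = FA.Ext.sigma p K (-1) (u : 𝓞 K) := by
        simp only [t, Units.val_mul, mul_assoc, Units.inv_mul, mul_one, FA.Ext.sigmaU_coe]
      have e' := congrArg (fun w : 𝓞 K => ‖φ (w : K)‖) e
      simp only [map_mul, norm_mul, FA.Ext.sigma_coe, embedding_sigmaK_neg_one,
        Complex.norm_conj] at e'
      have h0 : ‖φ ((u : 𝓞 K) : K)‖ ≠ 0 := norm_ne_zero_iff.mpr fun h =>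
        u.ne_zero (RingOfIntegers.coe_injective ((φ.injective (h.trans (map_zero φ).symm)).trans
          (map_zero (algebraMap (𝓞 K) K)).symm))
      exact mul_right_cancel₀ h0 (e'.trans (one_mul _).symm)
    refine isOfFinOrder_iff_pow_eq_one.mpr ⟨n, hn, Units.ext (RingOfIntegers.coe_injective ?_)⟩
    rw [Units.val_pow_eq_pow_val, Units.val_one, map_pow, map_one, h]
  obtain ⟨r, hr⟩ := FA.Ext.torsion_eq_neg_zeta_pow K p hp2 ht
  refine ⟨r, r % p, Nat.mod_lt _ hp.pos, ?_⟩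
  rw [← pow_eq_pow_mod r (FA.Ext.zetaInt_spec p K).pow_eq_one, ← neg_pow, ← hr]
  simp only [t, Units.val_mul, mul_assoc, Units.inv_mul, mul_one, FA.Ext.sigmaU_coe]

omit [Fact p.Prime] [IsCyclotomicExtension {p} ℚ K] in
/-- The binomial expansion to the third order. -/
theorem exists_binomial_expansion (l : 𝓞 K) (k : ℕ) : ∃ R : 𝓞 K,
    (1 + l) ^ k = 1 + (k : 𝓞 K) * l + (k.choose 2 : 𝓞 K) * l ^ 2 + (k.choose 3 : 𝓞 K) * l ^ 3 +
      l ^ 4 * R := by
  induction k with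
  | zero => exact ⟨0, by simp⟩
  | succ k ih =>
    obtain ⟨R, hR⟩ := ih
    refine ⟨(k.choose 3 : 𝓞 K) + (1 + l) * R, ?_⟩
    rw [pow_succ, hR, Nat.choose_succ_succ k 1, Nat.choose_succ_succ k 2, Nat.choose_one_right]
    push_cast
    ring

/-- Small `ℤ`-combinations of the powers of `ζ - 1`. -/
theorem dvd_coeffs_of_pow_dvd (H : CycloRing (𝓞 K) p (FA.Ext.zetaInt p K)) (h5 : 5 ≤ p)
    {c : ℕ → ℤ}
    (h : (FA.Ext.zetaInt p K - 1) ^ 4 ∣
      ∑ i ∈ Finset.range 4, (c i : 𝓞 K) * (FA.Ext.zetaInt p K - 1) ^ i) :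
    ∀ i < 4, (p : ℤ) ∣ c i := by
  set l := FA.Ext.zetaInt p K - 1
  have hl : l ≠ 0 := H.lam_prime.ne_zero
  have hp4 : ∀ z : ℤ, (p : ℤ) ∣ z → l ^ 4 ∣ (z : 𝓞 K) := by
    rintro z ⟨w, rfl⟩
    rw [Int.cast_mul, Int.cast_natCast]
    exact ((pow_dvd_pow l (by omega)).trans H.assoc.dvd).mul_right _
  intro i
  induction i using Nat.strong_induction_on with
  | _ i ih =>
    intro hi
    refine H.int_dvd _ ?_
    have hrest : l ^ (i + 1) ∣ (c i : 𝓞 K) * l ^ i := by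
      have h1 := (pow_dvd_pow l (show i + 1 ≤ 4 by omega)).trans h
      rw [← Finset.add_sum_erase _ _ (Finset.mem_range.mpr hi)] at h1
      refine (dvd_add_left (Finset.dvd_sum fun m hm => ?_)).mp h1
      obtain ⟨hne, hm⟩ := Finset.mem_erase.mp hm
      rcases lt_or_gt_of_ne hne with hlt | hgt
      · exact ((pow_dvd_pow l (show i + 1 ≤ 4 by omega)).trans
          (hp4 _ (ih m hlt (Finset.mem_range.mp hm)))).mul_right _
      · exact (pow_dvd_pow l hgt).mul_left _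
    rw [pow_succ, mul_comm (c i : 𝓞 K)] at hrest
    exact (mul_dvd_mul_iff_left (pow_ne_zero _ hl)).mp hrest

/-- The congruence at the heart of Kummer's argument is impossible. -/
theorem no_conj_congruence (h5 : 5 ≤ p) {x y : ℤ} (hx : ¬ (p : ℤ) ∣ x) (hy : ¬ (p : ℤ) ∣ y)
    (hs : ¬ (p : ℤ) ∣ x + y) (hd : ¬ (p : ℤ) ∣ x - y) {s : ℤ} (hs1 : s = 1 ∨ s = -1) (k : ℕ)
    (h : (p : 𝓞 K) ∣ ((x : 𝓞 K) + FA.Ext.zetaInt p K * y) ^ 2 -
      (s : 𝓞 K) * FA.Ext.zetaInt p K ^ k * (FA.Ext.zetaInt p K * x + y) ^ 2) : False := by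
  have hp : p.Prime := Fact.out
  have H := cycloRing_ringOfIntegers (K := K) (p := p) (by omega)
    (IsCyclotomicExtension.zeta_spec p ℚ K)
  change CycloRing (𝓞 K) p (FA.Ext.zetaInt p K) at H
  set z := FA.Ext.zetaInt p K
  set l := z - 1
  obtain ⟨R, hR⟩ := exists_binomial_expansion l k
  rw [show (1 + l) = z by simp [l]] at hR
  set S := x + y
  let c : ℕ → ℤ := fun i => if i = 0 then S ^ 2 - s * S ^ 2
    else if i = 1 then 2 * S * y - s * (k * S ^ 2 + 2 * S * x)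
    else if i = 2 then y ^ 2 - s * (k.choose 2 * S ^ 2 + 2 * k * S * x + x ^ 2)
    else -s * (k.choose 3 * S ^ 2 + 2 * k.choose 2 * S * x + k * x ^ 2)
  have hz : z = 1 + l := by simp [l]
  have h4 : l ^ 4 ∣ ∑ i ∈ Finset.range 4, (c i : 𝓞 K) * l ^ i := by
    have h' : l ^ 4 ∣ (((x : 𝓞 K) + z * y) ^ 2 - (s : 𝓞 K) * z ^ k * (z * x + y) ^ 2) :=
      ((pow_dvd_pow l (show 4 ≤ p - 1 by omega)).trans H.assoc.dvd).trans h
    refine (dvd_add_left (c := -((s : 𝓞 K) * (R * ((S : 𝓞 K) + l * x) ^ 2 +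
      (k.choose 2 : 𝓞 K) * (x : 𝓞 K) ^ 2 +
      (k.choose 3 : 𝓞 K) * (2 * (S : 𝓞 K) * x + l * (x : 𝓞 K) ^ 2))) * l ^ 4)
      (dvd_mul_left _ _)).mp ?_
    convert h' using 1
    rw [hR, hz]
    simp only [Finset.sum_range_succ, Finset.sum_range_zero, c, S]
    norm_num
    ring
  have hc := dvd_coeffs_of_pow_dvd H h5 h4
  have key : ∀ i < 4, ((c i : ℤ) : ZMod p) = 0 := fun i hi =>
    (ZMod.intCast_zmod_eq_zero_iff_dvd _ p).mpr (hc i hi)
  have h0 := key 0 (by norm_num)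
  have h1 := key 1 (by norm_num)
  have h3 := key 3 (by norm_num)
  have hX : (x : ZMod p) ≠ 0 := fun e => hx ((ZMod.intCast_zmod_eq_zero_iff_dvd _ p).mp e)
  have hY : (y : ZMod p) ≠ 0 := fun e => hy ((ZMod.intCast_zmod_eq_zero_iff_dvd _ p).mp e)
  have hS : (S : ZMod p) ≠ 0 := fun e => hs ((ZMod.intCast_zmod_eq_zero_iff_dvd _ p).mp e)
  have hD : (x : ZMod p) - y ≠ 0 := fun e =>
    hd ((ZMod.intCast_zmod_eq_zero_iff_dvd _ p).mp (by rw [Int.cast_sub]; exact e))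
  have h2 := FA.Ext.two_ne_zero_of_five_le p h5
  obtain rfl : s = 1 := by
    rcases hs1 with h | h
    · exact h
    · subst h
      simp only [c, if_pos, Int.cast_sub, Int.cast_mul, Int.cast_pow, Int.cast_neg, Int.cast_one] at h0
      exact absurd ((mul_eq_zero.mp (show (2 : ZMod p) * (S : ZMod p) ^ 2 = 0 by
        linear_combination h0)).resolve_left h2) (pow_ne_zero _ hS)
  have hSdef : (S : ZMod p) = (x : ZMod p) + y := by simp [S]
  have e2 : (2 : ZMod p) * (k.choose 2 : ZMod p) = (k : ZMod p) * ((k : ZMod p) - 1) ∧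
      (6 : ZMod p) * (k.choose 3 : ZMod p) =
        (k : ZMod p) * ((k : ZMod p) - 1) * ((k : ZMod p) - 2) := by
    clear h h0 h1 h3 key hc h4 hR c
    induction k with
    | zero => simp
    | succ m ih =>
      rw [Nat.choose_succ_succ m 1, Nat.choose_succ_succ m 2, Nat.choose_one_right]
      push_cast
      constructor
      · linear_combination ih.1
      · linear_combination (3 : ZMod p) * ih.1 + ih.2
  simp only [c, show (1 : ℕ) ≠ 0 by norm_num, show (3 : ℕ) ≠ 0 by norm_num,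
    show (3 : ℕ) ≠ 1 by norm_num, show (3 : ℕ) ≠ 2 by norm_num, if_false, if_true] at h1 h3
  push_cast at h1 h3
  have hk : (k : ZMod p) * (S : ZMod p) = 2 * ((y : ZMod p) - x) := by
    refine mul_left_cancel₀ hS ?_
    linear_combination -h1
  have hk0 : (k : ZMod p) ≠ 0 := fun e => by
    rw [e, zero_mul] at hk
    exact hD (by linear_combination ((mul_eq_zero.mp hk.symm).resolve_left h2) * (-1 : ZMod p))
  have hfin : (k : ZMod p) * ((2 : ZMod p) * x * y) = 0 := by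
    have hb : ((k : ZMod p) * S - S) * ((k : ZMod p) * S - 2 * S) +
        6 * x * ((k : ZMod p) * S - S) + 6 * (x : ZMod p) ^ 2 = 2 * x * y := by
      rw [hk, hSdef]; ring
    rw [← hb]
    linear_combination (-6 : ZMod p) * h3 - (S : ZMod p) ^ 2 * e2.2 -
      6 * (S : ZMod p) * (x : ZMod p) * e2.1
  exact (mul_ne_zero hk0 (mul_ne_zero (mul_ne_zero h2 hX) hY)) hfin

/-- The factors of `(x^p + y^p)/(x + y)` are `p`-th powers of ideals. -/
theorem span_factor_eq_pow (h3 : 3 ≤ p) {x y w : ℤ} (hxy : IsCoprime x y)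
    (hs : ¬ (p : ℤ) ∣ x + y) (heq : x ^ p + y ^ p = (x + y) * w ^ p) {i : ℕ} (hi : i ∈ Finset.Ico 1 p) :
    ∃ I : Ideal (𝓞 K), Ideal.span {(x : 𝓞 K) + FA.Ext.zetaInt p K ^ i * y} = I ^ p := by
  have hp : p.Prime := Fact.out
  have hodd : Odd p := hp.odd_of_ne_two (by omega)
  have H := cycloRing_ringOfIntegers (K := K) (p := p) h3 (IsCyclotomicExtension.zeta_spec p ℚ K)
  change CycloRing (𝓞 K) p (FA.Ext.zetaInt p K) at H
  set z := FA.Ext.zetaInt p K
  have hprod : ∏ i ∈ Finset.range p, ((x : 𝓞 K) + z ^ i * y) = (x : 𝓞 K) ^ p + (y : 𝓞 K) ^ p := by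
    have h := congrArg (Polynomial.eval (x : 𝓞 K))
      (X_pow_sub_C_eq_prod (α := -(y : 𝓞 K)) H.prim hp.pos rfl)
    rw [Polynomial.eval_prod] at h
    simp only [Polynomial.eval_sub, Polynomial.eval_pow, Polynomial.eval_X, Polynomial.eval_C,
      mul_neg, sub_neg_eq_add, hodd.neg_pow] at h
    exact h.symm
  have hne : (x : 𝓞 K) + y ≠ 0 := fun e => hs (by
    rw [← Int.cast_add] at e
    rw [Int.cast_eq_zero.mp e]; exact dvd_zero _)
  have hprod' : ∏ i ∈ Finset.Ico 1 p, ((x : 𝓞 K) + z ^ i * y) = (w : 𝓞 K) ^ p := by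
    refine mul_left_cancel₀ hne ?_
    have hcast := congrArg (Int.cast : ℤ → 𝓞 K) heq
    push_cast at hcast
    rw [Finset.range_eq_Ico, Finset.prod_eq_prod_Ico_succ_bot hp.pos, pow_zero, one_mul] at hprod
    rw [← hcast]
    exact hprod
  have hideal := congrArg (fun t : 𝓞 K => Ideal.span {t}) hprod'
  simp only [← Ideal.prod_span_singleton, ← Ideal.span_singleton_pow] at hideal
  refine Finset.exists_eq_pow_of_mul_eq_pow_of_coprime (fun a ha b hb hab => ?_) hideal i hi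
  rw [Finset.mem_Ico] at ha hb
  rw [Ideal.isCoprime_iff_sup_eq]
  by_contra hne'
  obtain ⟨M, hM, hle⟩ := Ideal.exists_le_maximal _ hne'
  have hA : (x : 𝓞 K) + z ^ a * y ∈ M :=
    hle (Ideal.mem_sup_left (Ideal.mem_span_singleton_self _))
  have hB : (x : 𝓞 K) + z ^ b * y ∈ M :=
    hle (Ideal.mem_sup_right (Ideal.mem_span_singleton_self _))
  have hbez : ∀ u v : ℤ, (u : 𝓞 K) ∈ M → (v : 𝓞 K) ∈ M → ¬ IsCoprime u v := by
    rintro u v hu hv ⟨e, f, hef⟩
    have := M.add_mem (M.mul_mem_left (e : 𝓞 K) hu) (M.mul_mem_left (f : 𝓞 K) hv)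
    rw [← Int.cast_mul, ← Int.cast_mul, ← Int.cast_add, hef, Int.cast_one] at this
    exact hM.ne_top ((Ideal.eq_top_iff_one _).mpr this)
  have hdiff : (z ^ a - z ^ b) * (y : 𝓞 K) ∈ M := by
    have := M.sub_mem hA hB
    rwa [add_sub_add_left_eq_sub, ← sub_mul] at this
  rcases hM.isPrime.mem_or_mem hdiff with h | h
  · have hpM : (p : 𝓞 K) ∈ M := by
      by_contra hpM
      exact hab (FA.Ext.pow_eq_of_sub_mem H.prim hpM ha.2 hb.2 h)
    have hlM : z - 1 ∈ M := by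
      obtain ⟨u, hu⟩ := H.assoc
      rw [← hu] at hpM
      exact hM.isPrime.mem_of_pow_mem _ ((hM.isPrime.mem_or_mem hpM).resolve_right
        fun h' => hM.ne_top (Ideal.eq_top_of_isUnit_mem _ h' u.isUnit))
    have hxy' : ((x + y : ℤ) : 𝓞 K) ∈ M := by
      obtain ⟨t, ht⟩ := sub_one_dvd_pow_sub_one z a
      rw [Int.cast_add, show (x : 𝓞 K) + y = ((x : 𝓞 K) + z ^ a * y) - (z - 1) * (t * y) by
        rw [← mul_assoc, ← ht]; ring]
      exact M.sub_mem hA (M.mul_mem_right _ hlM)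
    exact hbez (p : ℤ) (x + y) (by rwa [Int.cast_natCast]) hxy'
      ((Nat.prime_iff_prime_int.mp hp).coprime_iff_not_dvd.mpr hs)
  · refine hbez x y ?_ h hxy
    rw [show (x : 𝓞 K) = ((x : 𝓞 K) + z ^ a * y) - z ^ a * y by ring]
    exact M.sub_mem hA (M.mul_mem_left _ h)

set_option backward.isDefEq.respectTransparency false in
/-- **Kummer's argument.** -/
theorem cofactor_ne_pow (h5 : 5 ≤ p)
    (hreg : ∀ k, Even k → 2 ≤ k → k ≤ p - 3 → ¬ (p : ℤ) ∣ (bernoulli k).num) {x y w : ℤ}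
    (hxy : IsCoprime x y) (hx : ¬ (p : ℤ) ∣ x) (hy : ¬ (p : ℤ) ∣ y) (hs : ¬ (p : ℤ) ∣ x + y)
    (hd : ¬ (p : ℤ) ∣ x - y) : x ^ p + y ^ p ≠ (x + y) * w ^ p := by
  intro heq
  have hp : p.Prime := Fact.out
  have : NeZero p := ⟨hp.ne_zero⟩
  let K := CyclotomicField p ℚ
  have : IsCyclotomicExtension {p} ℚ K :=
    inferInstanceAs (IsCyclotomicExtension {p} ℚ (CyclotomicField p ℚ))
  have : NumberField K := IsCyclotomicExtension.numberField {p} ℚ K
  have H := cycloRing_ringOfIntegers (K := K) (p := p) (by omega)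
    (IsCyclotomicExtension.zeta_spec p ℚ K)
  change CycloRing (𝓞 K) p (FA.Ext.zetaInt p K) at H
  set z := FA.Ext.zetaInt p K
  set cj := FA.Ext.sigma p K (-1)
  have hzp : z ^ p = 1 := H.prim.pow_eq_one
  have hcz : cj z = z ^ (p - 1) := by
    rw [show cj z = _ from FA.Ext.sigma_zetaInt p K (-1), Units.val_neg, Units.val_one]
    obtain ⟨q, hq⟩ : ∃ q, p = q + 1 := ⟨p - 1, by omega⟩
    subst hq
    rw [ZMod.val_neg_one, Nat.add_sub_cancel]
  have hcc : ∀ a : 𝓞 K, cj (cj a) = a := fun a => by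
    rw [← FA.Ext.sigma_mul_apply, neg_mul_neg, one_mul, FA.Ext.sigma_one_apply]
  set F := (x : 𝓞 K) + z * y
  set G := z * (x : 𝓞 K) + y
  have hcF : cj F = z ^ (p - 1) * G := by
    simp only [F, G, map_add, map_mul, map_intCast, hcz, mul_add, ← mul_assoc]
    rw [← pow_succ, Nat.sub_add_cancel hp.one_le, hzp, one_mul]
  have hF0 : F ≠ 0 := fun e => hs (H.int_dvd _ ⟨-(y : 𝓞 K), by
    push_cast
    linear_combination e⟩)
  obtain ⟨I, hI⟩ := span_factor_eq_pow (K := K) (i := 1) (by omega) hxy hs heq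
    (Finset.mem_Ico.mpr ⟨le_rfl, hp.one_lt⟩)
  rw [pow_one] at hI
  change Ideal.span {F} = I ^ p at hI
  have hI0 : I ≠ ⊥ := fun e => hF0 (by
    rw [e] at hI
    exact Ideal.span_singleton_eq_bot.mp (hI.trans (zero_pow hp.ne_zero)))
  let I₀ : (Ideal (𝓞 K))⁰ := ⟨I, mem_nonZeroDivisors_iff_ne_zero.mpr hI0⟩
  let J₀ : (Ideal (𝓞 K))⁰ := ⟨I.map (cj : 𝓞 K →+* 𝓞 K), mem_nonZeroDivisors_iff_ne_zero.mpr
    fun e => hI0 ((Ideal.map_eq_bot_iff_of_injective cj.injective).mp e)⟩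
  set C := ClassGroup.mk0 I₀
  set D := ClassGroup.mk0 J₀
  have hCD : FA.Ext.sigmaCl p K (-1) C = D := FA.Ext.sigmaCl_mk0 p K (-1) I₀ J₀ rfl
  have hDC : FA.Ext.sigmaCl p K (-1) D = C := by
    rw [← hCD, ← FA.Ext.sigmaCl_mul, neg_mul_neg, one_mul]
    show ClassGroup.mulEquiv (FA.Ext.sigma p K 1) C = C
    rw [map_one]
    exact ClassGroup.mulEquiv_refl_apply C
  have hCp : C ^ p = 1 := by
    rw [← map_pow]
    exact (ClassGroup.mk0_eq_one_iff _).mpr ⟨⟨F, hI.symm⟩⟩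
  have hDp : D ^ p = 1 := by rw [← hCD, ← map_pow, hCp, map_one]
  have htriv : C * D⁻¹ = 1 := FA.Ext.minus_torsion_trivial p K h5 hreg
    (by rw [mul_pow, inv_pow, hCp, hDp, inv_one, one_mul])
    (by rw [map_mul, map_inv, hCD, hDC, mul_inv_rev, inv_inv])
  obtain ⟨a, b, ha, hb, hab⟩ := ClassGroup.mk0_eq_mk0_iff.mp (mul_inv_eq_one.mp htriv)
  have hpow : Ideal.span {a ^ p * F} = Ideal.span {b ^ p * cj F} := by
    have h := congrArg (fun T : Ideal (𝓞 K) => T ^ p) hab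
    simp only [mul_pow, Ideal.span_singleton_pow] at h
    rw [← Ideal.span_singleton_mul_span_singleton, ← Ideal.span_singleton_mul_span_singleton, hI,
      show Ideal.span {cj F} = (I.map (cj : 𝓞 K →+* 𝓞 K)) ^ p by
        rw [← Ideal.map_pow, ← hI, Ideal.map_span, Set.image_singleton]; rfl]
    exact h
  obtain ⟨u, hu⟩ := Ideal.span_singleton_eq_span_singleton.mp hpow
  obtain ⟨s, j, -, hu'⟩ := exists_conj_unit_eq (K := K) (p := p) (by omega) u
  change cj (u : 𝓞 K) = _ at hu'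
  have hu2 := congrArg cj hu
  simp only [map_mul, map_pow, hcc] at hu2
  set A := a * cj b with hA
  have hA0 : A ≠ 0 := mul_ne_zero ha fun e => hb (cj.injective (e.trans (map_zero cj).symm))
  have hmain : A ^ p * F ^ 2 = (-1) ^ s * z ^ j * (cj A) ^ p * (cj F) ^ 2 := by
    refine mul_right_cancel₀ u.ne_zero ?_
    rw [hA, map_mul, hcc, mul_pow, mul_pow]
    calc a ^ p * (cj b) ^ p * F ^ 2 * (u : 𝓞 K) = (a ^ p * F * u) * ((cj b) ^ p * F) := by ring
      _ = (b ^ p * cj F) * ((cj a) ^ p * cj F * cj (u : 𝓞 K)) := by rw [hu, hu2]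
      _ = _ := by rw [hu']; ring
  obtain ⟨m, A', hA', hAA'⟩ := WfDvdMonoid.max_power_factor hA0 H.lam_prime.irreducible
  obtain ⟨n, hn⟩ := H.pow_prime_int A'
  have hn' : (p : 𝓞 K) ∣ cj A' ^ p - (n : 𝓞 K) := by
    have := map_dvd cj hn
    simpa using this
  have hnp : ¬ (p : ℤ) ∣ n := by
    rintro ⟨t, rfl⟩
    refine hA' (H.lam_prime.dvd_of_dvd_pow (n := p) (H.lam_dvd_prime_one.trans ?_))
    have := dvd_add hn (dvd_mul_right (p : 𝓞 K) (t : 𝓞 K))
    simpa using this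
  have hcl : cj (z - 1) ^ p = -(z - 1) ^ p := by
    have : cj (z - 1) = -(z ^ (p - 1) * (z - 1)) := by
      rw [map_sub, map_one, hcz, mul_sub, mul_one, ← pow_succ, Nat.sub_add_cancel hp.one_le, hzp]
      ring
    rw [this, (hp.odd_of_ne_two (by omega)).neg_pow, mul_pow, ← pow_mul, mul_comm (p - 1) p, pow_mul,
      hzp, one_pow, one_mul]
  have hred : A' ^ p * F ^ 2 = (-1) ^ (s + m) * z ^ j * (cj A') ^ p * (cj F) ^ 2 := by
    refine mul_left_cancel₀ (pow_ne_zero (m * p) H.lam_prime.ne_zero) ?_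
    rw [hAA', map_mul, map_pow, mul_pow, mul_pow, ← pow_mul, ← pow_mul, mul_comm m p,
      pow_mul (cj (z - 1)), hcl, neg_pow ((z - 1) ^ p) m, ← pow_mul] at hmain
    rw [pow_add, mul_comm m p]
    linear_combination hmain
  obtain ⟨e, he, he1⟩ : ∃ e : ℤ, (e : 𝓞 K) = (-1) ^ (s + m) ∧ (e = 1 ∨ e = -1) :=
    ⟨(-1) ^ (s + m), by push_cast; rfl, neg_one_pow_eq_or ℤ _⟩
  refine no_conj_congruence (K := K) h5 hx hy hs hd he1 (j + 2 * (p - 1)) ?_
  obtain ⟨t₁, ht₁⟩ := hn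
  obtain ⟨t₂, ht₂⟩ := hn'
  obtain ⟨g, g', hg⟩ := (Nat.prime_iff_prime_int.mp hp).coprime_iff_not_dvd.mpr hnp
  have hg' : (g : 𝓞 K) * (p : 𝓞 K) + (g' : 𝓞 K) * (n : 𝓞 K) = 1 := by exact_mod_cast hg
  refine ⟨(g : 𝓞 K) * (F ^ 2 - (e : 𝓞 K) * z ^ (j + 2 * (p - 1)) * G ^ 2) +
    (g' : 𝓞 K) * ((e : 𝓞 K) * z ^ (j + 2 * (p - 1)) * G ^ 2 * t₂ - F ^ 2 * t₁), ?_⟩
  rw [hcF, mul_pow (z ^ (p - 1)), ← pow_mul, ← he] at hred
  rw [pow_add z, mul_comm 2 (p - 1)]
  change F ^ 2 - (e : 𝓞 K) * (z ^ j * z ^ ((p - 1) * 2)) * G ^ 2 = _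
  linear_combination (g' : 𝓞 K) * hred - (g' : 𝓞 K) * F ^ 2 * ht₁ +
    (g' : 𝓞 K) * (e : 𝓞 K) * (z ^ j * z ^ ((p - 1) * 2)) * G ^ 2 * ht₂ -
    (F ^ 2 - (e : 𝓞 K) * (z ^ j * z ^ ((p - 1) * 2)) * G ^ 2) * hg'

/-- **Kummer**: the first case at a Bernoulli regular prime. -/
theorem first_case_of_regular (h5 : 5 ≤ p)
    (hreg : ∀ k, Even k → 2 ≤ k → k ≤ p - 3 → ¬ (p : ℤ) ∣ (bernoulli k).num) {a b c : ℤ}
    (hab : IsCoprime a b) (hbc : IsCoprime b c) (hca : IsCoprime c a) (ha : ¬ (p : ℤ) ∣ a)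
    (hb : ¬ (p : ℤ) ∣ b) (hc : ¬ (p : ℤ) ∣ c) : a ^ p + b ^ p + c ^ p ≠ 0 := by
  intro hsum
  have hp : p.Prime := Fact.out
  have hodd : Odd p := hp.odd_of_ne_two (by omega)
  have hmod : (a : ZMod p) + b + c = 0 := by
    have h := congrArg (Int.cast : ℤ → ZMod p) hsum
    simpa [ZMod.pow_card] using h
  have hne : ∀ u v w : ℤ, (u : ZMod p) + v + w = 0 → IsCoprime u v → IsCoprime v w →
      ¬ (p : ℤ) ∣ u → ¬ (p : ℤ) ∣ v → ¬ (p : ℤ) ∣ w → u ^ p + v ^ p + w ^ p = 0 →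
      (p : ℤ) ∣ v - w := by
    intro u v w h huv hvw hu hv hw hs
    by_contra hd
    obtain ⟨A, T, hA, hT, -⟩ := exists_pow_of_sum hodd hs hvw hu
    refine cofactor_ne_pow h5 hreg (w := T) hvw hv hw (fun e => hu ?_) hd ?_
    · rw [← ZMod.intCast_zmod_eq_zero_iff_dvd] at e ⊢
      push_cast at e
      linear_combination h - e
    · rw [← hT, mul_comm, sgCofactor_mul hodd]
  have h1 := hne a b c hmod hab hbc ha hb hc hsum
  have h2 := hne b c a (by linear_combination hmod) hbc hca hb hc ha (by linear_combination hsum)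
  rw [← ZMod.intCast_zmod_eq_zero_iff_dvd, Int.cast_sub, sub_eq_zero] at h1 h2
  rw [h1, h2] at hmod
  have h3 : ((3 : ℕ) : ZMod p) * (a : ZMod p) = 0 := by push_cast; linear_combination hmod
  rcases mul_eq_zero.mp h3 with h | h
  · rw [ZMod.natCast_eq_zero_iff] at h
    have := Nat.le_of_dvd (by norm_num) h
    omega
  · exact ha ((ZMod.intCast_zmod_eq_zero_iff_dvd _ p).mp h)

end FA.Regular
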