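import Fermat.Agent.Regular.EichlerCongruence
import Fermat.Agent.Regular.FirstCaseBernoulli
import Fermat.Agent.Regular.SophieGermain
import Fermat.Agent.ExtVanish.Stickelberger

/-!
# Furtwängler's theorems

Let `(x^p + y^p)/(x + y)` be a `p`-th power.  The primes of the ideal `I` with `(x + ζ y) = I^p` have degree
one, so by Stickelberger's relation `∏ σ_d I^(b_d)`, `b_d = d̄⁻¹ - 1`, is principal, say `(γ)`.  This gives
`A γ̄^p = ± ζ^J B γ^p` for explicit products `A`, `B`; modulo `(ζ - 1)^2` this determines `J`, and modulo a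
prime over a prime `r` dividing `x` or `x - y` it makes a primitive `p`-th root of unity a `p`-th power, so
`r^(p-1) ≡ 1` modulo `p^2`.
-/

set_option autoImplicit false

noncomputable section

open NumberField IsDedekindDomain Polynomial
open scoped nonZeroDivisors

namespace FA.Regular

variable (p : ℕ) [Fact p.Prime] (K : Type*) [Field K] [NumberField K] [IsCyclotomicExtension {p} ℚ K]

/-- The exponent of `σ_d`. -/
def furtExp (d : (ZMod p)ˣ) : ℕ := ((d⁻¹ : (ZMod p)ˣ) : ZMod p).val - 1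

/-- The weighted sum of the exponents is `-1`. -/
theorem sum_furtExp_cast (h5 : 5 ≤ p) : ∑ d : (ZMod p)ˣ, (furtExp p d : ZMod p) * (d : ZMod p) = -1 := by
  have hp : p.Prime := Fact.out
  have : NeZero p := ⟨hp.ne_zero⟩
  have h : ∀ d : (ZMod p)ˣ, (furtExp p d : ZMod p) * (d : ZMod p) = 1 - (d : ZMod p) := fun d => by
    rw [furtExp, Nat.cast_sub (Nat.one_le_iff_ne_zero.mpr ((ZMod.val_ne_zero _).mpr (Units.ne_zero _))),
      ZMod.natCast_zmod_val, Nat.cast_one, sub_mul, one_mul, Units.inv_mul]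
  have h1 := FiniteField.sum_pow_units (ZMod p) 1
  simp only [pow_one, ZMod.card] at h1
  rw [if_neg (fun h => by have := Nat.le_of_dvd one_pos h; omega)] at h1
  rw [Finset.sum_congr rfl fun d _ => h d, Finset.sum_sub_distrib, h1, sub_zero, Finset.sum_const,
    Finset.card_univ, ZMod.card_units p, nsmul_one, Nat.cast_sub hp.one_le, ZMod.natCast_self, Nat.cast_one,
    zero_sub]

/-- A prime containing `x + ζ y` has degree one when `p ∤ x + y`. -/
theorem absNorm_prime_of_factor_mem {x y : ℤ} (hxy : IsCoprime x y) (hs : ¬ (p : ℤ) ∣ x + y)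
    {P : Ideal (𝓞 K)} [P.IsPrime] (hP : P ≠ ⊥) (hF : (x : 𝓞 K) + FA.Ext.zetaInt p K * y ∈ P) :
    (p : 𝓞 K) ∉ P ∧ (Ideal.absNorm P).Prime := by
  have hp : p.Prime := Fact.out
  have : NeZero p := ⟨hp.ne_zero⟩
  have hmax : P.IsMaximal := Ideal.IsPrime.isMaximal inferInstance hP
  set z := FA.Ext.zetaInt p K
  constructor
  · intro hpP
    have hl : z - 1 ∈ P := by
      refine Ideal.IsPrime.mem_of_pow_mem inferInstance p ?_
      obtain ⟨t, ht⟩ := Commute.exists_add_pow_prime_eq hp (Commute.all (z - 1) 1)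
      rw [sub_add_cancel, (FA.Ext.zetaInt_spec p K).pow_eq_one, one_pow] at ht
      rw [show (z - 1) ^ p = -((p : 𝓞 K) * (z - 1) * 1 * t) by linear_combination -ht]
      exact P.neg_mem (P.mul_mem_right _ (P.mul_mem_right _ (P.mul_mem_right _ hpP)))
    have hsum : ((x + y : ℤ) : 𝓞 K) ∈ P := by
      rw [Int.cast_add, show (x : 𝓞 K) + y = ((x : 𝓞 K) + z * y) - (z - 1) * y by ring]
      exact P.sub_mem hF (P.mul_mem_right _ hl)
    obtain ⟨a, b, hab⟩ := (Nat.prime_iff_prime_int.mp hp).coprime_iff_not_dvd.mpr hs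
    have h := P.add_mem (P.mul_mem_left (a : 𝓞 K) hpP) (P.mul_mem_left (b : 𝓞 K) hsum)
    rw [← Int.cast_natCast, ← Int.cast_mul, ← Int.cast_mul, ← Int.cast_add, hab, Int.cast_one] at h
    exact hmax.ne_top ((Ideal.eq_top_iff_one _).mpr h)
  -- the residue field is generated by a rational number
  let _ : Field (𝓞 K ⧸ P) := Ideal.Quotient.field P
  have : Finite (𝓞 K ⧸ P) := Ideal.finiteQuotientOfFreeOfNeBot P hP
  set l := ringChar (𝓞 K ⧸ P)
  have : CharP (𝓞 K ⧸ P) l := ringChar.charP _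
  have hl : l.Prime := CharP.char_is_prime (𝓞 K ⧸ P) l
  have : Fact l.Prime := ⟨hl⟩
  set f := Ideal.Quotient.mk P with hf
  have hy : f y ≠ 0 := fun h => by
    have hyP : (y : 𝓞 K) ∈ P := Ideal.Quotient.eq_zero_iff_mem.mp h
    have hxP : (x : 𝓞 K) ∈ P := by
      rw [show (x : 𝓞 K) = ((x : 𝓞 K) + z * y) - z * y by ring]
      exact P.sub_mem hF (P.mul_mem_left _ hyP)
    obtain ⟨a, b, hab⟩ := hxy
    have h := P.add_mem (P.mul_mem_left (a : 𝓞 K) hxP) (P.mul_mem_left (b : 𝓞 K) hyP)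
    rw [← Int.cast_mul, ← Int.cast_mul, ← Int.cast_add, hab, Int.cast_one] at h
    exact hmax.ne_top ((Ideal.eq_top_iff_one _).mpr h)
  let c := ZMod.castHom (dvd_refl l) (𝓞 K ⧸ P)
  have hrange : ∀ a : ℤ, f (a : 𝓞 K) = c (a : ZMod l) := fun a => by rw [map_intCast, map_intCast]
  have hzc : f z = c (-(x : ZMod l) / (y : ZMod l)) := by
    rw [map_div₀, map_neg, ← hrange, ← hrange, eq_div_iff hy, ← map_mul, eq_neg_iff_add_eq_zero, ← map_add,
      add_comm]
    exact Ideal.Quotient.eq_zero_iff_mem.mpr hF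
  have hsurj : Function.Surjective c := fun t => by
    obtain ⟨t, rfl⟩ := Ideal.Quotient.mk_surjective t
    obtain ⟨g, -, rfl⟩ := (IsCyclotomicExtension.zeta_spec p ℚ K).integralPowerBasis.exists_eq_aeval t
    rw [show (IsCyclotomicExtension.zeta_spec p ℚ K).integralPowerBasis.gen = z from
      IsPrimitiveRoot.integralPowerBasis_gen _, aeval_def, hom_eval₂, ← hf, hzc]
    refine ⟨g.eval₂ (Int.castRingHom (ZMod l)) (-(x : ZMod l) / (y : ZMod l)), ?_⟩
    rw [hom_eval₂]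
    congr 1
    exact RingHom.ext_int _ _
  rw [Ideal.absNorm_apply, Submodule.cardQuot_apply, ← Nat.card_congr (Equiv.ofBijective c ⟨c.injective, hsurj⟩),
    Nat.card_zmod]
  exact hl

/-- Stickelberger's relation for the ideals dividing `x + ζ y`. -/
theorem prod_sigmaCl_furtExp {x y : ℤ} (hxy : IsCoprime x y) (hs : ¬ (p : ℤ) ∣ x + y) {J : Ideal (𝓞 K)}
    (hJ : J ≠ ⊥) (hF : (x : 𝓞 K) + FA.Ext.zetaInt p K * y ∈ J) :
    ∏ d : (ZMod p)ˣ, FA.Ext.sigmaCl p K d
      (ClassGroup.mk0 ⟨J, mem_nonZeroDivisors_iff_ne_zero.mpr hJ⟩) ^ furtExp p d = 1 := by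
  have hp : p.Prime := Fact.out
  have : NeZero p := ⟨hp.ne_zero⟩
  induction J using UniqueFactorizationMonoid.induction_on_prime with
  | h₁ => exact absurd rfl hJ
  | h₂ a ha =>
    refine Finset.prod_eq_one fun d _ => ?_
    rw [show (⟨a, mem_nonZeroDivisors_iff_ne_zero.mpr hJ⟩ : (Ideal (𝓞 K))⁰) = 1 from
      Subtype.ext (isUnit_iff_eq_one.mp ha), map_one, map_one, one_pow]
  | h₃ a P ha hP ih =>
    have hPF : (x : 𝓞 K) + FA.Ext.zetaInt p K * y ∈ P := Ideal.mul_le_left hF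
    have haF : (x : 𝓞 K) + FA.Ext.zetaInt p K * y ∈ a := Ideal.mul_le_right hF
    have : P.IsPrime := Ideal.isPrime_of_prime hP
    obtain ⟨hvp, hv⟩ := absNorm_prime_of_factor_mem p K hxy hs hP.ne_zero hPF
    let v : HeightOneSpectrum (𝓞 K) := ⟨P, inferInstance, hP.ne_zero⟩
    have hrel := FA.Ext.stickelberger_relation p K v hvp hv (p - 1) (by have := hp.pos; omega)
    rw [show (⟨P * a, mem_nonZeroDivisors_iff_ne_zero.mpr hJ⟩ : (Ideal (𝓞 K))⁰) =
      ⟨P, mem_nonZeroDivisors_iff_ne_zero.mpr hP.ne_zero⟩ * ⟨a, mem_nonZeroDivisors_iff_ne_zero.mpr ha⟩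
      from rfl]
    simp only [map_mul, mul_pow, Finset.prod_mul_distrib, ih ha haF, mul_one]
    refine Eq.trans (Fintype.prod_equiv (Equiv.inv _) _ _ fun d => ?_) hrel
    rw [Equiv.inv_apply, FA.Ext.conjClass, inv_inv,
      FA.Ext.sigmaCl_mk0 p K d ⟨P, mem_nonZeroDivisors_iff_ne_zero.mpr hP.ne_zero⟩
        (FA.Ext.primeIdeal (FA.Ext.conjPrime (FA.Ext.sigma p K d) v)) rfl, furtExp]
    congr 1
    set n := ((d⁻¹ : (ZMod p)ˣ) : ZMod p).val
    have hn0 : n ≠ 0 := (ZMod.val_ne_zero _).mpr (Units.ne_zero _)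
    have hnp : n < p := ZMod.val_lt _
    obtain ⟨n', hn'⟩ : ∃ n', n = n' + 1 := ⟨n - 1, by omega⟩
    rw [hn']
    have key : (p - 1) * (n' + 1) = n' * p + (p - (n' + 1)) := by
      obtain ⟨q, hq⟩ : ∃ q, p = q + 1 + n' := ⟨p - 1 - n', by omega⟩
      rw [show p - (n' + 1) = q by omega, show p - 1 = q + n' by omega, hq]
      ring
    refine (Nat.div_eq_of_lt_le ?_ ?_).symm
    · rw [Nat.add_sub_cancel, key]; omega
    · rw [Nat.add_sub_cancel, key, Nat.add_mul, one_mul]; omega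

/-- The product `∏ (x + ζ^d y)^(b_d)`. -/
def furtA (x y : ℤ) : 𝓞 K :=
  ∏ d : (ZMod p)ˣ, ((x : 𝓞 K) + FA.Ext.zetaInt p K ^ (d : ZMod p).val * y) ^ furtExp p d

/-- The product `∏ (x ζ^d + y)^(b_d)`. -/
def furtB (x y : ℤ) : 𝓞 K :=
  ∏ d : (ZMod p)ˣ, ((x : 𝓞 K) * FA.Ext.zetaInt p K ^ (d : ZMod p).val + y) ^ furtExp p d

/-- The equation behind Furtwängler's theorems. -/
theorem exists_furt_equation (h5 : 5 ≤ p) {x y w : ℤ} (hxy : IsCoprime x y) (hs : ¬ (p : ℤ) ∣ x + y)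
    (heq : x ^ p + y ^ p = (x + y) * w ^ p) :
    ∃ (γ γ' : 𝓞 K) (u u' : (𝓞 K)ˣ) (J : ℕ) (e : ℤ), (e = 1 ∨ e = -1) ∧
      furtA p K x y * u = γ ^ p ∧ furtB p K x y * u' = γ' ^ p ∧
      furtA p K x y * γ' ^ p = (e : 𝓞 K) * FA.Ext.zetaInt p K ^ J * furtB p K x y * γ ^ p ∧
      (J : ZMod p) * ((x : ZMod p) + y) = (x : ZMod p) - y := by
  have hp : p.Prime := Fact.out
  have : NeZero p := ⟨hp.ne_zero⟩
  have H := cycloRing_ringOfIntegers (K := K) (p := p) (by omega)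
    (IsCyclotomicExtension.zeta_spec p ℚ K)
  change CycloRing (𝓞 K) p (FA.Ext.zetaInt p K) at H
  set z := FA.Ext.zetaInt p K with hz
  set cj := FA.Ext.sigma p K (-1)
  set F := (x : 𝓞 K) + z * y with hF
  obtain ⟨I, hI⟩ := span_factor_eq_pow (K := K) (i := 1) (by omega) hxy hs heq
    (Finset.mem_Ico.mpr ⟨le_rfl, hp.one_lt⟩)
  rw [pow_one] at hI
  change Ideal.span {F} = I ^ p at hI
  have hlF : ¬ z - 1 ∣ F := fun h => hs (H.int_dvd _ (by
    rw [Int.cast_add, show (x : 𝓞 K) + y = F - (z - 1) * y by ring]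
    exact dvd_sub h (dvd_mul_right _ _)))
  have hF0 : F ≠ 0 := fun e => hlF (e ▸ dvd_zero _)
  have hI0 : I ≠ ⊥ := fun e => hF0 (by
    rw [e] at hI
    exact Ideal.span_singleton_eq_bot.mp (hI.trans (zero_pow hp.ne_zero)))
  have hFI : F ∈ I := Ideal.pow_le_self hp.ne_zero (hI ▸ Ideal.mem_span_singleton_self F)
  let σ : (ZMod p)ˣ → (Ideal (𝓞 K))⁰ := fun d => ⟨I.map (FA.Ext.sigma p K d : 𝓞 K →+* 𝓞 K),
    mem_nonZeroDivisors_iff_ne_zero.mpr fun e => hI0 ((Ideal.map_eq_bot_iff_of_injective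
      (FA.Ext.sigma p K d).injective).mp e)⟩
  set Jd : (Ideal (𝓞 K))⁰ := ∏ d, σ d ^ furtExp p d with hJd
  have hcl : ClassGroup.mk0 Jd = 1 := by
    rw [hJd, map_prod, ← prod_sigmaCl_furtExp p K hxy hs hI0 hFI]
    exact Finset.prod_congr rfl fun d _ => by rw [map_pow, ← FA.Ext.sigmaCl_mk0 p K d ⟨I, mem_nonZeroDivisors_iff_ne_zero.mpr hI0⟩ (σ d) rfl]
  obtain ⟨γ, hγ⟩ := (ClassGroup.mk0_eq_one_iff Jd.2).mp hcl
  rw [Ideal.submodule_span_eq] at hγ
  have hσF : ∀ d : (ZMod p)ˣ, FA.Ext.sigma p K d F = (x : 𝓞 K) + z ^ (d : ZMod p).val * y := fun d => by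
    rw [hF, map_add, map_mul, map_intCast, map_intCast, FA.Ext.sigma_zetaInt]
  have hspan : Ideal.span {furtA p K x y} = Ideal.span {γ ^ p} := by
    rw [← Ideal.span_singleton_pow, ← hγ, furtA, ← Ideal.prod_span_singleton, hJd,
      Submonoid.coe_finsetProd, ← Finset.prod_pow]
    refine Finset.prod_congr rfl fun d _ => ?_
    rw [← hσF, ← Ideal.span_singleton_pow, SubmonoidClass.coe_pow, ← pow_mul, mul_comm, pow_mul]
    congr 1
    show _ = (I.map (FA.Ext.sigma p K d : 𝓞 K →+* 𝓞 K)) ^ p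
    rw [← Ideal.map_pow, ← hI, Ideal.map_span, Set.image_singleton]
    rfl
  obtain ⟨u, hu⟩ := Ideal.span_singleton_eq_span_singleton.mp hspan
  obtain ⟨s, j, -, hu'⟩ := exists_conj_unit_eq (K := K) (p := p) (by omega) u
  change cj (u : 𝓞 K) = _ at hu'
  set N := ∑ d : (ZMod p)ˣ, (p - (d : ZMod p).val) * furtExp p d with hN
  have hcjA : cj (furtA p K x y) = z ^ N * furtB p K x y := by
    rw [furtA, furtB, map_prod, hN, ← Finset.prod_pow_eq_pow_sum, ← Finset.prod_mul_distrib]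
    refine Finset.prod_congr rfl fun d _ => ?_
    rw [map_pow, ← hσF, ← FA.Ext.sigma_mul_apply, hσF, neg_one_mul, Units.val_neg, ZMod.neg_val,
      if_neg d.ne_zero, pow_mul, ← mul_pow, mul_add, mul_left_comm, ← pow_add,
      Nat.sub_add_cancel (ZMod.val_lt _).le, (FA.Ext.zetaInt_spec p K).pow_eq_one, mul_one]
  have hu2 := congrArg cj hu
  rw [map_mul, map_pow, hcjA, hu'] at hu2
  obtain ⟨e, he, he1⟩ : ∃ e : ℤ, (e : 𝓞 K) = (-1) ^ s ∧ (e = 1 ∨ e = -1) :=
    ⟨(-1) ^ s, by push_cast; rfl, neg_one_pow_eq_or ℤ _⟩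
  have hzu : IsUnit z := H.prim.isUnit hp.ne_zero
  obtain ⟨u', hu'e⟩ : IsUnit (z ^ N * ((-1) ^ s * z ^ j * (u : 𝓞 K))) :=
    (hzu.pow _).mul (((isUnit_one.neg.pow _).mul (hzu.pow _)).mul u.isUnit)
  have hB : furtB p K x y * u' = cj γ ^ p := by
    rw [hu'e, ← hu2]; ring
  have hmain : furtA p K x y * cj γ ^ p =
      (e : 𝓞 K) * z ^ (N + j) * furtB p K x y * γ ^ p := by
    rw [← hu, ← hu2, he]; ring
  refine ⟨γ, cj γ, u, u', N + j, e, he1, hu, hB, hmain, ?_⟩
  -- modulo `p`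
  have hlγ : ¬ z - 1 ∣ γ := fun h => by
    have h' : z - 1 ∣ furtA p K x y := by
      rw [← Units.dvd_mul_right (u := u), hu]
      exact dvd_pow h hp.ne_zero
    obtain ⟨d, -, hd⟩ := H.lam_prime.exists_mem_finset_dvd h'
    refine hs (H.int_dvd _ ?_)
    have hd' := H.lam_prime.dvd_of_dvd_pow hd
    obtain ⟨t, ht⟩ := sub_one_dvd_pow_sub_one z (d : ZMod p).val
    rw [Int.cast_add, show (x : 𝓞 K) + y =
      ((x : 𝓞 K) + z ^ (d : ZMod p).val * y) - (z - 1) * (t * y) by rw [← mul_assoc, ← ht]; ring]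
    exact dvd_sub hd' (dvd_mul_right _ _)
  obtain ⟨n, hn⟩ := H.pow_prime_int γ
  have hn' : (p : 𝓞 K) ∣ cj γ ^ p - (n : 𝓞 K) := by
    have := map_dvd cj hn
    simpa using this
  have hnp : ¬ (p : ℤ) ∣ n := by
    rintro ⟨t, rfl⟩
    refine hlγ (H.lam_prime.dvd_of_dvd_pow (n := p) (H.lam_dvd_prime_one.trans ?_))
    have := dvd_add hn (dvd_mul_right (p : 𝓞 K) (t : 𝓞 K))
    simpa using this
  obtain ⟨t₁, ht₁⟩ := hn
  obtain ⟨t₂, ht₂⟩ := hn'
  obtain ⟨g, g', hg⟩ := (Nat.prime_iff_prime_int.mp hp).coprime_iff_not_dvd.mpr hnp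
  have hg' : (g : 𝓞 K) * (p : 𝓞 K) + (g' : 𝓞 K) * (n : 𝓞 K) = 1 := by exact_mod_cast hg
  have hcongr : (p : 𝓞 K) ∣ furtA p K x y - (e : 𝓞 K) * z ^ (N + j) * furtB p K x y := by
    refine ⟨(g : 𝓞 K) * (furtA p K x y - (e : 𝓞 K) * z ^ (N + j) * furtB p K x y) +
      (g' : 𝓞 K) * ((e : 𝓞 K) * z ^ (N + j) * furtB p K x y * t₁ - furtA p K x y * t₂), ?_⟩
    linear_combination (g' : 𝓞 K) * hmain -
      (g' : 𝓞 K) * furtA p K x y * ht₂ + (g' : 𝓞 K) * (e : 𝓞 K) * z ^ (N + j) * furtB p K x y * ht₁ -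
      (furtA p K x y - (e : 𝓞 K) * z ^ (N + j) * furtB p K x y) * hg'
  -- as polynomials
  classical
  set S := Finset.univ.image fun d : (ZMod p)ˣ => (d : ZMod p).val
  set c : ℕ → ℕ := fun a => if h : (a : ZMod p) = 0 then 0 else furtExp p (Units.mk0 _ h) with hc
  have hinj : ∀ d ∈ (Finset.univ : Finset ((ZMod p)ˣ)), ∀ d' ∈ (Finset.univ : Finset ((ZMod p)ˣ)),
      (d : ZMod p).val = (d' : ZMod p).val → d = d' := fun d _ d' _ h =>
    Units.ext (ZMod.val_injective p h)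
  have hcd : ∀ d : (ZMod p)ˣ, c (d : ZMod p).val = furtExp p d := fun d => by
    simp only [hc]
    rw [dif_neg (by rw [ZMod.natCast_zmod_val]; exact d.ne_zero)]
    congr 1
    exact Units.ext (ZMod.natCast_zmod_val _)
  set P : ℤ[X] := (∏ a ∈ S, (Polynomial.C x + Polynomial.C y * X ^ a) ^ c a) -
    Polynomial.C e * X ^ (N + j) * ∏ a ∈ S, (Polynomial.C x * X ^ a + Polynomial.C y) ^ c a with hP
  have haev : aeval z P = furtA p K x y - (e : 𝓞 K) * z ^ (N + j) * furtB p K x y := by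
    rw [hP, Finset.prod_image hinj, Finset.prod_image hinj, furtA, furtB]
    simp only [map_sub, map_mul, map_prod, map_pow, map_add, aeval_C, aeval_X, algebraMap_int_eq,
      Int.coe_castRingHom, hcd, mul_comm (y : 𝓞 K)]
    rfl
  have hdvd := pow_dvd_map_of_dvd_aeval p K (haev ▸ hcongr)
  simp only [hP, Polynomial.map_sub, Polynomial.map_mul, Polynomial.map_prod, Polynomial.map_pow,
    Polynomial.map_add, Polynomial.map_C, Polynomial.map_X, Int.coe_castRingHom] at hdvd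
  have h2 := exponent_of_congr (fun e' => hs ((ZMod.intCast_zmod_eq_zero_iff_dvd _ p).mp
      (by rw [Int.cast_add]; exact e')))
    (by rcases he1 with rfl | rfl <;> simp) (N + j) c S ((pow_dvd_pow _ (by omega)).trans hdvd)
  rw [h2, Finset.sum_image hinj, Finset.sum_congr rfl fun d _ => by rw [hcd, ZMod.natCast_zmod_val],
    sum_furtExp_cast p h5]
  ring

/-- A primitive `p`-th root of unity which is a `p`-th power in a residue field over `r`. -/
theorem pow_sub_one_eq_one_of_root (h5 : 5 ≤ p) {r : ℕ} (hr : r.Prime) (hrp : r ≠ p) {R : Ideal (𝓞 K)}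
    [R.IsMaximal] (hrR : (r : 𝓞 K) ∈ R) {k : ℕ} (hk : ¬ p ∣ k) {v : 𝓞 K ⧸ R}
    (hv : v ^ p = Ideal.Quotient.mk R (FA.Ext.zetaInt p K) ^ k) :
    (r : ZMod (p ^ 2)) ^ (p - 1) = 1 := by
  have hp : p.Prime := Fact.out
  have : NeZero p := ⟨hp.ne_zero⟩
  let _ : Field (𝓞 K ⧸ R) := Ideal.Quotient.field R
  have hR0 : R ≠ ⊥ := fun h => hr.ne_zero (by
    rw [h, Ideal.mem_bot] at hrR
    exact_mod_cast hrR)
  have : Finite (𝓞 K ⧸ R) := Ideal.finiteQuotientOfFreeOfNeBot R hR0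
  have : Fintype (𝓞 K ⧸ R) := Fintype.ofFinite _
  set f := Ideal.Quotient.mk R
  set z := FA.Ext.zetaInt p K
  have hpR : (p : 𝓞 K) ∉ R := fun h => by
    obtain ⟨a, b, hab⟩ := Nat.isCoprime_iff_coprime.mpr ((Nat.coprime_primes hr hp).mpr hrp)
    have h' := R.add_mem (R.mul_mem_left (a : 𝓞 K) hrR) (R.mul_mem_left (b : 𝓞 K) h)
    rw [← Int.cast_natCast r, ← Int.cast_natCast p, ← Int.cast_mul, ← Int.cast_mul, ← Int.cast_add, hab,
      Int.cast_one] at h'
    exact (Ideal.IsMaximal.ne_top ‹_›) ((Ideal.eq_top_iff_one _).mpr h')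
  have hzp : f z ^ p = 1 := by rw [← map_pow, (FA.Ext.zetaInt_spec p K).pow_eq_one, map_one]
  have hzord : orderOf (f z) = p := orderOf_eq_prime hzp fun h => hpR
    (FA.Ext.natCast_mem_of_primitiveRoot_sub_one_mem (FA.Ext.zetaInt_spec p K)
      (Ideal.Quotient.eq_zero_iff_mem.mp (by rw [map_sub, h, map_one, sub_self])))
  have hvord : orderOf v = p ^ 2 := by
    refine orderOf_eq_prime_pow (n := 1) (fun h => hk ?_) ?_
    · rw [pow_one, hv] at h
      exact hzord ▸ orderOf_dvd_iff_pow_eq_one.mpr h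
    · rw [pow_succ, pow_one, pow_mul, hv, ← pow_mul, mul_comm, pow_mul, hzp, one_pow]
  have hv0 : v ≠ 0 := fun h => by
    rw [h, zero_pow hp.ne_zero] at hv
    exact pow_ne_zero k (fun e => by simp [e, zero_pow hp.ne_zero] at hzp) hv.symm
  have hdvd : p ^ 2 ∣ Fintype.card (𝓞 K ⧸ R) - 1 :=
    hvord ▸ orderOf_dvd_iff_pow_eq_one.mpr (FiniteField.pow_card_sub_one_eq_one v hv0)
  -- the residue field has at most `r^(p-1)` elements
  have hcard : Ideal.absNorm R ∣ r ^ (p - 1) := by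
    have h := Ideal.absNorm_dvd_absNorm_of_le (Ideal.span_singleton_le_iff_mem _ |>.mpr hrR)
    rwa [Ideal.absNorm_span_singleton, ← map_natCast (algebraMap ℤ (𝓞 K)), Algebra.norm_algebraMap,
      RingOfIntegers.rank, IsCyclotomicExtension.finrank K (cyclotomic.irreducible_rat hp.pos),
      Nat.totient_prime hp, Int.natAbs_pow, Int.natAbs_natCast] at h
  obtain ⟨m, hm, hcm⟩ := (Nat.dvd_prime_pow hr).mp hcard
  have hm0 : m ≠ 0 := by
    rintro rfl
    exact (Ideal.IsMaximal.ne_top ‹R.IsMaximal›) (Ideal.absNorm_eq_one_iff.mp hcm)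
  rw [Ideal.absNorm_apply, Submodule.cardQuot_apply, Nat.card_eq_fintype_card] at hcm
  rw [hcm] at hdvd
  have h1 : (r : ZMod (p ^ 2)) ^ m = 1 := by
    rw [← Nat.cast_pow, ← sub_eq_zero, ← Nat.cast_one, ← Nat.cast_sub (Nat.one_le_pow _ _ hr.pos),
      ZMod.natCast_eq_zero_iff]
    exact hdvd
  obtain ⟨U, hU⟩ : IsUnit (r : ZMod (p ^ 2)) :=
    IsUnit.of_pow_eq_one h1 hm0
  rw [← hU, ← Units.val_pow_eq_pow_val, Units.val_eq_one]
  rw [← hU, ← Units.val_pow_eq_pow_val, Units.val_eq_one] at h1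
  have h2 : U ^ (p * (p - 1)) = 1 := by
    have h := ZMod.pow_totient U
    rwa [Nat.totient_prime_pow hp (by norm_num), show 2 - 1 = 1 from rfl, pow_one] at h
  refine orderOf_dvd_iff_pow_eq_one.mp ?_
  have hco : (orderOf U).Coprime p := Nat.Coprime.coprime_dvd_left (orderOf_dvd_iff_pow_eq_one.mpr h1)
    ((hp.coprime_iff_not_dvd.mpr (Nat.not_dvd_of_pos_of_lt (Nat.pos_of_ne_zero hm0) (by omega))).symm)
  exact hco.dvd_of_dvd_mul_left (orderOf_dvd_iff_pow_eq_one.mpr h2)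

include p in
/-- A maximal ideal over a prime. -/
theorem exists_maximal_over {r : ℕ} (hr : r.Prime) : ∃ R : Ideal (𝓞 K), R.IsMaximal ∧ (r : 𝓞 K) ∈ R := by
  have hp : p.Prime := Fact.out
  obtain ⟨R, hR, hrR⟩ := Ideal.exists_le_maximal (Ideal.span {(r : 𝓞 K)}) (fun h => by
    have h' := congrArg Ideal.absNorm h
    rw [Ideal.absNorm_span_singleton, ← map_natCast (algebraMap ℤ (𝓞 K)), Algebra.norm_algebraMap,
      RingOfIntegers.rank, IsCyclotomicExtension.finrank K (cyclotomic.irreducible_rat hp.pos),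
      Nat.totient_prime hp, Int.natAbs_pow, Int.natAbs_natCast, Ideal.absNorm_top,
      Nat.pow_eq_one] at h'
    have := hr.one_lt
    have := hp.two_le
    omega)
  exact ⟨R, hR, (Ideal.span_singleton_le_iff_mem _).mp hrR⟩

set_option backward.isDefEq.respectTransparency false in
/-- **Furtwängler**: a prime dividing `x`. -/
theorem furtwaengler_of_dvd (h5 : 5 ≤ p) {x y w : ℤ} (hxy : IsCoprime x y) (hx : ¬ (p : ℤ) ∣ x)
    (hs : ¬ (p : ℤ) ∣ x + y) (heq : x ^ p + y ^ p = (x + y) * w ^ p) {r : ℕ} (hr : r.Prime)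
    (hrx : (r : ℤ) ∣ x) : (r : ZMod (p ^ 2)) ^ (p - 1) = 1 := by
  have hp : p.Prime := Fact.out
  have : NeZero p := ⟨hp.ne_zero⟩
  have hrp : r ≠ p := fun e => hx (e ▸ hrx)
  let L := CyclotomicField p ℚ
  have : IsCyclotomicExtension {p} ℚ L :=
    inferInstanceAs (IsCyclotomicExtension {p} ℚ (CyclotomicField p ℚ))
  have : NumberField L := IsCyclotomicExtension.numberField {p} ℚ L
  set z := FA.Ext.zetaInt p L
  obtain ⟨γ, γ', u, u', J, e, he, hu, hu', hmain, hJ⟩ := exists_furt_equation p L h5 hxy hs heq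
  obtain ⟨R, hR, hrR⟩ := exists_maximal_over p L hr
  let _ : Field (𝓞 L ⧸ R) := Ideal.Quotient.field R
  set f := Ideal.Quotient.mk R
  have hfx : f (x : 𝓞 L) = 0 := by
    obtain ⟨t, rfl⟩ := hrx
    rw [Int.cast_mul, Int.cast_natCast, map_mul, Ideal.Quotient.eq_zero_iff_mem.mpr hrR, zero_mul]
  have hfy : f (y : 𝓞 L) ≠ 0 := fun h => by
    obtain ⟨a, b, hab⟩ := hxy
    have := congrArg (fun t : ℤ => f (t : 𝓞 L)) hab
    simp only [Int.cast_add, Int.cast_mul, map_add, map_mul, hfx, h, mul_zero, add_zero, Int.cast_one,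
      map_one] at this
    exact zero_ne_one this
  have hz : f z ≠ 0 := (((FA.Ext.zetaInt_spec p L).isUnit hp.ne_zero).map f).ne_zero
  set T := ∑ d : (ZMod p)ˣ, (d : ZMod p).val * furtExp p d
  set Y := ∏ d : (ZMod p)ˣ, f (y : 𝓞 L) ^ furtExp p d
  have hY : Y ≠ 0 := Finset.prod_ne_zero_iff.mpr fun d _ => pow_ne_zero _ hfy
  have hA : f (furtA p L x y) = f z ^ T * Y := by
    simp only [furtA, map_prod, map_pow, map_add, map_mul, hfx, zero_add, mul_pow, Finset.prod_mul_distrib,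
      ← pow_mul, Finset.prod_pow_eq_pow_sum, z, T, Y]
  have hB : f (furtB p L x y) = Y := by
    simp only [furtB, map_prod, map_pow, map_add, map_mul, hfx, zero_mul, zero_add, Y]
  have hg : f γ' ≠ 0 := fun h => by
    have := congrArg f hu'
    rw [map_mul, hB, map_pow, h, zero_pow hp.ne_zero] at this
    exact mul_ne_zero hY ((u'.isUnit.map f).ne_zero) this
  have hm := congrArg f hmain
  rw [map_mul, hA, map_pow, map_mul, map_mul, map_mul, hB, map_pow, map_pow, map_intCast] at hm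
  have hfe : (e : 𝓞 L ⧸ R) ^ p = e := by
    rcases he with rfl | rfl
    · simp
    · rw [Int.cast_neg, Int.cast_one, (hp.odd_of_ne_two (by omega)).neg_one_pow]
  refine pow_sub_one_eq_one_of_root p L h5 hr hrp hrR (k := T + (p - 1) * J)
    (v := (e : 𝓞 L ⧸ R) * f γ / f γ') ?_ ?_
  · intro h
    rw [← ZMod.natCast_eq_zero_iff, Nat.cast_add, Nat.cast_mul, Nat.cast_sub hp.one_le, ZMod.natCast_self,
      Nat.cast_one, zero_sub, show ((T : ℕ) : ZMod p) = -1 by
        rw [← sum_furtExp_cast p h5, Nat.cast_sum]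
        exact Finset.sum_congr rfl fun d _ => by rw [Nat.cast_mul, ZMod.natCast_zmod_val, mul_comm]] at h
    have h2 : (2 : ZMod p) * (x : ZMod p) = 0 := by
      linear_combination (-((x : ZMod p) + y)) * h - hJ
    exact hx ((ZMod.intCast_zmod_eq_zero_iff_dvd _ p).mp
      ((mul_eq_zero.mp h2).resolve_left (FA.Ext.two_ne_zero_of_five_le p h5)))
  · have he1 : (e : 𝓞 L ⧸ R) * e = 1 := by rcases he with rfl | rfl <;> simp
    have hzp : f z ^ p = 1 := by rw [← map_pow, (FA.Ext.zetaInt_spec p L).pow_eq_one, map_one]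
    have hJ' : f z ^ J * f z ^ ((p - 1) * J) = 1 := by
      rw [← pow_add, show J + (p - 1) * J = p * J by
        rw [add_comm, ← Nat.succ_mul, Nat.succ_eq_add_one, Nat.sub_add_cancel hp.one_le], pow_mul, hzp,
        one_pow]
    rw [div_pow, mul_pow, hfe, eq_comm, eq_div_iff (pow_ne_zero _ hg), pow_add]
    refine mul_left_cancel₀ hY ?_
    linear_combination f z ^ ((p - 1) * J) * hm + (e : 𝓞 L ⧸ R) * f γ ^ p * Y * hJ'

set_option backward.isDefEq.respectTransparency false in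
/-- **Furtwängler**: a prime dividing `x - y`. -/
theorem furtwaengler_of_dvd_sub (h5 : 5 ≤ p) {x y w : ℤ} (hxy : IsCoprime x y) (hd : ¬ (p : ℤ) ∣ x - y)
    (hs : ¬ (p : ℤ) ∣ x + y) (heq : x ^ p + y ^ p = (x + y) * w ^ p) {r : ℕ} (hr : r.Prime)
    (hrx : (r : ℤ) ∣ x - y) : (r : ZMod (p ^ 2)) ^ (p - 1) = 1 := by
  have hp : p.Prime := Fact.out
  have : NeZero p := ⟨hp.ne_zero⟩
  have hrp : r ≠ p := fun e => hd (e ▸ hrx)
  let L := CyclotomicField p ℚ
  have : IsCyclotomicExtension {p} ℚ L :=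
    inferInstanceAs (IsCyclotomicExtension {p} ℚ (CyclotomicField p ℚ))
  have : NumberField L := IsCyclotomicExtension.numberField {p} ℚ L
  set z := FA.Ext.zetaInt p L
  obtain ⟨γ, γ', u, u', J, e, he, hu, hu', hmain, hJ⟩ := exists_furt_equation p L h5 hxy hs heq
  obtain ⟨R, hR, hrR⟩ := exists_maximal_over p L hr
  let _ : Field (𝓞 L ⧸ R) := Ideal.Quotient.field R
  set f := Ideal.Quotient.mk R
  have hfx : f (x : 𝓞 L) = f (y : 𝓞 L) := by
    obtain ⟨t, ht⟩ := hrx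
    rw [show x = y + r * t by linear_combination ht, Int.cast_add, Int.cast_mul, Int.cast_natCast, map_add,
      map_mul, Ideal.Quotient.eq_zero_iff_mem.mpr hrR, zero_mul, add_zero]
  have hfy : f (y : 𝓞 L) ≠ 0 := fun h => by
    obtain ⟨a, b, hab⟩ := hxy
    have := congrArg (fun t : ℤ => f (t : 𝓞 L)) hab
    simp only [Int.cast_add, Int.cast_mul, map_add, map_mul, hfx, h, mul_zero, add_zero, Int.cast_one,
      map_one] at this
    exact zero_ne_one this
  have hzp : f z ^ p = 1 := by rw [← map_pow, (FA.Ext.zetaInt_spec p L).pow_eq_one, map_one]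
  have hpR : (p : 𝓞 L) ∉ R := fun h => by
    obtain ⟨a, b, hab⟩ := Nat.isCoprime_iff_coprime.mpr ((Nat.coprime_primes hr hp).mpr hrp)
    have h' := congrArg (fun t : ℤ => f (t : 𝓞 L)) hab
    simp only [Int.cast_add, Int.cast_mul, Int.cast_natCast, map_add, map_mul,
      Ideal.Quotient.eq_zero_iff_mem.mpr hrR, Ideal.Quotient.eq_zero_iff_mem.mpr h, f, mul_zero, add_zero,
      Int.cast_one, map_one] at h'
    exact zero_ne_one h'
  have hzord : orderOf (f z) = p := orderOf_eq_prime hzp fun h => hpR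
    (FA.Ext.natCast_mem_of_primitiveRoot_sub_one_mem (FA.Ext.zetaInt_spec p L)
      (Ideal.Quotient.eq_zero_iff_mem.mp (by rw [map_sub, h, map_one, sub_self])))
  set Y := ∏ d : (ZMod p)ˣ, (f (y : 𝓞 L) * (1 + f z ^ (d : ZMod p).val)) ^ furtExp p d
  have hY : Y ≠ 0 := Finset.prod_ne_zero_iff.mpr fun d _ => pow_ne_zero _ (mul_ne_zero hfy fun h => by
    have h2 : f z ^ (2 * (d : ZMod p).val) = 1 := by
      linear_combination (f z ^ (d : ZMod p).val - 1) * h
    have hdvd : p ∣ 2 * (d : ZMod p).val := by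
      have := orderOf_dvd_iff_pow_eq_one.mpr h2
      rwa [hzord] at this
    rcases hp.dvd_mul.mp hdvd with h' | h'
    · have := Nat.le_of_dvd two_pos h'
      omega
    · exact d.ne_zero ((ZMod.val_eq_zero _).mp (Nat.eq_zero_of_dvd_of_lt h' (ZMod.val_lt _))))
  have hA : f (furtA p L x y) = Y := by
    rw [furtA, map_prod]
    exact Finset.prod_congr rfl fun d _ => by rw [map_pow, map_add, map_mul, map_pow, hfx]; ring
  have hB : f (furtB p L x y) = Y := by
    rw [furtB, map_prod]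
    exact Finset.prod_congr rfl fun d _ => by rw [map_pow, map_add, map_mul, map_pow, hfx]; ring
  have hg : f γ' ≠ 0 := fun h => by
    have := congrArg f hu'
    rw [map_mul, hB, map_pow, h, zero_pow hp.ne_zero] at this
    exact mul_ne_zero hY ((u'.isUnit.map f).ne_zero) this
  have hm := congrArg f hmain
  rw [map_mul, hA, map_pow, map_mul, map_mul, map_mul, hB, map_pow, map_pow, map_intCast] at hm
  have hfe : (e : 𝓞 L ⧸ R) ^ p = e := by
    rcases he with rfl | rfl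
    · simp
    · rw [Int.cast_neg, Int.cast_one, (hp.odd_of_ne_two (by omega)).neg_one_pow]
  refine pow_sub_one_eq_one_of_root p L h5 hr hrp hrR (k := (p - 1) * J)
    (v := (e : 𝓞 L ⧸ R) * f γ / f γ') ?_ ?_
  · intro h
    rw [← ZMod.natCast_eq_zero_iff, Nat.cast_mul, Nat.cast_sub hp.one_le, ZMod.natCast_self, Nat.cast_one,
      zero_sub, neg_one_mul, neg_eq_zero] at h
    rw [h, zero_mul] at hJ
    exact hd ((ZMod.intCast_zmod_eq_zero_iff_dvd _ p).mp (by rw [Int.cast_sub]; exact hJ.symm))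
  · have hJ' : f z ^ J * f z ^ ((p - 1) * J) = 1 := by
      rw [← pow_add, show J + (p - 1) * J = p * J by
        rw [add_comm, ← Nat.succ_mul, Nat.succ_eq_add_one, Nat.sub_add_cancel hp.one_le], pow_mul, hzp,
        one_pow]
    rw [div_pow, mul_pow, hfe, eq_comm, eq_div_iff (pow_ne_zero _ hg)]
    refine mul_left_cancel₀ hY ?_
    linear_combination f z ^ ((p - 1) * J) * hm + (e : 𝓞 L ⧸ R) * f γ ^ p * Y * hJ'

end FA.Regular
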