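import Fermat.Agent.Regular.CaseTwoClassGroup

/-!
# Real elements of `ℤ[ζ_p]`

A real element is congruent to an integer modulo `(ζ - 1)^2`.  If no class of order `p` is fixed by
complex conjugation, a real element prime to `p` generating a `p`-th power of an ideal is a real unit
times the `p`-th power of a real element.
-/

set_option autoImplicit false

noncomputable section

open NumberField
open scoped nonZeroDivisors

namespace FA.Regular

variable (p : ℕ) [Fact p.Prime] (K : Type*) [Field K] [NumberField K]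
  [IsCyclotomicExtension {p} ℚ K]

/-- Complex conjugation on `ℤ[ζ_p]`. -/
abbrev cj : 𝓞 K ≃+* 𝓞 K := FA.Ext.sigma p K (-1)

theorem cj_cj (x : 𝓞 K) : cj p K (cj p K x) = x := by
  rw [cj, ← FA.Ext.sigma_mul_apply, neg_one_mul, neg_neg, FA.Ext.sigma_one_apply]

theorem val_neg_one_units : (((-1 : (ZMod p)ˣ) : ZMod p)).val = p - 1 := by
  obtain ⟨q, rfl⟩ : ∃ q, p = q + 1 := ⟨p - 1, by have := (Fact.out : p.Prime).one_le; omega⟩
  rw [Units.val_neg, Units.val_one, ZMod.val_neg_one, Nat.add_sub_cancel]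

theorem cj_zeta : cj p K (FA.Ext.zetaInt p K) = FA.Ext.zetaInt p K ^ (p - 1) := by
  rw [cj, FA.Ext.sigma_zetaInt, val_neg_one_units]

theorem cj_zeta_pow {i : ℕ} (hi : i ≤ p) :
    cj p K (FA.Ext.zetaInt p K ^ i) = FA.Ext.zetaInt p K ^ (p - i) := by
  have hz := (FA.Ext.zetaInt_spec p K).pow_eq_one
  refine mul_left_cancel₀ (pow_ne_zero i ((FA.Ext.zetaInt_spec p K).ne_zero (NeZero.ne p))) ?_
  rw [map_pow, cj_zeta, ← mul_pow, ← pow_succ', Nat.sub_add_cancel (Fact.out : p.Prime).one_le, hz,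
    one_pow, ← pow_add, Nat.add_sub_cancel' hi, hz]

theorem cj_lam :
    cj p K (FA.Ext.zetaInt p K - 1) = -(FA.Ext.zetaInt p K ^ (p - 1) * (FA.Ext.zetaInt p K - 1)) := by
  rw [map_sub, map_one, cj_zeta, mul_sub, mul_one, ← pow_succ,
    Nat.sub_add_cancel (Fact.out : p.Prime).one_le, (FA.Ext.zetaInt_spec p K).pow_eq_one, neg_sub]

/-- The real number `(ζ - 1)(ζ⁻¹ - 1)`. -/
def realLam : 𝓞 K := (FA.Ext.zetaInt p K - 1) * cj p K (FA.Ext.zetaInt p K - 1)

theorem cj_realLam : cj p K (realLam p K) = realLam p K := by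
  rw [realLam, map_mul, cj_cj, mul_comm]

theorem associated_realLam :
    Associated ((FA.Ext.zetaInt p K - 1) ^ 2) (realLam p K) := by
  obtain ⟨u, hu⟩ := ((FA.Ext.zetaInt_spec p K).isUnit (Fact.out : p.Prime).ne_zero).pow (p - 1)
  exact ⟨-u, by rw [Units.val_neg, hu, realLam, cj_lam]; ring⟩

theorem cycloRing_zetaInt (h3 : 3 ≤ p) : CycloRing (𝓞 K) p (FA.Ext.zetaInt p K) :=
  cycloRing_ringOfIntegers h3 (IsCyclotomicExtension.zeta_spec p ℚ K)

/-- `p` is the real unit times a power of `realLam`. -/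
theorem exists_realUnit_prime (h3 : 3 ≤ p) :
    ∃ g : (𝓞 K)ˣ, cj p K (g : 𝓞 K) = (g : 𝓞 K) ∧
      realLam p K ^ ((p - 1) / 2) * (g : 𝓞 K) = (p : 𝓞 K) := by
  have hodd := (Fact.out : p.Prime).eq_two_or_odd
  obtain ⟨g, hg⟩ := ((associated_realLam p K).pow_pow (n := (p - 1) / 2)).symm.trans
    (show Associated (((FA.Ext.zetaInt p K - 1) ^ 2) ^ ((p - 1) / 2)) (p : 𝓞 K) by
      rw [← pow_mul, show 2 * ((p - 1) / 2) = p - 1 by omega]
      exact (cycloRing_zetaInt p K h3).assoc)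
  refine ⟨g, mul_left_cancel₀ (pow_ne_zero ((p - 1) / 2) (fun h => ?_ : realLam p K ≠ 0)) ?_, hg⟩
  · exact (cycloRing_zetaInt p K h3).lam_prime.ne_zero
      ((pow_eq_zero_iff two_ne_zero).mp ((associated_realLam p K).eq_zero_iff.mpr h))
  · have h := congrArg (cj p K) hg
    rw [map_mul, map_pow, cj_realLam, map_natCast] at h
    rw [h, hg]

/-- A real element is congruent to an integer modulo `(ζ - 1)^2`. -/
theorem real_congr_int (h3 : 3 ≤ p) {x : 𝓞 K} (hx : cj p K x = x) :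
    ∃ n : ℤ, (FA.Ext.zetaInt p K - 1) ^ 2 ∣ x - (n : 𝓞 K) := by
  have H := cycloRing_zetaInt p K h3
  set z := FA.Ext.zetaInt p K
  obtain ⟨n, y, hy⟩ := H.residue x
  obtain ⟨k, e, he⟩ := H.residue y
  have h1 := congrArg (cj p K) hy
  rw [map_sub, map_intCast, hx, map_mul, cj_lam, hy] at h1
  have h2 : y = -(z ^ (p - 1) * cj p K y) :=
    mul_left_cancel₀ H.lam_prime.ne_zero (h1.trans (by ring))
  have h3' := congrArg (cj p K) he
  rw [map_sub, map_intCast, map_mul, cj_lam] at h3'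
  obtain ⟨d, hd⟩ := sub_one_dvd_pow_sub_one z (p - 1)
  have h4 : z - 1 ∣ ((2 * k : ℤ) : 𝓞 K) := by
    refine ⟨-e - d * cj p K y + z ^ (p - 1) * cj p K e, ?_⟩
    push_cast
    linear_combination h2 - he - cj p K y * hd - h3'
  have hk : (p : ℤ) ∣ k := ((Nat.prime_iff_prime_int.mp Fact.out).dvd_or_dvd (H.int_dvd _ h4)).resolve_left
    fun h => by have := Int.le_of_dvd two_pos h; omega
  obtain ⟨k', rfl⟩ := hk
  obtain ⟨c, hc⟩ := H.lam_dvd_prime_one
  refine ⟨n, c * (k' : 𝓞 K) + e, ?_⟩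
  push_cast at he
  linear_combination hy + (z - 1) * he + (z - 1) * (k' : 𝓞 K) * hc

/-- A real element divisible by `ζ - 1` is divisible by its square. -/
theorem real_sq_dvd (h3 : 3 ≤ p) {x : 𝓞 K} (hx : cj p K x = x)
    (h : FA.Ext.zetaInt p K - 1 ∣ x) : (FA.Ext.zetaInt p K - 1) ^ 2 ∣ x := by
  have H := cycloRing_zetaInt p K h3
  obtain ⟨n, hn⟩ := real_congr_int p K h3 hx
  have h1 : FA.Ext.zetaInt p K - 1 ∣ (n : 𝓞 K) := by
    simpa using dvd_sub h ((dvd_pow_self _ two_ne_zero).trans hn)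
  have h2 := ((pow_dvd_pow _ (show 2 ≤ p - 1 by omega)).trans H.lam_dvd_prime).trans
    (H.prime_dvd_of_int h1)
  simpa using dvd_add hn h2

/-- A unit sending `x` to its conjugate is a power of `ζ` when `ζ - 1 ∤ x`. -/
theorem exists_conj_eq_zeta_pow (h3 : 3 ≤ p) {x : 𝓞 K} (hl : ¬ FA.Ext.zetaInt p K - 1 ∣ x)
    (v : (𝓞 K)ˣ) (hv : cj p K x = (v : 𝓞 K) * x) :
    ∃ j : ℕ, cj p K x = FA.Ext.zetaInt p K ^ j * x := by
  have H := cycloRing_zetaInt p K h3
  set z := FA.Ext.zetaInt p K with hz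
  have hx0 : x ≠ 0 := fun e => hl (e ▸ dvd_zero _)
  have hvv : cj p K (v : 𝓞 K) * (v : 𝓞 K) = 1 := by
    have h := congrArg (cj p K) hv
    rw [cj_cj, map_mul, hv, ← mul_assoc] at h
    exact (mul_eq_right₀ hx0).mp h.symm
  obtain ⟨s, j, -, hsj⟩ := exists_conj_unit_eq (K := K) (p := p) (by omega) v
  have ht : v ∈ Units.torsion K := by
    refine (CommGroup.mem_torsion (G := (𝓞 K)ˣ) v).mpr (isOfFinOrder_iff_pow_eq_one.mpr
      ⟨2 * (2 * p), by omega, Units.ext ?_⟩)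
    have h := congrArg (· ^ (2 * p)) hvv
    simp only [one_pow, mul_pow] at h
    have e1 : ((-1 : 𝓞 K) ^ s) ^ (2 * p) = 1 := by
      rw [← pow_mul, mul_left_comm, pow_mul, neg_one_sq, one_pow]
    have e2 : (z ^ j) ^ (2 * p) = 1 := by
      rw [← pow_mul, show j * (2 * p) = p * (2 * j) by ring, pow_mul, H.prim.pow_eq_one, one_pow]
    rw [hsj, mul_pow, mul_pow, ← hz, e1, e2, one_mul, one_mul, ← pow_add] at h
    rw [Units.val_pow_eq_pow_val, Units.val_one, ← h]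
    congr 1
    ring
  obtain ⟨r, hr⟩ := FA.Ext.torsion_eq_neg_zeta_pow K p (by omega) ht
  rw [neg_pow, ← hz] at hr
  refine ⟨r, ?_⟩
  rcases neg_one_pow_eq_or (𝓞 K) r with h | h
  · rw [hv, hr, h, one_mul]
  · exfalso
    obtain ⟨k, e, he⟩ := H.residue x
    have h3' := congrArg (cj p K) he
    rw [map_sub, map_intCast, map_mul, cj_lam, hv, hr, h] at h3'
    obtain ⟨d, hd⟩ := sub_one_dvd_pow_sub_one z r
    have h4 : z - 1 ∣ ((2 * k : ℤ) : 𝓞 K) := by
      refine ⟨z ^ (p - 1) * cj p K e - d * x - e, ?_⟩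
      push_cast
      linear_combination -h3' - x * hd - he
    have hk : (p : ℤ) ∣ k := ((Nat.prime_iff_prime_int.mp Fact.out).dvd_or_dvd (H.int_dvd _ h4)).resolve_left
      fun h => by have := Int.le_of_dvd two_pos h; omega
    obtain ⟨k', rfl⟩ := hk
    obtain ⟨c, hc⟩ := H.lam_dvd_prime_one
    refine hl ⟨c * (k' : 𝓞 K) + e, ?_⟩
    push_cast at he
    linear_combination he + (k' : 𝓞 K) * hc

/-- Adjusting by a power of `ζ` makes `x` real when `x̄ = ζ^j x`. -/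
theorem exists_real_mul_zeta_pow (hp2 : p ≠ 2) {x : 𝓞 K} {j : ℕ}
    (hj : cj p K x = FA.Ext.zetaInt p K ^ j * x) :
    ∃ h : ℕ, cj p K (FA.Ext.zetaInt p K ^ h * x) = FA.Ext.zetaInt p K ^ h * x ∧
      (FA.Ext.zetaInt p K ^ h * x) ^ p = x ^ p := by
  have hp : p.Prime := Fact.out
  set z := FA.Ext.zetaInt p K
  have hzp : z ^ p = 1 := (FA.Ext.zetaInt_spec p K).pow_eq_one
  have hodd := hp.eq_two_or_odd
  set h := j * ((p + 1) / 2) with hh
  have h2h : z ^ (2 * h) = z ^ j := by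
    rw [hh, mul_left_comm, show 2 * ((p + 1) / 2) = p + 1 by omega, mul_comm, add_mul, one_mul,
      pow_add, pow_mul, hzp, one_pow, one_mul]
  refine ⟨h, mul_left_cancel₀ (pow_ne_zero h ((FA.Ext.zetaInt_spec p K).ne_zero (NeZero.ne p))) ?_, ?_⟩
  · rw [map_mul, map_pow, cj_zeta, ← mul_assoc, ← mul_pow, ← pow_succ', Nat.sub_add_cancel hp.one_le,
      hzp, one_pow, one_mul, hj, ← h2h, two_mul, pow_add, mul_assoc]
  · rw [mul_pow, ← pow_mul, mul_comm h, pow_mul, hzp, one_pow, one_mul]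

/-- A real element generating a `p`-th power of an ideal. -/
theorem exists_real_root (h3 : 3 ≤ p)
    (hclass : ∀ C : ClassGroup (𝓞 K), C ^ p = 1 → FA.Ext.sigmaCl p K (-1) C = C → C = 1)
    {x : 𝓞 K} (hx : cj p K x = x) (hl : ¬ FA.Ext.zetaInt p K - 1 ∣ x) {I : Ideal (𝓞 K)}
    (hI : Ideal.span {x} = I ^ p) :
    ∃ (e : (𝓞 K)ˣ) (r : 𝓞 K), cj p K (e : 𝓞 K) = (e : 𝓞 K) ∧ cj p K r = r ∧
      x = (e : 𝓞 K) * r ^ p := by
  have hp : p.Prime := Fact.out
  set z := FA.Ext.zetaInt p K with hz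
  have hx0 : x ≠ 0 := fun e => hl (e ▸ dvd_zero _)
  have hI0 : I ≠ ⊥ := fun e => hx0 (by
    rw [e] at hI
    exact Ideal.span_singleton_eq_bot.mp (hI.trans (zero_pow hp.ne_zero)))
  let I₀ : (Ideal (𝓞 K))⁰ := ⟨I, mem_nonZeroDivisors_iff_ne_zero.mpr hI0⟩
  have hmap : I.map (cj p K : 𝓞 K →+* 𝓞 K) = I := by
    refine pow_left_injective hp.ne_zero ?_
    show (I.map (cj p K : 𝓞 K →+* 𝓞 K)) ^ p = I ^ p
    rw [← Ideal.map_pow, ← hI, Ideal.map_span, Set.image_singleton, RingHom.coe_coe, hx]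
  have hC : ClassGroup.mk0 I₀ ^ p = 1 := by
    rw [← map_pow]
    exact (ClassGroup.mk0_eq_one_iff _).mpr ⟨⟨x, hI.symm⟩⟩
  obtain ⟨⟨t, ht⟩⟩ := (ClassGroup.mk0_eq_one_iff I₀.2).mp
    (hclass _ hC (FA.Ext.sigmaCl_mk0 p K (-1) I₀ I₀ hmap.symm))
  replace ht : I = Ideal.span {t} := ht
  obtain ⟨u, hu⟩ := Ideal.span_singleton_eq_span_singleton.mp
    (show Ideal.span {t ^ p} = Ideal.span {x} by rw [← Ideal.span_singleton_pow, ← ht, hI])
  rw [ht, Ideal.map_span, Set.image_singleton, RingHom.coe_coe] at hmap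
  obtain ⟨v, hv⟩ := Ideal.span_singleton_eq_span_singleton.mp hmap.symm
  have hlt : ¬ z - 1 ∣ t := fun h => hl (hu ▸ (dvd_pow h hp.ne_zero).mul_right _)
  obtain ⟨j, hj⟩ := exists_conj_eq_zeta_pow p K h3 hlt v (by rw [← hv, mul_comm])
  obtain ⟨h, hr, hrp⟩ := exists_real_mul_zeta_pow p K (by omega) hj
  refine ⟨u, z ^ h * t, ?_, hr, by rw [hrp, mul_comm, hu]⟩
  have hxe : x = (u : 𝓞 K) * (z ^ h * t) ^ p := by rw [hrp, mul_comm, hu]
  have h1 := congrArg (cj p K) hxe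
  rw [hx, map_mul, map_pow, hr, hxe] at h1
  refine (mul_right_cancel₀ (fun e => hx0 ?_) h1).symm
  rw [hxe, e, mul_zero]

end FA.Regular
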