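import Fermat.Agent.Regular.VandiverUnits
import Fermat.Agent.Regular.VandiverReal

/-!
# The index of the cyclotomic units is prime to `p`

If in every even weight `2 ≤ i ≤ p - 3` some projected cyclotomic unit is no root of unity times a `p`-th
power, every unit is a cyclotomic unit times a `p`-th power, so the cyclotomic units have finite index
prime to `p`.
-/

set_option autoImplicit false

noncomputable section

open NumberField

namespace FA.Regular

variable (p : ℕ) [Fact p.Prime] (K : Type*) [Field K] [NumberField K]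
  [IsCyclotomicExtension {p} ℚ K]

/-- The group generated by the roots of unity and the units `(ζ^a - 1)/(ζ - 1)`. -/
def cycloUnits : Subgroup (𝓞 K)ˣ :=
  Units.torsion K ⊔ Subgroup.closure (Set.range fun a : {a : ℕ // (a : ZMod p) ≠ 0} => cycU p K a.2)

theorem cycU_mem_cycloUnits {a : ℕ} (ha : (a : ZMod p) ≠ 0) : cycU p K ha ∈ cycloUnits p K :=
  Subgroup.mem_sup_right (Subgroup.subset_closure ⟨⟨a, ha⟩, rfl⟩)

theorem sigmaU_cycU_mem (h3 : 3 ≤ p) {a : ℕ} (ha : (a : ZMod p) ≠ 0) (d : (ZMod p)ˣ) :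
    FA.Ext.sigmaU p K d (cycU p K ha) ∈ cycloUnits p K := by
  set e := (d : ZMod p).val
  have he : (e : ZMod p) ≠ 0 := by rw [ZMod.natCast_zmod_val]; exact d.ne_zero
  have hea : ((e * a : ℕ) : ZMod p) ≠ 0 := by rw [Nat.cast_mul]; exact mul_ne_zero he ha
  have h : FA.Ext.sigmaU p K d (cycU p K ha) * cycU p K he = cycU p K hea := by
    refine Units.ext (mul_right_cancel₀
      ((cycloRing_zetaInt p K h3).lam_prime.ne_zero) ?_)
    simp only [Units.val_mul, FA.Ext.sigmaU_coe, cycU, IsUnit.unit_spec, map_sum, map_pow,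
      FA.Ext.sigma_zetaInt]
    rw [mul_assoc, geom_sum_mul, geom_sum_mul, geom_sum_mul, ← pow_mul]
  rw [eq_mul_inv_of_mul_eq h]
  exact mul_mem (cycU_mem_cycloUnits p K hea) (inv_mem (cycU_mem_cycloUnits p K he))

theorem unitProj_cycU_mem (h3 : 3 ≤ p) {a : ℕ} (ha : (a : ZMod p) ≠ 0) (i : ℕ) :
    unitProj p K i (cycU p K ha) ∈ cycloUnits p K := by
  rw [unitProj_apply]
  exact Subgroup.prod_mem _ fun d _ => pow_mem (sigmaU_cycU_mem p K h3 ha d⁻¹) _

/-- Every unit is a cyclotomic unit times a `p`-th power. -/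
theorem exists_eq_cyclo_mul_pow (h5 : 5 ≤ p)
    (hgood : ∀ i, Even i → 2 ≤ i → i ≤ p - 3 → ∃ (a : ℕ) (ha : (a : ZMod p) ≠ 0),
      ∀ t w : (𝓞 K)ˣ, t ∈ Units.torsion K → unitProj p K i (cycU p K ha) ≠ t * w ^ p)
    (u : (𝓞 K)ˣ) : ∃ c ∈ cycloUnits p K, ∃ w : (𝓞 K)ˣ, u = c * w ^ p := by
  set S := cycloUnits p K ⊔ (powMonoidHom p : (𝓞 K)ˣ →* (𝓞 K)ˣ).range
  have hroot : rootTimesPow p K ≤ S := sup_le_sup le_sup_left le_rfl
  suffices u ∈ S by
    obtain ⟨c, hc, _, ⟨w, rfl⟩, h⟩ := Subgroup.mem_sup.mp this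
    exact ⟨c, hc, w, h.symm⟩
  obtain ⟨γ, hγ⟩ := IsCyclic.exists_generator (α := (ZMod p)ˣ)
  refine mem_of_unitProj p K le_sup_right fun i hi => ?_
  have hodd := (Fact.out : p.Prime).eq_two_or_odd
  rcases Nat.even_or_odd i with hev | hodd'
  · rcases (show i = 0 ∨ 2 ≤ i by rw [Nat.even_iff] at hev; omega) with rfl | h2
    · exact hroot (Subgroup.mem_sup_left (unitProj_zero_mem p K u))
    · obtain ⟨a, ha, hne⟩ := hgood i hev h2 (by rw [Nat.even_iff] at hev; omega)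
      obtain ⟨c, t, w, ht, huc⟩ := FA.Ext.exists_eq_torsion_mul_pow K p hγ
        ((γ : ZMod p) ^ i).val (sigmaU_unitProj p K i γ u)
        (sigmaU_unitProj p K i γ (cycU p K ha)) hne
      rw [huc]
      exact mul_mem (Subgroup.mem_sup_left (mul_mem (Subgroup.mem_sup_left ht)
        (pow_mem (unitProj_cycU_mem p K (by omega) ha i) c))) (Subgroup.mem_sup_right ⟨w, rfl⟩)
  · exact hroot (unitProj_odd_mem p K h5 hodd' u)

/-- **The index of the cyclotomic units is finite and prime to `p`.** -/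
theorem cycloUnits_index (h5 : 5 ≤ p)
    (hgood : ∀ i, Even i → 2 ≤ i → i ≤ p - 3 → ∃ (a : ℕ) (ha : (a : ZMod p) ≠ 0),
      ∀ t w : (𝓞 K)ˣ, t ∈ Units.torsion K → unitProj p K i (cycU p K ha) ≠ t * w ^ p) :
    (cycloUnits p K).FiniteIndex ∧ ¬ p ∣ (cycloUnits p K).index := by
  have hp : p.Prime := Fact.out
  set C := cycloUnits p K
  let N : Submodule ℤ (Additive (𝓞 K)ˣ) := AddSubgroup.toIntSubmodule (Subgroup.toAddSubgroup C)
  obtain ⟨r, hr1, hr⟩ := Submodule.exists_sub_one_mem_and_smul_eq_zero_of_fg_of_le_smul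
    (Ideal.span {(p : ℤ)}) (⊤ : Submodule ℤ (Additive (𝓞 K)ˣ ⧸ N)) Module.Finite.fg_top (by
      rintro x -
      obtain ⟨y, rfl⟩ := Submodule.Quotient.mk_surjective N x
      obtain ⟨c, hc, w, hw⟩ := exists_eq_cyclo_mul_pow p K h5 hgood (Additive.toMul y)
      rw [show Submodule.Quotient.mk y = (p : ℤ) • Submodule.Quotient.mk (p := N) (Additive.ofMul w) by
        rw [← Submodule.Quotient.mk_smul, Submodule.Quotient.eq]
        show Additive.toMul (y - (p : ℤ) • Additive.ofMul w) ∈ C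
        rw [toMul_sub, toMul_zsmul, toMul_ofMul, zpow_natCast, hw, mul_div_cancel_right]
        exact hc]
      exact Submodule.smul_mem_smul (Ideal.mem_span_singleton_self _) Submodule.mem_top)
  have hrC : ∀ u : (𝓞 K)ˣ, u ^ r ∈ C := fun u => by
    have h := hr (Submodule.Quotient.mk (Additive.ofMul u)) Submodule.mem_top
    rw [← Submodule.Quotient.mk_smul, Submodule.Quotient.mk_eq_zero] at h
    exact h
  rw [Ideal.mem_span_singleton] at hr1
  have hr0 : r ≠ 0 := by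
    rintro rfl
    have := Int.le_of_dvd one_pos (dvd_neg.mp (by simpa using hr1))
    omega
  have : Group.FG (𝓞 K)ˣ :=
    Group.fg_def.mpr ((Subgroup.fg_iff_add_fg ⊤).mpr
      (AddGroup.fg_def.mp (Module.Finite.iff_addGroup_fg.mp inferInstance)))
  have hfin : Finite ((𝓞 K)ˣ ⧸ C) := CommGroup.finite_of_fg_isMulTorsion ((𝓞 K)ˣ ⧸ C) fun x => by
    obtain ⟨u, rfl⟩ := QuotientGroup.mk_surjective x
    refine isOfFinOrder_iff_pow_eq_one.mpr ⟨r.natAbs, Int.natAbs_pos.mpr hr0, pow_natAbs_eq_one.mpr ?_⟩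
    rw [← QuotientGroup.mk_zpow, QuotientGroup.eq_one_iff]
    exact hrC u
  refine ⟨Subgroup.finiteIndex_of_finite_quotient, fun hdvd => ?_⟩
  obtain ⟨x, hx⟩ := exists_prime_orderOf_dvd_card' p (G := (𝓞 K)ˣ ⧸ C) hdvd
  obtain ⟨u, rfl⟩ := QuotientGroup.mk_surjective x
  have h1 : (p : ℤ) ∣ r := hx ▸ orderOf_dvd_iff_zpow_eq_one.mpr (by
    rw [← QuotientGroup.mk_zpow, QuotientGroup.eq_one_iff]; exact hrC u)
  have h2 := Int.le_of_dvd one_pos (show (p : ℤ) ∣ 1 by simpa using dvd_sub h1 hr1)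
  omega

end FA.Regular
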