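import Fermat.Agent.Regular.VandiverReal

/-!
# The factors in Vandiver's descent

From `ω^p + θ^p = η λ^(pN) ξ^p` with `ω, θ, η` real and `λ = (ζ - 1)(ζ⁻¹ - 1)`: `ω + θ` and the products
of conjugate factors are real units times `p`-th powers of real numbers, up to powers of `λ`.
-/

set_option autoImplicit false

noncomputable section

open NumberField

namespace FA.Regular

variable (p : ℕ) [Fact p.Prime] (K : Type*) [Field K] [NumberField K]
  [IsCyclotomicExtension {p} ℚ K]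

/-- `∑ ζ^k`, `k < i`. -/
def geomS (i : ℕ) : 𝓞 K := ∑ k ∈ Finset.range i, FA.Ext.zetaInt p K ^ k

/-- The product of `geomS i` and its conjugate. -/
def gSq (i : ℕ) : 𝓞 K := geomS p K i * cj p K (geomS p K i)

theorem cj_gSq (i : ℕ) : cj p K (gSq p K i) = gSq p K i := by
  rw [gSq, map_mul, cj_cj, mul_comm]

theorem isUnit_gSq {i : ℕ} (hi : i ∈ Finset.Ico 1 p) : IsUnit (gSq p K i) := by
  have hp : p.Prime := Fact.out
  rw [Finset.mem_Ico] at hi
  have h : IsUnit (geomS p K i) := (FA.Ext.zetaInt_spec p K).geom_sum_isUnit hp.two_le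
    ((hp.coprime_iff_not_dvd.2 (Nat.not_dvd_of_pos_of_lt hi.1 hi.2)).symm)
  exact h.mul (h.map _)

theorem realLam_mul_gSq {i : ℕ} (hi : i ≤ p) :
    realLam p K * gSq p K i =
      (FA.Ext.zetaInt p K ^ i - 1) * (FA.Ext.zetaInt p K ^ (p - i) - 1) := by
  have h : (FA.Ext.zetaInt p K - 1) * geomS p K i = FA.Ext.zetaInt p K ^ i - 1 := mul_geom_sum _ i
  rw [realLam, gSq, mul_mul_mul_comm, ← map_mul, h, map_sub, map_one, cj_zeta_pow p K hi]

/-- The factors, for every exponent `E ≥ p` of `λ`. -/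
theorem exists_factors_exp (h5 : 5 ≤ p)
    (hclass : ∀ C : ClassGroup (𝓞 K), C ^ p = 1 → FA.Ext.sigmaCl p K (-1) C = C → C = 1)
    {E : ℕ} (hE : p ≤ E) {ω θ ξ : 𝓞 K} (η : (𝓞 K)ˣ) (hω : cj p K ω = ω) (hθ : cj p K θ = θ)
    (hlθ : ¬ FA.Ext.zetaInt p K - 1 ∣ θ) (hco : IsCoprime ω θ)
    (hlξ : ¬ FA.Ext.zetaInt p K - 1 ∣ ξ)
    (heq : ω ^ p + θ ^ p = (η : 𝓞 K) * realLam p K ^ E * ξ ^ p) :
    ∃ (e : ℕ → (𝓞 K)ˣ) (R : ℕ → 𝓞 K),
      (∀ i, cj p K (e i : 𝓞 K) = (e i : 𝓞 K)) ∧ (∀ i, cj p K (R i) = R i) ∧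
      ω + θ = realLam p K ^ (E - (p - 1) / 2) * ((e 0 : 𝓞 K) * R 0 ^ p) ∧
      ¬ FA.Ext.zetaInt p K - 1 ∣ R 0 ∧
      (∀ i ∈ Finset.Ico 1 p,
        (ω + FA.Ext.zetaInt p K ^ i * θ) * (ω + FA.Ext.zetaInt p K ^ (p - i) * θ) =
            realLam p K * gSq p K i * ((e i : 𝓞 K) * R i ^ p) ∧
        gSq p K i * ((e i : 𝓞 K) * R i ^ p + ω * θ) =
            realLam p K ^ (2 * E - p) * ((e 0 : 𝓞 K) * R 0 ^ p) ^ 2 ∧
        ¬ FA.Ext.zetaInt p K - 1 ∣ R i) ∧
      IsCoprime (R 1) (R 2) ∧ R 0 ∣ ξ ^ p ∧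
      ∃ P : Ideal (𝓞 K), P.IsMaximal ∧ ξ ∈ P ∧ R 0 ∉ P := by
  classical
  have hp : p.Prime := Fact.out
  have hodd : Odd p := hp.odd_of_ne_two (by omega)
  have hpmod := Nat.odd_iff.mp hodd
  have H := cycloRing_zetaInt p K (by omega)
  set z := FA.Ext.zetaInt p K with hz
  set L := realLam p K with hL
  set l := z - 1 with hl
  have hlam := H.lam_prime
  have hzp : z ^ p = 1 := H.prim.pow_eq_one
  have hz1 : z ^ (p - 1) * z = 1 := by rw [← pow_succ, Nat.sub_add_cancel hp.one_le, hzp]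
  have hLl : L = l * cj p K l := rfl
  have hcl : cj p K l = -(z ^ (p - 1) * l) := cj_lam p K
  have hL0 : L ≠ 0 := fun h =>
    hlam.ne_zero ((pow_eq_zero_iff two_ne_zero).mp ((associated_realLam p K).eq_zero_iff.mpr h))
  set m := (p - 1) / 2 with hm
  set M := E - m with hM
  have hprod0 : l ∣ ∏ i ∈ Finset.range p, (ω + z ^ i * θ) := by
    rw [← H.pow_add_pow_eq_prod hodd, heq]
    exact dvd_mul_of_dvd_left (dvd_mul_of_dvd_right
      (((dvd_pow_self l two_ne_zero).trans (associated_realLam p K).dvd).trans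
        (dvd_pow_self L (by omega : E ≠ 0))) _) _
  have hl2 : l ^ 2 ∣ ω + θ := by
    refine real_sq_dvd p K (by omega) (by rw [map_add, hω, hθ]) ?_
    obtain ⟨i, -, hi⟩ := (hlam.dvd_finsetProd_iff _).1 hprod0
    have := dvd_sub hi (dvd_mul_of_dvd_left (sub_one_dvd_pow_sub_one z i) θ)
    convert this using 1
    ring
  obtain ⟨w, hw⟩ := (dvd_pow_self l two_ne_zero).trans hl2
  have hlw : l ∣ w := by
    rw [hw, pow_two] at hl2
    exact (mul_dvd_mul_iff_left hlam.ne_zero).mp hl2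
  set a : ℕ → 𝓞 K := fun i => w + geomS p K i * θ with ha
  have hfac : ∀ i, ω + z ^ i * θ = l * a i := by
    intro i
    have h : l * geomS p K i = z ^ i - 1 := mul_geom_sum z i
    simp only [ha]
    linear_combination hw - θ * h
  have hndvd : ∀ i, 0 < i → i < p → ¬ l ∣ a i := by
    intro i hi0 hip h
    have h1 : l ∣ geomS p K i * θ := by simpa [ha] using dvd_sub h hlw
    rcases hlam.dvd_or_dvd h1 with h2 | h2
    · have h3 : l ∣ ((i : ℤ) : 𝓞 K) := by
        have := dvd_sub h2 (H.geom_sum_congr i)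
        rw [Int.cast_natCast]
        rwa [geomS, ← hz, sub_sub_cancel] at this
      exact Nat.not_dvd_of_pos_of_lt hi0 hip (Int.natCast_dvd_natCast.1 (H.int_dvd _ h3))
    · exact hlθ h2
  have hcop : ∀ i j, i < p → j < p → i ≠ j → IsCoprime (a i) (a j) := by
    intro i j hi hj hij
    obtain ⟨U, hU⟩ := H.geom_sum_sub_isUnit hi hj hij
    obtain ⟨A, B, hAB⟩ := hco
    have hyab : θ = (↑U⁻¹ : 𝓞 K) * (a i - a j) := by
      have : a i - a j = (U : 𝓞 K) * θ := by simp only [ha, geomS]; rw [hU]; ring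
      rw [this, Units.inv_mul_cancel_left]
    have hwab : w = a i - geomS p K i * θ := by simp [ha]
    set c := B - A - A * l * geomS p K i with hc
    refine ⟨A * l + c * ↑U⁻¹, -(c * ↑U⁻¹), ?_⟩
    linear_combination hAB + (-A) * hw + (-(A * l)) * hwab + (-c) * hyab
  have hconj : ∀ i, i ≤ p → cj p K l * cj p K (a i) = ω + z ^ (p - i) * θ := by
    intro i hi
    rw [← map_mul, ← hfac, map_add, map_mul, hω, hθ, hz, cj_zeta_pow p K hi]
  have hca : ∀ i, i ≤ p → cj p K (a i) = -(z * a (p - i)) := by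
    intro i hi
    have h := hconj i hi
    rw [hfac, hcl] at h
    refine mul_left_cancel₀ hlam.ne_zero ?_
    linear_combination (-z) * h - l * cj p K (a i) * hz1
  obtain ⟨u₀, hu₀⟩ : Associated (l ^ (p - 1)) (L ^ m) := by
    have h := (associated_realLam p K).pow_pow (n := m)
    rwa [← pow_mul, show 2 * m = p - 1 by omega] at h
  have hmain : (ω + θ) * ∏ i ∈ Finset.Ico 1 p, a i = L ^ M * (((η * u₀ : (𝓞 K)ˣ) : 𝓞 K) * ξ ^ p) := by
    refine mul_left_cancel₀ (pow_ne_zero (p - 1) hlam.ne_zero) ?_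
    have h := H.pow_add_pow_eq_prod hodd ω θ
    rw [heq, Finset.range_eq_Ico, Finset.prod_eq_prod_Ico_succ_bot hp.pos, pow_zero, one_mul,
      Finset.prod_congr rfl fun i _ => hfac i, Finset.prod_mul_distrib, Finset.prod_const, Nat.card_Ico,
      show E = m + M by omega, pow_add, ← hu₀] at h
    rw [Units.val_mul]
    linear_combination -h
  obtain ⟨w0, hw0⟩ : L ^ M ∣ ω + θ := by
    have h2M : (l ^ 2) ^ M ∣ ω + θ := by
      rw [← pow_mul]
      refine hlam.pow_dvd_of_dvd_mul_right _ (fun hd => ?_) ?_ (b := ∏ i ∈ Finset.Ico 1 p, a i)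
      · obtain ⟨i, hi, hdvd⟩ := (hlam.dvd_finsetProd_iff _).1 hd
        rw [Finset.mem_Ico] at hi
        exact hndvd i (by omega) hi.2 hdvd
      · rw [hmain, pow_mul]
        exact dvd_mul_of_dvd_left ((associated_realLam p K).pow_pow).dvd _
    exact ((associated_realLam p K).pow_pow).symm.dvd.trans h2M
  have hprod : w0 * ∏ i ∈ Finset.Ico 1 p, a i = ((η * u₀ : (𝓞 K)ˣ) : 𝓞 K) * ξ ^ p := by
    refine mul_left_cancel₀ (pow_ne_zero M hL0) ?_
    rw [← mul_assoc, ← hw0, hmain]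
  have hw0l : ¬ l ∣ w0 := by
    intro h
    have : l ∣ ((η * u₀ : (𝓞 K)ˣ) : 𝓞 K) * ξ ^ p := hprod ▸ dvd_mul_of_dvd_left h _
    rcases hlam.dvd_or_dvd this with h | h
    · exact H.lam_not_dvd_unit _ h
    · exact hlξ (hlam.dvd_of_dvd_pow h)
  have hw0real : cj p K w0 = w0 := by
    refine mul_left_cancel₀ (pow_ne_zero M hL0) ?_
    have h := congrArg (cj p K) hw0
    rw [map_add, hω, hθ, map_mul, map_pow, hL, cj_realLam, ← hL] at h
    rw [← h, hw0]
  have hwexp : w = cj p K l * L ^ (M - 1) * w0 := by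
    refine mul_left_cancel₀ hlam.ne_zero ?_
    rw [← hw, hw0, show L ^ M = L * L ^ (M - 1) by rw [← pow_succ', Nat.sub_add_cancel (by omega : 1 ≤ M)],
      hLl]
    ring
  have ha0 : a 0 = w := by simp [ha, geomS]
  have hw0cop : ∀ i ∈ Finset.Ico 1 p, IsCoprime w0 (a i) := by
    intro i hi
    rw [Finset.mem_Ico] at hi
    have h := hcop 0 i (by omega) hi.2 (by omega)
    rw [ha0, hwexp] at h
    exact h.of_mul_left_right
  set b : ℕ → 𝓞 K := fun i => if i = 0 then w0 else a i with hb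
  have hideal : ∀ i ∈ Finset.range p, ∃ I : Ideal (𝓞 K), Ideal.span {b i} = I ^ p := by
    refine Finset.exists_eq_pow_of_mul_eq_pow_of_coprime (c := Ideal.span {ξ}) (fun i hi j hj hij => ?_) ?_
    · rw [Finset.mem_range] at hi hj
      rw [Ideal.isCoprime_span_singleton_iff]
      simp only [hb]
      split_ifs with h1 h2 h2
      · omega
      · exact hw0cop j (Finset.mem_Ico.mpr ⟨by omega, hj⟩)
      · exact (hw0cop i (Finset.mem_Ico.mpr ⟨by omega, hi⟩)).symm
      · exact hcop i j hi hj hij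
    · rw [Ideal.prod_span_singleton, Ideal.span_singleton_pow, Finset.range_eq_Ico,
        Finset.prod_eq_prod_Ico_succ_bot hp.pos,
        Finset.prod_congr rfl (g := a) fun i hi => if_neg (by rw [Finset.mem_Ico] at hi; omega),
        show b 0 = w0 from if_pos rfl, hprod]
      exact Ideal.span_singleton_eq_span_singleton.mpr
        (associated_unit_mul_left _ _ (Units.isUnit _))
  have hroot : ∀ i, ∃ (e : (𝓞 K)ˣ) (r : 𝓞 K), cj p K (e : 𝓞 K) = (e : 𝓞 K) ∧ cj p K r = r ∧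
      (i = 0 → w0 = (e : 𝓞 K) * r ^ p) ∧
      (i ∈ Finset.Ico 1 p → a i * cj p K (a i) = gSq p K i * ((e : 𝓞 K) * r ^ p)) := by
    intro i
    rcases Nat.eq_zero_or_pos i with rfl | hi0
    · obtain ⟨I, hI⟩ := hideal 0 (Finset.mem_range.mpr hp.pos)
      rw [show b 0 = w0 from if_pos rfl] at hI
      obtain ⟨e, r, he, hr, her⟩ := exists_real_root p K (by omega) hclass hw0real hw0l hI
      exact ⟨e, r, he, hr, fun _ => her, fun h => absurd h (by simp)⟩
    by_cases hip : p ≤ i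
    · exact ⟨1, 1, by simp, by simp, fun h => absurd h (by omega),
        fun h => absurd (Finset.mem_Ico.mp h).2 (by omega)⟩
    have hi : i ∈ Finset.Ico 1 p := Finset.mem_Ico.mpr ⟨hi0, by omega⟩
    obtain ⟨gu, hgu⟩ := isUnit_gSq p K hi
    set x := (↑gu⁻¹ : 𝓞 K) * (a i * cj p K (a i)) with hx
    have hgx : gSq p K i * x = a i * cj p K (a i) := by rw [hx, ← hgu, Units.mul_inv_cancel_left]
    have hxreal : cj p K x = x := by
      refine mul_left_cancel₀ (hgu ▸ gu.ne_zero) ?_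
      have h := congrArg (cj p K) hgx
      rw [map_mul (cj p K) (gSq p K i) x, cj_gSq, map_mul (cj p K) (a i), cj_cj,
        mul_comm (cj p K (a i))] at h
      rw [h, hgx]
    obtain ⟨uz, huz⟩ := H.prim.isUnit hp.ne_zero
    have hxu : x = ((gu⁻¹ * -uz : (𝓞 K)ˣ) : 𝓞 K) * (a i * a (p - i)) := by
      rw [hx, hca i (by omega), Units.val_mul, Units.val_neg, huz]; ring
    have hxl : ¬ l ∣ x := by
      intro h
      rw [hxu] at h
      rcases hlam.dvd_or_dvd h with h | h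
      · exact H.lam_not_dvd_unit _ h
      · rcases hlam.dvd_or_dvd h with h | h
        · exact hndvd i hi0 (by omega) h
        · exact hndvd (p - i) (by omega) (by omega) h
    obtain ⟨I, hI⟩ := hideal i (Finset.mem_range.mpr (by omega))
    obtain ⟨J, hJ⟩ := hideal (p - i) (Finset.mem_range.mpr (by omega))
    rw [show b i = a i from if_neg (by omega)] at hI
    rw [show b (p - i) = a (p - i) from if_neg (by omega)] at hJ
    obtain ⟨e, r, he, hr, her⟩ := exists_real_root p K (by omega) hclass hxreal hxl (I := I * J) (by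
      rw [mul_pow, ← hI, ← hJ, Ideal.span_singleton_mul_span_singleton, hxu]
      exact Ideal.span_singleton_eq_span_singleton.mpr
        (associated_unit_mul_left _ _ (Units.isUnit _)))
    exact ⟨e, r, he, hr, fun h => absurd h (by omega), fun _ => by rw [← her, hgx]⟩
  choose e R he hR h0 hi' using hroot
  have hRdvd : ∀ i ∈ Finset.Ico 1 p, R i ∣ a i * cj p K (a i) := fun i hi => by
    rw [hi' i hi]
    exact dvd_mul_of_dvd_right (dvd_mul_of_dvd_right (dvd_pow_self _ hp.ne_zero) _) _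
  have hlR : ∀ i ∈ Finset.Ico 1 p, ¬ l ∣ R i := by
    intro i hi h
    have h' := h.trans (hRdvd i hi)
    rw [Finset.mem_Ico] at hi
    rw [hca i hi.2.le, mul_neg, dvd_neg] at h'
    rcases hlam.dvd_or_dvd h' with h | h
    · exact hndvd i hi.1 hi.2 h
    · rcases hlam.dvd_or_dvd h with h | h
      · exact hlam.not_isUnit (isUnit_of_dvd_unit h (H.prim.isUnit hp.ne_zero))
      · exact hndvd (p - i) (by omega) (by omega) h
  have hsq : ∀ i ≤ p, (ω + z ^ i * θ) * (ω + z ^ (p - i) * θ) = L * (a i * cj p K (a i)) := by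
    intro i hi
    rw [← hconj i hi, hfac, hLl]
    ring
  refine ⟨e, R, he, hR, by rw [← h0 0 rfl]; exact hw0, fun h => hw0l ?_, fun i hi => ⟨?_, ?_, hlR i hi⟩,
    ?_, ?_, ?_⟩
  · rw [h0 0 rfl]
    exact dvd_mul_of_dvd_right (dvd_pow h hp.ne_zero) _
  · rw [hsq i (Finset.mem_Ico.mp hi).2.le, hi' i hi, mul_assoc]
  · have hip := (Finset.mem_Ico.mp hi).2.le
    have h1 := hsq i hip
    rw [hi' i hi] at h1
    have h2 : L * gSq p K i = (z ^ i - 1) * (z ^ (p - i) - 1) := realLam_mul_gSq p K hip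
    have h3 : z ^ i * z ^ (p - i) = 1 := by rw [← pow_add, Nat.add_sub_cancel' hip, hzp]
    refine mul_left_cancel₀ hL0 ?_
    rw [← h0 0 rfl, ← mul_assoc L (L ^ _), ← pow_succ', show 2 * E - p + 1 = M + M by omega, pow_add]
    linear_combination (ω + θ + L ^ M * w0) * hw0 - h1 + ω * θ * h2
      + (ω * θ + θ ^ 2) * h3
  · have hR12 : ∀ i j, i < p → j < p → i ≠ j → IsCoprime (a i) (a j) := hcop
    obtain ⟨uz, huz⟩ := H.prim.isUnit hp.ne_zero
    have hc : ∀ i, i ≤ p → cj p K (a i) = ((-uz : (𝓞 K)ˣ) : 𝓞 K) * a (p - i) := fun i hi => by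
      rw [hca i hi, Units.val_neg, huz, neg_mul]
    have hh : IsCoprime (a 1 * cj p K (a 1)) (a 2 * cj p K (a 2)) := by
      rw [hc 1 (by omega), hc 2 (by omega)]
      refine (IsCoprime.mul_left (IsCoprime.mul_right (hcop _ _ (by omega) (by omega) (by omega))
        ((isCoprime_mul_unit_left_right (Units.isUnit _) _ _).mpr ?_))
        ((isCoprime_mul_unit_left_left (Units.isUnit _) _ _).mpr (IsCoprime.mul_right ?_
          ((isCoprime_mul_unit_left_right (Units.isUnit _) _ _).mpr ?_))))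
      all_goals exact hcop _ _ (by omega) (by omega) (by omega)
    exact (hh.of_isCoprime_of_dvd_left (hRdvd 1 (Finset.mem_Ico.mpr ⟨le_rfl, by omega⟩))).of_isCoprime_of_dvd_right
      (hRdvd 2 (Finset.mem_Ico.mpr ⟨by omega, by omega⟩))
  · have hw0d : w0 ∣ ξ ^ p :=
      (Units.dvd_mul_left (u := η * u₀)).mp ⟨∏ i ∈ Finset.Ico 1 p, a i, hprod.symm⟩
    have hR0 : R 0 ∣ w0 := by
      rw [h0 0 rfl]
      exact (dvd_pow_self (R 0) hp.ne_zero).mul_left _
    exact hR0.trans hw0d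
  · have h1 : (1 : ℕ) ∈ Finset.Ico 1 p := Finset.mem_Ico.mpr ⟨le_rfl, by omega⟩
    have hnu : ¬ IsUnit (a 1) := by
      rintro ⟨u, hu⟩
      obtain ⟨j, hj⟩ := exists_conj_eq_zeta_pow p K (by omega) (hndvd 1 one_pos (by omega))
        (FA.Ext.sigmaU p K (-1) u * u⁻¹) (by
          rw [Units.val_mul, FA.Ext.sigmaU_coe, ← hu, mul_assoc, Units.inv_mul, mul_one])
      rw [← hz] at hj
      obtain ⟨n, c₁, hc₁⟩ := real_congr_int p K (by omega) hθ
      obtain ⟨c₂, hc₂⟩ : l ^ 2 ∣ w := by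
        rw [hwexp, show L ^ (M - 1) = L * L ^ (M - 2) by
          rw [← pow_succ', show M - 2 + 1 = M - 1 by omega]]
        exact dvd_mul_of_dvd_left (dvd_mul_of_dvd_right
          (dvd_mul_of_dvd_left (associated_realLam p K).dvd _) _) _
      have ha1 : a 1 = w + θ := by simp [ha, geomS]
      have h2 : a 1 - (n : 𝓞 K) = l ^ 2 * (c₁ + c₂) := by linear_combination ha1 + hc₁ + hc₂
      have h3 := congrArg (cj p K) h2
      rw [map_sub, map_intCast, map_mul, map_pow, hcl, hj] at h3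
      have h4 : l * l ∣ l * (geomS p K j * a 1) := by
        have h : l * geomS p K j = z ^ j - 1 := mul_geom_sum z j
        refine ⟨(z ^ (p - 1)) ^ 2 * cj p K (c₁ + c₂) - (c₁ + c₂), ?_⟩
        linear_combination a 1 * h + h3 - h2
      have h5' := (hlam.dvd_or_dvd ((mul_dvd_mul_iff_left hlam.ne_zero).mp h4)).resolve_right
        (hndvd 1 one_pos (by omega))
      have h6 : l ∣ ((j : ℤ) : 𝓞 K) := by
        have := dvd_sub h5' (H.geom_sum_congr j)
        rw [Int.cast_natCast]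
        rwa [geomS, ← hz, sub_sub_cancel] at this
      obtain ⟨j', rfl⟩ := Int.natCast_dvd_natCast.1 (H.int_dvd _ h6)
      rw [pow_mul, hzp, one_pow, one_mul] at hj
      have h7 := hconj 1 (by omega)
      rw [hj, hcl] at h7
      have h8 : (1 + z ^ (p - 1)) * (ω + θ) = 0 := by
        have h9 := hfac 1
        rw [pow_one] at h9
        linear_combination -h7 + z ^ (p - 1) * h9 - θ * hz1
      rcases mul_eq_zero.mp h8 with h | h
      · have h' : z ^ (p - 1) = -1 := eq_neg_of_add_eq_zero_right h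
        have : (z ^ (p - 1)) ^ p = (-1) ^ p := by rw [h']
        rw [← pow_mul, mul_comm, pow_mul, hzp, one_pow, hodd.neg_one_pow] at this
        exact two_ne_zero (α := 𝓞 K) (by linear_combination this)
      · rw [hw0] at h
        rcases mul_eq_zero.mp h with h | h
        · exact pow_ne_zero M hL0 h
        · exact hw0l (h ▸ dvd_zero _)
    obtain ⟨P, hP, hle⟩ := Ideal.exists_le_maximal _ (fun h => hnu (Ideal.span_singleton_eq_top.mp h))
    have haP : a 1 ∈ P := hle (Ideal.mem_span_singleton_self _)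
    have hξP : ξ ^ p ∈ P := by
      have : ((η * u₀ : (𝓞 K)ˣ) : 𝓞 K) * ξ ^ p ∈ P := by
        rw [← hprod]
        exact P.mul_mem_left _ (Ideal.mem_of_dvd P (Finset.dvd_prod_of_mem a h1) haP)
      exact (Ideal.unit_mul_mem_iff_mem P (Units.isUnit _)).mp this
    refine ⟨P, hP, hP.isPrime.mem_of_pow_mem _ hξP, fun h => ?_⟩
    have hwP : w0 ∈ P := by
      rw [h0 0 rfl]
      exact P.mul_mem_left _ (Ideal.pow_mem_of_mem P h p hp.pos)
    obtain ⟨A, B, hAB⟩ := hw0cop 1 h1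
    exact hP.ne_top ((Ideal.eq_top_iff_one _).mpr
      (hAB ▸ P.add_mem (P.mul_mem_left A hwP) (P.mul_mem_left B haP)))

/-- The factors. -/
theorem exists_factors (h5 : 5 ≤ p)
    (hclass : ∀ C : ClassGroup (𝓞 K), C ^ p = 1 → FA.Ext.sigmaCl p K (-1) C = C → C = 1)
    {N : ℕ} (hN : 1 ≤ N) {ω θ ξ : 𝓞 K} (η : (𝓞 K)ˣ) (hω : cj p K ω = ω) (hθ : cj p K θ = θ)
    (hlθ : ¬ FA.Ext.zetaInt p K - 1 ∣ θ) (hco : IsCoprime ω θ)
    (hlξ : ¬ FA.Ext.zetaInt p K - 1 ∣ ξ)
    (heq : ω ^ p + θ ^ p = (η : 𝓞 K) * realLam p K ^ (p * N) * ξ ^ p) :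
    ∃ (e : ℕ → (𝓞 K)ˣ) (R : ℕ → 𝓞 K),
      (∀ i, cj p K (e i : 𝓞 K) = (e i : 𝓞 K)) ∧ (∀ i, cj p K (R i) = R i) ∧
      ω + θ = realLam p K ^ (p * N - (p - 1) / 2) * ((e 0 : 𝓞 K) * R 0 ^ p) ∧
      ¬ FA.Ext.zetaInt p K - 1 ∣ R 0 ∧
      (∀ i ∈ Finset.Ico 1 p,
        (ω + FA.Ext.zetaInt p K ^ i * θ) * (ω + FA.Ext.zetaInt p K ^ (p - i) * θ) =
            realLam p K * gSq p K i * ((e i : 𝓞 K) * R i ^ p) ∧
        gSq p K i * ((e i : 𝓞 K) * R i ^ p + ω * θ) =
            realLam p K ^ (p * (2 * N - 1)) * ((e 0 : 𝓞 K) * R 0 ^ p) ^ 2 ∧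
        ¬ FA.Ext.zetaInt p K - 1 ∣ R i) ∧
      IsCoprime (R 1) (R 2) ∧ R 0 ∣ ξ ^ p ∧
      ∃ P : Ideal (𝓞 K), P.IsMaximal ∧ ξ ∈ P ∧ R 0 ∉ P := by
  rw [show p * (2 * N - 1) = 2 * (p * N) - p by rw [Nat.mul_sub, mul_one, mul_left_comm]]
  exact exists_factors_exp p K h5 hclass (Nat.le_mul_of_pos_right _ hN) η hω hθ hlθ hco hlξ heq

end FA.Regular
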