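import Fermat.Agent.Regular.VandiverGeneric

/-!
# The finite data for Vandiver's descent at `101`, `103`, `131` and `149`
-/

set_option autoImplicit false

namespace FA.Regular

theorem root_oneHundredOne : ∑ i ∈ Finset.range 101, (256 : ZMod 809) ^ i = 0 := by decide +kernel

theorem residueSymbol_oneHundredOne : residueSymbol 101 68 809 256 2 ≠ 1 := by decide +kernel

theorem residueSymbol_oneHundredOne_sq :
    residueSymbol 101 68 809 (256 ^ 2) 2 = residueSymbol 101 68 809 256 2 ^ 52 := by decide +kernel

theorem certSingle_oneHundredOne : certSingle 101 809 256 = true := by decide +kernel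

theorem certDouble_oneHundredOne : certDouble 101 809 256 52 = true := by decide +kernel

theorem auxPowers_oneHundredOne :
    AuxPowers 101 809 ([0, 1, 44, 239, 318, 491, 570, 765, 808] : List (ZMod 809)) :=
  ⟨by decide +kernel, by decide +kernel, by decide +kernel, by decide +kernel⟩

theorem root_oneHundredThree : ∑ i ∈ Finset.range 103, (1024 : ZMod 1031) ^ i = 0 := by decide +kernel

theorem residueSymbol_oneHundredThree : residueSymbol 103 24 1031 1024 2 ≠ 1 := by decide +kernel

theorem residueSymbol_oneHundredThree_sq :
    residueSymbol 103 24 1031 (1024 ^ 2) 2 = residueSymbol 103 24 1031 1024 2 ^ 61 := by decide +kernel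

theorem certSingle_oneHundredThree : certSingle 103 1031 1024 = true := by decide +kernel

theorem certDouble_oneHundredThree : certDouble 103 1031 1024 61 = true := by decide +kernel

theorem auxPowers_oneHundredThree :
    AuxPowers 103 1031 ([0, 1, 264, 371, 412, 513, 518, 619, 660, 767, 1030] : List (ZMod 1031)) :=
  ⟨by decide +kernel, by decide +kernel, by decide +kernel, by decide +kernel⟩

theorem root_oneHundredThirtyOne : ∑ i ∈ Finset.range 131, (256 : ZMod 1049) ^ i = 0 := by decide +kernel

theorem residueSymbol_oneHundredThirtyOne : residueSymbol 131 22 1049 256 2 ≠ 1 := by decide +kernel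

theorem residueSymbol_oneHundredThirtyOne_sq :
    residueSymbol 131 22 1049 (256 ^ 2) 2 = residueSymbol 131 22 1049 256 2 ^ 77 := by decide +kernel

theorem certSingle_oneHundredThirtyOne : certSingle 131 1049 256 = true := by decide +kernel

theorem certDouble_oneHundredThirtyOne : certDouble 131 1049 256 77 = true := by decide +kernel

theorem auxPowers_oneHundredThirtyOne :
    AuxPowers 131 1049 ([0, 1, 223, 426, 461, 588, 623, 826, 1048] : List (ZMod 1049)) :=
  ⟨by decide +kernel, by decide +kernel, by decide +kernel, by decide +kernel⟩

theorem root_oneHundredFortyNine : ∑ i ∈ Finset.range 149, (256 : ZMod 1193) ^ i = 0 := by decide +kernel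

theorem residueSymbol_oneHundredFortyNine : residueSymbol 149 130 1193 256 2 ≠ 1 := by decide +kernel

theorem residueSymbol_oneHundredFortyNine_sq :
    residueSymbol 149 130 1193 (256 ^ 2) 2 = residueSymbol 149 130 1193 256 2 ^ 45 := by decide +kernel

theorem certSingle_oneHundredFortyNine : certSingle 149 1193 256 = true := by decide +kernel

theorem certDouble_oneHundredFortyNine : certDouble 149 1193 256 45 = true := by decide +kernel

theorem auxPowers_oneHundredFortyNine :
    AuxPowers 149 1193 ([0, 1, 186, 362, 524, 669, 831, 1007, 1192] : List (ZMod 1193)) :=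
  ⟨by decide +kernel, by decide +kernel, by decide +kernel, by decide +kernel⟩

end FA.Regular
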