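import Fermat.Agent.Regular.VandiverBelowHundred
import Fermat.Agent.Root.SummaryHerbrand

/-!
# The class group at a prime with one irregular index and no plus part

If the even weights carry no class and `k` is the only irregular index, every class killed by `p` has
weight `p - k`; so the theorem of Herbrand and Ribet holds.
-/

set_option autoImplicit false

noncomputable section

open NumberField
open scoped nonZeroDivisors

namespace FA.Regular

variable (p : ℕ) [Fact p.Prime] (K : Type*) [Field K] [NumberField K]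
  [IsCyclotomicExtension {p} ℚ K]

/-- Every class killed by `p` has the weight of the only irregular index. -/
theorem eigen_of_single_index (hp5 : 5 ≤ p)
    (heven : ∀ i, Even i → i < p - 1 → ∀ x : ClassGroup (𝓞 K), x ^ p = 1 →
      FA.Ext.weightProj p K i x = 1)
    {k : ℕ} (hev : Even k) (hk : 2 ≤ k) (hkp : k ≤ p - 3)
    (huniq : ∀ i, Even i → 2 ≤ i → i ≤ p - 3 → (p : ℤ) ∣ (bernoulli i).num → i = k)
    {x : ClassGroup (𝓞 K)} (hx : x ^ p = 1) (σ : K ≃ₐ[ℚ] K) :
    ClassGroup.mulEquiv (RingOfIntegers.mapRingEquiv σ.toRingEquiv) x =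
      x ^ ((((IsCyclotomicExtension.Rat.galEquivZMod p K σ : (ZMod p)ˣ) : ZMod p)) ^ (p - k)).val := by
  have hp : p.Prime := Fact.out
  have hodd := hp.eq_two_or_odd
  have hk' := Nat.even_iff.mp hev
  have hproj : ∀ i ∈ Finset.range (p - 1), i ≠ p - k → FA.Ext.weightProj p K i x = 1 := by
    intro i hi hne
    rw [Finset.mem_range] at hi
    rcases Nat.even_or_odd i with hev' | hodd'
    · exact heven i hev' hi x hx
    · by_contra h1
      obtain ⟨h3, hdvd⟩ := FA.Ext.herbrand p K hp5 hodd' (by omega)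
        (by rw [← map_pow, hx, map_one]) h1 (weightProj_eigen p K i hx)
      have hi' := Nat.odd_iff.mp hodd'
      have := huniq (p - i) (Nat.even_iff.mpr (by omega)) (by omega) (by omega) hdvd
      omega
  have hmem : p - k ∈ Finset.range (p - 1) := Finset.mem_range.mpr (by omega)
  have hP : FA.Ext.weightProj p K (p - k) x = x⁻¹ := by
    rw [← prod_weightProj p K hx,
      Finset.prod_eq_single_of_mem _ hmem fun i hi hne => hproj i hi hne]
  set d := IsCyclotomicExtension.Rat.galEquivZMod p K σ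
  have h := weightProj_eigen p K (p - k) hx d
  rw [hP, map_inv, inv_pow, inv_inj] at h
  rw [← h, show σ = FA.Ext.sigmaK p K d from (MulEquiv.symm_apply_apply _ σ).symm]
  rfl

/-- **The theorem of Herbrand and Ribet** when the even weights carry no class and there is at most one
irregular index. -/
theorem herbrand_ribet_of_single_index (hp5 : 5 ≤ p)
    (heven : ∀ i, Even i → i < p - 1 → ∀ x : ClassGroup (𝓞 K), x ^ p = 1 →
      FA.Ext.weightProj p K i x = 1)
    (huniq : ∀ i j, Even i → 2 ≤ i → i ≤ p - 3 → (p : ℤ) ∣ (bernoulli i).num →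
      Even j → 2 ≤ j → j ≤ p - 3 → (p : ℤ) ∣ (bernoulli j).num → i = j)
    (i : ℕ) (hi : Odd i) (hip : i ≤ p - 2) :
    (∃ x : ClassGroup (𝓞 K), x ≠ 1 ∧ x ^ p = 1 ∧ ∀ σ : K ≃ₐ[ℚ] K,
      ClassGroup.mulEquiv (RingOfIntegers.mapRingEquiv σ.toRingEquiv) x =
        x ^ ((((IsCyclotomicExtension.Rat.galEquivZMod p K σ : (ZMod p)ˣ) : ZMod p)) ^ i).val) ↔
      3 ≤ i ∧ (p : ℤ) ∣ (bernoulli (p - i)).num := by
  refine ⟨fun ⟨x, hx1, hx, heig⟩ => FA.Summary.herbrand p K hp5 i hi hip x hx hx1 heig, fun ⟨h3, hB⟩ => ?_⟩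
  have hp : p.Prime := Fact.out
  have hodd := hp.eq_two_or_odd
  have hi' := Nat.odd_iff.mp hi
  have hev : Even (p - i) := Nat.even_iff.mpr (by omega)
  obtain ⟨x, hx⟩ := exists_prime_orderOf_dvd_card p
    (dvd_classNumber_of_dvd_bernoulli (K := K) hp5 hev (by omega) (by omega) hB)
  have hxp : x ^ p = 1 := hx ▸ pow_orderOf_eq_one x
  refine ⟨x, fun e => ?_, hxp, fun σ => ?_⟩
  · rw [e, orderOf_one] at hx
    exact hp.ne_one hx.symm
  · have := eigen_of_single_index p K hp5 heven hev (by omega) (by omega)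
      (fun j hj hj2 hjp hjB => huniq j (p - i) hj hj2 hjp hjB hev (by omega) (by omega) hB) hxp σ
    rwa [show p - (p - i) = i by omega] at this

end FA.Regular
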