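import Fermat.Agent.Regular.ThaineWeight
import Fermat.Agent.Regular.FirstCaseBernoulli

/-!
# Kummer's criterion and Kummer's lemma

If the prime `p ≥ 5` divides no numerator of `B_k`, `k` even `≤ p - 3`, then it does not divide the
class number of `ℚ(ζ_p)`, and a unit congruent to a rational integer modulo `p` is a `p`-th power.
-/

set_option autoImplicit false

noncomputable section

open NumberField IsDedekindDomain
open scoped Classical nonZeroDivisors

namespace FA.Regular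

variable (p : ℕ) [Fact p.Prime] (K : Type*) [Field K] [NumberField K]
  [IsCyclotomicExtension {p} ℚ K]

/-- The projection of weight `i` on units. -/
def unitProj (i : ℕ) : (𝓞 K)ˣ →* (𝓞 K)ˣ :=
  ∏ d : (ZMod p)ˣ, (powMonoidHom ((d : ZMod p) ^ i).val).comp (FA.Ext.sigmaU p K d⁻¹)

theorem unitProj_apply (i : ℕ) (u : (𝓞 K)ˣ) :
    unitProj p K i u = ∏ d : (ZMod p)ˣ, FA.Ext.sigmaU p K d⁻¹ u ^ ((d : ZMod p) ^ i).val := by
  simp [unitProj]

theorem sigmaU_unitProj_comm (i : ℕ) (e : (ZMod p)ˣ) (u : (𝓞 K)ˣ) :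
    FA.Ext.sigmaU p K e (unitProj p K i u) = unitProj p K i (FA.Ext.sigmaU p K e u) := by
  simp only [unitProj_apply, map_prod, map_pow, ← FA.Ext.sigmaU_mul, mul_comm e]

theorem sigmaU_unitProj (i : ℕ) (e : (ZMod p)ˣ) (u : (𝓞 K)ˣ) :
    ∃ w : (𝓞 K)ˣ, FA.Ext.sigmaU p K e (unitProj p K i u) =
      unitProj p K i u ^ ((e : ZMod p) ^ i).val * w ^ p := by
  have h : ∀ d : (ZMod p)ˣ, ∃ w : (𝓞 K)ˣ,
      FA.Ext.sigmaU p K d⁻¹ u ^ (((e * d : (ZMod p)ˣ) : ZMod p) ^ i).val =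
        (FA.Ext.sigmaU p K d⁻¹ u ^ ((d : ZMod p) ^ i).val) ^ ((e : ZMod p) ^ i).val * w ^ p := by
    intro d
    rw [← pow_mul]
    refine FA.Ext.eq_pow_mul_pow_of_cast_eq p _ ?_
    simp only [Nat.cast_mul, ZMod.natCast_zmod_val, Units.val_mul]
    ring
  choose w hw using h
  refine ⟨∏ d : (ZMod p)ˣ, w d, ?_⟩
  rw [unitProj_apply, map_prod, ← Finset.prod_pow, ← Finset.prod_pow, ← Finset.prod_mul_distrib]
  refine Fintype.prod_equiv (Equiv.mulLeft e⁻¹) _ _ fun d => ?_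
  rw [Equiv.coe_mulLeft, ← hw, map_pow, ← FA.Ext.sigmaU_mul, mul_inv_cancel_left, mul_inv_rev,
    inv_inv, mul_comm d⁻¹]

theorem unitProj_mem_torsion (i : ℕ) {t : (𝓞 K)ˣ} (ht : t ∈ Units.torsion K) :
    unitProj p K i t ∈ Units.torsion K := by
  rw [unitProj_apply]
  exact Subgroup.prod_mem _ fun d _ => pow_mem (FA.Ext.sigmaU_mem_torsion K p _ ht) _

theorem logDer_unitProj {j : ℕ} (hj : j + 3 ≤ p) (u : (𝓞 K)ˣ) :
    logDer p K j (unitProj p K (j + 1) u) = -logDer p K j u := by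
  rw [← toAdd_logDerHom p K hj, unitProj_apply, map_prod, toAdd_prod]
  simp only [map_pow, toAdd_pow, toAdd_logDerHom, logDer_sigmaU p K hj, nsmul_eq_mul,
    ZMod.natCast_zmod_val, ← mul_assoc, ← mul_pow, Units.mul_inv, one_pow, one_mul]
  rw [Finset.sum_const, Finset.card_univ, ZMod.card_units p, nsmul_eq_mul,
    Nat.cast_sub (Fact.out : p.Prime).one_le, ZMod.natCast_self, Nat.cast_one, zero_sub, neg_one_mul]

theorem logDer_torsion_mul_pow {j : ℕ} (hj : j + 4 ≤ p) {t : (𝓞 K)ˣ} (ht : t ∈ Units.torsion K)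
    (w : (𝓞 K)ˣ) : logDer p K (j + 1) (t * w ^ p) = 0 := by
  have hj' : j + 1 + 3 ≤ p := by omega
  rw [← toAdd_logDerHom p K hj', map_mul, map_pow, FA.Ext.mult_zmod_pow, mul_one, toAdd_logDerHom,
    logDer_torsion p K hj ht]

/-- A cyclotomic unit whose projection of weight `k` has a nonzero logarithmic derivative. -/
theorem exists_cycU_logDer_ne_zero (h5 : 5 ≤ p) {j : ℕ} (hj : j + 5 ≤ p) (hev : Even j)
    (hB : ¬ (p : ℤ) ∣ (bernoulli (j + 2)).num) :
    ∃ (a : ℕ) (ha : (a : ZMod p) ≠ 0),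
      logDer p K (j + 1) (unitProj p K (j + 2) (cycU p K ha)) ≠ 0 := by
  obtain ⟨a, ha, hak⟩ := FA.OrderTheta.exists_multiplier (p := p) (m := j + 2)
    fun h => by have := Nat.le_of_dvd (by omega) h; omega
  refine ⟨a, ha, ?_⟩
  rw [logDer_unitProj p K (show j + 1 + 3 ≤ p by omega), neg_ne_zero,
    logDer_cycU p K ha (show j + 4 ≤ p by omega)]
  refine mul_ne_zero (pow_ne_zero _ ha) fun h => hB ?_
  rw [← Nat.cast_sum, ZMod.natCast_eq_zero_iff] at h
  exact (FA.OrderTheta.dvd_num_bernoulli_iff h5 (by omega) (by omega)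
    (hev.add (by decide)) ha hak).mpr h

/-- If the projection of weight `i` of a cyclotomic unit is no `p`-th power, no character of that weight
of the class group is nontrivial: Thaine's relation and the analytic density argument. -/
theorem no_weight_char_of_not_pow (h5 : 5 ≤ p) (i : ℕ) {a : ℕ} (ha : (a : ZMod p) ≠ 0)
    (hε : ∀ y : K, y ^ p ≠ ((unitProj p K i (cycU p K ha) : 𝓞 K) : K))
    (φ : ClassGroup (𝓞 K) →* Multiplicative (ZMod p))
    (hφ : ∀ (d : (ZMod p)ˣ) (I J : (Ideal (𝓞 K))⁰),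
      J.1 = I.1.map (FA.Ext.sigma p K d : 𝓞 K →+* 𝓞 K) →
      φ (ClassGroup.mk0 J) = φ (ClassGroup.mk0 I) ^ ((d : ZMod p) ^ i).val)
    (hne : φ ≠ 1) : False := by
  have hp : p.Prime := Fact.out
  set ε := unitProj p K i (cycU p K ha) with hεdef
  obtain ⟨M₁, hM₁⟩ := FA.Ext.exists_sum_ker_le φ hne
  obtain ⟨M₂, hM₂⟩ := FA.Ext.exists_sum_residue_le (FA.Ext.zetaInt_spec p K) hε
  obtain ⟨M₀, hM₀⟩ := FA.Ext.exists_lower_bound K
  have hfin : {v : HeightOneSpectrum (𝓞 K) | (p : 𝓞 K) ∈ v.asIdeal}.Finite := by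
    refine (Ideal.finite_factors (I := Ideal.span {(p : 𝓞 K)}) ?_).subset
      fun v hv => Ideal.dvd_span_singleton.mpr hv
    simp [hp.ne_zero]
  set c : ℝ := (hfin.toFinset.card : ℝ)
  set B : ℝ := max 0 ((p * M₀ + M₁ + M₂ + p * c) / (p - 2) + 1)
  set s : ℝ := 1 + Real.exp (-B)
  have hs : s ∈ Set.Ioc (1 : ℝ) 2 := ⟨lt_add_of_pos_right _ (Real.exp_pos _), by
    have : Real.exp (-B) ≤ 1 := Real.exp_le_one_iff.mpr (neg_nonpos.mpr (le_max_left _ _))
    linarith⟩
  have hlog : Real.log (1 / (s - 1)) = B := by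
    simp [s, Real.log_inv, Real.log_exp]
  obtain ⟨T, hT, hTsum⟩ := hM₀ s hs
  set T₁ := T.filter fun v => φ (ClassGroup.mk0 (FA.Ext.primeIdeal v)) = 1
  set T₃ := (T.filter fun v => ¬ φ (ClassGroup.mk0 (FA.Ext.primeIdeal v)) = 1).filter
    fun v => (p : 𝓞 K) ∈ v.asIdeal
  set T₂ := (T.filter fun v => ¬ φ (ClassGroup.mk0 (FA.Ext.primeIdeal v)) = 1).filter
    fun v => ¬ (p : 𝓞 K) ∈ v.asIdeal
  have h1 := hM₁ s hs T₁ fun v hv => (Finset.mem_filter.mp hv).2
  have h2 := hM₂ s hs T₂ fun v hv => by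
    obtain ⟨hv', hvp⟩ := Finset.mem_filter.mp hv
    obtain ⟨hvT, hvφ⟩ := Finset.mem_filter.mp hv'
    refine ⟨hvp, fun h => v.isPrime.ne_top (Ideal.eq_top_of_isUnit_mem _ h (Units.isUnit ε)),
      hT v hvT, ?_⟩
    rw [hεdef, unitProj_apply]
    exact exists_residue_of_weight_char p h5 i ha φ hφ v hvp (hT v hvT) hvφ
  have h3 : ∑ v ∈ T₃, FA.Ext.zN s (FA.Ext.primeIdeal v) ≤ c := by
    refine (Finset.sum_le_card_nsmul T₃ _ 1 fun v _ =>
      (FA.Ext.zN_primeIdeal_le_half hs.1.le v).trans (by norm_num)).trans ?_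
    rw [nsmul_eq_mul, mul_one]
    exact Nat.cast_le.mpr (Finset.card_le_card fun v hv =>
      hfin.mem_toFinset.mpr (Finset.mem_filter.mp hv).2)
  rw [← Finset.sum_filter_add_sum_filter_not T
      (fun v => φ (ClassGroup.mk0 (FA.Ext.primeIdeal v)) = 1),
    ← Finset.sum_filter_add_sum_filter_not
      (T.filter fun v => ¬ φ (ClassGroup.mk0 (FA.Ext.primeIdeal v)) = 1)
      (fun v => (p : 𝓞 K) ∈ v.asIdeal), hlog] at hTsum
  rw [hlog] at h1 h2
  have hp5 : (5 : ℝ) ≤ p := by exact_mod_cast h5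
  have hp2 : (0 : ℝ) < (p : ℝ) - 2 := by linarith
  have hB : (p * M₀ + M₁ + M₂ + p * c) / ((p : ℝ) - 2) + 1 ≤ B := le_max_right _ _
  rw [div_add_one hp2.ne', div_le_iff₀ hp2] at hB
  nlinarith [mul_le_mul_of_nonneg_left hTsum (show (0 : ℝ) ≤ p by linarith),
    mul_le_mul_of_nonneg_left h3 (show (0 : ℝ) ≤ p by linarith)]

/-- A projection of weight `j + 2` with nonzero logarithmic derivative excludes characters of that
weight of the class group: Thaine's relation and the analytic density argument. -/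
theorem no_weight_char_of_logDer_ne_zero (h5 : 5 ≤ p) {j : ℕ} (hj : j + 4 ≤ p) {a : ℕ}
    (ha : (a : ZMod p) ≠ 0) (hL : logDer p K (j + 1) (unitProj p K (j + 2) (cycU p K ha)) ≠ 0)
    (φ : ClassGroup (𝓞 K) →* Multiplicative (ZMod p))
    (hφ : ∀ (d : (ZMod p)ˣ) (I J : (Ideal (𝓞 K))⁰),
      J.1 = I.1.map (FA.Ext.sigma p K d : 𝓞 K →+* 𝓞 K) →
      φ (ClassGroup.mk0 J) = φ (ClassGroup.mk0 I) ^ ((d : ZMod p) ^ (j + 2)).val)
    (hne : φ ≠ 1) : False := by
  have hp : p.Prime := Fact.out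
  refine no_weight_char_of_not_pow p K h5 (j + 2) ha ?_ φ hφ hne
  set ε := unitProj p K (j + 2) (cycU p K ha)
  intro y hy
  have hint : IsIntegral ℤ y :=
    IsIntegral.of_pow hp.pos (hy.symm ▸ RingOfIntegers.isIntegral_coe (ε : 𝓞 K))
  let y' : 𝓞 K := ⟨y, hint⟩
  have hy' : y' ^ p = (ε : 𝓞 K) := RingOfIntegers.ext hy
  have hu : IsUnit y' := (isUnit_pow_iff hp.ne_zero).mp (hy' ▸ Units.isUnit ε)
  refine hL ?_
  rw [show ε = 1 * hu.unit ^ p from Units.ext (by
    rw [one_mul, Units.val_pow_eq_pow_val, IsUnit.unit_spec, hy'])]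
  exact logDer_torsion_mul_pow p K hj (one_mem _) _

/-- No character of weight zero. -/
theorem no_weight_zero_char (h5 : 5 ≤ p) (φ : ClassGroup (𝓞 K) →* Multiplicative (ZMod p))
    (hφ : ∀ (d : (ZMod p)ˣ) (I J : (Ideal (𝓞 K))⁰),
      J.1 = I.1.map (FA.Ext.sigma p K d : 𝓞 K →+* 𝓞 K) →
      φ (ClassGroup.mk0 J) = φ (ClassGroup.mk0 I) ^ ((d : ZMod p) ^ 0).val)
    (hne : φ ≠ 1) : False := by
  have hp : p.Prime := Fact.out
  have : NeZero p := ⟨hp.ne_zero⟩
  have h := FA.Ext.sum_eq_zero_of_weight_char 0 φ hφ hne (p - 1) (by omega)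
  have e : ∀ d : (ZMod p)ˣ, (((p - 1) * (d : ZMod p).val / p : ℕ) : ZMod p) = (d : ZMod p) - 1 := by
    intro d
    have h0 : 0 < (d : ZMod p).val := Nat.pos_of_ne_zero ((ZMod.val_ne_zero _).mpr d.ne_zero)
    have hlt : (d : ZMod p).val < p := ZMod.val_lt _
    have key : ∀ r q : ℕ, r ≤ q → q * (r + 1) / (q + 1) = r := fun r q h =>
      Nat.div_eq_of_lt_le (by nlinarith) (by nlinarith)
    have hdiv := key ((d : ZMod p).val - 1) (p - 1) (by omega)
    rw [Nat.sub_add_cancel h0, Nat.sub_add_cancel hp.one_le] at hdiv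
    rw [hdiv, Nat.cast_sub (by omega), ZMod.natCast_zmod_val, Nat.cast_one]
  simp only [e, pow_zero, mul_one, Finset.sum_sub_distrib, Finset.sum_const, Finset.card_univ,
    nsmul_eq_mul, mul_one] at h
  have hsum : ∑ d : (ZMod p)ˣ, (d : ZMod p) = 0 := by
    have h1 := FiniteField.sum_pow_units (ZMod p) 1
    simp only [pow_one, ZMod.card] at h1
    rwa [if_neg (fun h => by have := Nat.le_of_dvd one_pos h; omega)] at h1
  rw [hsum, ZMod.card_units p, Nat.cast_sub (by omega), ZMod.natCast_self, Nat.cast_one] at h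
  simp at h

/-- The projection of weight `i` of a class killed by `p` is an eigen class. -/
theorem weightProj_eigen (i : ℕ) {x : ClassGroup (𝓞 K)} (hx : x ^ p = 1) (e : (ZMod p)ˣ) :
    FA.Ext.sigmaCl p K e (FA.Ext.weightProj p K i x) =
      FA.Ext.weightProj p K i x ^ ((e : ZMod p) ^ i).val := by
  simp only [FA.Ext.weightProj, MonoidHom.coe_mk, OneHom.coe_mk, map_prod, map_pow,
    ← Finset.prod_pow, ← pow_mul, ← FA.Ext.sigmaCl_mul]
  refine Fintype.prod_equiv (Equiv.mulLeft e) _ _ fun d => ?_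
  have hee : (e : ZMod p) ^ i * (((e⁻¹ : (ZMod p)ˣ) : ZMod p)) ^ i = 1 := by
    rw [← mul_pow, Units.mul_inv, one_pow]
  have hcast : (((((d⁻¹ : (ZMod p)ˣ) : ZMod p)) ^ i).val : ZMod p) =
      ((((((Equiv.mulLeft e) d)⁻¹ : (ZMod p)ˣ) : ZMod p) ^ i).val * ((e : ZMod p) ^ i).val : ℕ) := by
    simp only [Nat.cast_mul, ZMod.natCast_zmod_val, Equiv.coe_mulLeft, mul_inv_rev,
      Units.val_mul, mul_pow]
    linear_combination (-(((d⁻¹ : (ZMod p)ˣ) : ZMod p) ^ i)) * hee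
  have hσp : FA.Ext.sigmaCl p K (e * d) x ^ p = 1 := by rw [← map_pow, hx, map_one]
  rw [Equiv.coe_mulLeft] at hcast ⊢
  rw [pow_eq_pow_mod _ hσp, (ZMod.natCast_eq_natCast_iff' _ _ p).mp hcast, ← pow_eq_pow_mod _ hσp]

/-- A class killed by `p` is the inverse of the product of its projections. -/
theorem prod_weightProj {x : ClassGroup (𝓞 K)} (hx : x ^ p = 1) :
    ∏ i ∈ Finset.range (p - 1), FA.Ext.weightProj p K i x = x⁻¹ := by
  have hp : p.Prime := Fact.out
  have hmodpow : ∀ (y : ClassGroup (𝓞 K)) (a b : ℕ), y ^ p = 1 → (a : ZMod p) = (b : ZMod p) →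
      y ^ a = y ^ b := fun y a b hy h => by
    rw [pow_eq_pow_mod a hy, pow_eq_pow_mod b hy, (ZMod.natCast_eq_natCast_iff' a b p).mp h]
  have hσp : ∀ d, FA.Ext.sigmaCl p K d x ^ p = 1 := fun d => by rw [← map_pow, hx, map_one]
  have hsigma1 : FA.Ext.sigmaCl p K 1 x = x := by
    show ClassGroup.mulEquiv (FA.Ext.sigma p K 1) x = x
    rw [map_one]
    exact ClassGroup.mulEquiv_refl_apply x
  simp only [FA.Ext.weightProj, MonoidHom.coe_mk, OneHom.coe_mk]
  rw [Finset.prod_comm, Fintype.prod_eq_single (1 : (ZMod p)ˣ) fun d hd => ?_]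
  · rw [Finset.prod_pow_eq_pow_sum, hsigma1, hmodpow x _ (p - 1) hx ?_]
    · exact eq_inv_of_mul_eq_one_left
        (by rw [← pow_succ, Nat.sub_add_cancel hp.one_le, hx])
    · simp
  · rw [Finset.prod_pow_eq_pow_sum, hmodpow _ _ 0 (hσp d) ?_, pow_zero]
    rw [Nat.cast_sum, Nat.cast_zero]
    simp only [ZMod.natCast_zmod_val]
    have hne : ((d⁻¹ : (ZMod p)ˣ) : ZMod p) ≠ 1 := fun h =>
      hd (inv_eq_one.mp (Units.ext h))
    rw [geom_sum_eq hne, ZMod.pow_card_sub_one_eq_one (Units.ne_zero _), sub_self, zero_div]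

/-- An even weight other than an irregular index carries no class. -/
theorem even_weightProj_eq_one (h5 : 5 ≤ p) {i : ℕ} (hev : Even i) (hi : i < p - 1)
    (hB : 2 ≤ i → ¬ (p : ℤ) ∣ (bernoulli i).num) {x : ClassGroup (𝓞 K)} (hx : x ^ p = 1) :
    FA.Ext.weightProj p K i x = 1 := by
  by_contra hne
  obtain ⟨φ, hφne, hφ⟩ := FA.Ext.exists_weight_char_of_eigen p K i
    (by rw [← map_pow, hx, map_one]) hne (weightProj_eigen p K i hx)
  rcases (show i = 0 ∨ 2 ≤ i by rw [Nat.even_iff] at hev; omega) with rfl | h2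
  · exact no_weight_zero_char p K h5 φ hφ hφne
  · obtain ⟨j, rfl⟩ : ∃ j, i = j + 2 := ⟨i - 2, by omega⟩
    have hodd' := (Fact.out : p.Prime).eq_two_or_odd
    have hj : j + 5 ≤ p := by rw [Nat.even_iff] at hev; omega
    obtain ⟨a, ha, hL⟩ := exists_cycU_logDer_ne_zero p K h5 hj
      ((Nat.even_add.mp hev).mpr (by decide)) (hB h2)
    exact no_weight_char_of_logDer_ne_zero p K h5 (by omega) ha hL φ hφ hφne

/-- **Kummer's criterion**: no class of order `p`. -/
theorem torsion_trivial_of_regular (h5 : 5 ≤ p)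
    (hreg : ∀ k, Even k → 2 ≤ k → k ≤ p - 3 → ¬ (p : ℤ) ∣ (bernoulli k).num)
    {x : ClassGroup (𝓞 K)} (hx : x ^ p = 1) : x = 1 := by
  have hp : p.Prime := Fact.out
  have hproj : ∀ i < p - 1, FA.Ext.weightProj p K i x = 1 := by
    intro i hi
    have hodd' := hp.eq_two_or_odd
    rcases Nat.even_or_odd i with hev | hodd
    · exact even_weightProj_eq_one p K h5 hev hi
        (fun h2 => hreg i hev h2 (by rw [Nat.even_iff] at hev; omega)) hx
    · by_contra hne
      obtain ⟨h3, hdvd⟩ := FA.Ext.herbrand p K h5 hodd (by omega)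
        (by rw [← map_pow, hx, map_one]) hne (weightProj_eigen p K i hx)
      exact hreg (p - i) (Nat.even_iff.mpr (by rw [Nat.odd_iff] at hodd; omega)) (by omega)
        (by omega) hdvd
  have htot := prod_weightProj p K hx
  rw [Finset.prod_eq_one fun i hi => hproj i (Finset.mem_range.mp hi)] at htot
  exact inv_eq_one.mp htot.symm

/-- **Kummer's criterion**: a Bernoulli regular prime does not divide the class number. -/
theorem not_dvd_classNumber_of_regular (h5 : 5 ≤ p)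
    (hreg : ∀ k, Even k → 2 ≤ k → k ≤ p - 3 → ¬ (p : ℤ) ∣ (bernoulli k).num) :
    ¬ p ∣ classNumber K := by
  intro h
  obtain ⟨x, hx⟩ := exists_prime_orderOf_dvd_card p h
  have h1 := torsion_trivial_of_regular p K h5 hreg (x := x) (hx ▸ pow_orderOf_eq_one x)
  rw [h1, orderOf_one] at hx
  exact (Fact.out : p.Prime).ne_one hx.symm

/-- The units that are a root of unity times a `p`-th power. -/
def rootTimesPow : Subgroup (𝓞 K)ˣ := Units.torsion K ⊔ (powMonoidHom p : (𝓞 K)ˣ →* (𝓞 K)ˣ).range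

omit [Fact p.Prime] [NumberField K] [IsCyclotomicExtension {p} ℚ K] in
theorem mem_rootTimesPow {x : (𝓞 K)ˣ} :
    x ∈ rootTimesPow p K ↔ ∃ t ∈ Units.torsion K, ∃ w : (𝓞 K)ˣ, t * w ^ p = x := by
  simp [rootTimesPow, Subgroup.mem_sup]

theorem mem_of_pow_mem {G : Type*} [CommGroup G] {S : Subgroup G}
    (hS : (powMonoidHom p : G →* G).range ≤ S) {x : G} {n : ℕ} (hn : ¬ p ∣ n) (h : x ^ n ∈ S) :
    x ∈ S := by
  obtain ⟨a, b, hab⟩ := Nat.isCoprime_iff_coprime.mpr
    ((Nat.Prime.coprime_iff_not_dvd (Fact.out : p.Prime)).mpr hn)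
  have hxp : x ^ p ∈ S := hS ⟨x, rfl⟩
  have h2 := mul_mem (zpow_mem hxp a) (zpow_mem h b)
  rwa [← zpow_natCast x p, ← zpow_natCast x n, ← zpow_mul, ← zpow_mul, ← zpow_add,
    mul_comm (p : ℤ), mul_comm (n : ℤ), hab, zpow_one] at h2

omit [NumberField K] [IsCyclotomicExtension {p} ℚ K] in
theorem pow_mem_rootTimesPow_iff {x : (𝓞 K)ˣ} {n : ℕ} (hn : ¬ p ∣ n)
    (h : x ^ n ∈ rootTimesPow p K) : x ∈ rootTimesPow p K :=
  mem_of_pow_mem p le_sup_right hn h

theorem unitProj_zero_mem (u : (𝓞 K)ˣ) : unitProj p K 0 u ∈ Units.torsion K := by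
  have : IsGalois ℚ K := IsCyclotomicExtension.isGalois {p} ℚ K
  have h1 : ((unitProj p K 0 u : (𝓞 K)ˣ) : K) = algebraMap ℚ K (Algebra.norm ℚ ((u : 𝓞 K) : K)) := by
    rw [Algebra.norm_eq_prod_automorphisms, unitProj_apply, Units.coe_prod, map_prod]
    refine Fintype.prod_equiv ((Equiv.inv _).trans
      (IsCyclotomicExtension.Rat.galEquivZMod p K).symm.toEquiv) _ _ fun d => ?_
    rw [pow_zero, ZMod.val_one, pow_one, FA.Ext.sigmaU_coe]
    rfl
  refine (CommGroup.mem_torsion (G := (𝓞 K)ˣ) _).mpr (isOfFinOrder_iff_pow_eq_one.mpr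
    ⟨2, two_pos, Units.ext (RingOfIntegers.coe_injective ?_)⟩)
  have h2 : (Algebra.norm ℚ ((u : 𝓞 K) : K)) ^ 2 = 1 := by
    rw [← sq_abs]
    have := NumberField.Units.norm (K := K) u
    exact (congrArg (· ^ 2) this).trans (one_pow 2)
  rw [Units.val_pow_eq_pow_val, map_pow, Units.val_one, map_one]
  exact (congrArg (· ^ 2) h1).trans (by rw [← map_pow, h2, map_one])

theorem mem_of_unitProj {S : Subgroup (𝓞 K)ˣ}
    (hS : (powMonoidHom p : (𝓞 K)ˣ →* (𝓞 K)ˣ).range ≤ S) {u : (𝓞 K)ˣ}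
    (h : ∀ i < p - 1, unitProj p K i u ∈ S) : u ∈ S := by
  have hp : p.Prime := Fact.out
  have htot := Subgroup.prod_mem S (t := Finset.range (p - 1))
    (f := fun i => unitProj p K i u) fun i hi => h i (Finset.mem_range.mp hi)
  simp only [unitProj_apply] at htot
  rw [Finset.prod_comm] at htot
  simp only [Finset.prod_pow_eq_pow_sum] at htot
  have hkey : ∀ d : (ZMod p)ˣ, ∃ w : (𝓞 K)ˣ,
      FA.Ext.sigmaU p K d⁻¹ u ^ (∑ i ∈ Finset.range (p - 1), ((d : ZMod p) ^ i).val) =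
        (if d = 1 then u ^ (p - 1) else 1) * w ^ p := by
    intro d
    split_ifs with hd
    · subst hd
      rw [inv_one, FA.Ext.sigmaU_one]
      exact FA.Ext.eq_pow_mul_pow_of_cast_eq p u (by simp)
    · rw [← pow_zero (FA.Ext.sigmaU p K d⁻¹ u)]
      refine FA.Ext.eq_pow_mul_pow_of_cast_eq p _ ?_
      rw [Nat.cast_sum, Nat.cast_zero]
      simp only [ZMod.natCast_zmod_val]
      rw [geom_sum_eq (fun h => hd (Units.ext h)), ZMod.pow_card_sub_one_eq_one d.ne_zero,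
        sub_self, zero_div]
  choose w hw using hkey
  rw [Finset.prod_congr rfl fun d _ => hw d, Finset.prod_mul_distrib, Finset.prod_ite_eq',
    if_pos (Finset.mem_univ _), Finset.prod_pow] at htot
  have hn : ¬ p ∣ p - 1 := fun h => by
    have := Nat.le_of_dvd (by have := hp.two_le; omega) h
    have := hp.two_le
    omega
  refine mem_of_pow_mem p hS hn ((Subgroup.mul_mem_cancel_right _ (hS ⟨_, rfl⟩)).mp htot)

theorem mem_rootTimesPow_of_unitProj {u : (𝓞 K)ˣ}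
    (h : ∀ i < p - 1, unitProj p K i u ∈ rootTimesPow p K) : u ∈ rootTimesPow p K :=
  mem_of_unitProj p K le_sup_right h

/-- An odd weight projection of a unit is a root of unity times a `p`-th power. -/
theorem unitProj_odd_mem (h5 : 5 ≤ p) {i : ℕ} (hodd' : Odd i) (u : (𝓞 K)ˣ) :
    unitProj p K i u ∈ rootTimesPow p K := by
  have hp : p.Prime := Fact.out
  have hp2 : p ≠ 2 := by omega
  obtain ⟨s, r, -, hsr⟩ := exists_conj_unit_eq (K := K) (p := p) hp2 u
  set t := FA.Ext.sigmaU p K (-1) u * u⁻¹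
  have hzp := (FA.Ext.zetaInt_spec p K).pow_eq_one
  have ht : t ∈ Units.torsion K := by
    have hval : (t : 𝓞 K) = (-1) ^ s * FA.Ext.zetaInt p K ^ r := by
      simp only [t, Units.val_mul, FA.Ext.sigmaU_coe, hsr, mul_assoc, Units.mul_inv, mul_one]
    refine (CommGroup.mem_torsion (G := (𝓞 K)ˣ) t).mpr (isOfFinOrder_iff_pow_eq_one.mpr
      ⟨2 * p, by omega, Units.ext ?_⟩)
    rw [Units.val_pow_eq_pow_val, hval, Units.val_one, mul_pow, ← pow_mul, ← pow_mul,
      show r * (2 * p) = p * (2 * r) by ring, pow_mul (FA.Ext.zetaInt p K), hzp, one_pow,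
      mul_one, mul_left_comm, pow_mul, neg_one_sq, one_pow]
  obtain ⟨w, hw⟩ := sigmaU_unitProj p K i (-1) u
  rw [sigmaU_unitProj_comm, show FA.Ext.sigmaU p K (-1) u = u * t by
    simp only [t, mul_comm u, inv_mul_cancel_right], map_mul, Units.val_neg, Units.val_one,
    hodd'.neg_one_pow, show (-1 : ZMod p).val = p - 1 by
      obtain ⟨q, rfl⟩ : ∃ q, p = q + 1 := ⟨p - 1, by omega⟩
      rw [ZMod.val_neg_one, Nat.add_sub_cancel]] at hw
  refine pow_mem_rootTimesPow_iff p K (n := p - 2) (fun h => ?_) ?_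
  · have := Nat.le_of_dvd (by omega) h
    omega
  · refine (mem_rootTimesPow p K).mpr ⟨unitProj p K i t, unitProj_mem_torsion p K i ht, w⁻¹, ?_⟩
    rw [inv_pow, mul_inv_eq_iff_eq_mul]
    refine mul_left_cancel (a := unitProj p K i u) (hw.trans ?_)
    rw [← mul_assoc, ← pow_succ', show p - 2 + 1 = p - 1 by omega]

/-- A regular even weight projection with vanishing logarithmic derivative. -/
theorem unitProj_mem_of_logDer (h5 : 5 ≤ p) {j : ℕ} (hj : j + 5 ≤ p) (hev : Even j)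
    (hB : ¬ (p : ℤ) ∣ (bernoulli (j + 2)).num) {u : (𝓞 K)ˣ} (hu : logDer p K (j + 1) u = 0) :
    unitProj p K (j + 2) u ∈ rootTimesPow p K := by
  obtain ⟨γ, hγ⟩ := IsCyclic.exists_generator (α := (ZMod p)ˣ)
  have hj' : j + 1 + 3 ≤ p := by omega
  obtain ⟨a, ha, hL⟩ := exists_cycU_logDer_ne_zero p K h5 hj hev hB
  set e := unitProj p K (j + 2) (cycU p K ha)
  obtain ⟨c, t, w, ht, huc⟩ := FA.Ext.exists_eq_torsion_mul_pow K p hγ
    ((γ : ZMod p) ^ (j + 2)).val (sigmaU_unitProj p K (j + 2) γ u)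
    (sigmaU_unitProj p K (j + 2) γ (cycU p K ha))
    (fun t w ht he => hL (by
      rw [show e = t * w ^ p from he]; exact logDer_torsion_mul_pow p K (by omega) ht w))
  have h0 : logDer p K (j + 1) (unitProj p K (j + 2) u) = 0 := by
    rw [logDer_unitProj p K hj', hu, neg_zero]
  have hc : (c : ZMod p) * logDer p K (j + 1) e = 0 := by
    rw [huc, mul_right_comm, logDer_mul p K hj',
      logDer_torsion_mul_pow p K (by omega) ht w, zero_add, ← toAdd_logDerHom p K hj',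
      map_pow, toAdd_pow, nsmul_eq_mul, toAdd_logDerHom] at h0
    exact h0
  obtain ⟨c', rfl⟩ := (ZMod.natCast_eq_zero_iff c p).mp ((mul_eq_zero.mp hc).resolve_right hL)
  exact (mem_rootTimesPow p K).mpr
    ⟨t, ht, e ^ c' * w, by rw [huc, mul_pow, ← pow_mul, mul_comm c', mul_assoc]⟩

/-- A root of unity with vanishing zeroth logarithmic derivative is a `p`-th power. -/
theorem torsion_eq_pow (h5 : 5 ≤ p) {t : (𝓞 K)ˣ} (ht : t ∈ Units.torsion K)
    (h0 : logDer p K 0 t = 0) : ∃ v : (𝓞 K)ˣ, v ^ p = t := by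
  have hp : p.Prime := Fact.out
  obtain ⟨r, hr⟩ := FA.Ext.torsion_eq_neg_zeta_pow K p (by omega) ht
  have hj : 0 + 3 ≤ p := by omega
  have hL : logDer p K 0 t = (r : ZMod p) := by
    rw [logDer_eq p K hj t (f := (-Polynomial.X) ^ r)
      (g := repPoly p K ((t⁻¹ : (𝓞 K)ˣ) : 𝓞 K))
      (by rw [hr, map_pow, map_neg, map_pow, map_neg, redHom_zetaInt]) (mk_repPoly p K _)]
    have he : eulerOp p ((-Polynomial.X) ^ r) =
        (r : Polynomial (ZMod p)) * (-Polynomial.X) ^ r := by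
      rw [neg_pow, eulerOp_mul, eulerOp_X_pow,
        show ((-1 : Polynomial (ZMod p)) ^ r) = Polynomial.C ((-1) ^ r) by simp, eulerOp_apply,
        Polynomial.derivative_C]
      ring
    rw [momentAt_congr p (show 0 + 2 ≤ p by omega) (g := (r : Polynomial (ZMod p))), momentAt_zero,
      Polynomial.eval_natCast]
    rw [he, map_mul, map_mul, mk_repPoly, map_pow, map_neg, ← redHom_zetaInt p K, ← map_neg,
      ← map_pow, ← hr, mul_assoc, ← map_mul, Units.mul_inv, map_one, mul_one]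
  rw [hL, ZMod.natCast_eq_zero_iff] at h0
  obtain ⟨r', rfl⟩ := h0
  refine ⟨(-1) ^ r', Units.ext ?_⟩
  rw [hr, neg_pow (FA.Ext.zetaInt p K), pow_mul (FA.Ext.zetaInt p K), (FA.Ext.zetaInt_spec p K).pow_eq_one, one_pow,
    mul_one, ← pow_mul, mul_comm r', Units.val_pow_eq_pow_val, Units.val_neg, Units.val_one]

/-- A unit with vanishing zeroth logarithmic derivative, all whose even projections are roots of unity
times `p`-th powers, is a `p`-th power. -/
theorem exists_pow_of_even_proj (h5 : 5 ≤ p) {u : (𝓞 K)ˣ} (h0 : logDer p K 0 u = 0)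
    (hev : ∀ i, Even i → 2 ≤ i → i < p - 1 → unitProj p K i u ∈ rootTimesPow p K) :
    ∃ v : (𝓞 K)ˣ, v ^ p = u := by
  have hmem : u ∈ rootTimesPow p K := by
    refine mem_rootTimesPow_of_unitProj p K fun i hi => ?_
    rcases Nat.even_or_odd i with hev' | hodd'
    · rcases (show i = 0 ∨ 2 ≤ i by rw [Nat.even_iff] at hev'; omega) with rfl | h2
      · exact Subgroup.mem_sup_left (unitProj_zero_mem p K u)
      · exact hev i hev' h2 hi
    · exact unitProj_odd_mem p K h5 hodd' u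
  obtain ⟨t, ht, w, rfl⟩ := (mem_rootTimesPow p K).mp hmem
  have hj : 0 + 3 ≤ p := by omega
  rw [logDer_mul p K hj, ← toAdd_logDerHom p K hj (w ^ p), map_pow, FA.Ext.mult_zmod_pow,
    toAdd_one, add_zero] at h0
  obtain ⟨v, rfl⟩ := torsion_eq_pow p K h5 ht h0
  exact ⟨v * w, mul_pow v w p⟩

/-- **Kummer's lemma**. -/
theorem kummerProp_of_regular (h5 : 5 ≤ p)
    (hreg : ∀ k, Even k → 2 ≤ k → k ≤ p - 3 → ¬ (p : ℤ) ∣ (bernoulli k).num) :
    KummerProp (𝓞 K) p := by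
  rintro u ⟨n, hn⟩
  have hodd := (Fact.out : p.Prime).eq_two_or_odd
  refine exists_pow_of_even_proj p K h5 (logDer_eq_zero_of_congr_int p K (by omega) u hn)
    fun i hev h2 hi => ?_
  rw [Nat.even_iff] at hev
  obtain ⟨j, rfl⟩ : ∃ j, i = j + 2 := ⟨i - 2, by omega⟩
  exact unitProj_mem_of_logDer p K h5 (by omega) (Nat.even_iff.mpr (by omega))
    (hreg _ (Nat.even_iff.mpr hev) (by omega) (by omega))
    (logDer_eq_zero_of_congr_int p K (by omega) u hn)

end FA.Regular
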