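import Fermat.Agent.Regular.VandiverReal
import Fermat.Agent.Regular.MinusFormula

/-!
# The real subfield of `ℚ(ζ_p)`

If no class of order `p` of `ℚ(ζ_p)` is fixed by conjugation, `p` does not divide the class number of
`ℚ(ζ_p)⁺`.  The `(p - 3)/2`-th power of `p` divides the discriminant of `ℚ(ζ_p)⁺`.
-/

set_option autoImplicit false

noncomputable section

open NumberField
open scoped nonZeroDivisors

namespace FA.Regular

variable (p : ℕ) [Fact p.Prime] (K : Type*) [Field K] [NumberField K]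
  [IsCyclotomicExtension {p} ℚ K] [IsCMField K]

theorem cj_algebraMap_real (x : 𝓞 (maximalRealSubfield K)) :
    cj p K (algebraMap (𝓞 (maximalRealSubfield K)) (𝓞 K) x) =
      algebraMap (𝓞 (maximalRealSubfield K)) (𝓞 K) x := by
  refine RingOfIntegers.ext ?_
  rw [cj, FA.Ext.sigma_coe, sigmaK_neg_one_eq]
  exact IsCMField.complexConj_apply_eq_self K _

/-- A real element comes from the real subfield. -/
theorem exists_algebraMap_eq {x : 𝓞 K} (hx : cj p K x = x) :
    ∃ y : 𝓞 (maximalRealSubfield K), algebraMap (𝓞 (maximalRealSubfield K)) (𝓞 K) y = x := by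
  refine (IsCMField.ringOfIntegersComplexConj_eq_self_iff K x).mp (RingOfIntegers.ext ?_)
  rw [IsCMField.coe_ringOfIntegersComplexConj, ← sigmaK_neg_one_eq p K, ← FA.Ext.sigma_coe]
  exact congrArg RingOfIntegers.val hx

/-- **Kummer–Vandiver in its classical form**, from the absence of fixed classes of order `p`. -/
theorem not_dvd_classNumber_real (hp2 : p ≠ 2)
    (hclass : ∀ C : ClassGroup (𝓞 K), C ^ p = 1 → FA.Ext.sigmaCl p K (-1) C = C → C = 1) :
    ¬ p ∣ classNumber (maximalRealSubfield K) := by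
  intro hdvd
  have hp : p.Prime := Fact.out
  obtain ⟨c, hc⟩ := exists_prime_orderOf_dvd_card p hdvd
  obtain ⟨I, rfl⟩ := ClassGroup.mk0_surjective c
  have hcp : ClassGroup.mk0 I ^ p = 1 := hc ▸ pow_orderOf_eq_one _
  rw [← map_pow] at hcp
  obtain ⟨⟨y, hy⟩⟩ := (ClassGroup.mk0_eq_one_iff _).mp hcp
  set f := algebraMap (𝓞 (maximalRealSubfield K)) (𝓞 K)
  have hne : I.1.map f ≠ ⊥ := (Ideal.map_eq_bot_iff_of_injective
    (FaithfulSMul.algebraMap_injective _ _)).not.mpr (mem_nonZeroDivisors_iff_ne_zero.mp I.2)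
  let J : (Ideal (𝓞 K))⁰ := ⟨I.1.map f, mem_nonZeroDivisors_iff_ne_zero.mpr hne⟩
  have hJp : ClassGroup.mk0 J ^ p = 1 := by
    rw [← map_pow]
    refine (ClassGroup.mk0_eq_one_iff _).mpr ⟨⟨f y, ?_⟩⟩
    show (I.1.map f) ^ p = _
    rw [← Ideal.map_pow, show I.1 ^ p = Ideal.span {y} from hy, Ideal.map_span, Set.image_singleton]
  have hfix : FA.Ext.sigmaCl p K (-1) (ClassGroup.mk0 J) = ClassGroup.mk0 J :=
    FA.Ext.sigmaCl_mk0 p K (-1) J J (by
      show I.1.map f = (I.1.map f).map (cj p K : 𝓞 K →+* 𝓞 K)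
      rw [Ideal.map_map]
      congr 1
      exact (RingHom.ext (cj_algebraMap_real p K)).symm)
  obtain ⟨⟨t, ht⟩⟩ := (ClassGroup.mk0_eq_one_iff J.2).mp (hclass _ hJp hfix)
  have h2 : ClassGroup.mk0 I ^ 2 = 1 := by
    rw [← map_pow]
    refine (ClassGroup.mk0_eq_one_iff _).mpr ⟨⟨Algebra.intNorm (𝓞 (maximalRealSubfield K)) (𝓞 K) t, ?_⟩⟩
    show I.1 ^ 2 = _
    have h := Ideal.relNorm_algebraMap (S := 𝓞 K) I.1
    rw [show I.1.map f = Ideal.span {t} from ht, Ideal.relNorm_singleton,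
      ← IsFractionRing.finrank_eq (𝓞 (maximalRealSubfield K)) (maximalRealSubfield K) (𝓞 K) K,
      Algebra.IsQuadraticExtension.finrank_eq_two (maximalRealSubfield K) K] at h
    exact h.symm
  have := Nat.le_of_dvd two_pos (hc ▸ orderOf_dvd_iff_pow_eq_one.mpr h2)
  have := hp.two_le
  omega

/-- `p ^ ((p-3)/2)` divides the discriminant of the real subfield. -/
theorem pow_dvd_discr_real (h3 : 3 ≤ p) :
    p ^ ((p - 1) / 2 - 1) ∣ (discr (maximalRealSubfield K)).natAbs := by
  have hp : p.Prime := Fact.out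
  set f := algebraMap (𝓞 (maximalRealSubfield K)) (𝓞 K)
  have hf : Function.Injective f := FaithfulSMul.algebraMap_injective _ _
  obtain ⟨g, hgr, hg⟩ := exists_realUnit_prime p K h3
  obtain ⟨L, hL⟩ := exists_algebraMap_eq p K (cj_realLam p K)
  obtain ⟨G, hG⟩ := exists_algebraMap_eq p K hgr
  have hnu : ¬ IsUnit L := fun h => by
    have := h.map f
    rw [hL] at this
    exact (cycloRing_zetaInt p K h3).lam_prime.not_isUnit (isUnit_of_dvd_unit
      (((dvd_pow_self _ two_ne_zero)).trans (associated_realLam p K).dvd) this)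
  obtain ⟨Q, hQ, hle⟩ := Ideal.exists_le_maximal _ (fun h => hnu (Ideal.span_singleton_eq_top.mp h))
  have hLQ : L ∈ Q := hle (Ideal.mem_span_singleton_self _)
  have hpL : L ^ ((p - 1) / 2) * G = (p : 𝓞 (maximalRealSubfield K)) :=
    hf (by rw [map_mul, map_pow, hL, hG, hg, map_natCast])
  have : (Ideal.span {(p : ℤ)}).IsMaximal := Int.ideal_span_isMaximal_of_prime p
  have hdiv : Q ^ ((p - 1) / 2) ∣
      (Ideal.span {(p : ℤ)}).map (algebraMap ℤ (𝓞 (maximalRealSubfield K))) := by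
    rw [Ideal.map_span, Set.image_singleton, map_natCast, Ideal.dvd_span_singleton, ← hpL]
    exact Ideal.mul_mem_right _ _ (Ideal.pow_mem_pow hLQ _)
  have hd := map_dvd Ideal.absNorm (pow_sub_one_dvd_differentIdeal ℤ Q _
    (by simp [hp.ne_zero]) hdiv)
  rw [map_pow, NumberField.absNorm_differentIdeal (K := maximalRealSubfield K)] at hd
  refine (pow_dvd_pow_of_dvd ?_ _).trans hd
  have hpQ : (p : 𝓞 (maximalRealSubfield K)) ∈ Q := by
    rw [← hpL]
    exact Ideal.mul_mem_right _ _ (Ideal.pow_mem_of_mem Q hLQ _ (by omega))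
  have hN := Ideal.absNorm_dvd_absNorm_of_le
    ((Ideal.span_singleton_le_iff_mem (I := Q)).mpr hpQ)
  rw [Ideal.absNorm_span_singleton, ← map_natCast (algebraMap ℤ (𝓞 (maximalRealSubfield K))) p,
    Algebra.norm_algebraMap, Int.natAbs_pow, Int.natAbs_natCast] at hN
  obtain ⟨e, -, he⟩ := (Nat.dvd_prime_pow hp).mp hN
  have he0 : e ≠ 0 := fun e0 => hQ.ne_top (Ideal.absNorm_eq_one_iff.mp (by rw [he, e0, pow_zero]))
  rw [he]
  exact dvd_pow_self p he0

end FA.Regular
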