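import Fermat.Agent.Regular.EichlerCongruence
import Fermat.Agent.Regular.FirstCaseBernoulli
import Fermat.Agent.Regular.Criterion
import Fermat.Agent.Regular.SophieGermain

/-!
# Eichler's theorem on the first case

Let `i` be the number of irregular indices of `p`.  By Herbrand the minus part of a class killed by `p`
lives in at most `i` weights, so some `∏ σ_a^(b_a)`, `1 ≤ a ≤ i + 1`, kills it.  Applied to the ideal
`I` with `(x + ζ y) = I^p` this gives a congruence modulo `p` which is impossible for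
`(i + 1) (i + 2) + 3 ≤ p`.
-/

set_option autoImplicit false

noncomputable section

open NumberField Polynomial
open scoped Classical nonZeroDivisors

namespace FA.Regular

/-- The number of irregular indices of `p`. -/
def irregularIndexCount (p : ℕ) : ℕ :=
  ((Finset.Icc 2 (p - 3)).filter fun k => Even k ∧ (p : ℤ) ∣ (_root_.bernoulli k).num).card

variable (p : ℕ) [Fact p.Prime] (K : Type*) [Field K] [NumberField K] [IsCyclotomicExtension {p} ℚ K]

/-- Some combination of `σ_1, …, σ_(i+1)` kills the minus part. -/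
theorem exists_relation_minus (h5 : 5 ≤ p) (hM : irregularIndexCount p + 1 < p)
    {x : ClassGroup (𝓞 K)} (hx : x ^ p = 1) (hconj : FA.Ext.sigmaCl p K (-1) x = x⁻¹) :
    ∃ b : (ZMod p)ˣ → ℕ,
      (∀ d, b d ≠ 0 → (d : ZMod p).val ≤ irregularIndexCount p + 1) ∧ (∃ d, ¬ p ∣ b d) ∧
      ∏ d, FA.Ext.sigmaCl p K d x ^ b d = 1 := by
  have hp : p.Prime := Fact.out
  have hodd := hp.eq_two_or_odd
  set M := irregularIndexCount p + 1
  set T := (Finset.Icc 2 (p - 3)).filter fun k => Even k ∧ (p : ℤ) ∣ (_root_.bernoulli k).num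
  -- the `M` vectors in the space of the weights
  set A := (Finset.univ : Finset ((ZMod p)ˣ)).filter fun d : (ZMod p)ˣ => (d : ZMod p).val ≤ M
  have hA : M ≤ A.card := by
    have hne : ∀ n : Fin M, (((n : ℕ) + 1 : ℕ) : ZMod p) ≠ 0 := fun n h => by
      rw [ZMod.natCast_eq_zero_iff] at h
      have := Nat.le_of_dvd (by omega) h
      omega
    let f : Fin M → (ZMod p)ˣ := fun n => Units.mk0 _ (hne n)
    have hf : ∀ n : Fin M, ((f n : (ZMod p)ˣ) : ZMod p).val = (n : ℕ) + 1 := fun n => by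
      rw [Units.val_mk0, ZMod.val_cast_of_lt (by omega)]
    refine le_of_eq_of_le (Finset.card_fin M).symm (Finset.card_le_card_of_injOn f (fun n _ => ?_)
      fun n _ m _ h => ?_)
    · rw [Finset.mem_coe, Finset.mem_filter, hf]
      exact ⟨Finset.mem_univ _, n.2⟩
    · have := congrArg (fun d : (ZMod p)ˣ => (d : ZMod p).val) h
      simp only [hf] at this
      exact Fin.ext (by omega)
  have hdep : ¬ LinearIndependent (ZMod p)
      fun d : A => fun k : T => ((d.1 : (ZMod p)ˣ) : ZMod p) ^ (p - k.1) := fun h => by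
    have h' := h.fintype_card_le_finrank
    rw [Module.finrank_fintype_fun_eq_card, Fintype.card_coe, Fintype.card_coe] at h'
    have hT : T.card = irregularIndexCount p := rfl
    omega
  obtain ⟨g, hg, d₀, hd₀⟩ := Fintype.not_linearIndependent_iff.mp hdep
  set b : (ZMod p)ˣ → ℕ := fun d => if h : d ∈ A then (g ⟨d, h⟩).val else 0 with hb
  have hbA : ∀ d : A, b d.1 = (g d).val := fun d => by rw [hb]; simp
  refine ⟨b, fun d hd => ?_, ⟨d₀.1, fun h => hd₀ ?_⟩, ?_⟩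
  · by_contra hlt
    exact hd (dif_neg fun h : d ∈ A => hlt (Finset.mem_filter.mp h).2)
  · rw [hbA, ← ZMod.natCast_eq_zero_iff, ZMod.natCast_zmod_val] at h
    exact h
  -- weight by weight
  have hproj : ∀ d, ∀ i < p - 1, FA.Ext.weightProj p K i x ^ (b d * ((d : ZMod p) ^ i).val) =
      FA.Ext.sigmaCl p K d (FA.Ext.weightProj p K i x) ^ b d := fun d i _ => by
    rw [weightProj_eigen p K i hx, ← pow_mul, mul_comm]
  have hsum : ∀ i < p - 1, ∏ d, FA.Ext.sigmaCl p K d (FA.Ext.weightProj p K i x) ^ b d = 1 := by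
    intro i hi
    have hPp : FA.Ext.weightProj p K i x ^ p = 1 := by rw [← map_pow, hx, map_one]
    rw [← Finset.prod_congr rfl fun d _ => hproj d i hi, Finset.prod_pow_eq_pow_sum]
    by_cases h1 : FA.Ext.weightProj p K i x = 1
    · rw [h1, one_pow]
    obtain ⟨h3, hdvd⟩ : 3 ≤ i ∧ (p : ℤ) ∣ (_root_.bernoulli (p - i)).num ∧ Odd i := by
      rcases Nat.even_or_odd i with hev | hodd'
      · refine absurd ?_ h1
        set P := FA.Ext.weightProj p K i x with hP
        have hneg : P = P⁻¹ := by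
          simp only [hP, FA.Ext.weightProj, MonoidHom.coe_mk, OneHom.coe_mk, ← Finset.prod_inv_distrib,
            ← inv_pow]
          refine Fintype.prod_equiv (Equiv.mulRight (-1)) _ _ fun d => ?_
          rw [Equiv.coe_mulRight, FA.Ext.sigmaCl_mul, hconj, map_inv, inv_inv, mul_inv_rev, inv_neg, inv_one,
            neg_mul, one_mul, Units.val_neg, hev.neg_pow]
        obtain ⟨r, hr⟩ : ∃ r, p = 2 * r + 1 := ⟨p / 2, by omega⟩
        have hsq : P ^ 2 = 1 := by
          rw [pow_two]; nth_rewrite 2 [hneg]; exact mul_inv_cancel P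
        calc P = P ^ (2 * r + 1) := by rw [pow_succ, pow_mul, hsq, one_pow, one_mul]
          _ = 1 := by rw [← hr, hPp]
      · obtain ⟨h3, hdvd⟩ :=
          FA.Ext.herbrand p K h5 hodd' (by omega) hPp h1 (weightProj_eigen p K i hx)
        exact ⟨h3, hdvd, hodd'⟩
    obtain ⟨hdvd, hio⟩ := hdvd
    rw [Nat.odd_iff] at hio
    have hk : p - i ∈ T := Finset.mem_filter.mpr
      ⟨Finset.mem_Icc.mpr ⟨by omega, by omega⟩, Nat.even_iff.mpr (by omega), hdvd⟩
    have hzero : ((∑ d, b d * ((d : ZMod p) ^ i).val : ℕ) : ZMod p) = 0 := by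
      have h := congrFun hg ⟨p - i, hk⟩
      simp only [Finset.sum_apply, Pi.smul_apply, smul_eq_mul, Pi.zero_apply,
        show p - (p - i) = i by omega] at h
      rw [Nat.cast_sum, ← h, ← Finset.sum_subset (Finset.subset_univ A) fun d _ hd => by
        rw [hb]; simp [hd], ← Finset.sum_coe_sort A]
      exact Finset.sum_congr rfl fun d _ => by
        rw [Nat.cast_mul, hbA, ZMod.natCast_zmod_val, ZMod.natCast_zmod_val]
    obtain ⟨m, hm⟩ := (ZMod.natCast_eq_zero_iff _ p).mp hzero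
    rw [hm, pow_mul, hPp, one_pow]
  have h := congrArg (fun y => ∏ d, FA.Ext.sigmaCl p K d y ^ b d) (prod_weightProj p K hx)
  simp only [map_prod, ← Finset.prod_pow, map_inv, inv_pow, Finset.prod_inv_distrib] at h
  rw [Finset.prod_comm, Finset.prod_eq_one fun i hi => hsum i (Finset.mem_range.mp hi)] at h
  exact inv_eq_one.mp h.symm

/-- A `p`-th power of an ideal whose class equals its conjugate gives a congruence between a generator
and its conjugate. -/
theorem exists_conj_congr (h5 : 5 ≤ p) {α : 𝓞 K} {I : (Ideal (𝓞 K))⁰}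
    (hI : Ideal.span {α} = (I : Ideal (𝓞 K)) ^ p)
    (hcl : FA.Ext.sigmaCl p K (-1) (ClassGroup.mk0 I) = ClassGroup.mk0 I) :
    ∃ (j : ℕ) (e : ℤ), ¬ (p : ℤ) ∣ e ∧ (p : 𝓞 K) ∣ α ^ 2 -
      (e : 𝓞 K) * FA.Ext.zetaInt p K ^ j * FA.Ext.sigma p K (-1) α ^ 2 := by
  have hp : p.Prime := Fact.out
  have : NeZero p := ⟨hp.ne_zero⟩
  have H := cycloRing_ringOfIntegers (K := K) (p := p) (by omega)
    (IsCyclotomicExtension.zeta_spec p ℚ K)
  change CycloRing (𝓞 K) p (FA.Ext.zetaInt p K) at H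
  set z := FA.Ext.zetaInt p K
  set cj := FA.Ext.sigma p K (-1)
  have hzp : z ^ p = 1 := H.prim.pow_eq_one
  have hcz : cj z = z ^ (p - 1) := by
    rw [show cj z = _ from FA.Ext.sigma_zetaInt p K (-1), Units.val_neg, Units.val_one]
    obtain ⟨q, hq⟩ : ∃ q, p = q + 1 := ⟨p - 1, by omega⟩
    subst hq
    rw [ZMod.val_neg_one, Nat.add_sub_cancel]
  have hcc : ∀ a : 𝓞 K, cj (cj a) = a := fun a => by
    rw [← FA.Ext.sigma_mul_apply, neg_mul_neg, one_mul, FA.Ext.sigma_one_apply]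
  let J₀ : (Ideal (𝓞 K))⁰ := ⟨(I : Ideal (𝓞 K)).map (cj : 𝓞 K →+* 𝓞 K), mem_nonZeroDivisors_iff_ne_zero.mpr
    fun e => (mem_nonZeroDivisors_iff_ne_zero.mp I.2) ((Ideal.map_eq_bot_iff_of_injective cj.injective).mp e)⟩
  rw [FA.Ext.sigmaCl_mk0 p K (-1) I J₀ rfl] at hcl
  obtain ⟨a, b, ha, hb, hab⟩ := ClassGroup.mk0_eq_mk0_iff.mp hcl.symm
  have hpow : Ideal.span {a ^ p * α} = Ideal.span {b ^ p * cj α} := by
    have h := congrArg (fun T : Ideal (𝓞 K) => T ^ p) hab
    simp only [mul_pow, Ideal.span_singleton_pow] at h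
    rw [← Ideal.span_singleton_mul_span_singleton, ← Ideal.span_singleton_mul_span_singleton, hI,
      show Ideal.span {cj α} = ((I : Ideal (𝓞 K)).map (cj : 𝓞 K →+* 𝓞 K)) ^ p by
        rw [← Ideal.map_pow, ← hI, Ideal.map_span, Set.image_singleton]; rfl]
    exact h
  obtain ⟨u, hu⟩ := Ideal.span_singleton_eq_span_singleton.mp hpow
  obtain ⟨s, j, -, hu'⟩ := exists_conj_unit_eq (K := K) (p := p) (by omega) u
  change cj (u : 𝓞 K) = _ at hu'
  have hu2 := congrArg cj hu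
  simp only [map_mul, map_pow, hcc] at hu2
  set A := a * cj b with hA
  have hA0 : A ≠ 0 := mul_ne_zero ha fun e => hb (cj.injective (e.trans (map_zero cj).symm))
  have hmain : A ^ p * α ^ 2 = (-1) ^ s * z ^ j * (cj A) ^ p * (cj α) ^ 2 := by
    refine mul_right_cancel₀ u.ne_zero ?_
    rw [hA, map_mul, hcc, mul_pow, mul_pow]
    calc a ^ p * (cj b) ^ p * α ^ 2 * (u : 𝓞 K) = (a ^ p * α * u) * ((cj b) ^ p * α) := by ring
      _ = (b ^ p * cj α) * ((cj a) ^ p * cj α * cj (u : 𝓞 K)) := by rw [hu, hu2]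
      _ = _ := by rw [hu']; ring
  obtain ⟨m, A', hA', hAA'⟩ := WfDvdMonoid.max_power_factor hA0 H.lam_prime.irreducible
  obtain ⟨n, hn⟩ := H.pow_prime_int A'
  have hn' : (p : 𝓞 K) ∣ cj A' ^ p - (n : 𝓞 K) := by
    have := map_dvd cj hn
    simpa using this
  have hnp : ¬ (p : ℤ) ∣ n := by
    rintro ⟨t, rfl⟩
    refine hA' (H.lam_prime.dvd_of_dvd_pow (n := p) (H.lam_dvd_prime_one.trans ?_))
    have := dvd_add hn (dvd_mul_right (p : 𝓞 K) (t : 𝓞 K))
    simpa using this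
  have hcl' : cj (z - 1) ^ p = -(z - 1) ^ p := by
    have : cj (z - 1) = -(z ^ (p - 1) * (z - 1)) := by
      rw [map_sub, map_one, hcz, mul_sub, mul_one, ← pow_succ, Nat.sub_add_cancel hp.one_le, hzp]
      ring
    rw [this, (hp.odd_of_ne_two (by omega)).neg_pow, mul_pow, ← pow_mul, mul_comm (p - 1) p, pow_mul,
      hzp, one_pow, one_mul]
  have hred : A' ^ p * α ^ 2 = (-1) ^ (s + m) * z ^ j * (cj A') ^ p * (cj α) ^ 2 := by
    refine mul_left_cancel₀ (pow_ne_zero (m * p) H.lam_prime.ne_zero) ?_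
    rw [hAA', map_mul, map_pow, mul_pow, mul_pow, ← pow_mul, ← pow_mul, mul_comm m p,
      pow_mul (cj (z - 1)), hcl', neg_pow ((z - 1) ^ p) m, ← pow_mul] at hmain
    rw [pow_add, mul_comm m p]
    linear_combination hmain
  refine ⟨j, (-1) ^ (s + m), fun h => ?_, ?_⟩
  · rcases neg_one_pow_eq_or ℤ (s + m) with e | e <;>
      rw [e, Int.natCast_dvd] at h <;> exact hp.ne_one (Nat.dvd_one.mp (by simpa using h))
  obtain ⟨t₁, ht₁⟩ := hn
  obtain ⟨t₂, ht₂⟩ := hn'
  obtain ⟨g, g', hg⟩ := (Nat.prime_iff_prime_int.mp hp).coprime_iff_not_dvd.mpr hnp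
  have hg' : (g : 𝓞 K) * (p : 𝓞 K) + (g' : 𝓞 K) * (n : 𝓞 K) = 1 := by exact_mod_cast hg
  push_cast
  refine ⟨(g : 𝓞 K) * (α ^ 2 - (-1) ^ (s + m) * z ^ j * cj α ^ 2) +
    (g' : 𝓞 K) * ((-1) ^ (s + m) * z ^ j * cj α ^ 2 * t₂ - α ^ 2 * t₁), ?_⟩
  linear_combination (g' : 𝓞 K) * hred - (g' : 𝓞 K) * α ^ 2 * ht₁ +
    (g' : 𝓞 K) * (-1) ^ (s + m) * z ^ j * cj α ^ 2 * ht₂ -
    (α ^ 2 - (-1) ^ (s + m) * z ^ j * cj α ^ 2) * hg'

/-- The congruence between a product of conjugates of `x + ζ y` and its complex conjugate is impossible. -/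
theorem not_conj_congr_prod (h5 : 5 ≤ p) {M : ℕ} (hM : M * (M + 1) + 3 ≤ p) {x y : ℤ} (hx : ¬ (p : ℤ) ∣ x)
    (hy : ¬ (p : ℤ) ∣ y) (hs : ¬ (p : ℤ) ∣ x + y) (hd : ¬ (p : ℤ) ∣ x - y) {b : (ZMod p)ˣ → ℕ}
    (hb : ∀ d, b d ≠ 0 → (d : ZMod p).val ≤ M) {d₀ : (ZMod p)ˣ} (hd₀ : ¬ p ∣ b d₀) (j : ℕ) {e : ℤ}
    (he : ¬ (p : ℤ) ∣ e) :
    ¬ (p : 𝓞 K) ∣ (∏ d, FA.Ext.sigma p K d ((x : 𝓞 K) + FA.Ext.zetaInt p K * y) ^ b d) ^ 2 -
      (e : 𝓞 K) * FA.Ext.zetaInt p K ^ j * FA.Ext.sigma p K (-1)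
        (∏ d, FA.Ext.sigma p K d ((x : 𝓞 K) + FA.Ext.zetaInt p K * y) ^ b d) ^ 2 := by
  intro hcongr
  have hp : p.Prime := Fact.out
  have : NeZero p := ⟨hp.ne_zero⟩
  set z := FA.Ext.zetaInt p K
  have hzp : z ^ p = 1 := (FA.Ext.zetaInt_spec p K).pow_eq_one
  set F := (x : 𝓞 K) + z * y with hF
  set α := ∏ d, FA.Ext.sigma p K d F ^ b d with hα
  -- as polynomials
  set S := (Finset.univ.filter fun d : (ZMod p)ˣ => (d : ZMod p).val ≤ M) with hS
  set s := S.image fun d : (ZMod p)ˣ => (d : ZMod p).val with hs'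
  set cN : ℕ → ℕ := fun a => if h : (a : ZMod p) = 0 then 0 else 2 * b (Units.mk0 _ h) with hcN
  have hinj : ∀ d ∈ S, ∀ d' ∈ S, (d : ZMod p).val = (d' : ZMod p).val → d = d' := fun d _ d' _ h =>
    Units.ext (ZMod.val_injective p h)
  have hcd : ∀ d : (ZMod p)ˣ, cN (d : ZMod p).val = 2 * b d := fun d => by
    simp only [hcN]
    rw [dif_neg (by rw [ZMod.natCast_zmod_val]; exact d.ne_zero)]
    congr 2
    exact Units.ext (ZMod.natCast_zmod_val _)
  set G := fun d : (ZMod p)ˣ => (x : 𝓞 K) * z ^ (d : ZMod p).val + y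
  have hσF : ∀ d : (ZMod p)ˣ, FA.Ext.sigma p K d F = (x : 𝓞 K) + z ^ (d : ZMod p).val * y := fun d => by
    rw [hF, map_add, map_mul, map_intCast, map_intCast, FA.Ext.sigma_zetaInt]
  have hcjF : ∀ d : (ZMod p)ˣ, FA.Ext.sigma p K (-1) (FA.Ext.sigma p K d F) =
      z ^ (p - (d : ZMod p).val) * G d := fun d => by
    rw [← FA.Ext.sigma_mul_apply, hσF, neg_one_mul, Units.val_neg, ZMod.neg_val, if_neg d.ne_zero,
      mul_add, mul_left_comm, ← pow_add,
      Nat.sub_add_cancel (ZMod.val_lt _).le, hzp, mul_one]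
  have hα2 : α ^ 2 = ∏ d ∈ S, ((x : 𝓞 K) + z ^ (d : ZMod p).val * y) ^ cN (d : ZMod p).val := by
    rw [hα, ← Finset.prod_pow, Finset.prod_subset (Finset.subset_univ S) fun d _ hd => ?_]
    · exact Finset.prod_congr rfl fun d _ => by rw [hσF, hcd, ← pow_mul, mul_comm (b d)]
    · rw [hcd, show b d = 0 from by_contra fun h => hd (Finset.mem_filter.mpr ⟨Finset.mem_univ _, hb d h⟩),
        mul_zero, pow_zero]
  have hcα2 : FA.Ext.sigma p K (-1) α ^ 2 = z ^ (∑ d ∈ S, (p - (d : ZMod p).val) * cN (d : ZMod p).val) *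
      ∏ d ∈ S, G d ^ cN (d : ZMod p).val := by
    rw [← map_pow, hα2, map_prod, ← Finset.prod_pow_eq_pow_sum, ← Finset.prod_mul_distrib]
    refine Finset.prod_congr rfl fun d _ => ?_
    rw [map_pow, ← hσF, hcjF, mul_pow, ← pow_mul]
  set P : ℤ[X] := (∏ a ∈ s, (Polynomial.C x + Polynomial.C y * X ^ a) ^ cN a) -
    Polynomial.C e * X ^ (j + ∑ d ∈ S, (p - (d : ZMod p).val) * cN (d : ZMod p).val) *
      ∏ a ∈ s, (Polynomial.C x * X ^ a + Polynomial.C y) ^ cN a with hP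
  have haev : aeval z P = α ^ 2 - (e : 𝓞 K) * z ^ j * FA.Ext.sigma p K (-1) α ^ 2 := by
    rw [hP, hα2, hcα2, hs', Finset.prod_image hinj, Finset.prod_image hinj]
    simp only [map_sub, map_mul, map_prod, map_pow, map_add, aeval_C, aeval_X, algebraMap_int_eq, Int.coe_castRingHom,
      pow_add, G]
    congr 1
    · exact Finset.prod_congr rfl fun d _ => by rw [mul_comm (y : 𝓞 K)]
    · ring
  have hdvd := pow_dvd_map_of_dvd_aeval p K (haev ▸ hcongr)
  simp only [hP, Polynomial.map_sub, Polynomial.map_mul, Polynomial.map_prod, Polynomial.map_pow,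
    Polynomial.map_add, Polynomial.map_C, Polynomial.map_X, Int.coe_castRingHom] at hdvd
  have hxp : ((x : ℤ) : ZMod p) ≠ 0 := fun e => hx ((ZMod.intCast_zmod_eq_zero_iff_dvd _ p).mp e)
  have hyp : ((y : ℤ) : ZMod p) ≠ 0 := fun e => hy ((ZMod.intCast_zmod_eq_zero_iff_dvd _ p).mp e)
  have hd₀S : d₀ ∈ S := Finset.mem_filter.mpr ⟨Finset.mem_univ _, hb d₀ fun e => hd₀ (e ▸ dvd_zero p)⟩
  obtain ⟨m, hm⟩ : ∃ m, p - 1 = m + 1 := ⟨p - 2, by omega⟩
  rw [hm] at hdvd
  refine not_congr_of_weight hxp hyp (fun e => hs ((ZMod.intCast_zmod_eq_zero_iff_dvd _ p).mp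
    (by rw [Int.cast_add]; exact e))) (fun e' => he ((ZMod.intCast_zmod_eq_zero_iff_dvd _ p).mp e')) _ cN
    ?_ ?_ (Finset.mem_image_of_mem _ hd₀S) ?_ hdvd
  · rw [Finset.mem_image]
    rintro ⟨d, -, hd⟩
    exact d.ne_zero ((ZMod.val_eq_zero _).mp hd)
  · have hsub : s ⊆ Finset.range (M + 1) := fun a ha => by
      obtain ⟨d, hd, rfl⟩ := Finset.mem_image.mp ha
      rw [Finset.mem_range]
      have := (Finset.mem_filter.mp hd).2
      omega
    refine (Finset.sum_le_sum_of_subset hsub).trans_lt ?_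
    rw [← Finset.mul_sum, mul_comm 2, Finset.sum_range_id_mul_two, Nat.add_sub_cancel, mul_comm]
    omega
  · rw [hcd, ZMod.natCast_zmod_val]
    refine mul_ne_zero (mul_ne_zero ?_ d₀.ne_zero) ?_
    · rw [Nat.cast_mul]
      exact mul_ne_zero (by exact_mod_cast FA.Ext.two_ne_zero_of_five_le p (by omega))
        fun e => hd₀ ((ZMod.natCast_eq_zero_iff _ p).mp e)
    · rw [sq, sq, sub_ne_zero, Ne, mul_self_eq_mul_self_iff]
      rintro (e | e)
      · exact hd ((ZMod.intCast_zmod_eq_zero_iff_dvd _ p).mp (by rw [Int.cast_sub, e, sub_self]))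
      · exact hs ((ZMod.intCast_zmod_eq_zero_iff_dvd _ p).mp (by rw [Int.cast_add, e, add_neg_cancel]))

variable {p}

set_option backward.isDefEq.respectTransparency false in
/-- **Eichler's theorem**: the cofactor is no `p`-th power. -/
theorem cofactor_ne_pow_of_count (h : (irregularIndexCount p + 1) * (irregularIndexCount p + 2) + 3 ≤ p)
    {x y w : ℤ} (hxy : IsCoprime x y) (hx : ¬ (p : ℤ) ∣ x) (hy : ¬ (p : ℤ) ∣ y)
    (hs : ¬ (p : ℤ) ∣ x + y) (hd : ¬ (p : ℤ) ∣ x - y) : x ^ p + y ^ p ≠ (x + y) * w ^ p := by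
  intro heq
  have hp : p.Prime := Fact.out
  have : NeZero p := ⟨hp.ne_zero⟩
  have hM : irregularIndexCount p + 1 ≤ (irregularIndexCount p + 1) * (irregularIndexCount p + 2) :=
    Nat.le_mul_of_pos_right _ (by omega)
  have h2 : 2 ≤ (irregularIndexCount p + 1) * (irregularIndexCount p + 2) :=
    (show 2 ≤ 1 * (irregularIndexCount p + 2) by omega).trans (Nat.mul_le_mul_right _ (by omega))
  let K := CyclotomicField p ℚ
  have : IsCyclotomicExtension {p} ℚ K :=
    inferInstanceAs (IsCyclotomicExtension {p} ℚ (CyclotomicField p ℚ))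
  have : NumberField K := IsCyclotomicExtension.numberField {p} ℚ K
  have H := cycloRing_ringOfIntegers (K := K) (p := p) (by omega)
    (IsCyclotomicExtension.zeta_spec p ℚ K)
  change CycloRing (𝓞 K) p (FA.Ext.zetaInt p K) at H
  set z := FA.Ext.zetaInt p K with hz
  have hzp : z ^ p = 1 := H.prim.pow_eq_one
  set F := (x : 𝓞 K) + z * y with hF
  have hF0 : F ≠ 0 := fun e => hs (H.int_dvd _ ⟨-(y : 𝓞 K), by
    push_cast
    linear_combination e⟩)
  obtain ⟨I, hI⟩ := span_factor_eq_pow (K := K) (i := 1) (by omega) hxy hs heq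
    (Finset.mem_Ico.mpr ⟨le_rfl, hp.one_lt⟩)
  rw [pow_one] at hI
  change Ideal.span {F} = I ^ p at hI
  have hI0 : I ≠ ⊥ := fun e => hF0 (by
    rw [e] at hI
    exact Ideal.span_singleton_eq_bot.mp (hI.trans (zero_pow hp.ne_zero)))
  let σ : (ZMod p)ˣ → (Ideal (𝓞 K))⁰ := fun d => ⟨I.map (FA.Ext.sigma p K d : 𝓞 K →+* 𝓞 K),
    mem_nonZeroDivisors_iff_ne_zero.mpr fun e => hI0 ((Ideal.map_eq_bot_iff_of_injective
      (FA.Ext.sigma p K d).injective).mp e)⟩
  let I₀ : (Ideal (𝓞 K))⁰ := ⟨I, mem_nonZeroDivisors_iff_ne_zero.mpr hI0⟩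
  set C := ClassGroup.mk0 I₀
  have hCp : C ^ p = 1 := by
    rw [← map_pow]
    exact (ClassGroup.mk0_eq_one_iff _).mpr ⟨⟨F, hI.symm⟩⟩
  set c := FA.Ext.sigmaCl p K (-1)
  have hcc : c (c C) = C := by
    show FA.Ext.sigmaCl p K (-1) (FA.Ext.sigmaCl p K (-1) C) = C
    rw [← FA.Ext.sigmaCl_mul, neg_mul_neg, one_mul]
    show ClassGroup.mulEquiv (FA.Ext.sigma p K 1) C = C
    rw [map_one]
    exact ClassGroup.mulEquiv_refl_apply C
  -- the relation
  obtain ⟨b, hb, ⟨d₀, hd₀⟩, hrel⟩ := exists_relation_minus p K (by omega) (by omega)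
    (x := C * (c C)⁻¹) (by rw [mul_pow, inv_pow, hCp, ← map_pow c, hCp, map_one, inv_one, one_mul])
    (by rw [map_mul, map_inv, hcc, mul_inv_rev, inv_inv])
  set α := ∏ d, FA.Ext.sigma p K d F ^ b d with hα
  set J : (Ideal (𝓞 K))⁰ := ∏ d, σ d ^ b d with hJ
  have hspan : Ideal.span {α} = (J : Ideal (𝓞 K)) ^ p := by
    rw [hα, ← Ideal.prod_span_singleton, hJ, Submonoid.coe_finsetProd, ← Finset.prod_pow]
    refine Finset.prod_congr rfl fun d _ => ?_
    rw [← Ideal.span_singleton_pow, SubmonoidClass.coe_pow, ← pow_mul, mul_comm, pow_mul]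
    congr 1
    show _ = (I.map (FA.Ext.sigma p K d : 𝓞 K →+* 𝓞 K)) ^ p
    rw [← Ideal.map_pow, ← hI, Ideal.map_span, Set.image_singleton]
    rfl
  have hcl : c (ClassGroup.mk0 J) = ClassGroup.mk0 J := by
    have hmk : ClassGroup.mk0 J = ∏ d, FA.Ext.sigmaCl p K d C ^ b d := by
      rw [hJ, map_prod]
      exact Finset.prod_congr rfl fun d _ => by
        rw [map_pow, FA.Ext.sigmaCl_mk0 p K d I₀ (σ d) rfl]
    rw [← mul_inv_eq_one, ← inv_eq_one, mul_inv_rev, inv_inv, ← hrel, hmk, map_prod, ← Finset.prod_inv_distrib,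
      ← Finset.prod_mul_distrib]
    refine Finset.prod_congr rfl fun d _ => ?_
    rw [map_pow, map_mul, map_inv, mul_pow, inv_pow]
    show _ = _ * (FA.Ext.sigmaCl p K d (FA.Ext.sigmaCl p K (-1) C) ^ b d)⁻¹
    rw [← FA.Ext.sigmaCl_mul, ← FA.Ext.sigmaCl_mul, mul_comm d]
  obtain ⟨j, e, he, hcongr⟩ := exists_conj_congr p K (by omega) hspan hcl
  exact not_conj_congr_prod p K (by omega) (M := irregularIndexCount p + 1) h hx hy hs hd hb hd₀ j he
    hcongr

/-- **Eichler**: the first case with few irregular indices. -/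
theorem first_case_of_count (h : (irregularIndexCount p + 1) * (irregularIndexCount p + 2) + 3 ≤ p)
    {a b c : ℤ} (hbc : IsCoprime b c) (hca : IsCoprime c a) (ha : ¬ (p : ℤ) ∣ a)
    (hb : ¬ (p : ℤ) ∣ b) (hc : ¬ (p : ℤ) ∣ c) : a ^ p + b ^ p + c ^ p ≠ 0 := by
  intro hsum
  have hp : p.Prime := Fact.out
  have h2 : 2 ≤ (irregularIndexCount p + 1) * (irregularIndexCount p + 2) :=
    (show 2 ≤ 1 * (irregularIndexCount p + 2) by omega).trans (Nat.mul_le_mul_right _ (by omega))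
  have hodd : Odd p := hp.odd_of_ne_two (by omega)
  have hmod : (a : ZMod p) + b + c = 0 := by
    have h := congrArg (Int.cast : ℤ → ZMod p) hsum
    simpa [ZMod.pow_card] using h
  have hne : ∀ u v w : ℤ, (u : ZMod p) + v + w = 0 → IsCoprime v w →
      ¬ (p : ℤ) ∣ u → ¬ (p : ℤ) ∣ v → ¬ (p : ℤ) ∣ w → u ^ p + v ^ p + w ^ p = 0 →
      (p : ℤ) ∣ v - w := by
    intro u v w h' hvw hu hv hw hs
    by_contra hd
    obtain ⟨A, T, hA, hT, -⟩ := exists_pow_of_sum hodd hs hvw hu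
    refine cofactor_ne_pow_of_count h (w := T) hvw hv hw (fun e => hu ?_) hd ?_
    · rw [← ZMod.intCast_zmod_eq_zero_iff_dvd] at e ⊢
      push_cast at e
      linear_combination h' - e
    · rw [← hT, mul_comm, sgCofactor_mul hodd]
  have h1 := hne a b c hmod hbc ha hb hc hsum
  have h2 := hne b c a (by linear_combination hmod) hca hb hc ha (by linear_combination hsum)
  rw [← ZMod.intCast_zmod_eq_zero_iff_dvd, Int.cast_sub, sub_eq_zero] at h1 h2
  rw [h1, h2] at hmod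
  have h3 : ((3 : ℕ) : ZMod p) * (a : ZMod p) = 0 := by push_cast; linear_combination hmod
  rcases mul_eq_zero.mp h3 with h | h
  · rw [ZMod.natCast_eq_zero_iff] at h
    have := Nat.le_of_dvd (by norm_num) h
    omega
  · exact ha ((ZMod.intCast_zmod_eq_zero_iff_dvd _ p).mp h)

end FA.Regular
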