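import Mathlib

/-!
# Auxiliary primes in the theorem of Sophie Germain and Legendre

`AuxRow.ok (p, q, w)`: `q = m p + 1` is prime, `w` has order `m` modulo `q`, `p^m ≠ 1` and
`(1 + w^i)^m ≠ 1` modulo `q`.  Then no three nonzero `p`-th powers sum to zero modulo `q` and `p` is
none, which is all that the first case at `p` needs.
-/

set_option autoImplicit false

namespace FA.Regular

/-- Powers modulo `q` by repeated squaring, with fuel. -/
def auxPowMod (q : ℕ) : ℕ → ℕ → ℕ → ℕ
  | 0, _, _ => 1 % q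
  | f + 1, b, e =>
    if e % 2 = 0 then auxPowMod q f (b * b % q) (e / 2)
    else b * auxPowMod q f (b * b % q) (e / 2) % q

theorem auxPowMod_cast (q : ℕ) : ∀ (f b e : ℕ), e < 2 ^ f →
    ((auxPowMod q f b e : ℕ) : ZMod q) = (b : ZMod q) ^ e
  | 0, b, e, h => by simp [auxPowMod, show e = 0 by simpa using h]
  | f + 1, b, e, h => by
    have ih := auxPowMod_cast q f (b * b % q) (e / 2) (by rw [pow_succ] at h; omega)
    rw [ZMod.natCast_mod, Nat.cast_mul, ← sq (b : ZMod q), ← pow_mul] at ih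
    rw [auxPowMod]
    split_ifs with he
    · rw [ih, show 2 * (e / 2) = e by omega]
    · rw [ZMod.natCast_mod, Nat.cast_mul, ih, ← pow_succ', show 2 * (e / 2) + 1 = e by omega]

theorem auxPowMod_lt {q : ℕ} (hq : 0 < q) : ∀ f b e : ℕ, auxPowMod q f b e < q
  | 0, _, _ => Nat.mod_lt _ hq
  | f + 1, b, e => by
    rw [auxPowMod]
    split_ifs
    · exact auxPowMod_lt hq f _ _
    · exact Nat.mod_lt _ hq

/-- The number of trial divisors for `q`. -/
def auxTrialBound (q : ℕ) : ℕ := if q < 128 * 128 then 128 else if q < 512 * 512 then 512 else 1300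

/-- The check of one row `(p, q, w)`. -/
def auxRowOk : ℕ × ℕ × ℕ → Bool
  | (p, q, w) =>
    let m := (q - 1) / p
    decide (5 ≤ p) && decide (m * p + 1 = q) && decide (m % 2 = 0) && decide (m < 256) &&
      decide (2 ≤ q) && decide (q < 1300 * 1300) &&
      decide (q % 2 = 1) && ((List.range (auxTrialBound q / 2)).all fun i =>
        Nat.blt q ((2 * i + 3) * (2 * i + 3)) || Nat.blt 0 (q % (2 * i + 3))) &&
      decide (auxPowMod q 8 p m ≠ 1) && decide (auxPowMod q 8 w m = 1) &&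
      (List.range m).all fun i =>
        (decide (i = 0) || decide (auxPowMod q 8 w i ≠ 1)) &&
          decide (auxPowMod q 8 (1 + auxPowMod q 8 w i) m ≠ 1)

/-- All rows of a table grouped by hundreds are correct. -/
def auxTableRows (T : List (List (ℕ × ℕ × ℕ))) : Bool := T.all fun b => b.all auxRowOk

/-- The small primes. -/
def auxSmallPrimes : List ℕ :=
  [2, 3, 5, 7, 11, 13, 17, 19, 23, 29, 31, 37, 41, 43, 47, 53, 59, 61, 67, 71, 73, 79, 83, 89, 97]

/-- Every `n < 10000` is below five, has a small proper divisor or heads a row. -/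
def auxTableComplete (T : List (List (ℕ × ℕ × ℕ))) : Bool :=
  (List.range 100).all fun a => (List.range 100).all fun b =>
    decide (100 * a + b < 5) ||
      (auxSmallPrimes.any fun l => decide (l < 100 * a + b) && decide ((100 * a + b) % l = 0)) ||
      (T.getD a []).any fun x => decide (x.1 = 100 * a + b)

theorem auxRow_spec {p q w : ℕ} (h : auxRowOk (p, q, w) = true) :
    5 ≤ p ∧ q.Prime ∧ (∀ x y z : ZMod q, x ^ p + y ^ p + z ^ p = 0 → x = 0 ∨ y = 0 ∨ z = 0) ∧
      ∀ x : ZMod q, x ^ p ≠ (p : ZMod q) := by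
  simp only [auxRowOk, Bool.and_eq_true, decide_eq_true_eq, List.all_eq_true, List.mem_range,
    Bool.or_eq_true] at h
  obtain ⟨⟨⟨⟨⟨⟨⟨⟨⟨⟨h5, hmq⟩, hev⟩, hm⟩, hq2⟩, hq⟩, hq1⟩, htr⟩, hpm⟩, hwm⟩, hw⟩ := h
  set m := (q - 1) / p
  have hqp : q.Prime := by
    refine Nat.prime_def_le_sqrt.mpr ⟨hq2, fun d hd2 hd => fun hdvd => ?_⟩
    have hdd := Nat.le_sqrt.mp hd
    have hb : q < auxTrialBound q * auxTrialBound q := by rw [auxTrialBound]; split_ifs <;> omega
    have hdq : d < auxTrialBound q := lt_of_mul_self_lt_mul_self₀ (Nat.zero_le _) (hdd.trans_lt hb)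
    rcases Nat.even_or_odd' d with ⟨e, rfl | rfl⟩
    · have := Nat.mod_eq_zero_of_dvd (dvd_trans (dvd_mul_right 2 e) hdvd)
      omega
    · rcases htr (e - 1) (by omega) with h | h <;>
        rw [show 2 * (e - 1) + 3 = 2 * e + 1 by omega, Nat.blt_eq] at h
      · omega
      · exact h.ne' (Nat.mod_eq_zero_of_dvd hdvd)
  have := Fact.mk hqp
  have hm0 : m ≠ 0 := fun e => by rw [e] at hmq; omega
  have hm8 : m < 2 ^ 8 := by omega
  have hcast : ∀ b e, e < 2 ^ 8 → auxPowMod q 8 b e ≠ 1 → (b : ZMod q) ^ e ≠ 1 := by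
    intro b e he hne h1
    rw [← auxPowMod_cast q 8 b e he] at h1
    have hlt : auxPowMod q 8 b e < q := auxPowMod_lt hqp.pos 8 b e
    exact hne (by
      rw [← Nat.cast_one, ZMod.natCast_eq_natCast_iff', Nat.mod_eq_of_lt hlt,
        Nat.mod_eq_of_lt hqp.one_lt] at h1
      exact h1)
  have hpow : ∀ x : ZMod q, x ≠ 0 → (x ^ p) ^ m = 1 := fun x hx => by
    rw [← pow_mul, mul_comm, show m * p = q - 1 by omega]
    exact ZMod.pow_card_sub_one_eq_one hx
  have hprim : IsPrimitiveRoot (w : ZMod q) m := by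
    refine IsPrimitiveRoot.iff_def _ _ |>.mpr ⟨?_, fun i hi => ?_⟩
    · rw [← auxPowMod_cast q 8 w m hm8, hwm, Nat.cast_one]
    · by_contra hd
      have hr : 0 < i % m := Nat.pos_of_ne_zero fun e => hd (Nat.dvd_of_mod_eq_zero e)
      have hlt : i % m < m := Nat.mod_lt _ (Nat.pos_of_ne_zero hm0)
      refine hcast w (i % m) (hlt.trans hm8) (((hw _ hlt).1).resolve_left hr.ne') ?_
      rw [← hi]
      conv_rhs => rw [← Nat.mod_add_div i m, pow_add, pow_mul,
        ← auxPowMod_cast q 8 w m hm8, hwm, Nat.cast_one, one_pow, mul_one]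
  refine ⟨h5, hqp, fun x y z hsum => ?_, fun x hx => ?_⟩
  · by_contra hne
    push Not at hne
    obtain ⟨hx, hy, hz⟩ := hne
    have : NeZero m := ⟨hm0⟩
    obtain ⟨i, hi, hiy⟩ := hprim.eq_pow_of_pow_eq_one (hpow (y / x) (div_ne_zero hy hx))
    refine hcast _ m hm8 (hw i hi).2 ?_
    rw [Nat.cast_add, Nat.cast_one, auxPowMod_cast q 8 w i (hi.trans hm8), hiy, div_pow,
      show 1 + y ^ p / x ^ p = -(z ^ p / x ^ p) by
        field_simp
        linear_combination hsum,
      (Nat.even_iff.mpr hev).neg_pow, ← div_pow, hpow _ (div_ne_zero hz hx)]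
  · refine hcast p m hm8 hpm ?_
    rw [← hx]
    refine hpow x fun e => ?_
    rw [e, zero_pow (by omega)] at hx
    have hdvd := (ZMod.natCast_eq_zero_iff p q).mp hx.symm
    have := Nat.le_of_dvd (by omega) hdvd
    have : p ≤ m * p := Nat.le_mul_of_pos_left _ (Nat.pos_of_ne_zero hm0)
    omega

end FA.Regular
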