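import Mathlib

/-!
Integer coefficient lists as computable stand-ins for polynomials in one element of a ring.
-/

set_option autoImplicit false

namespace FA.Regular

open Finset

variable {R : Type*} [CommRing R]

/-- Evaluate a coefficient list (constant term first) at `x`. -/
def evalL (x : R) : List ℤ → R
  | [] => 0
  | a :: l => (a : R) + x * evalL x l

/-- Sum of coefficient lists. -/
def addL : List ℤ → List ℤ → List ℤ
  | [], m => m
  | a :: l, [] => a :: l
  | a :: l, b :: m => (a + b) :: addL l m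

/-- Scalar multiple of a coefficient list. -/
def smulL (k : ℤ) : List ℤ → List ℤ
  | [] => []
  | a :: l => (k * a) :: smulL k l

/-- Product of coefficient lists. -/
def mulL : List ℤ → List ℤ → List ℤ
  | [], _ => []
  | a :: l, m => addL (smulL a m) (0 :: mulL l m)

theorem evalL_addL (x : R) : ∀ l m, evalL x (addL l m) = evalL x l + evalL x m
  | [], m => by simp [addL, evalL]
  | a :: l, [] => by simp [addL, evalL]
  | a :: l, b :: m => by simp [addL, evalL, evalL_addL x l m]; ring

theorem evalL_smulL (x : R) (k : ℤ) : ∀ l, evalL x (smulL k l) = (k : R) * evalL x l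
  | [] => by simp [smulL, evalL]
  | a :: l => by simp [smulL, evalL, evalL_smulL x k l]; ring

theorem evalL_mulL (x : R) : ∀ l m, evalL x (mulL l m) = evalL x l * evalL x m
  | [], m => by simp [mulL, evalL]
  | a :: l, m => by simp [mulL, evalL, evalL_addL, evalL_smulL, evalL_mulL x l m]; ring

theorem evalL_append (x : R) : ∀ l m, evalL x (l ++ m) = evalL x l + x ^ l.length * evalL x m
  | [], m => by simp [evalL]
  | a :: l, m => by simp [evalL, evalL_append x l m, pow_succ]; ring

theorem evalL_replicate (x : R) (c : ℤ) :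
    ∀ n, evalL x (List.replicate n c) = (c : R) * ∑ i ∈ range n, x ^ i
  | 0 => by simp [evalL]
  | n + 1 => by
    rw [List.replicate_succ, evalL, evalL_replicate x c n, Finset.sum_range_succ']
    simp [pow_succ, ← Finset.sum_mul]; ring

theorem map_evalL {S : Type*} [CommRing S] (f : R →+* S) (x : R) :
    ∀ l, f (evalL x l) = evalL (f x) l
  | [] => by simp [evalL]
  | a :: l => by simp [evalL, map_evalL f x l]

/-- Truncate below degree `n` and reduce coefficients modulo `p`. -/
def redL (p : ℤ) : ℕ → List ℤ → List ℤ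
  | 0, _ => []
  | _ + 1, [] => []
  | n + 1, a :: l => (a % p) :: redL p n l

theorem evalL_redL_dvd (t : R) {p : ℤ} {N : ℕ} (hp : t ^ N ∣ (p : R)) :
    ∀ n, n ≤ N → ∀ l, t ^ n ∣ evalL t (redL p n l) - evalL t l
  | 0, _, l => by simp
  | n + 1, hn, [] => by simp [redL]
  | n + 1, hn, a :: l => by
    obtain ⟨c, hc⟩ := evalL_redL_dvd t hp n (by omega) l
    obtain ⟨d, hd⟩ := (pow_dvd_pow t hn).trans hp
    refine ⟨c - d * ((a / p : ℤ) : R), ?_⟩
    simp only [redL, evalL]
    have h : ((a % p : ℤ) : R) = (a : R) - (p : R) * ((a / p : ℤ) : R) := by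
      rw [Int.emod_def]; push_cast; ring
    rw [h]
    linear_combination t * hc - ((a / p : ℤ) : R) * hd

/-- Product truncated below degree `n`, with coefficients modulo `p`. -/
def mulT (p : ℤ) (n : ℕ) (l m : List ℤ) : List ℤ := redL p n (mulL l m)

/-- Powers truncated below degree `n`, with coefficients modulo `p`. -/
def powT (p : ℤ) (n : ℕ) (l : List ℤ) : ℕ → List ℤ
  | 0 => [1]
  | e + 1 => mulT p n l (powT p n l e)

theorem evalL_mulT_dvd {t x y : R} {p : ℤ} {n : ℕ} (hp : t ^ n ∣ (p : R)) {l m : List ℤ}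
    (hl : t ^ n ∣ x - evalL t l) (hm : t ^ n ∣ y - evalL t m) :
    t ^ n ∣ x * y - evalL t (mulT p n l m) := by
  obtain ⟨a, ha⟩ := hl
  obtain ⟨b, hb⟩ := hm
  obtain ⟨c, hc⟩ := evalL_redL_dvd t hp n le_rfl (mulL l m)
  refine ⟨a * y + evalL t l * b - c, ?_⟩
  rw [evalL_mulL] at hc
  rw [mulT]
  linear_combination y * ha + evalL t l * hb - hc

theorem evalL_powT_dvd {t x : R} {p : ℤ} {n : ℕ} (hp : t ^ n ∣ (p : R)) {l : List ℤ}
    (hl : t ^ n ∣ x - evalL t l) : ∀ e, t ^ n ∣ x ^ e - evalL t (powT p n l e)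
  | 0 => by simp [powT, evalL]
  | e + 1 => by
    rw [pow_succ', powT]
    exact evalL_mulT_dvd hp hl (evalL_powT_dvd hp hl e)

/-- Fold a coefficient list once modulo `x ^ p = 1`. -/
def wrapL (p : ℕ) (l : List ℤ) : List ℤ := addL (l.take p) (l.drop p)

theorem evalL_wrapL {x : R} {p : ℕ} (hx : x ^ p = 1) (l : List ℤ) :
    evalL x (wrapL p l) = evalL x l := by
  rw [wrapL, evalL_addL]
  by_cases h : p ≤ l.length
  · conv_rhs => rw [← List.take_append_drop p l]
    rw [evalL_append, List.length_take, min_eq_left h, hx, one_mul]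
  · rw [List.take_of_length_le (by omega), List.drop_of_length_le (by omega)]
    simp [evalL]

/-- The coefficient list of `x ↦ f (x ^ i)` modulo `x ^ p = 1`. -/
def conjL (p i : ℕ) : List ℤ → List ℤ
  | [] => []
  | a :: l => wrapL p (addL [a] (List.replicate i 0 ++ conjL p i l))

theorem evalL_conjL {x : R} {p : ℕ} (hx : x ^ p = 1) (i : ℕ) :
    ∀ l, evalL x (conjL p i l) = evalL (x ^ i) l
  | [] => by simp [conjL, evalL]
  | a :: l => by
    simp [conjL, evalL, evalL_wrapL hx, evalL_addL, evalL_append, evalL_replicate,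
      evalL_conjL hx i l]

/-- The product of `f (x ^ i)` over `1 ≤ i ≤ n`, modulo `x ^ p = 1`. -/
def normL (p : ℕ) (f : List ℤ) : ℕ → List ℤ
  | 0 => [1]
  | n + 1 => wrapL p (mulL (normL p f n) (conjL p (n + 1) f))

theorem evalL_normL {x : R} {p : ℕ} (hx : x ^ p = 1) (f : List ℤ) :
    ∀ n, evalL x (normL p f n) = ∏ i ∈ range n, evalL (x ^ (i + 1)) f
  | 0 => by simp [normL, evalL]
  | n + 1 => by
    rw [normL, evalL_wrapL hx, evalL_mulL, evalL_normL hx f n, evalL_conjL hx,
      Finset.prod_range_succ]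

/-- The coefficient list in `Y` of `1 + (1 + Y) + ⋯ + (1 + Y) ^ (a - 1)`. -/
def geomL : ℕ → List ℤ
  | 0 => []
  | a + 1 => addL [1] (mulL [1, 1] (geomL a))

theorem evalL_geomL (y : R) : ∀ a, evalL y (geomL a) = ∑ i ∈ range a, (1 + y) ^ i
  | 0 => by simp [geomL, evalL]
  | a + 1 => by
    simp [geomL, evalL, evalL_addL, evalL_mulL, evalL_geomL y a, Finset.sum_range_succ',
      pow_succ, ← Finset.sum_mul]
    ring

end FA.Regular
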