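import Fermat.Agent.Regular.Setup

/-!
The second case of Fermat's equation for a prime exponent, in a principal ideal domain with
Kummer's property.
-/

set_option autoImplicit false
set_option linter.unusedSectionVars false

namespace FA.Regular

open Finset

variable {R : Type*} [CommRing R] [IsDomain R] {p : ℕ} [hp : Fact p.Prime] {ζ : R}

namespace CycloRing

theorem pow_add_pow_eq_prod (H : CycloRing R p ζ) (hodd : Odd p) (x y : R) :
    x ^ p + y ^ p = ∏ i ∈ range p, (x + ζ ^ i * y) := by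
  rw [H.prim.pow_add_pow_eq_prod_add_mul x y hodd]
  classical
  have : Polynomial.nthRootsFinset p (1 : R) = (range p).image (fun i => ζ ^ i) := by
    ext z
    rw [Polynomial.mem_nthRootsFinset hp.out.pos, Finset.mem_image]
    constructor
    · intro hz
      obtain ⟨i, hi, rfl⟩ := H.prim.eq_pow_of_pow_eq_one hz
      exact ⟨i, Finset.mem_range.2 hi, rfl⟩
    · rintro ⟨i, -, rfl⟩
      rw [← pow_mul, mul_comm, pow_mul, H.prim.pow_eq_one, one_pow]
  rw [this, Finset.prod_image]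
  intro i hi j hj hij
  exact H.prim.pow_inj (Finset.mem_range.1 hi) (Finset.mem_range.1 hj) hij

variable [IsPrincipalIdealRing R]

/-- The descent step: from a solution with `(ζ - 1) ^ 2 ∣ x + y`. -/
theorem descent_step (H : CycloRing R p ζ) (h5 : 3 ≤ p) (hK : KummerProp R p) (m : ℕ) {x y z : R}
    (ε : Rˣ) (hy : ¬ ζ - 1 ∣ y) (hco : IsCoprime x y) (hz : ¬ ζ - 1 ∣ z)
    (heq : x ^ p + y ^ p = (ε : R) * ((ζ - 1) ^ (m + 1) * z) ^ p)
    {w : R} (hxy : x + y = (ζ - 1) * w) (hw : ζ - 1 ∣ w) :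
    ∃ m' : ℕ, m = m' + 1 ∧ ∃ (x' y' z' : R) (ε' : Rˣ), ¬ ζ - 1 ∣ x' ∧ ¬ ζ - 1 ∣ y' ∧
      IsCoprime x' y' ∧ ¬ ζ - 1 ∣ z' ∧
      x' ^ p + y' ^ p = (ε' : R) * ((ζ - 1) ^ (m' + 1) * z') ^ p := by
  have hodd : Odd p := hp.out.odd_of_ne_two (by omega)
  have hlam := H.lam_prime
  set lam := ζ - 1 with hlamdef
  set a : ℕ → R := fun i => w + (∑ k ∈ range i, ζ ^ k) * y with ha
  have hfac : ∀ i, x + ζ ^ i * y = lam * a i := by
    intro i
    have h : lam * (∑ k ∈ range i, ζ ^ k) = ζ ^ i - 1 := mul_geom_sum ζ i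
    simp only [ha]
    linear_combination hxy - y * h
  have hprod : lam ^ p * ∏ i ∈ range p, a i = lam ^ p * ((ε : R) * lam ^ (p * m) * z ^ p) := by
    calc lam ^ p * ∏ i ∈ range p, a i = ∏ i ∈ range p, (x + ζ ^ i * y) := by
          simp_rw [hfac]; rw [Finset.prod_mul_distrib, Finset.prod_const, Finset.card_range]
      _ = _ := by
          rw [← H.pow_add_pow_eq_prod hodd, heq]
          ring_nf
  replace hprod := mul_left_cancel₀ (pow_ne_zero _ hlam.ne_zero) hprod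
  have hndvd : ∀ i, 0 < i → i < p → ¬ lam ∣ a i := by
    intro i hi0 hip h
    have h1 : lam ∣ (∑ k ∈ range i, ζ ^ k) * y := by simpa [ha] using dvd_sub h hw
    rcases hlam.dvd_or_dvd h1 with h2 | h2
    · have h3 : lam ∣ ((i : ℤ) : R) := by
        have := dvd_sub h2 (H.geom_sum_congr i)
        simpa [hlamdef] using this
      have := H.int_dvd _ h3
      exact Nat.not_dvd_of_pos_of_lt hi0 hip (Int.natCast_dvd_natCast.1 this)
    · exact hy h2
  have hcop : ∀ i j, i < p → j < p → i ≠ j → IsCoprime (a i) (a j) := by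
    intro i j hi hj hij
    obtain ⟨U, hU⟩ := H.geom_sum_sub_isUnit hi hj hij
    obtain ⟨A, B, hAB⟩ := hco
    have hyab : y = (↑U⁻¹ : R) * (a i - a j) := by
      have : a i - a j = (U : R) * y := by simp only [ha]; rw [hU]; ring
      rw [this, Units.inv_mul_cancel_left]
    have hwab : w = a i - (∑ k ∈ range i, ζ ^ k) * y := by simp [ha]
    set c := B - A - A * lam * (∑ k ∈ range i, ζ ^ k) with hc
    refine ⟨A * lam + c * ↑U⁻¹, -(c * ↑U⁻¹), ?_⟩
    linear_combination hAB + (-A) * hxy + (-(A * lam)) * hwab + (-c) * hyab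
  have hr : range p = insert 0 (Finset.Ico 1 p) := by
    ext i; simp only [Finset.mem_range, Finset.mem_insert, Finset.mem_Ico]; omega
  have h0 : (0 : ℕ) ∉ Finset.Ico 1 p := by simp
  have hrest : ¬ lam ∣ ∏ i ∈ Finset.Ico 1 p, a i := by
    intro h
    obtain ⟨i, hi, hdvd⟩ := (hlam.dvd_finsetProd_iff _).1 h
    rw [Finset.mem_Ico] at hi
    exact hndvd i (by omega) hi.2 hdvd
  rw [hr, Finset.prod_insert h0] at hprod
  have ha0 : a 0 = w := by simp [ha]
  rw [ha0] at hprod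
  obtain ⟨m', rfl⟩ : ∃ m', m = m' + 1 := by
    rcases m with _ | k
    · exfalso
      rw [Nat.mul_zero, pow_zero, mul_one] at hprod
      have : lam ∣ (ε : R) * z ^ p := hprod ▸ dvd_mul_of_dvd_left hw _
      rcases hlam.dvd_or_dvd this with h | h
      · exact H.lam_not_dvd_unit ε h
      · exact hz (hlam.dvd_of_dvd_pow h)
    · exact ⟨k, rfl⟩
  refine ⟨m', rfl, ?_⟩
  have hpw : lam ^ (p * (m' + 1)) ∣ w := by
    refine hlam.pow_dvd_of_dvd_mul_right _ hrest ?_
    rw [hprod]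
    exact dvd_mul_of_dvd_left (dvd_mul_left _ _) _
  obtain ⟨w', hw'⟩ := hpw
  have hprod' : w' * ∏ i ∈ Finset.Ico 1 p, a i = (ε : R) * z ^ p := by
    refine mul_left_cancel₀ (pow_ne_zero (p * (m' + 1)) hlam.ne_zero) ?_
    rw [hw'] at hprod
    linear_combination hprod
  have hw'n : ¬ lam ∣ w' := by
    intro h
    have : lam ∣ (ε : R) * z ^ p := hprod' ▸ dvd_mul_of_dvd_left h _
    rcases hlam.dvd_or_dvd this with h | h
    · exact H.lam_not_dvd_unit ε h
    · exact hz (hlam.dvd_of_dvd_pow h)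
  have hw'cop : ∀ i ∈ Finset.Ico 1 p, IsCoprime w' (a i) := by
    intro i hi
    rw [Finset.mem_Ico] at hi
    have := hcop 0 i (by omega) hi.2 (by omega)
    rw [ha0, hw'] at this
    exact this.of_mul_left_right
  have hassoc : Associated (z ^ p) (w' * ∏ i ∈ Finset.Ico 1 p, a i) :=
    ⟨ε, by rw [hprod']; ring⟩
  obtain ⟨t0, ht0⟩ :=
    exists_associated_pow_of_associated_pow_mul (IsCoprime.prod_right hw'cop) hassoc
  have hsel : ∀ i ∈ Finset.Ico 1 p, ∃ t : R, Associated (t ^ p) (a i) := by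
    intro i hi
    have hs : a i * (w' * ∏ j ∈ (Finset.Ico 1 p).erase i, a j)
        = w' * ∏ j ∈ Finset.Ico 1 p, a j := by
      rw [← Finset.mul_prod_erase _ _ hi]; ring
    refine exists_associated_pow_of_associated_pow_mul ?_ (hs.symm ▸ hassoc)
    refine IsCoprime.mul_right (hw'cop i hi).symm (IsCoprime.prod_right fun j hj => ?_)
    rw [Finset.mem_erase, Finset.mem_Ico] at hj
    rw [Finset.mem_Ico] at hi
    exact hcop i j hi.2 hj.2.2 (Ne.symm hj.1)
  obtain ⟨t1, ht1⟩ := hsel 1 (by simp only [Finset.mem_Ico]; omega)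
  obtain ⟨t2, ht2⟩ := hsel (p - 1) (by simp only [Finset.mem_Ico]; omega)
  obtain ⟨u0, hu0⟩ := ht0
  obtain ⟨u1, hu1⟩ := ht1
  obtain ⟨u2, hu2⟩ := ht2
  have hrel : a 1 + ζ * a (p - 1) = (1 + ζ) * w := by
    refine mul_left_cancel₀ hlam.ne_zero ?_
    have e1 := hfac 1
    have e2 := hfac (p - 1)
    have hzp : ζ * ζ ^ (p - 1) = 1 := by
      rw [← pow_succ', Nat.sub_add_cancel hp.out.one_le, H.prim.pow_eq_one]
    rw [pow_one] at e1
    linear_combination (-e1) + (-ζ) * e2 + (1 + ζ) * hxy + y * hzp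
  have hz1 : IsUnit (1 + ζ) := by
    have h := H.prim.geom_sum_isUnit hp.out.two_le (j := 2)
      ((Nat.coprime_primes Nat.prime_two hp.out).2 (by omega))
    simpa [Finset.sum_range_succ] using h
  obtain ⟨uz, huz⟩ := H.prim.isUnit hp.out.ne_zero
  obtain ⟨u3, hu3⟩ := hz1
  set η : Rˣ := uz * u2 * u1⁻¹ with hη
  set ε' : Rˣ := u3 * u0 * u1⁻¹ with hε'
  have hnew : t1 ^ p + (η : R) * t2 ^ p = (ε' : R) * (lam ^ (m' + 1) * t0) ^ p := by
    have h : t1 ^ p * (u1 : R) + (uz : R) * (t2 ^ p * (u2 : R))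
        = (u3 : R) * (lam ^ (p * (m' + 1)) * (t0 ^ p * (u0 : R))) := by
      rw [hu1, hu2, hu0, huz, hu3, ← hw', hrel]
    simp only [hη, hε', Units.val_mul]
    rw [mul_pow, ← pow_mul, mul_comm (m' + 1) p]
    linear_combination (↑u1⁻¹ : R) * h - t1 ^ p * u1.mul_inv
  have hlt : ∀ {t b : R} {u : Rˣ}, t ^ p * (u : R) = b → ¬ lam ∣ b → ¬ lam ∣ t := by
    intro t b u h hb hd
    exact hb (h ▸ dvd_mul_of_dvd_left (dvd_pow hd hp.out.ne_zero) _)
  have ht1n := hlt hu1 (hndvd 1 one_pos (by omega))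
  have ht2n := hlt hu2 (hndvd (p - 1) (by omega) (by omega))
  have ht0n := hlt hu0 hw'n
  have ht12 : IsCoprime t1 t2 :=
    ((hcop 1 (p - 1) (by omega) (by omega) (by omega)).of_isCoprime_of_dvd_left
      (hu1 ▸ dvd_mul_of_dvd_left (dvd_pow_self _ hp.out.ne_zero) _)).of_isCoprime_of_dvd_right
      (hu2 ▸ dvd_mul_of_dvd_left (dvd_pow_self _ hp.out.ne_zero) _)
  obtain ⟨v, hv⟩ : ∃ v : Rˣ, v ^ p = η := by
    refine hK η ?_
    obtain ⟨n1, hn1⟩ := H.pow_prime_int t1
    obtain ⟨n2, hn2⟩ := H.pow_prime_int t2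
    have hn2' : ¬ (p : ℤ) ∣ n2 := by
      intro h
      obtain ⟨k, hk⟩ := h
      have h1 : lam ∣ t2 ^ p - (n2 : R) := H.lam_dvd_prime_one.trans hn2
      have h2 : lam ∣ (n2 : R) := by
        rw [hk]; push_cast; exact dvd_mul_of_dvd_left H.lam_dvd_prime_one _
      exact ht2n (hlam.dvd_of_dvd_pow (by simpa using dvd_add h1 h2))
    obtain ⟨A, B, hAB⟩ : IsCoprime (p : ℤ) n2 :=
      (Nat.prime_iff_prime_int.mp hp.out).coprime_iff_not_dvd.2 hn2'
    have hbig : (p : R) ∣ (ε' : R) * (lam ^ (m' + 1) * t0) ^ p := by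
      rw [mul_pow, ← pow_mul]
      refine dvd_mul_of_dvd_right (dvd_mul_of_dvd_left (H.assoc.symm.dvd.trans
        (pow_dvd_pow _ ?_)) _) _
      calc p - 1 ≤ p := Nat.sub_le _ _
        _ ≤ (m' + 1) * p := Nat.le_mul_of_pos_left _ (Nat.succ_pos _)
    refine ⟨-(n1 * B), ?_⟩
    obtain ⟨c1, hc1⟩ := hn1
    obtain ⟨c2, hc2⟩ := hn2
    obtain ⟨c3, hc3⟩ := hbig
    have hABR : (A : R) * (p : R) + (B : R) * (n2 : R) = 1 := by exact_mod_cast congrArg (Int.cast : ℤ → R) hAB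
    refine ⟨(η : R) * (A : R) + (B : R) * (c3 - c1 - (η : R) * c2), ?_⟩
    push_cast
    linear_combination (-(η : R)) * hABR + (B : R) * hnew + (B : R) * hc3 - (B : R) * hc1
      - (B : R) * (η : R) * hc2
  refine ⟨t1, (v : R) * t2, t0, ε', ht1n, ?_, ?_, ht0n, ?_⟩
  · intro h
    rcases hlam.dvd_or_dvd h with h | h
    · exact H.lam_not_dvd_unit v h
    · exact ht2n h
  · exact (isCoprime_mul_unit_left_right v.isUnit _ _).2 ht12
  · rw [mul_pow (v : R), ← Units.val_pow_eq_pow_val, hv, hnew]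

/-- Case II: there are no solutions of `x ^ p + y ^ p = ε * ((ζ - 1) ^ (m + 1) * z) ^ p`. -/
theorem no_solution (H : CycloRing R p ζ) (h5 : 3 ≤ p) (hK : KummerProp R p) :
    ∀ (m : ℕ) (x y z : R) (ε : Rˣ), ¬ ζ - 1 ∣ x → ¬ ζ - 1 ∣ y → IsCoprime x y → ¬ ζ - 1 ∣ z →
      x ^ p + y ^ p = (ε : R) * ((ζ - 1) ^ (m + 1) * z) ^ p → False := by
  intro m
  induction m using Nat.strong_induction_on with
  | _ m ih =>
    intro x y z ε hx hy hco hz heq
    have hodd : Odd p := hp.out.odd_of_ne_two (by omega)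
    have hlam := H.lam_prime
    have hprod : ζ - 1 ∣ ∏ i ∈ range p, (x + ζ ^ i * y) := by
      rw [← H.pow_add_pow_eq_prod hodd, heq]
      exact dvd_mul_of_dvd_right
        (dvd_pow (dvd_mul_of_dvd_left (dvd_pow_self _ (Nat.succ_ne_zero m)) _) hp.out.ne_zero) _
    obtain ⟨i, -, hi⟩ := (hlam.dvd_finsetProd_iff _).1 hprod
    have hxy : ζ - 1 ∣ x + y := by
      have h : ζ - 1 ∣ (ζ ^ i - 1) * y := dvd_mul_of_dvd_left (sub_one_dvd_pow_sub_one ζ i) _
      have := dvd_sub hi h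
      convert this using 1; ring
    obtain ⟨w, hw⟩ := hxy
    obtain ⟨n, hn⟩ := H.residue w
    obtain ⟨k, hk⟩ := H.residue y
    have hkp : ¬ (p : ℤ) ∣ k := by
      rintro ⟨c, rfl⟩
      refine hy ?_
      have : ζ - 1 ∣ ((p * c : ℤ) : R) := by
        push_cast; exact dvd_mul_of_dvd_left H.lam_dvd_prime_one _
      simpa using dvd_add hk this
    obtain ⟨A, B, hAB⟩ : IsCoprime (p : ℤ) k :=
      (Nat.prime_iff_prime_int.mp hp.out).coprime_iff_not_dvd.2 hkp
    set s : ℕ := ((-(n * B)) % (p : ℤ)).toNat with hs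
    have hsp : ζ - 1 ∣ (s : R) * (k : R) + (n : R) := by
      have hp0 : (p : ℤ) ≠ 0 := by exact_mod_cast hp.out.ne_zero
      have h1 : (p : ℤ) ∣ (s : ℤ) * k + n := by
        rw [hs, Int.toNat_of_nonneg (Int.emod_nonneg _ hp0), Int.emod_def]
        refine ⟨n * A - (-(n * B) / (p : ℤ)) * k, ?_⟩
        linear_combination (-n) * hAB
      obtain ⟨c, hc⟩ := h1
      have : ((s : R) * (k : R) + (n : R)) = (p : R) * (c : R) := by
        exact_mod_cast congrArg (Int.cast : ℤ → R) hc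
      rw [this]
      exact dvd_mul_of_dvd_left H.lam_dvd_prime_one _
    have hzu : IsUnit (ζ ^ s) := (H.prim.isUnit hp.out.ne_zero).pow s
    obtain ⟨m', hm', x', y', z', ε', hx', hy', hco', hz', heq'⟩ :=
      H.descent_step h5 hK m (x := x) (y := ζ ^ s * y) ε
        (fun h => (hlam.dvd_or_dvd h).elim
          (fun h => hlam.not_isUnit (isUnit_of_dvd_unit h hzu)) hy)
        ((isCoprime_mul_unit_left_right hzu _ _).2 hco) hz
        (by rw [mul_pow, ← pow_mul, mul_comm s p, pow_mul, H.prim.pow_eq_one, one_pow, one_mul,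
              heq])
        (w := w + (∑ j ∈ range s, ζ ^ j) * y)
        (by
          have h : (ζ - 1) * (∑ j ∈ range s, ζ ^ j) = ζ ^ s - 1 := mul_geom_sum ζ s
          linear_combination hw - y * h)
        (by
          obtain ⟨c1, hc1⟩ := hn
          obtain ⟨c2, hc2⟩ := hk
          obtain ⟨c3, hc3⟩ := H.geom_sum_congr s
          obtain ⟨c4, hc4⟩ := hsp
          refine ⟨c1 + y * c3 + (s : R) * c2 + c4, ?_⟩
          linear_combination hc1 + y * hc3 + (s : R) * hc2 + hc4)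
    exact ih m' (by omega) x' y' z' ε' hx' hy' hco' hz' heq'

/-- The second case of Fermat's Last Theorem: `p ∣ c`. -/
theorem case_two (H : CycloRing R p ζ) [CharZero R] (h5 : 3 ≤ p) (hK : KummerProp R p)
    {a b c : ℤ} (hc0 : c ≠ 0) (hsum : a ^ p + b ^ p + c ^ p = 0) (hab : IsCoprime a b)
    (ha : ¬ (p : ℤ) ∣ a) (hb : ¬ (p : ℤ) ∣ b) (hc : (p : ℤ) ∣ c) : False := by
  have hodd : Odd p := hp.out.odd_of_ne_two (by omega)
  have hne : (c : R) ≠ 0 := Int.cast_ne_zero.2 hc0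
  obtain ⟨n, z, hz, hcz⟩ := WfDvdMonoid.max_power_factor hne H.lam_prime.irreducible
  have hn : n ≠ 0 := by
    intro h
    subst h
    refine hz ?_
    rw [pow_zero, one_mul] at hcz
    rw [← hcz]
    obtain ⟨k, rfl⟩ := hc
    push_cast
    exact dvd_mul_of_dvd_left H.lam_dvd_prime_one _
  obtain ⟨m, rfl⟩ := Nat.exists_eq_succ_of_ne_zero hn
  refine H.no_solution h5 hK m (a : R) (b : R) z (-1) (fun h => ha (H.int_dvd a h))
    (fun h => hb (H.int_dvd b h)) ?_ hz ?_
  · have := hab.map (Int.castRingHom R)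
    simpa using this
  · rw [← hcz, Units.val_neg, Units.val_one]
    have := congrArg (Int.cast : ℤ → R) hsum
    push_cast at this
    linear_combination this

end CycloRing

end FA.Regular
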