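import Fermat.Agent.Regular.MinusFormula
import Fermat.Agent.Regular.Criterion

/-!
# The converse of Kummer's criterion

If the odd prime `p` divides the numerator of some `B_k`, `k` even `≤ p - 3`, then it divides the
class number of `ℚ(ζ_p)`: in the squared relative class number formula the product of the sums
`∑ a ω^i(a)`, read modulo a power of `p` at the Teichmüller character `ω`, has too high a valuation.
-/

set_option autoImplicit false

noncomputable section

open NumberField Polynomial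
open scoped Classical

namespace FA.Regular

variable {p : ℕ} [Fact p.Prime]

/-- `∑ (g^j mod p) z^j`. -/
def genSum {R : Type*} [CommRing R] (g : (ZMod p)ˣ) (z : R) : R :=
  ∑ j ∈ Finset.range (p - 1), ((((g ^ j : (ZMod p)ˣ) : ZMod p).val : ℕ) : R) * z ^ j

theorem map_genSum {R S : Type*} [CommRing R] [CommRing S] (f : R →+* S) (g : (ZMod p)ˣ) (z : R) :
    f (genSum g z) = genSum g (f z) := by
  simp only [genSum, map_sum, map_mul, map_pow, map_natCast]

theorem sum_units_eq_range {M : Type*} [AddCommMonoid M] {g : (ZMod p)ˣ}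
    (hg : ∀ x, x ∈ Subgroup.zpowers g) (F : (ZMod p)ˣ → M) :
    ∑ d : (ZMod p)ˣ, F d = ∑ j ∈ Finset.range (p - 1), F (g ^ j) := by
  have hord : orderOf g = p - 1 := by
    rw [orderOf_eq_card_of_forall_mem_zpowers hg, Nat.card_eq_fintype_card, ZMod.card_units p]
  have himg : (Finset.range (p - 1)).image (g ^ ·) = (Finset.univ : Finset (ZMod p)ˣ) := by
    rw [← hord]; exact IsCyclic.image_range_orderOf hg
  rw [← himg, Finset.sum_image]
  intro a ha b hb h
  rw [Finset.coe_range, Set.mem_Iio] at ha hb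
  exact pow_injOn_Iio_orderOf (hord.symm ▸ ha : a ∈ Set.Iio (orderOf g)) (hord.symm ▸ hb) h

theorem sum_val_mul_hom {R : Type*} [CommRing R] {g : (ZMod p)ˣ}
    (hg : ∀ x, x ∈ Subgroup.zpowers g) (θ : (ZMod p)ˣ →* Rˣ) :
    ∑ d : (ZMod p)ˣ, (((d : ZMod p).val : ℕ) : R) * (θ d : R) = genSum g (θ g : R) := by
  rw [sum_units_eq_range hg, genSum]
  exact Finset.sum_congr rfl fun j _ => by rw [map_pow, Units.val_pow_eq_pow_val (θ g)]

theorem val_mul_sum {R : Type*} [CommRing R] (θ : (ZMod p)ˣ →* Rˣ) (c : (ZMod p)ˣ) :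
    ((((c : ZMod p).val : ℕ) : R) * (θ c : R) - 1) *
        ∑ d : (ZMod p)ˣ, (((d : ZMod p).val : ℕ) : R) * (θ d : R) =
      (p : R) * (θ c : R) *
        ∑ d : (ZMod p)ˣ, (((c : ZMod p).val * (d : ZMod p).val / p : ℕ) : R) * (θ d : R) := by
  set S := ∑ d : (ZMod p)ˣ, (((d : ZMod p).val : ℕ) : R) * (θ d : R)
  have h : S = ∑ d : (ZMod p)ˣ, ((((c * d : (ZMod p)ˣ) : ZMod p).val : ℕ) : R) * (θ (c * d) : R) :=
    (Fintype.sum_equiv (Equiv.mulLeft c) _ _ fun d => rfl).symm
  rw [sub_mul, one_mul, sub_eq_iff_eq_add]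
  nth_rewrite 2 [h]
  simp only [S, Finset.mul_sum, ← Finset.sum_add_distrib]
  refine Finset.sum_congr rfl fun d _ => ?_
  have hd : (((c : ZMod p).val : ℕ) : R) * (((d : ZMod p).val : ℕ) : R) =
      (p : R) * (((c : ZMod p).val * (d : ZMod p).val / p : ℕ) : R) +
        ((((c * d : (ZMod p)ˣ) : ZMod p).val : ℕ) : R) := by
    rw [Units.val_mul, ZMod.val_mul, ← Nat.cast_mul, ← Nat.cast_mul, ← Nat.cast_add,
      Nat.div_add_mod]
  rw [map_mul, Units.val_mul (θ c)]
  linear_combination ((θ c : R) * (θ d : R)) * hd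

variable {N : ℕ}

theorem isUnit_of_castHom_ne_zero (hN : N ≠ 0) {x : ZMod (p ^ N)}
    (h : ZMod.castHom (dvd_pow_self p hN) (ZMod p) x ≠ 0) : IsUnit x := by
  have hp : p.Prime := Fact.out
  have : NeZero (p ^ N) := ⟨pow_ne_zero _ hp.ne_zero⟩
  rw [← ZMod.natCast_zmod_val x] at h ⊢
  rw [map_natCast, Ne, ZMod.natCast_eq_zero_iff] at h
  exact (ZMod.isUnit_iff_coprime _ _).mpr
    (((Nat.Prime.coprime_iff_not_dvd hp).mpr h).symm.pow_right N)

theorem natCast_dvd_of_castHom_eq_zero (hN : N ≠ 0) {x : ZMod (p ^ N)}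
    (h : ZMod.castHom (dvd_pow_self p hN) (ZMod p) x = 0) : (p : ZMod (p ^ N)) ∣ x := by
  have hp : p.Prime := Fact.out
  have : NeZero (p ^ N) := ⟨pow_ne_zero _ hp.ne_zero⟩
  rw [← ZMod.natCast_zmod_val x] at h ⊢
  rw [map_natCast, ZMod.natCast_eq_zero_iff] at h
  exact Nat.cast_dvd_cast h

/-- A sum `∑ a ω^i(a)`, `i + 1` prime to `p - 1`, is divisible by `p`, by `p²` at irregular `i + 1`. -/
theorem genSum_teichmuller (h5 : 5 ≤ p) (hN : N ≠ 0) {g : (ZMod p)ˣ}
    (hg : ∀ x, x ∈ Subgroup.zpowers g) (ω : (ZMod p)ˣ →* (ZMod (p ^ N))ˣ)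
    (hω : ∀ d, ZMod.castHom (dvd_pow_self p hN) (ZMod p) (ω d : ZMod (p ^ N)) = (d : ZMod p))
    {i : ℕ} (hi : Odd i) (hip : i + 1 < p - 1) :
    ∃ w : ZMod (p ^ N), genSum g ((ω g : ZMod (p ^ N)) ^ i) = (p : ZMod (p ^ N)) * w ∧
      ((p : ℤ) ∣ (_root_.bernoulli (i + 1)).num → (p : ZMod (p ^ N)) ∣ w) := by
  have hp : p.Prime := Fact.out
  have : NeZero p := ⟨hp.ne_zero⟩
  set red := ZMod.castHom (dvd_pow_self p hN) (ZMod p)
  set θ := (powMonoidHom i).comp ω with hθ
  have hθr : ∀ d, red (θ d : ZMod (p ^ N)) = (d : ZMod p) ^ i := fun d => by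
    rw [hθ, MonoidHom.comp_apply, powMonoidHom_apply, Units.val_pow_eq_pow_val, map_pow, hω d]
  obtain ⟨a, ha, hak⟩ := FA.OrderTheta.exists_multiplier (p := p) (m := i + 1)
    fun h => by have := Nat.le_of_dvd (by omega) h; omega
  set c : (ZMod p)ˣ := Units.mk0 _ ha
  have hu : IsUnit ((((c : ZMod p).val : ℕ) : ZMod (p ^ N)) * (θ c : ZMod (p ^ N)) - 1) := by
    refine isUnit_of_castHom_ne_zero hN ?_
    rw [map_sub, map_mul, map_natCast, map_one, hθr, ZMod.natCast_zmod_val, ← pow_succ', sub_ne_zero]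
    exact hak
  obtain ⟨u, hu⟩ := hu
  have hsum := val_mul_sum θ c
  rw [← hu, sum_val_mul_hom hg θ] at hsum
  refine ⟨((u⁻¹ : (ZMod (p ^ N))ˣ) : ZMod (p ^ N)) * ((θ c : ZMod (p ^ N)) *
    ∑ d : (ZMod p)ˣ, (((c : ZMod p).val * (d : ZMod p).val / p : ℕ) : ZMod (p ^ N)) *
      (θ d : ZMod (p ^ N))), ?_, fun hB => ?_⟩
  · rw [show (ω g : ZMod (p ^ N)) ^ i = (θ g : ZMod (p ^ N)) by simp [hθ]]
    refine Eq.trans ?_ (by ring :
      ((u⁻¹ : (ZMod (p ^ N))ˣ) : ZMod (p ^ N)) * ((p : ZMod (p ^ N)) * (θ c : ZMod (p ^ N)) *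
        ∑ d : (ZMod p)ˣ, (((c : ZMod p).val * (d : ZMod p).val / p : ℕ) : ZMod (p ^ N)) *
          (θ d : ZMod (p ^ N))) = _)
    rw [← hsum, Units.inv_mul_cancel_left]
  · refine natCast_dvd_of_castHom_eq_zero hN ?_
    rw [map_mul, map_mul, map_sum]
    refine mul_eq_zero_of_right _ (mul_eq_zero_of_right _ ?_)
    have hca : (((c : ZMod p).val : ℕ) : ZMod p) = (a : ZMod p) := by
      rw [ZMod.natCast_zmod_val]; rfl
    have hdvd := (FA.OrderTheta.dvd_num_bernoulli_iff h5 (by rw [Nat.odd_iff] at hi; omega)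
      (by rw [Nat.odd_iff] at hi; have := hp.eq_two_or_odd; omega) hi.add_one
      (a := (c : ZMod p).val) (by rw [hca]; exact ha) (by rw [hca]; exact hak)).mp hB
    rw [Nat.add_sub_cancel] at hdvd
    rw [← (ZMod.natCast_eq_zero_iff _ p).mpr hdvd, Nat.cast_sum,
      ← FA.Ext.sum_units_eq_sum_range (fun r => ((r ^ i * ((c : ZMod p).val * r / p) : ℕ) : ZMod p))
        (by simp)]
    refine Finset.sum_congr rfl fun d _ => ?_
    rw [map_mul, map_natCast, hθr, Nat.cast_mul, Nat.cast_pow, ZMod.natCast_zmod_val, mul_comm]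

/-- The Teichmüller character modulo `p^N`. -/
theorem exists_teichmuller (hN : N ≠ 0) {g : (ZMod p)ˣ} (hg : ∀ x, x ∈ Subgroup.zpowers g) :
    ∃ ω : (ZMod p)ˣ →* (ZMod (p ^ N))ˣ,
      (∀ d, ZMod.castHom (dvd_pow_self p hN) (ZMod p) (ω d : ZMod (p ^ N)) = (d : ZMod p)) ∧
      aeval (ω g : ZMod (p ^ N)) (cyclotomic (p - 1) ℤ) = 0 := by
  have hp : p.Prime := Fact.out
  have : NeZero p := ⟨hp.ne_zero⟩
  set red := ZMod.castHom (dvd_pow_self p hN) (ZMod p)
  have hord : orderOf g = p - 1 := by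
    rw [orderOf_eq_card_of_forall_mem_zpowers hg, Nat.card_eq_fintype_card, ZMod.card_units p]
  have hgu : IsUnit (((g : ZMod p).val : ℕ) : ZMod (p ^ N)) := by
    refine isUnit_of_castHom_ne_zero hN ?_
    rw [map_natCast, ZMod.natCast_zmod_val]
    exact g.ne_zero
  obtain ⟨t₀, ht₀⟩ := hgu
  set t := t₀ ^ p ^ (N - 1) with ht
  have htor : t ^ (p - 1) = 1 := by
    rw [ht, ← pow_mul, ← Nat.totient_prime_pow hp (Nat.pos_of_ne_zero hN)]
    exact ZMod.pow_totient t₀
  have htg : red (t : ZMod (p ^ N)) = (g : ZMod p) := by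
    rw [ht, Units.val_pow_eq_pow_val, map_pow, ht₀, map_natCast, ZMod.natCast_zmod_val,
      ZMod.pow_card_pow]
  set ω := monoidHomOfForallMemZpowers hg (hord.symm ▸ orderOf_dvd_of_pow_eq_one htor :
    orderOf t ∣ orderOf g)
  have hωg : ω g = t := monoidHomOfForallMemZpowers_apply_gen _ _
  refine ⟨ω, fun d => ?_, ?_⟩
  · obtain ⟨j, rfl⟩ := mem_powers_iff_mem_zpowers.mpr (hg d)
    simp [map_pow, hωg, htg]
  · rw [hωg]
    have hprod := congrArg (aeval (t : ZMod (p ^ N)))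
      (prod_cyclotomic_eq_X_pow_sub_one (show 0 < p - 1 by have := hp.two_le; omega) ℤ)
    rw [map_sub, map_pow, aeval_X, map_one, ← Units.val_pow_eq_pow_val, htor, Units.val_one,
      sub_self, ← Nat.insert_self_properDivisors (show p - 1 ≠ 0 by have := hp.two_le; omega),
      Finset.prod_insert Nat.self_notMem_properDivisors, map_mul, map_prod] at hprod
    refine (IsUnit.mul_left_eq_zero ?_).mp hprod
    refine IsUnit.prod_iff.mpr fun d hd => isUnit_of_castHom_ne_zero hN ?_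
    intro h0
    obtain ⟨hdvd, hlt⟩ := Nat.mem_properDivisors.mp hd
    have hd0 : 0 < d := Nat.pos_of_dvd_of_pos hdvd (by have := hp.two_le; omega)
    have h1 : (g : ZMod p) ^ d = 1 := by
      have hev := congrArg (aeval (g : ZMod p)) (prod_cyclotomic_eq_X_pow_sub_one hd0 ℤ)
      rw [map_sub, map_pow, aeval_X, map_one, map_prod,
        Finset.prod_eq_zero (Nat.mem_divisors_self d hd0.ne') ?_] at hev
      · exact (sub_eq_zero.mp hev.symm)
      · rw [← h0, ← htg]
        exact aeval_algHom_apply (RingHom.toIntAlgHom red) _ _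
    have h2 : orderOf g ∣ d := orderOf_dvd_of_pow_eq_one (Units.ext (by
      rw [Units.val_pow_eq_pow_val, h1, Units.val_one]))
    rw [hord] at h2
    have := Nat.le_of_dvd hd0 h2
    omega

/-- The odd indices. -/
def oddIdx (p : ℕ) : Finset ℕ := (Finset.range (p - 1)).filter fun i => Odd i

theorem card_oddIdx : (oddIdx p).card = (p - 1) / 2 := by
  have hodd := (Fact.out : p.Prime).eq_two_or_odd
  have e : oddIdx p = (Finset.range ((p - 1) / 2)).image fun r => 2 * r + 1 := by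
    ext i
    simp only [oddIdx, Finset.mem_filter, Finset.mem_range, Finset.mem_image, Nat.odd_iff]
    constructor
    · exact fun ⟨h1, h2⟩ => ⟨i / 2, by omega, by omega⟩
    · rintro ⟨r, hr, rfl⟩
      omega
  rw [e, Finset.card_image_of_injective _ fun a b (h : 2 * a + 1 = 2 * b + 1) => by omega, Finset.card_range]

variable {K : Type*} [Field K] [NumberField K] [IsCyclotomicExtension {p} ℚ K]

/-- The relative class number formula as a relation at a primitive `(p-1)`-th root of unity. -/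
theorem aeval_minusPoly_eq_zero [IsCMField K] (h3 : 3 ≤ p) {g : (ZMod p)ˣ}
    (hg : ∀ x, x ∈ Subgroup.zpowers g) {z : ℂ} (hz : IsPrimitiveRoot z (p - 1)) :
    aeval z (C (((classNumber (maximalRealSubfield K) * IsCMField.indexRealUnits K : ℕ) : ℤ) ^ 2) *
        (∏ i ∈ oddIdx p, genSum g ((X : ℤ[X]) ^ i)) ^ 2 -
      C ((4 ^ ((p - 1) / 2 - 1) * p ^ ((p - 1) / 2 - 1) *
        (discr (maximalRealSubfield K)).natAbs * classNumber K ^ 2 : ℕ) : ℤ)) = 0 := by
  have hp : p.Prime := Fact.out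
  have hodd := hp.eq_two_or_odd
  have : NeZero p := ⟨hp.ne_zero⟩
  have hord : orderOf g = p - 1 := by
    rw [orderOf_eq_card_of_forall_mem_zpowers hg, Nat.card_eq_fintype_card, ZMod.card_units p]
  obtain ⟨zu, hzu⟩ := hz.isUnit (by omega)
  have hzu1 : zu ^ (p - 1) = 1 := Units.ext (by
    rw [Units.val_pow_eq_pow_val, hzu, hz.pow_eq_one, Units.val_one])
  let chi : ℕ → DirichletCharacter ℂ p := fun i => MulChar.ofUnitHom
    (monoidHomOfForallMemZpowers hg (g' := zu ^ i) (hord.symm ▸ orderOf_dvd_of_pow_eq_one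
      (by rw [← pow_mul, mul_comm, pow_mul, hzu1, one_pow])))
  have hchi : ∀ i, chi i (g : ZMod p) = z ^ i := fun i => by
    simp only [chi, MulChar.ofUnitHom_coe, monoidHomOfForallMemZpowers_apply_gen,
      Units.val_pow_eq_pow_val, hzu]
  have hgm : (g : ZMod p) ^ ((p - 1) / 2) = -1 := by
    have h1 : ((g : ZMod p) ^ ((p - 1) / 2)) ^ 2 = 1 := by
      rw [← pow_mul, show (p - 1) / 2 * 2 = p - 1 by omega]
      exact ZMod.pow_card_sub_one_eq_one g.ne_zero
    refine (sq_eq_one_iff.mp h1).resolve_left fun h => ?_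
    have h2 : orderOf g ∣ (p - 1) / 2 := orderOf_dvd_of_pow_eq_one (Units.ext (by
      rw [Units.val_pow_eq_pow_val, h, Units.val_one]))
    rw [hord] at h2
    have := Nat.le_of_dvd (by omega) h2
    omega
  have hzm : z ^ ((p - 1) / 2) = -1 := by
    have h1 : (z ^ ((p - 1) / 2)) ^ 2 = 1 := by
      rw [← pow_mul, show (p - 1) / 2 * 2 = p - 1 by omega, hz.pow_eq_one]
    exact (sq_eq_one_iff.mp h1).resolve_left (hz.pow_ne_one_of_pos_of_lt (by omega) (by omega))
  have hparity : ∀ i, chi i (-1) = (-1) ^ i := fun i => by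
    rw [← hgm, map_pow, hchi, ← pow_mul, mul_comm, pow_mul, hzm]
  have hval : ∀ i, ∑ a : ZMod p, chi i a * (a.val : ℂ) = genSum g (z ^ i) := fun i => by
    rw [← hchi i, ← MulChar.coe_toUnitHom (chi i) g, ← sum_val_mul_hom hg (chi i).toUnitHom]
    refine (Finset.sum_bij_ne_zero (fun (d : (ZMod p)ˣ) _ _ => (d : ZMod p)) (fun _ _ _ => Finset.mem_univ _)
      (fun _ _ _ _ _ _ h => Units.ext h) (fun a _ ha => ?_) fun d _ _ => ?_).symm
    · have hne : a ≠ 0 := fun e => ha (by rw [e, MulChar.map_zero, zero_mul])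
      refine ⟨Units.mk0 a hne, Finset.mem_univ _, fun e => ha ?_, rfl⟩
      rw [MulChar.coe_toUnitHom, mul_comm] at e
      exact e
    · rw [MulChar.coe_toUnitHom, mul_comm]
  have hprod : ∏ χ ∈ (Finset.univ : Finset (DirichletCharacter ℂ p)).filter (fun χ => χ.Odd),
      ‖∑ a : ZMod p, χ a * (a.val : ℂ)‖ ^ 2 = ∏ i ∈ oddIdx p, ‖genSum g (z ^ i)‖ ^ 2 := by
    refine (Finset.prod_bij (fun i _ => chi i) (fun i hi => ?_) (fun i hi j hj h => ?_)
      (fun χ hχ => ?_) fun i _ => by rw [hval]).symm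
    · refine Finset.mem_filter.mpr ⟨Finset.mem_univ _, ?_⟩
      show chi i (-1) = -1
      rw [hparity, (Finset.mem_filter.mp hi).2.neg_one_pow]
    · have := congrArg (fun χ : DirichletCharacter ℂ p => χ (g : ZMod p)) h
      simp only [hchi] at this
      exact hz.pow_inj (Finset.mem_range.mp (Finset.mem_filter.mp hi).1)
        (Finset.mem_range.mp (Finset.mem_filter.mp hj).1) this
    · have hpow : χ (g : ZMod p) ^ (p - 1) = 1 := by
        rw [← map_pow, ZMod.pow_card_sub_one_eq_one g.ne_zero, map_one]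
      have : NeZero (p - 1) := ⟨by omega⟩
      obtain ⟨i, hi, he⟩ := hz.eq_pow_of_pow_eq_one hpow
      have hχi : chi i = χ := (MulChar.eq_iff hg _ _).mpr (by rw [hchi, he])
      refine ⟨i, Finset.mem_filter.mpr ⟨Finset.mem_range.mpr hi, ?_⟩, hχi⟩
      have h1 : χ (-1) = -1 := (Finset.mem_filter.mp hχ).2
      rw [← hχi, hparity] at h1
      exact Nat.not_even_iff_odd.mp fun hev => by
        rw [hev.neg_one_pow] at h1
        norm_num at h1
  have hreal : (starRingEnd ℂ) (∏ i ∈ oddIdx p, genSum g (z ^ i)) = ∏ i ∈ oddIdx p, genSum g (z ^ i) := by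
    rw [map_prod]
    refine Finset.prod_nbij' (fun i => p - 1 - i) (fun i => p - 1 - i) ?_ ?_ ?_ ?_ ?_ <;> intro i hi <;>
      simp only [oddIdx, Finset.mem_filter, Finset.mem_range, Nat.odd_iff] at hi ⊢
    · omega
    · omega
    · omega
    · omega
    · rw [map_genSum, map_pow]
      congr 1
      rw [← Complex.inv_eq_conj (Complex.norm_eq_one_of_pow_eq_one hz.pow_eq_one (by omega)),
        inv_pow]
      refine inv_eq_of_mul_eq_one_right ?_
      rw [← pow_add, show i + (p - 1 - i) = p - 1 by omega, hz.pow_eq_one]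
  have hsq : (∏ i ∈ oddIdx p, genSum g (z ^ i)) ^ 2 =
      ((∏ i ∈ oddIdx p, ‖genSum g (z ^ i)‖ ^ 2 : ℝ) : ℂ) := by
    rw [Finset.prod_pow, ← norm_prod, Complex.ofReal_pow, ← Complex.mul_conj', hreal, pow_two]
  have hform := minus_formula_sq p K (by omega)
  rw [hprod] at hform
  have hformC := congrArg (fun r : ℝ => (r : ℂ)) hform
  simp only [map_sub, map_mul, map_pow, map_prod, eq_intCast, map_intCast]
  have hgs : ∀ i, aeval z (genSum g ((X : ℤ[X]) ^ i)) = genSum g (z ^ i) := fun i => by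
    rw [show aeval z (genSum g ((X : ℤ[X]) ^ i)) = (aeval z : ℤ[X] →ₐ[ℤ] ℂ).toRingHom
      (genSum g ((X : ℤ[X]) ^ i)) from rfl, map_genSum]
    simp
  simp only [hgs]
  rw [hsq]
  push_cast at hformC ⊢
  rw [show ((|discr (maximalRealSubfield K)| : ℤ) : ℂ) =
    (((|discr (maximalRealSubfield K)| : ℤ) : ℝ) : ℂ) from (Complex.ofReal_intCast _).symm,
    Int.cast_abs]
  linear_combination hformC

theorem natAbs_discr_real_sq_dvd [IsCMField K] :
    (discr (maximalRealSubfield K)).natAbs ^ 2 ∣ p ^ (p - 2) := by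
  have h := natAbs_discr_eq_absNorm_differentIdeal_mul_natAbs_discr_pow (maximalRealSubfield K)
    (𝓞 (maximalRealSubfield K)) K (𝓞 K)
  rw [IsCyclotomicExtension.Rat.discr_prime p K, Int.natAbs_mul, Int.natAbs_pow, Int.natAbs_neg,
    Int.natAbs_one, one_pow, one_mul, Int.natAbs_pow, Int.natAbs_natCast,
    Algebra.IsQuadraticExtension.finrank_eq_two (maximalRealSubfield K) K] at h
  exact ⟨_, h.trans (mul_comm _ _)⟩

/-- **Kummer's criterion, converse**: an irregular prime divides the class number. -/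
theorem dvd_classNumber_of_dvd_bernoulli (h5 : 5 ≤ p) {k : ℕ} (hev : Even k) (hk : 2 ≤ k)
    (hkp : k ≤ p - 3) (hB : (p : ℤ) ∣ (_root_.bernoulli k).num) : p ∣ classNumber K := by
  have hp : p.Prime := Fact.out
  have hodd := hp.eq_two_or_odd
  have : NeZero p := ⟨hp.ne_zero⟩
  have : IsCMField K := IsCyclotomicExtension.Rat.isCMField K (S := {p}) ⟨p, rfl, by omega⟩
  obtain ⟨g, hg⟩ := IsCyclic.exists_generator (α := (ZMod p)ˣ)
  set m := (p - 1) / 2 with hm
  have hN : 2 * m ≠ 0 := by omega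
  obtain ⟨ω, hω, hroot⟩ := exists_teichmuller hN hg
  set t := (ω g : ZMod (p ^ (2 * m)))
  have hz := Complex.isPrimitiveRoot_exp (p - 1) (by omega)
  have hvan := aeval_minusPoly_eq_zero (K := K) (by omega) hg hz
  have hdvd := minpoly.isIntegrallyClosed_dvd (hz.isIntegral (by omega)) hvan
  rw [← cyclotomic_eq_minpoly hz (by omega)] at hdvd
  have hzero := map_dvd (aeval t) hdvd
  rw [hroot, zero_dvd_iff] at hzero
  have hgs : ∀ i, aeval t (genSum g ((X : ℤ[X]) ^ i)) = genSum g (t ^ i) := fun i => by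
    rw [show aeval t (genSum g ((X : ℤ[X]) ^ i)) = (aeval t : ℤ[X] →ₐ[ℤ] _).toRingHom
      (genSum g ((X : ℤ[X]) ^ i)) from rfl, map_genSum]
    simp
  simp only [map_sub, map_mul, map_pow, map_prod, hgs, eq_intCast, map_intCast] at hzero
  have hprod : (p : ZMod (p ^ (2 * m))) ^ m ∣ ∏ i ∈ oddIdx p, genSum g (t ^ i) := by
    have hi0 : k - 1 ∈ (oddIdx p).erase (p - 2) := by
      simp only [oddIdx, Finset.mem_erase, Finset.mem_filter, Finset.mem_range, Nat.odd_iff]
      rw [Nat.even_iff] at hev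
      omega
    refine dvd_trans ?_ (Finset.prod_dvd_prod_of_subset _ _ _ (Finset.erase_subset (p - 2) _))
    rw [← Finset.mul_prod_erase _ _ hi0]
    have hcard : (((oddIdx p).erase (p - 2)).erase (k - 1)).card + 2 = m := by
      rw [Finset.card_erase_of_mem hi0, Finset.card_erase_of_mem (by
        simp only [oddIdx, Finset.mem_filter, Finset.mem_range, Nat.odd_iff]; omega),
        card_oddIdx]
      rw [Nat.even_iff] at hev
      omega
    have hrange : ∀ i ∈ (oddIdx p).erase (p - 2), Odd i ∧ i + 1 < p - 1 := by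
      intro i hi
      simp only [oddIdx, Finset.mem_erase, Finset.mem_filter, Finset.mem_range, Nat.odd_iff] at hi ⊢
      omega
    rw [show (p : ZMod (p ^ (2 * m))) ^ m = (p : ZMod (p ^ (2 * m))) ^ 2 *
      ∏ _i ∈ ((oddIdx p).erase (p - 2)).erase (k - 1), (p : ZMod (p ^ (2 * m))) by
        rw [Finset.prod_const, ← pow_add, add_comm, hcard]]
    refine mul_dvd_mul ?_ (Finset.prod_dvd_prod_of_dvd _ _ fun i hi => ?_)
    · obtain ⟨w, hw, hwB⟩ := genSum_teichmuller h5 hN hg ω hω (hrange _ hi0).1 (hrange _ hi0).2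
      rw [hw, pow_two]
      exact mul_dvd_mul_left _ (hwB (by rwa [Nat.sub_add_cancel (by omega : 1 ≤ k)]))
    · obtain ⟨h1, h2⟩ := hrange i (Finset.mem_of_mem_erase hi)
      obtain ⟨w, hw, -⟩ := genSum_teichmuller h5 hN hg ω hω h1 h2
      exact ⟨w, hw⟩
  have hsq : (∏ i ∈ oddIdx p, genSum g (t ^ i)) ^ 2 = 0 := by
    obtain ⟨w, hw⟩ := hprod
    rw [hw, mul_pow, ← pow_mul, mul_comm m 2, ← Nat.cast_pow, ZMod.natCast_self, zero_mul]
  rw [hsq, mul_zero, zero_sub, neg_eq_zero, Int.cast_natCast, ZMod.natCast_eq_zero_iff] at hzero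
  by_contra hh
  obtain ⟨a, -, haD⟩ := (Nat.dvd_prime_pow hp).mp
    ((dvd_pow_self _ two_ne_zero).trans (natAbs_discr_real_sq_dvd (K := K) (p := p)))
  have hsqD := natAbs_discr_real_sq_dvd (K := K) (p := p)
  rw [haD, ← pow_mul, Nat.pow_dvd_pow_iff_le_right hp.one_lt] at hsqD
  rw [haD, show 4 ^ (m - 1) * p ^ (m - 1) * p ^ a * classNumber K ^ 2 =
    p ^ (m - 1 + a) * (4 ^ (m - 1) * classNumber K ^ 2) by rw [pow_add]; ring] at hzero
  have hcop : Nat.Coprime (p ^ (2 * m)) (4 ^ (m - 1) * classNumber K ^ 2) := by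
    refine Nat.Coprime.pow_left _ (Nat.Coprime.mul_right (Nat.Coprime.pow_right _ ?_)
      (Nat.Coprime.pow_right _ ((Nat.Prime.coprime_iff_not_dvd hp).mpr hh)))
    exact (Nat.Prime.coprime_iff_not_dvd hp).mpr fun h => by
      have := Nat.le_of_dvd (by norm_num) h
      omega
  have := (Nat.pow_dvd_pow_iff_le_right hp.one_lt).mp (hcop.dvd_of_dvd_mul_right hzero)
  omega

end FA.Regular
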