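import Fermat.Agent.Regular.RealClassGroup
import Fermat.Agent.Regular.CriterionConverse
import Fermat.Agent.Regular.AuxiliaryPrime

/-!
# The exact power of `p` in the class number of `ℚ(ζ_p)`

If `p` does not divide `h⁺` and the sums `∑ a ω^i(a)` have the least valuations which one irregular
index `k` allows (checked modulo `p³`), then `p` divides `h(ℚ(ζ_p))` exactly once.
-/

set_option autoImplicit false

noncomputable section

open NumberField Polynomial
open scoped Classical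

namespace FA.Regular

/-- `∑_{a<p} a ω^i(a)` modulo `p³`, by `ω(a) ≡ a^(p²)`. -/
def teichSum (p i : ℕ) : ℕ :=
  (((List.range p).map fun a => a * auxPowMod (p ^ 3) 22 a (p ^ 2 * i)).sum) % p ^ 3

/-- The valuations are the least possible with the irregular index `k`. -/
def certValuation (p k : ℕ) : Bool :=
  decide (p ^ 2 * p < 2 ^ 22) && (List.range (p - 2)).all fun i => decide (i % 2 = 0) ||
    if i = k - 1 then decide (teichSum p i ≠ 0) else decide (teichSum p i % p ^ 2 ≠ 0)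

variable {p : ℕ} [Fact p.Prime]

/-- A sum over units as a sum over residues. -/
theorem sum_units_val_eq_range {M : Type*} [AddCommMonoid M] (f : ℕ → M) (h0 : f 0 = 0) :
    ∑ d : (ZMod p)ˣ, f (d : ZMod p).val = ∑ r ∈ Finset.range p, f r := by
  have hp : p.Prime := Fact.out
  have : NeZero p := ⟨hp.ne_zero⟩
  rw [← Finset.sum_filter_of_ne (s := Finset.range p) (p := fun r => r ≠ 0)
    fun r _ hr h => hr (h ▸ h0)]
  refine Finset.sum_nbij (fun d : (ZMod p)ˣ => (d : ZMod p).val)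
    (fun d _ => Finset.mem_filter.mpr
      ⟨Finset.mem_range.mpr (ZMod.val_lt _), (ZMod.val_ne_zero _).mpr d.ne_zero⟩)
    ?_ ?_ fun _ _ => rfl
  · exact fun d _ d' _ h => Units.ext (ZMod.val_injective p h)
  · intro r hr
    obtain ⟨hr, h0r⟩ := Finset.mem_filter.mp (Finset.mem_coe.mp hr)
    rw [Finset.mem_range] at hr
    have hne : (r : ZMod p) ≠ 0 := by
      rw [Ne, ZMod.natCast_eq_zero_iff]
      exact fun h => absurd (Nat.le_of_dvd (Nat.pos_of_ne_zero h0r) h) (by omega)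
    exact ⟨Units.mk0 _ hne, Finset.mem_coe.mpr (Finset.mem_univ _), ZMod.val_cast_of_lt hr⟩

/-- The reduction of a sum `∑ a ω^i(a)` modulo `p³`. -/
theorem genSum_cast_cube {N : ℕ} (hN : N ≠ 0) (h3N : 3 ≤ N) {g : (ZMod p)ˣ}
    (hg : ∀ x, x ∈ Subgroup.zpowers g) (ω : (ZMod p)ˣ →* (ZMod (p ^ N))ˣ)
    (hω : ∀ d, ZMod.castHom (dvd_pow_self p hN) (ZMod p) (ω d : ZMod (p ^ N)) = (d : ZMod p))
    {i : ℕ} (hi : p ^ 2 * i < 2 ^ 22) :
    ZMod.castHom (pow_dvd_pow p h3N) (ZMod (p ^ 3)) (genSum g ((ω g : ZMod (p ^ N)) ^ i)) =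
      (teichSum p i : ZMod (p ^ 3)) := by
  have hp : p.Prime := Fact.out
  have : NeZero p := ⟨hp.ne_zero⟩
  have : NeZero (p ^ 3) := ⟨pow_ne_zero _ hp.ne_zero⟩
  set red := ZMod.castHom (pow_dvd_pow p h3N) (ZMod (p ^ 3))
  have hθ : ∀ d : (ZMod p)ˣ, red (ω d : ZMod (p ^ N)) = (((d : ZMod p).val : ℕ) : ZMod (p ^ 3)) ^ p ^ 2 := by
    intro d
    set x := red (ω d : ZMod (p ^ N))
    have hcomp : ZMod.castHom (dvd_pow_self p three_ne_zero) (ZMod p) x = (d : ZMod p) := by
      rw [← hω d]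
      exact RingHom.congr_fun (RingHom.ext_zmod
        ((ZMod.castHom (dvd_pow_self p three_ne_zero) (ZMod p)).comp red) _) _
    have hx1 : x ^ (p - 1) = 1 := by
      have hd : d ^ (p - 1) = 1 := by rw [← ZMod.card_units p]; exact pow_card_eq_one
      rw [← map_pow, ← Units.val_pow_eq_pow_val, ← map_pow, hd, map_one, Units.val_one, map_one]
    have hx2 : x ^ p ^ 2 = x := by
      rw [show p ^ 2 = (p - 1) * (p + 1) + 1 by
        obtain ⟨q, rfl⟩ : ∃ q, p = q + 1 := ⟨p - 1, by have := hp.one_le; omega⟩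
        simp only [Nat.add_sub_cancel]; ring, pow_succ x, pow_mul, hx1, one_pow, one_mul]
    rw [← hx2]
    have hdvd : ((p : ℕ) : ZMod (p ^ 3)) ∣ x - (((d : ZMod p).val : ℕ) : ZMod (p ^ 3)) :=
      natCast_dvd_of_castHom_eq_zero three_ne_zero (by
        rw [map_sub, hcomp, map_natCast, ZMod.natCast_zmod_val, sub_self])
    have h := dvd_sub_pow_of_dvd_sub hdvd 2
    rwa [← Nat.cast_pow, ZMod.natCast_self, zero_dvd_iff, sub_eq_zero] at h
  have hsum : genSum g ((ω g : ZMod (p ^ N)) ^ i) =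
      ∑ d : (ZMod p)ˣ, (((d : ZMod p).val : ℕ) : ZMod (p ^ N)) * ((((powMonoidHom i).comp ω) d :
        (ZMod (p ^ N))ˣ) : ZMod (p ^ N)) := by
    rw [sum_val_mul_hom hg]
    simp
  rw [hsum, map_sum, teichSum, ZMod.natCast_mod, Nat.cast_list_sum, List.map_map,
    ← List.sum_toFinset _ (List.nodup_range), List.toFinset_range]
  simp only [Function.comp_def]
  rw [← sum_units_val_eq_range (p := p) (fun a => ((a * auxPowMod (p ^ 3) 22 a (p ^ 2 * i) : ℕ) : ZMod (p ^ 3)))
      (by simp)]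
  refine Finset.sum_congr rfl fun d _ => ?_
  rw [map_mul, map_natCast, MonoidHom.comp_apply, powMonoidHom_apply, Units.val_pow_eq_pow_val,
    map_pow, hθ, ← pow_mul, Nat.cast_mul, auxPowMod_cast _ 22 _ _ hi]

variable {K : Type*} [Field K] [NumberField K] [IsCyclotomicExtension {p} ℚ K]

/-- **The exact power of `p` in the class number.** -/
theorem padicValNat_classNumber_eq_one [IsCMField K] (h5 : 5 ≤ p) {k : ℕ} (hev : Even k) (hk : 2 ≤ k)
    (hkp : k ≤ p - 3) (hB : (p : ℤ) ∣ (_root_.bernoulli k).num)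
    (hplus : ¬ p ∣ classNumber (maximalRealSubfield K)) (hcert : certValuation p k = true) :
    padicValNat p (classNumber K) = 1 := by
  have hp : p.Prime := Fact.out
  have hpodd := hp.eq_two_or_odd
  rw [Nat.even_iff] at hev
  have : NeZero p := ⟨hp.ne_zero⟩
  obtain ⟨g, hg⟩ := IsCyclic.exists_generator (α := (ZMod p)ˣ)
  set m := (p - 1) / 2 with hm
  set N := 2 * m + 3 with hNdef
  have hN : N ≠ 0 := by omega
  have h3N : 3 ≤ N := by omega
  have : NeZero (p ^ N) := ⟨pow_ne_zero _ hp.ne_zero⟩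
  obtain ⟨ω, hω, hroot⟩ := exists_teichmuller hN hg
  set t := (ω g : ZMod (p ^ N))
  simp only [certValuation, Bool.and_eq_true, decide_eq_true_eq, List.all_eq_true, List.mem_range,
    Bool.or_eq_true] at hcert
  obtain ⟨hbound, hcert⟩ := hcert
  have hfuel : ∀ i, i < p → p ^ 2 * i < 2 ^ 22 := fun i hi =>
    lt_of_le_of_lt (Nat.mul_le_mul_left _ hi.le) hbound
  have hdvdT : ∀ (n i : ℕ), n ≤ 3 → i < p → (p : ZMod (p ^ N)) ^ n ∣ genSum g (t ^ i) →
      teichSum p i % p ^ n = 0 := by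
    intro n i hn hi h
    obtain ⟨y, hy⟩ := h
    have h := congrArg (ZMod.castHom (pow_dvd_pow p (hn.trans h3N)) (ZMod (p ^ n))) hy
    rw [map_mul, map_pow, map_natCast, ← Nat.cast_pow, ZMod.natCast_self, zero_mul,
      ← RingHom.congr_fun (RingHom.ext_zmod ((ZMod.castHom (pow_dvd_pow p hn) (ZMod (p ^ n))).comp
        (ZMod.castHom (pow_dvd_pow p h3N) (ZMod (p ^ 3)))) _) _, RingHom.comp_apply,
      genSum_cast_cube hN h3N hg ω hω (hfuel i hi), map_natCast] at h
    exact Nat.mod_eq_zero_of_dvd ((ZMod.natCast_eq_zero_iff _ _).mp h) |> fun h => h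
  have hunit : ∀ w : ZMod (p ^ N), ¬ (p : ZMod (p ^ N)) ∣ w → IsUnit w := fun w hw =>
    isUnit_of_castHom_ne_zero hN fun h0 => hw (natCast_dvd_of_castHom_eq_zero hN h0)
  have hidx : ∀ i ∈ (oddIdx p).erase (p - 2), Odd i ∧ i + 1 < p - 1 ∧ i < p - 2 := by
    intro i hi
    simp only [oddIdx, Finset.mem_erase, Finset.mem_filter, Finset.mem_range, Nat.odd_iff] at hi ⊢
    omega
  have hfac : ∀ i ∈ oddIdx p, ∃ u : (ZMod (p ^ N))ˣ, genSum g (t ^ i) =
      (p : ZMod (p ^ N)) ^ (if i = p - 2 then 0 else if i = k - 1 then 2 else 1) * u := by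
    intro i hi
    by_cases h2 : i = p - 2
    · subst h2
      rw [if_pos rfl]
      have hu : IsUnit (genSum g (t ^ (p - 2))) := by
        refine isUnit_of_castHom_ne_zero hN ?_
        rw [map_genSum, map_pow, hω, genSum]
        have : ∀ j ∈ Finset.range (p - 1), ((((g ^ j : (ZMod p)ˣ) : ZMod p).val : ℕ) : ZMod p) *
            ((g : ZMod p) ^ (p - 2)) ^ j = 1 := fun j _ => by
          rw [ZMod.natCast_zmod_val, Units.val_pow_eq_pow_val, ← mul_pow, ← pow_succ',
            show p - 2 + 1 = p - 1 by omega, ZMod.pow_card_sub_one_eq_one g.ne_zero, one_pow]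
        rw [Finset.sum_congr rfl this, Finset.sum_const, Finset.card_range, nsmul_one,
          Nat.cast_sub hp.one_le, ZMod.natCast_self, Nat.cast_one, zero_sub]
        exact neg_ne_zero.mpr one_ne_zero
      obtain ⟨u, hu⟩ := hu
      exact ⟨u, by rw [pow_zero, one_mul, hu]⟩
    obtain ⟨hio, hi1, hi2⟩ := hidx i (Finset.mem_erase.mpr ⟨h2, hi⟩)
    obtain ⟨w, hw, hwB⟩ := genSum_teichmuller h5 hN hg ω hω hio hi1
    have hc := (hcert i hi2).resolve_left (by rw [Nat.odd_iff] at hio; omega)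
    rw [if_neg h2]
    by_cases hik : i = k - 1
    · rw [if_pos hik] at hc
      rw [decide_eq_true_eq] at hc
      obtain ⟨w', hw'⟩ := hwB (by rwa [hik, Nat.sub_add_cancel (by omega : 1 ≤ k)])
      obtain ⟨u, hu⟩ := hunit w' (fun ⟨y, hy⟩ => hc (by
        have h := hdvdT 3 i le_rfl (by omega) ⟨y, by rw [hw, hw', hy]; ring⟩
        rwa [show teichSum p i % p ^ 3 = teichSum p i from Nat.mod_mod _ _] at h))
      exact ⟨u, by rw [if_pos hik, hw, hw', hu]; ring⟩
    · rw [if_neg hik] at hc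
      rw [decide_eq_true_eq] at hc
      obtain ⟨u, hu⟩ := hunit w (fun ⟨y, hy⟩ => hc (hdvdT 2 i (by norm_num) (by omega)
        ⟨y, by rw [hw, hy]; ring⟩))
      exact ⟨u, by rw [if_neg hik, hw, hu, pow_one]⟩
  choose u hu using hfac
  have hexp : ∑ i ∈ oddIdx p, (if i = p - 2 then 0 else if i = k - 1 then 2 else 1) = m := by
    have h1 : p - 2 ∈ oddIdx p := by
      simp only [oddIdx, Finset.mem_filter, Finset.mem_range, Nat.odd_iff]; omega
    have h2 : k - 1 ∈ (oddIdx p).erase (p - 2) := by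
      simp only [oddIdx, Finset.mem_erase, Finset.mem_filter, Finset.mem_range, Nat.odd_iff]; omega
    rw [← Finset.add_sum_erase _ _ h1, if_pos rfl, zero_add, ← Finset.add_sum_erase _ _ h2,
      if_neg (Finset.ne_of_mem_erase h2), if_pos rfl,
      Finset.sum_congr rfl (g := fun _ => 1) fun i hi => by
        rw [if_neg (Finset.ne_of_mem_erase (Finset.mem_of_mem_erase hi)),
          if_neg (Finset.ne_of_mem_erase hi)],
      Finset.sum_const, Finset.card_erase_of_mem h2, Finset.card_erase_of_mem h1, card_oddIdx,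
      smul_eq_mul, mul_one]
    omega
  obtain ⟨U, hU⟩ : ∃ U : (ZMod (p ^ N))ˣ,
      ∏ i ∈ oddIdx p, genSum g (t ^ i) = (p : ZMod (p ^ N)) ^ m * U := by
    refine ⟨∏ i ∈ (oddIdx p).attach, u i.1 i.2, ?_⟩
    rw [← Finset.prod_attach, Finset.prod_congr rfl fun i _ => hu i.1 i.2, Finset.prod_mul_distrib,
      Finset.prod_pow_eq_pow_sum,
      Finset.sum_attach _ (fun i => if i = p - 2 then 0 else if i = k - 1 then 2 else 1), hexp,
      Units.coe_prod]
  -- the class number formula at the Teichmüller character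
  have hz := Complex.isPrimitiveRoot_exp (p - 1) (by omega)
  have hvan := aeval_minusPoly_eq_zero (K := K) (by omega) hg hz
  have hdvd := minpoly.isIntegrallyClosed_dvd (hz.isIntegral (by omega)) hvan
  rw [← cyclotomic_eq_minpoly hz (by omega)] at hdvd
  have hzero := map_dvd (aeval t) hdvd
  rw [hroot, zero_dvd_iff] at hzero
  have hgs : ∀ i, aeval t (genSum g ((X : ℤ[X]) ^ i)) = genSum g (t ^ i) := fun i => by
    rw [show aeval t (genSum g ((X : ℤ[X]) ^ i)) = (aeval t : ℤ[X] →ₐ[ℤ] _).toRingHom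
      (genSum g ((X : ℤ[X]) ^ i)) from rfl, map_genSum]
    simp
  simp only [map_sub, map_mul, map_pow, map_prod, hgs, eq_intCast, map_intCast] at hzero
  rw [hU, Int.cast_natCast, Int.cast_natCast] at hzero
  obtain ⟨a, -, haD⟩ := (Nat.dvd_prime_pow hp).mp
    ((dvd_pow_self _ two_ne_zero).trans (natAbs_discr_real_sq_dvd (K := K) (p := p)))
  have hsqD := natAbs_discr_real_sq_dvd (K := K) (p := p)
  rw [haD, ← pow_mul, Nat.pow_dvd_pow_iff_le_right hp.one_lt] at hsqD
  have hlow := pow_dvd_discr_real p K (by omega)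
  rw [haD, Nat.pow_dvd_pow_iff_le_right hp.one_lt, ← hm] at hlow
  rw [haD, show a = m - 1 by omega] at hzero
  set hQ := classNumber (maximalRealSubfield K) * IsCMField.indexRealUnits K with hQdef
  set h := classNumber K
  have hcast : (((hQ * (U : ZMod (p ^ N)).val) ^ 2 * p ^ (2 * m) : ℕ) : ZMod (p ^ N)) =
      ((4 ^ (m - 1) * p ^ (m - 1) * p ^ (m - 1) * h ^ 2 : ℕ) : ZMod (p ^ N)) := by
    rw [Nat.cast_mul, Nat.cast_pow, Nat.cast_mul, ZMod.natCast_zmod_val, Nat.cast_pow,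
      mul_pow, ← sub_eq_zero, ← hzero]
    ring
  have hmod := (ZMod.natCast_eq_natCast_iff _ _ _).mp hcast
  obtain ⟨A, hAdef⟩ : ∃ A, hQ * (U : ZMod (p ^ N)).val = A := ⟨_, rfl⟩
  rw [hAdef] at hmod
  rw [show A ^ 2 * p ^ (2 * m) = p ^ (2 * m - 2) * (A ^ 2 * p ^ 2) by
        rw [mul_left_comm, ← pow_add, show 2 * m - 2 + 2 = 2 * m by omega],
    show 4 ^ (m - 1) * p ^ (m - 1) * p ^ (m - 1) * h ^ 2 = p ^ (2 * m - 2) * (4 ^ (m - 1) * h ^ 2) by
      rw [show 2 * m - 2 = m - 1 + (m - 1) by omega, pow_add]; ring,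
    show p ^ N = p ^ (2 * m - 2) * p ^ 5 by rw [← pow_add, show 2 * m - 2 + 5 = N by omega]] at hmod
  have hmod5 := Nat.ModEq.mul_left_cancel' (pow_ne_zero _ hp.ne_zero) hmod
  have hA : ¬ p ∣ hQ * (U : ZMod (p ^ N)).val := by
    rw [hQdef]
    intro hd
    rcases hp.dvd_mul.mp hd with hd | hd
    · rcases hp.dvd_mul.mp hd with hd | hd
      · exact hplus hd
      · rcases IsCMField.indexRealUnits_eq_one_or_two K with e | e <;>
          (rw [e] at hd; have := Nat.le_of_dvd (by omega) hd; omega)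
    · have hcop := (ZMod.val_coe_unit_coprime U)
      exact hp.ne_one (Nat.eq_one_of_dvd_coprimes hcop hd (dvd_pow_self p hN))
  have hh0 : h ≠ 0 := (classNumber_pos K).ne'
  have h4 : p.Coprime (4 ^ (m - 1)) := Nat.Coprime.pow_right _
    ((Nat.Prime.coprime_iff_not_dvd hp).mpr fun hd => by
      have := Nat.le_of_dvd (by norm_num) hd; omega)
  have hph : p ∣ h := by
    have h2 : p ∣ 4 ^ (m - 1) * h ^ 2 :=
      ((hmod5.of_dvd (dvd_pow_self p (by norm_num))).dvd_iff dvd_rfl).mp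
        (dvd_mul_of_dvd_right (dvd_pow_self p two_ne_zero) _)
    exact hp.dvd_of_dvd_pow (h4.dvd_of_dvd_mul_left h2)
  have hnot : ¬ p ^ 2 ∣ h := by
    intro hd
    have h3 : p ^ 3 ∣ A ^ 2 * p ^ 2 :=
      ((hmod5.of_dvd (pow_dvd_pow p (by norm_num))).dvd_iff dvd_rfl).mpr
        (dvd_mul_of_dvd_right ((pow_dvd_pow p (show 3 ≤ 2 * 2 by norm_num)).trans
          (by rw [pow_mul]; exact pow_dvd_pow_of_dvd hd 2)) _)
    rw [show p ^ 3 = p * p ^ 2 by ring, Nat.mul_dvd_mul_iff_right (pow_pos hp.pos 2)] at h3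
    exact hA (hAdef ▸ hp.dvd_of_dvd_pow h3)
  obtain ⟨c, hc⟩ := hph
  have hc0 : c ≠ 0 := fun e => hh0 (by rw [hc, e, mul_zero])
  rw [hc, padicValNat.mul hp.ne_zero hc0, padicValNat_self,
    padicValNat.eq_zero_of_not_dvd fun hd => hnot (by rw [hc, pow_two]; exact mul_dvd_mul_left p hd)]

end FA.Regular
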