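import Fermat.Agent.Regular.Setup
import Fermat.Agent.ExtVanish.Cyclo

/-!
# The congruence in Eichler's argument

For `u v ≠ 0`, `u ≠ ± v` in `𝔽_p` and exponents `c_a`, `1 ≤ a ≤ M`, with `M (M + 1) + 3 ≤ p`, not all
`k_a = a c_a (v² - u²)` zero, the products `∏ (u + v T^a)^(c_a)` and `n T^j ∏ (u T^a + v)^(c_a)` differ
modulo `(T - 1)^(p-1)`: their logarithmic derivatives would give a vanishing polynomial of degree
at most `M (M + 1)` whose lowest coefficient is `k_a (u v)^(M-1)` for the least `a` with `k_a ≠ 0`.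
-/

set_option autoImplicit false

noncomputable section

open Polynomial NumberField

namespace FA.Regular

section Poly

variable {F : Type*} [Field F]

theorem X_mul_derivative_X_pow (j : ℕ) : X * derivative (X ^ j : F[X]) = C (j : F) * X ^ j := by
  rcases j with _ | j
  · simp
  · rw [derivative_X_pow, Nat.add_sub_cancel, pow_succ']
    ring

theorem derivative_pow_mul_self (A : F[X]) (c : ℕ) :
    derivative (A ^ c) * A = C (c : F) * A ^ c * derivative A := by
  rcases c with _ | c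
  · simp
  · rw [derivative_pow, Nat.add_sub_cancel, pow_succ A c]
    ring

/-- The two linear forms in `T^a`. -/
def eichlerPair (u v : F) (a : ℕ) : F[X] := (C u + C v * X ^ a) * (C u * X ^ a + C v)

/-- The numerator of the difference of the logarithmic derivatives. -/
def eichlerNum (u v : F) (j : ℕ) (c : ℕ → ℕ) (s : Finset ℕ) : F[X] :=
  -(C (j : F) * ∏ a ∈ s, eichlerPair u v a) +
    ∑ a ∈ s, C ((c a : F) * (a : F) * (v ^ 2 - u ^ 2)) * X ^ a * ∏ b ∈ s.erase a, eichlerPair u v b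

theorem eichlerNum_spec (u v n : F) (j : ℕ) (c : ℕ → ℕ) (s : Finset ℕ) :
    X * (derivative (∏ a ∈ s, (C u + C v * X ^ a) ^ c a) *
          (C n * X ^ j * ∏ a ∈ s, (C u * X ^ a + C v) ^ c a) -
        (∏ a ∈ s, (C u + C v * X ^ a) ^ c a) *
          derivative (C n * X ^ j * ∏ a ∈ s, (C u * X ^ a + C v) ^ c a)) *
      ∏ a ∈ s, eichlerPair u v a =
    eichlerNum u v j c s * ((∏ a ∈ s, (C u + C v * X ^ a) ^ c a) *
      (C n * X ^ j * ∏ a ∈ s, (C u * X ^ a + C v) ^ c a)) := by
  induction s using Finset.induction with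
  | empty =>
    simp only [Finset.prod_empty, mul_one, eichlerNum, Finset.sum_empty, add_zero, derivative_one, zero_mul,
      zero_sub, one_mul, derivative_C_mul]
    linear_combination (-C n) * X_mul_derivative_X_pow (F := F) j
  | insert a s ha ih =>
    have hnum : eichlerNum u v j c (insert a s) = eichlerNum u v j c s * eichlerPair u v a +
        C ((c a : F) * (a : F) * (v ^ 2 - u ^ 2)) * X ^ a * ∏ b ∈ s, eichlerPair u v b := by
      rw [eichlerNum, eichlerNum, Finset.sum_insert ha, Finset.erase_insert ha, Finset.prod_insert ha,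
        add_mul, Finset.sum_mul, Finset.sum_congr rfl fun b hb => ?_]
      · ring
      rw [Finset.erase_insert_of_ne (by rintro rfl; exact ha hb), Finset.prod_insert
        (fun h => ha (Finset.mem_of_mem_erase h))]
      ring
    -- the pair of index `a`
    have hA := derivative_pow_mul_self (C u + C v * X ^ a) (c a)
    have hB := derivative_pow_mul_self (C u * X ^ a + C v) (c a)
    simp only [derivative_add, derivative_C, derivative_C_mul, zero_add, add_zero] at hA hB
    have hX := X_mul_derivative_X_pow (F := F) a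
    rw [hnum]
    simp only [Finset.prod_insert ha, derivative_mul, derivative_C, zero_mul, zero_add, map_mul, map_sub,
      map_pow] at ih ⊢
    rw [eichlerPair]
    generalize (∏ b ∈ s, (C u + C v * X ^ b) ^ c b) = P at *
    generalize (∏ b ∈ s, (C u * X ^ b + C v) ^ c b) = Q at *
    generalize (∏ b ∈ s, eichlerPair u v b) = D at *
    generalize eichlerNum u v j c s = N at *
    linear_combination ((C u + C v * X ^ a) * (C u * X ^ a + C v) * (C u + C v * X ^ a) ^ c a *
        (C u * X ^ a + C v) ^ c a) * ih +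
      (X * D * P * C n * X ^ j * Q * (C u * X ^ a + C v) * (C u * X ^ a + C v) ^ c a) * hA -
      (X * D * P * C n * X ^ j * Q * (C u + C v * X ^ a) * (C u + C v * X ^ a) ^ c a) * hB +
      (C (c a : F) * D * P * C n * X ^ j * Q * (C u + C v * X ^ a) ^ c a * (C u * X ^ a + C v) ^ c a *
        (C v * (C u * X ^ a + C v) - C u * (C u + C v * X ^ a))) * hX

theorem natDegree_eichlerPair_le (u v : F) (a : ℕ) : (eichlerPair u v a).natDegree ≤ 2 * a := by
  unfold eichlerPair
  compute_degree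
  omega

theorem natDegree_eichlerNum_le (u v : F) (j : ℕ) (c : ℕ → ℕ) (s : Finset ℕ) :
    (eichlerNum u v j c s).natDegree ≤ ∑ a ∈ s, 2 * a := by
  have hprod : ∀ t : Finset ℕ, (∏ a ∈ t, eichlerPair u v a).natDegree ≤ ∑ a ∈ t, 2 * a := fun t =>
    (natDegree_prod_le _ _).trans (Finset.sum_le_sum fun a _ => natDegree_eichlerPair_le u v a)
  refine (natDegree_add_le _ _).trans (max_le ?_ (natDegree_sum_le_of_forall_le _ _ fun a ha => ?_))
  · rw [natDegree_neg]
    exact (natDegree_C_mul_le _ _).trans (hprod s)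
  · refine natDegree_mul_le.trans ?_
    rw [← Finset.add_sum_erase s _ ha]
    refine Nat.add_le_add ((natDegree_C_mul_le _ _).trans ?_) (hprod _)
    rw [natDegree_X_pow]
    omega

theorem coeff_zero_eichlerPair (u v : F) {a : ℕ} (ha : a ≠ 0) :
    (eichlerPair u v a).coeff 0 = u * v := by
  rw [eichlerPair, mul_coeff_zero, coeff_add, coeff_add, coeff_C_mul_X_pow, coeff_C_mul_X_pow, coeff_C_zero,
    coeff_C_zero, if_neg (Ne.symm ha), if_neg (Ne.symm ha)]
  ring

/-- The numerator vanishes only if all weights vanish. -/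
theorem eichlerNum_ne_zero {u v : F} (hu : u ≠ 0) (hv : v ≠ 0) (j : ℕ) (c : ℕ → ℕ) {s : Finset ℕ}
    (hs : 0 ∉ s) {a : ℕ} (ha : a ∈ s) (hk : (c a : F) * (a : F) * (v ^ 2 - u ^ 2) ≠ 0) :
    eichlerNum u v j c s ≠ 0 := by
  classical
  intro h0
  have hpos : ∀ b ∈ s, b ≠ 0 := fun b hb e => hs (e ▸ hb)
  have hD : ∀ t ⊆ s, (∏ b ∈ t, eichlerPair u v b).coeff 0 ≠ 0 := fun t ht => by
    rw [coeff_zero_prod, Finset.prod_ne_zero_iff]
    exact fun b hb => by rw [coeff_zero_eichlerPair u v (hpos b (ht hb))]; exact mul_ne_zero hu hv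
  have hcoef : ∀ m, -((j : F) * (∏ b ∈ s, eichlerPair u v b).coeff m) +
      ∑ b ∈ s, ((c b : F) * (b : F) * (v ^ 2 - u ^ 2)) *
        (if b ≤ m then (∏ b' ∈ s.erase b, eichlerPair u v b').coeff (m - b) else 0) = 0 := fun m => by
    have h := congrArg (fun P : F[X] => P.coeff m) h0
    simp only [eichlerNum, coeff_add, coeff_neg, coeff_C_mul, finsetSum_coeff, coeff_zero] at h
    refine Eq.trans ?_ h
    exact congrArg₂ (· + ·) rfl (Finset.sum_congr rfl fun b _ => by
      rw [mul_assoc (C _), coeff_C_mul, coeff_X_pow_mul'])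
  have hj : (j : F) = 0 := by
    have h := hcoef 0
    rw [Finset.sum_eq_zero fun b hb => ?_, add_zero, neg_eq_zero] at h
    · exact (mul_eq_zero.mp h).resolve_right (hD s subset_rfl)
    rw [if_neg (by have := hpos b hb; omega), mul_zero]
  -- the least index with a weight
  set W := s.filter fun b => (c b : F) * (b : F) * (v ^ 2 - u ^ 2) ≠ 0
  have hW : W.Nonempty := ⟨a, Finset.mem_filter.mpr ⟨ha, hk⟩⟩
  obtain ⟨hm, hmk⟩ := Finset.mem_filter.mp (W.min'_mem hW)
  have h := hcoef (W.min' hW)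
  rw [hj, zero_mul, neg_zero, zero_add, Finset.sum_eq_single_of_mem _ hm fun b hb hbm => ?_, if_pos le_rfl,
    Nat.sub_self] at h
  · exact (mul_ne_zero hmk (hD _ (Finset.erase_subset _ _))) h
  · split_ifs with hle
    · rw [show (c b : F) * (b : F) * (v ^ 2 - u ^ 2) = 0 from by_contra fun hne =>
        hbm (le_antisymm hle (Finset.min'_le _ _ (Finset.mem_filter.mpr ⟨hb, hne⟩))), zero_mul]
    · rw [mul_zero]

/-- A congruence of the products modulo `(T - 1)^(m+1)` makes `(T - 1)^m` divide the numerator. -/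
theorem pow_dvd_eichlerNum_of_congr {u v n : F} (huv : u + v ≠ 0) (hn : n ≠ 0) (j : ℕ) (c : ℕ → ℕ)
    (s : Finset ℕ) {m : ℕ}
    (h : (X - C 1) ^ (m + 1) ∣ (∏ a ∈ s, (C u + C v * X ^ a) ^ c a) -
      C n * X ^ j * ∏ a ∈ s, (C u * X ^ a + C v) ^ c a) :
    (X - C 1) ^ m ∣ eichlerNum u v j c s := by
  set P := ∏ a ∈ s, (C u + C v * X ^ a) ^ c a with hP
  set Q := C n * X ^ j * ∏ a ∈ s, (C u * X ^ a + C v) ^ c a with hQ
  have hd := pow_sub_one_dvd_derivative_of_pow_dvd h
  rw [Nat.add_sub_cancel] at hd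
  have hW : (X - C 1) ^ m ∣ X * (derivative P * Q - P * derivative Q) := by
    rw [show derivative P * Q - P * derivative Q = derivative (P - Q) * Q - (P - Q) * derivative Q by
      rw [derivative_sub]; ring]
    exact dvd_mul_of_dvd_right
      (dvd_sub (hd.mul_right _) (((pow_dvd_pow _ (Nat.le_succ m)).trans h).mul_right _)) _
  have hN := hW.mul_right (∏ a ∈ s, eichlerPair u v a)
  rw [hP, hQ, eichlerNum_spec u v n j c s] at hN
  have hPQ : ¬ (X - C 1) ∣ P * Q := by
    rw [dvd_iff_isRoot, IsRoot.def, eval_mul]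
    simp [hP, hQ, eval_prod, Finset.prod_ne_zero_iff, huv, hn]
  exact (prime_X_sub_C (1 : F)).pow_dvd_of_dvd_mul_right m hPQ hN

/-- The two products are not congruent modulo `(T - 1)^(m+1)`. -/
theorem not_congr_of_weight {u v n : F} (hu : u ≠ 0) (hv : v ≠ 0) (huv : u + v ≠ 0) (hn : n ≠ 0) (j : ℕ)
    (c : ℕ → ℕ) {s : Finset ℕ} (hs : 0 ∉ s) {m : ℕ} (hm : ∑ a ∈ s, 2 * a < m) {a : ℕ} (ha : a ∈ s)
    (hk : (c a : F) * (a : F) * (v ^ 2 - u ^ 2) ≠ 0) :
    ¬ (X - C 1) ^ (m + 1) ∣ (∏ a ∈ s, (C u + C v * X ^ a) ^ c a) -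
      C n * X ^ j * ∏ a ∈ s, (C u * X ^ a + C v) ^ c a := fun h =>
  eichlerNum_ne_zero hu hv j c hs ha hk (eq_zero_of_dvd_of_degree_lt
    (pow_dvd_eichlerNum_of_congr huv hn j c s h) (by
      rw [degree_pow, degree_X_sub_C, nsmul_one]
      exact degree_le_natDegree.trans_lt (WithBot.coe_lt_coe.mpr
        ((natDegree_eichlerNum_le u v j c s).trans_lt hm))))

/-- The exponent of `T` is determined by a congruence modulo `(T - 1)^2`. -/
theorem exponent_of_congr {u v n : F} (huv : u + v ≠ 0) (hn : n ≠ 0) (j : ℕ) (c : ℕ → ℕ) (s : Finset ℕ)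
    (h : (X - C 1) ^ 2 ∣ (∏ a ∈ s, (C u + C v * X ^ a) ^ c a) -
      C n * X ^ j * ∏ a ∈ s, (C u * X ^ a + C v) ^ c a) :
    (j : F) * (u + v) = (v - u) * ∑ a ∈ s, (c a : F) * (a : F) := by
  classical
  have h' := pow_dvd_eichlerNum_of_congr (m := 1) huv hn j c s h
  rw [pow_one, dvd_iff_isRoot, IsRoot.def] at h'
  simp only [eichlerNum, eichlerPair, eval_add, eval_neg, eval_mul, eval_C, eval_prod, eval_finsetSum,
    eval_pow, eval_X, one_pow, mul_one, Finset.prod_const] at h'
  rw [Finset.sum_congr rfl fun a ha => by rw [Finset.card_erase_of_mem ha], ← Finset.sum_mul] at h'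
  rcases Nat.eq_zero_or_pos s.card with h0 | h0
  · rw [Finset.card_eq_zero.mp h0] at h' ⊢
    simp only [Finset.card_empty, pow_zero, mul_one, Finset.sum_empty, zero_mul, add_zero, mul_zero,
      neg_eq_zero] at h' ⊢
    rw [h', zero_mul]
  obtain ⟨k, hk⟩ : ∃ k, s.card = k + 1 := ⟨s.card - 1, by omega⟩
  rw [hk, Nat.add_sub_cancel, pow_succ, ← Finset.sum_mul] at h'
  refine mul_right_cancel₀ huv (mul_right_cancel₀ (pow_ne_zero k (mul_ne_zero huv huv)) ?_)
  linear_combination -h'

end Poly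

variable (p : ℕ) [Fact p.Prime] (K : Type*) [Field K] [NumberField K] [IsCyclotomicExtension {p} ℚ K]

/-- A congruence modulo `p` in `ℤ[ζ]` is one modulo `(T - 1)^(p-1)` in `𝔽_p[T]`. -/
theorem pow_dvd_map_of_dvd_aeval {P : ℤ[X]}
    (h : (p : 𝓞 K) ∣ aeval (FA.Ext.zetaInt p K) P) :
    (X - C 1) ^ (p - 1) ∣ P.map (Int.castRingHom (ZMod p)) := by
  have hp : p.Prime := Fact.out
  obtain ⟨w, hw⟩ := h
  obtain ⟨g, -, hgw⟩ :=
    (IsCyclotomicExtension.zeta_spec p ℚ K).integralPowerBasis.exists_eq_aeval w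
  rw [show (IsCyclotomicExtension.zeta_spec p ℚ K).integralPowerBasis.gen = FA.Ext.zetaInt p K from
    IsPrimitiveRoot.integralPowerBasis_gen _] at hgw
  have h0 : aeval ((FA.Ext.zetaInt p K : 𝓞 K) : K) (P - C (p : ℤ) * g) = 0 := by
    rw [show ((FA.Ext.zetaInt p K : 𝓞 K) : K) = algebraMap (𝓞 K) K (FA.Ext.zetaInt p K) from rfl,
      aeval_algebraMap_apply, map_sub, map_mul, aeval_C, ← hgw, hw, algebraMap_int_eq, eq_intCast, Int.cast_natCast, sub_self,
      map_zero]
  have hprim : IsPrimitiveRoot ((FA.Ext.zetaInt p K : 𝓞 K) : K) p :=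
    (FA.Ext.zetaInt_spec p K).map_of_injective RingOfIntegers.coe_injective
  have hdvd : cyclotomic p ℤ ∣ P - C (p : ℤ) * g := by
    rw [cyclotomic_eq_minpoly hprim hp.pos]
    exact minpoly.isIntegrallyClosed_dvd (hprim.isIntegral hp.pos) h0
  have hm := Polynomial.map_dvd (Int.castRingHom (ZMod p)) hdvd
  have hc : cyclotomic p (ZMod p) = (X - C 1) ^ (p - 1) := by
    refine mul_right_cancel₀ (b := (X - C 1 : (ZMod p)[X])) (X_sub_C_ne_zero 1) ?_
    rw [← pow_succ, Nat.sub_add_cancel hp.one_le, sub_pow_char, ← C_pow, one_pow, map_one,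
      cyclotomic_prime_mul_X_sub_one]
  simpa [map_cyclotomic, hc] using hm

end FA.Regular
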