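import Fermat.Agent.Regular.SophieGermain
import Fermat.Agent.Regular.CaseTwo
import Fermat.Agent.Regular.Cyclotomic

/-!
Fermat's Last Theorem for the exponents 5, 7, 11 and 13.
-/

set_option autoImplicit false

namespace FA.Regular

open NumberField

def unitCerts5 : List UnitCert :=
  [⟨1, 2, 1, 0, [(2, 1)]⟩,
    ⟨2, 2, 4, 2, [(2, 1)]⟩]

def unitCerts7 : List UnitCert :=
  [⟨1, 3, 3, 0, [(3, 1)]⟩,
    ⟨2, 5, 3, 0, [(2, 1), (3, 3)]⟩,
    ⟨4, 5, 1, 5, [(2, 2), (3, 1)]⟩]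

def unitCerts11 : List UnitCert :=
  [⟨1, 5, 10, 0, [(5, 1)]⟩,
    ⟨2, 1, 4, 0, [(4, 1), (5, 2)]⟩,
    ⟨4, 4, 10, 0, [(3, 2), (4, 1), (5, 1)]⟩,
    ⟨6, 9, 10, 0, [(2, 2), (3, 4), (5, 3)]⟩,
    ⟨8, 7, 4, 5, [(2, 3), (3, 4), (4, 1), (5, 5)]⟩]

def unitCerts13 : List UnitCert :=
  [⟨1, 6, 2, 0, [(6, 1)]⟩,
    ⟨2, 7, 2, 0, [(5, 2), (6, 1)]⟩,
    ⟨4, 5, 7, 1, [(4, 2), (6, 1)]⟩,
    ⟨6, 1, 12, 0, [(2, 5), (4, 1), (6, 1)]⟩,
    ⟨8, 2, 9, 0, [(2, 5), (3, 1), (4, 4), (5, 7), (6, 1)]⟩,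
    ⟨10, 5, 4, 6, [(2, 9), (3, 4), (4, 10), (5, 1), (6, 3)]⟩]

instance factFive : Fact (Nat.Prime 5) := ⟨by norm_num⟩
instance factSeven : Fact (Nat.Prime 7) := ⟨by norm_num⟩
instance factEleven : Fact (Nat.Prime 11) := ⟨by norm_num⟩
instance factThirteen : Fact (Nat.Prime 13) := ⟨by norm_num⟩
instance factTwentyThree : Fact (Nat.Prime 23) := ⟨by norm_num⟩
instance factTwentyNine : Fact (Nat.Prime 29) := ⟨by norm_num⟩
instance factFiftyThree : Fact (Nat.Prime 53) := ⟨by norm_num⟩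

set_option backward.isDefEq.respectTransparency false in
/-- Fermat's equation has no coprime solutions for a regular prime with an auxiliary prime. -/
theorem flt_of_data (p q : ℕ) [hp : Fact p.Prime] [hq : Fact q.Prime] (h3 : 3 ≤ p)
    (S : List (ZMod q)) (hS : ∀ x : ZMod q, x ^ p ∈ S)
    (hS1 : ∀ x ∈ S, ∀ y ∈ S, ∀ z ∈ S, x + y + z = 0 → x = 0 ∨ y = 0 ∨ z = 0)
    (hS2 : (p : ZMod q) ∉ S)
    (B : ℕ) (Cs : List PrimeCert) (hCs : pidCheck p B Cs = true)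
    (hB : (4 / 3.1415 : ℝ) ^ ((p - 1) / 2) * (((p - 1).factorial : ℝ) / ((p - 1 : ℕ) : ℝ) ^ (p - 1)
      * Real.sqrt ((p : ℝ) ^ (p - 2))) < (B : ℝ) + 1)
    (Us : List UnitCert) (hUs : Us.all (UnitCert.ok p) = true)
    (hUd : (Us.map UnitCert.d).Nodup) (hUl : (p - 1) / 2 ≤ Us.length)
    {a b c : ℤ} (ha : a ≠ 0) (hb : b ≠ 0) (hc : c ≠ 0) (hab : IsCoprime a b)
    (hbc : IsCoprime b c) (hca : IsCoprime c a) (h : a ^ p + b ^ p = c ^ p) : False := by
  have hodd : Odd p := hp.out.odd_of_ne_two (by omega)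
  have hsum : a ^ p + b ^ p + (-c) ^ p = 0 := by rw [hodd.neg_pow]; linear_combination h
  have hζ : IsPrimitiveRoot (IsCyclotomicExtension.zeta p ℚ (CyclotomicField p ℚ)) p :=
    IsCyclotomicExtension.zeta_spec p ℚ (CyclotomicField p ℚ)
  have H := cycloRing_ringOfIntegers h3 hζ
  have hK := kummerProp_ringOfIntegers h3 hζ Us hUs hUd hUl
  have : IsPrincipalIdealRing (𝓞 (CyclotomicField p ℚ)) := by
    refine isPrincipalIdealRing_of_pidCheck hζ B ?_ Cs hCs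
    rw [IsCyclotomicExtension.Rat.nrComplexPlaces_eq_totient_div_two (n := p) (CyclotomicField p ℚ),
      IsCyclotomicExtension.Rat.finrank p (CyclotomicField p ℚ), Nat.totient_prime hp.out,
      IsCyclotomicExtension.Rat.discr_prime p (CyclotomicField p ℚ)]
    refine lt_of_le_of_lt ?_ hB
    push_cast
    rw [abs_mul, abs_pow, abs_neg, abs_one, one_pow, one_mul, abs_of_nonneg (by positivity)]
    gcongr
    exact Real.pi_gt_d4.le
  have hpI : Prime (p : ℤ) := Nat.prime_iff_prime_int.mp hp.out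
  have hexcl : ∀ {x y : ℤ}, IsCoprime x y → (p : ℤ) ∣ x → ¬ (p : ℤ) ∣ y := fun hxy hx hy =>
    hpI.not_isUnit (hxy.isUnit_of_dvd' hx hy)
  by_cases h1 : (p : ℤ) ∣ a
  · exact H.case_two h3 hK (a := b) (b := -c) (c := a) ha (by linear_combination hsum)
      hbc.neg_right (hexcl hab h1) (fun h => hexcl hca.symm h1 (dvd_neg.1 h)) h1
  by_cases h2 : (p : ℤ) ∣ b
  · exact H.case_two h3 hK (a := -c) (b := a) (c := b) hb (by linear_combination hsum)
      hca.neg_left (fun h => hexcl hbc h2 (dvd_neg.1 h)) h1 h2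
  by_cases h3' : (p : ℤ) ∣ c
  · exact H.case_two h3 hK (a := a) (b := b) (c := -c) (neg_ne_zero.2 hc) hsum hab h1 h2
      h3'.neg_right
  refine sophie_germain (q := q) hodd ?_ ?_ hsum hab hbc.neg_right hca.neg_left h1 h2
    (fun h => h3' (dvd_neg.1 h))
  · intro x y z hxyz
    rcases hS1 _ (hS x) _ (hS y) _ (hS z) hxyz with h | h | h
    · exact Or.inl (eq_zero_of_pow_eq_zero h)
    · exact Or.inr (Or.inl (eq_zero_of_pow_eq_zero h))
    · exact Or.inr (Or.inr (eq_zero_of_pow_eq_zero h))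
  · exact fun x hx => hS2 (hx ▸ hS x)

theorem flt_five {a b c : ℤ} (ha : a ≠ 0) (hb : b ≠ 0) (hc : c ≠ 0) (hab : IsCoprime a b)
    (hbc : IsCoprime b c) (hca : IsCoprime c a) : a ^ 5 + b ^ 5 ≠ c ^ 5 := by
  intro h
  refine flt_of_data 5 11 (by norm_num) [0, 1, 10] (by decide +kernel) (by decide +kernel)
    (by decide +kernel) 1 [] (by decide +kernel) ?_ unitCerts5 (by decide +kernel)
    (by decide +kernel) (by decide +kernel) ha hb hc hab hbc hca h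
  have hs : Real.sqrt ((5 : ℝ) ^ 3) < 11.2 := by
    rw [Real.sqrt_lt (by positivity) (by positivity)]; norm_num
  norm_num [Nat.factorial] at hs ⊢
  nlinarith [hs]

theorem flt_seven {a b c : ℤ} (ha : a ≠ 0) (hb : b ≠ 0) (hc : c ≠ 0) (hab : IsCoprime a b)
    (hbc : IsCoprime b c) (hca : IsCoprime c a) : a ^ 7 + b ^ 7 ≠ c ^ 7 := by
  intro h
  refine flt_of_data 7 29 (by norm_num) [0, 1, 12, 17, 28] (by decide +kernel) (by decide +kernel)
    (by decide +kernel) 4 [] (by decide +kernel) ?_ unitCerts7 (by decide +kernel)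
    (by decide +kernel) (by decide +kernel) ha hb hc hab hbc hca h
  have hs : Real.sqrt ((7 : ℝ) ^ 5) < 129.7 := by
    rw [Real.sqrt_lt (by positivity) (by positivity)]; norm_num
  norm_num [Nat.factorial] at hs ⊢
  nlinarith [hs]

theorem flt_eleven {a b c : ℤ} (ha : a ≠ 0) (hb : b ≠ 0) (hc : c ≠ 0) (hab : IsCoprime a b)
    (hbc : IsCoprime b c) (hca : IsCoprime c a) : a ^ 11 + b ^ 11 ≠ c ^ 11 := by
  intro h
  refine flt_of_data 11 23 (by norm_num) [0, 1, 22] (by decide +kernel) (by decide +kernel)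
    (by decide +kernel) 58 [⟨23, 1, 5366, [1, 1, 0, 1]⟩] (by decide +kernel) ?_ unitCerts11
    (by decide +kernel) (by decide +kernel) (by decide +kernel) ha hb hc hab hbc hca h
  have hs : Real.sqrt ((11 : ℝ) ^ 9) < 48560 := by
    rw [Real.sqrt_lt (by positivity) (by positivity)]; norm_num
  norm_num [Nat.factorial] at hs ⊢
  nlinarith [hs]

theorem flt_thirteen {a b c : ℤ} (ha : a ≠ 0) (hb : b ≠ 0) (hc : c ≠ 0) (hab : IsCoprime a b)
    (hbc : IsCoprime b c) (hca : IsCoprime c a) : a ^ 13 + b ^ 13 ≠ c ^ 13 := by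
  intro h
  refine flt_of_data 13 53 (by norm_num) [0, 1, 23, 30, 52] (by decide +kernel) (by decide +kernel)
    (by decide +kernel) 306
    [⟨3, 3, -2, [1, 1, 0, -1]⟩, ⟨53, 1, 40876, [1, 1, 0, 1]⟩, ⟨79, 1, -6, [1, 1, 0, 0, -1]⟩,
      ⟨131, 1, -10, [1, -1, 0, -1]⟩, ⟨157, 1, 303, [1, -1, 1, 0, 1]⟩]
    (by decide +kernel) ?_ unitCerts13
    (by decide +kernel) (by decide +kernel) (by decide +kernel) ha hb hc hab hbc hca h
  have hs : Real.sqrt ((13 : ℝ) ^ 11) < 1338716 := by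
    rw [Real.sqrt_lt (by positivity) (by positivity)]; norm_num
  norm_num [Nat.factorial] at hs ⊢
  nlinarith [hs]

end FA.Regular
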