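import Fermat.Agent.Regular.WieferichScan

/-!
# Wieferich's and Mirimanoff's congruences below one hundred thousand

For odd `5 ≤ n < 100000` the kernel finds `2^(n-1) ≡ 1 (mod n²)` only at `1093`, `3511` and
`3^(n-1) ≡ 1 (mod n²)` only at `11`.
-/

set_option autoImplicit false

namespace FA.Regular

/-- `g^(n-1)` is `1` modulo `n²` only for `n` in `L`, on odd `n` in blocks of a thousand. -/
def quotientScan (g blocks : ℕ) (L : List ℕ) : Bool :=
  (List.range blocks).all fun a => (List.range 500).all fun b =>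
    !(Nat.beq (g ^ (1000 * a + 2 * b) % ((1000 * a + 2 * b + 1) * (1000 * a + 2 * b + 1))) 1) ||
      L.contains (1000 * a + 2 * b + 1)

theorem quotientScan_two : quotientScan 2 10 [1093, 3511] = true := by decide +kernel

theorem quotientScan_three : quotientScan 3 100 [11] = true := by decide +kernel

theorem mem_of_quotientScan {g blocks : ℕ} {L : List ℕ} (hs : quotientScan g blocks L = true) {n : ℕ}
    (hodd : Odd n) (h1 : 1 < n) (hhi : n < 1000 * blocks) (h : (g : ZMod (n ^ 2)) ^ (n - 1) = 1) :
    n ∈ L := by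
  rw [Nat.odd_iff] at hodd
  have h' : g ^ (n - 1) % (n * n) = 1 := by
    rw [← sq]
    have hc : ((g ^ (n - 1) : ℕ) : ZMod (n ^ 2)) = ((1 : ℕ) : ZMod (n ^ 2)) := by
      rw [Nat.cast_pow, Nat.cast_one]; exact h
    rw [ZMod.natCast_eq_natCast_iff'] at hc
    rw [hc, Nat.one_mod_eq_one, sq]
    intro e
    have := Nat.eq_one_of_mul_eq_one_left e
    omega
  simp only [quotientScan, List.all_eq_true, List.mem_range, Bool.or_eq_true, Bool.not_eq_eq_eq_not,
    Bool.not_true, List.contains_iff_mem, ← Bool.not_eq_true, Nat.beq_eq] at hs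
  have := hs ((n - 1) / 1000) (by omega) ((n - 1) % 1000 / 2) (by omega)
  rw [show 1000 * ((n - 1) / 1000) + 2 * ((n - 1) % 1000 / 2) + 1 = n by omega,
    show 1000 * ((n - 1) / 1000) + 2 * ((n - 1) % 1000 / 2) = n - 1 by omega] at this
  exact this.resolve_left (not_not_intro h')

/-- The Wieferich primes below one hundred thousand are `1093` and `3511`. -/
theorem two_pow_eq_one_lt_100000 {n : ℕ} (hodd : Odd n) (h1 : 1 < n) (hhi : n < 100000)
    (h : (2 : ZMod (n ^ 2)) ^ (n - 1) = 1) : n = 1093 ∨ n = 3511 := by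
  by_cases hlo : n < 10000
  · simpa using mem_of_quotientScan quotientScan_two hodd h1 hlo (by exact_mod_cast h)
  · exact absurd h (two_pow_ne_one_of_range hodd (by omega) hhi)

/-- The only such prime for the base three is `11`. -/
theorem three_pow_eq_one_lt_100000 {n : ℕ} (hodd : Odd n) (h1 : 1 < n) (hhi : n < 100000)
    (h : (3 : ZMod (n ^ 2)) ^ (n - 1) = 1) : n = 11 := by
  simpa using mem_of_quotientScan quotientScan_three hodd h1 hhi (by exact_mod_cast h)

end FA.Regular
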