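import Fermat.Prelude.Def_FLTPrelim_FreyPackage
import Fermat.Agent.Regular.FLT

/-!
No Frey package has exponent 5, 7, 11 or 13.
-/

set_option autoImplicit false

namespace FA.Regular

theorem isCoprime_of_gcd_eq_one {a b : ℤ} (h : gcd a b = 1) : IsCoprime a b :=
  (gcd_isUnit_iff a b).1 (h ▸ isUnit_one)

/-- Fermat's equation for the exponents 5, 7, 11, 13 rules out the corresponding Frey packages. -/
theorem freyPackage_small_prime_false (P : FreyPackage)
    (hp : P.p = 5 ∨ P.p = 7 ∨ P.p = 11 ∨ P.p = 13) : False := by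
  have hab := isCoprime_of_gcd_eq_one P.hgcdab
  have hbc := isCoprime_of_gcd_eq_one P.hgcdbc
  have hca := (isCoprime_of_gcd_eq_one P.hgcdac).symm
  have h := P.hFLT
  rcases hp with hp | hp | hp | hp <;> rw [hp] at h
  · exact flt_five P.ha0 P.hb0 P.hc0 hab hbc hca h
  · exact flt_seven P.ha0 P.hb0 P.hc0 hab hbc hca h
  · exact flt_eleven P.ha0 P.hb0 P.hc0 hab hbc hca h
  · exact flt_thirteen P.ha0 P.hb0 P.hc0 hab hbc hca h

end FA.Regular
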