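import Fermat.Agent.Regular.EichlerFirstCase

/-!
# Kummer's criteria for the first case

For odd `3 ≤ n ≤ p - 2` with `p ∤ B_{p-n}` Herbrand kills the weight `n` part of the class of `I`,
`(x + ζ y) = I^p`.  So `α = ∏ σ_d (x + ζ y)^(b_d)`, `b_d ≡ d^(-n)`, is congruent to a root of unity times its
conjugate up to squaring, and the `n`-th logarithmic derivative at `T = 1` shows that `kummerForm n x y`,
the homogeneous Eulerian form, vanishes modulo `p`.
-/

set_option autoImplicit false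

noncomputable section

open NumberField Polynomial
open scoped nonZeroDivisors

namespace FA.Regular

section LogNum

variable {R : Type*} [CommRing R]

/-- `(X d/dX) P`. -/
def thetaD (P : R[X]) : R[X] := X * derivative P

theorem thetaD_mul (P Q : R[X]) : thetaD (P * Q) = thetaD P * Q + P * thetaD Q := by
  rw [thetaD, thetaD, thetaD, derivative_mul]; ring

theorem thetaD_pow_mul (P : R[X]) (k : ℕ) : thetaD (P ^ k) * P = (k : R[X]) * P ^ k * thetaD P := by
  rcases k with _ | k
  · simp [thetaD]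
  · rw [thetaD, thetaD, derivative_pow, Nat.add_sub_cancel, pow_succ P k, C_eq_natCast]
    ring

/-- `logNum n P / P^(n+1)` is the derivative of order `n + 1` of `log P` for `X d/dX`. -/
def logNum : ℕ → R[X] → R[X]
  | 0, P => thetaD P
  | n + 1, P => thetaD (logNum n P) * P - ((n + 1 : ℕ) : R[X]) * logNum n P * thetaD P

theorem logNum_mul (P Q : R[X]) : ∀ n, logNum n (P * Q) =
    logNum n P * Q ^ (n + 1) + logNum n Q * P ^ (n + 1)
  | 0 => by simp [logNum, thetaD_mul]; ring
  | n + 1 => by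
    have hP := thetaD_pow_mul P (n + 1)
    have hQ := thetaD_pow_mul Q (n + 1)
    simp only [logNum, logNum_mul P Q n, thetaD_mul] at hP hQ ⊢
    have hadd : ∀ A B : R[X], thetaD (A + B) = thetaD A + thetaD B := fun A B => by
      rw [thetaD, thetaD, thetaD, derivative_add, mul_add]
    simp only [hadd, thetaD_mul, pow_succ _ (n + 1)]
    linear_combination (logNum n P * P) * hQ + (logNum n Q * Q) * hP

theorem logNum_comp (P : R[X]) (a : ℕ) : ∀ n,
    logNum n (P.comp (X ^ a)) = (a : R[X]) ^ (n + 1) * (logNum n P).comp (X ^ a) := by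
  have hD : ∀ Q : R[X], thetaD (Q.comp (X ^ a)) = (a : R[X]) * (thetaD Q).comp (X ^ a) := fun Q => by
    rcases a with _ | a
    · simp [thetaD]
    · simp only [thetaD, derivative_comp, derivative_X_pow, mul_comp, X_comp, Nat.add_sub_cancel, C_eq_natCast]
      ring
  intro n
  induction n with
  | zero => simp [logNum, hD]
  | succ n ih =>
    have hc : thetaD ((a : R[X]) ^ (n + 1) * (logNum n P).comp (X ^ a)) =
        (a : R[X]) ^ (n + 1) * ((a : R[X]) * (thetaD (logNum n P)).comp (X ^ a)) := by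
      rw [← hD, ← Nat.cast_pow, thetaD, thetaD, derivative_natCast_mul]
      ring
    simp only [logNum, ih, hc, hD, sub_comp, mul_comp, natCast_comp]
    ring

theorem logNum_map {S : Type*} [CommRing S] (f : R →+* S) (P : R[X]) : ∀ n,
    logNum n (P.map f) = (logNum n P).map f
  | 0 => by simp [logNum, thetaD, derivative_map]
  | n + 1 => by simp [logNum, logNum_map f P n, thetaD, derivative_map]

theorem logNum_C (c : R) : ∀ n, logNum n (C c) = 0
  | 0 => by simp [logNum, thetaD]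
  | n + 1 => by simp [logNum, logNum_C c n, thetaD]

theorem logNum_X_pow (j : ℕ) : ∀ n, logNum (n + 1) (X ^ j : R[X]) = 0
  | 0 => by
    have h : thetaD (X ^ j : R[X]) = (j : R[X]) * X ^ j := by
      rcases j with _ | j
      · simp [thetaD]
      · rw [thetaD, derivative_X_pow, Nat.add_sub_cancel, C_eq_natCast, pow_succ']
        ring
    simp only [logNum, h]
    rw [thetaD, derivative_natCast_mul, mul_left_comm, ← thetaD, h]
    push_cast
    ring
  | n + 1 => by rw [logNum, logNum_X_pow j n]; simp [thetaD]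

theorem dvd_logNum_sub {P Q : R[X]} {t : R} : ∀ (n : ℕ) {m : ℕ}, (X - C t) ^ (m + (n + 1)) ∣ P - Q →
    (X - C t) ^ m ∣ logNum n P - logNum n Q
  | 0, m, h => by
    have := pow_sub_one_dvd_derivative_of_pow_dvd h
    rw [Nat.zero_add, Nat.add_sub_cancel, derivative_sub] at this
    simp only [logNum, thetaD, ← mul_sub]
    exact dvd_mul_of_dvd_right this _
  | n + 1, m, h => by
    have h1 : (X - C t) ^ (m + 1) ∣ logNum n P - logNum n Q := dvd_logNum_sub n (by
      rwa [show m + 1 + (n + 1) = m + (n + 1 + 1) by omega])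
    have h2 := pow_sub_one_dvd_derivative_of_pow_dvd h1
    rw [Nat.add_sub_cancel, derivative_sub] at h2
    have h3 : (X - C t) ^ (m + 1) ∣ P - Q := (pow_dvd_pow _ (by omega)).trans h
    have h4 := pow_sub_one_dvd_derivative_of_pow_dvd h3
    rw [Nat.add_sub_cancel, derivative_sub] at h4
    have h3' : (X - C t) ^ m ∣ P - Q := (pow_dvd_pow _ (Nat.le_succ m)).trans h3
    have h1' : (X - C t) ^ m ∣ logNum n P - logNum n Q := (pow_dvd_pow _ (Nat.le_succ m)).trans h1
    have e : logNum (n + 1) P - logNum (n + 1) Q =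
        X * (derivative (logNum n P) - derivative (logNum n Q)) * P + thetaD (logNum n Q) * (P - Q) -
          ((n + 1 : ℕ) : R[X]) * ((logNum n P - logNum n Q) * thetaD P +
            logNum n Q * (X * (derivative P - derivative Q))) := by
      simp only [logNum, thetaD]; ring
    rw [e]
    exact dvd_sub (dvd_add ((h2.mul_left X).mul_right P) (h3'.mul_left _))
      ((dvd_add (h1'.mul_right _) ((h4.mul_left X).mul_left _)).mul_left _)

end LogNum

section LogVal

variable {F : Type*} [Field F]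

/-- The logarithmic derivative of order `n + 1` at `1`. -/
def logVal (n : ℕ) (P : F[X]) : F := (logNum n P).eval 1 / P.eval 1 ^ (n + 1)

theorem logVal_mul (n : ℕ) {P Q : F[X]} (hP : P.eval 1 ≠ 0) (hQ : Q.eval 1 ≠ 0) :
    logVal n (P * Q) = logVal n P + logVal n Q := by
  rw [logVal, logVal, logVal, logNum_mul, eval_add, eval_mul, eval_mul, eval_mul, eval_pow, eval_pow,
    mul_pow, div_add_div _ _ (pow_ne_zero _ hP) (pow_ne_zero _ hQ)]
  ring

theorem logVal_one (n : ℕ) : logVal n (1 : F[X]) = 0 := by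
  rw [← C_1, logVal, logNum_C, eval_zero, zero_div]

theorem logVal_prod_pow (n : ℕ) {ι : Type*} (s : Finset ι) (P : ι → F[X]) (c : ι → ℕ)
    (h : ∀ i ∈ s, (P i).eval 1 ≠ 0) :
    logVal n (∏ i ∈ s, P i ^ c i) = ∑ i ∈ s, (c i : F) * logVal n (P i) := by
  classical
  induction s using Finset.induction with
  | empty => simp [logVal_one]
  | insert a s ha ih =>
    have hpow : ∀ k : ℕ, logVal n (P a ^ k) = (k : F) * logVal n (P a) := by
      intro k
      induction k with
      | zero => simp [logVal_one]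
      | succ k ih' =>
        rw [pow_succ, logVal_mul n (by rw [eval_pow]; exact pow_ne_zero _ (h a (Finset.mem_insert_self _ _)))
          (h a (Finset.mem_insert_self _ _)), ih']
        push_cast
        ring
    rw [Finset.prod_insert ha, Finset.sum_insert ha, logVal_mul n
      (by rw [eval_pow]; exact pow_ne_zero _ (h a (Finset.mem_insert_self _ _)))
      (by rw [eval_prod]; exact Finset.prod_ne_zero_iff.mpr fun i hi => by
            rw [eval_pow]; exact pow_ne_zero _ (h i (Finset.mem_insert_of_mem hi))),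
      hpow, ih fun i hi => h i (Finset.mem_insert_of_mem hi)]

theorem logVal_congr (n : ℕ) {P Q : F[X]} {m : ℕ} (hm : n + 2 ≤ m) (h : (X - C 1) ^ m ∣ P - Q) :
    logVal n P = logVal n Q := by
  have h1 : (X - C 1) ^ 1 ∣ logNum n P - logNum n Q := dvd_logNum_sub n ((pow_dvd_pow _ (by omega)).trans h)
  have h2 : (X - C 1) ^ 1 ∣ P - Q := (pow_dvd_pow _ (by omega)).trans h
  rw [pow_one, dvd_iff_isRoot, IsRoot.def, eval_sub, sub_eq_zero] at h1 h2
  rw [logVal, logVal, h1, h2]

theorem logVal_comp (n : ℕ) (P : F[X]) (a : ℕ) :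
    logVal n (P.comp (X ^ a)) = (a : F) ^ (n + 1) * logVal n P := by
  rw [logVal, logVal, logNum_comp, eval_mul, eval_comp, eval_comp, eval_pow, eval_natCast, eval_pow, eval_X,
    one_pow, mul_div_assoc]

end LogVal

/-- The homogeneous Eulerian form: the numerator of the `n`-th derivative at `v = 0` of `log (x + e^v y)`. -/
def kummerForm (n : ℕ) (x y : ℤ) : ℤ := (logNum (n - 1) (C x + C y * X)).eval 1

theorem kummerForm_three (x y : ℤ) : kummerForm 3 x y = x * y * (x - y) := by
  simp [kummerForm, logNum, thetaD]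
  ring

theorem kummerForm_five (x y : ℤ) :
    kummerForm 5 x y = x * y * (x - y) * (x ^ 2 - 10 * x * y + y ^ 2) := by
  simp [kummerForm, logNum, thetaD]
  ring

variable {p : ℕ} [Fact p.Prime]

theorem kummerForm_cast (n : ℕ) (x y : ℤ) :
    ((kummerForm n x y : ℤ) : ZMod p) = (logNum (n - 1) (C (x : ZMod p) + C (y : ZMod p) * X)).eval 1 := by
  rw [show C (x : ZMod p) + C (y : ZMod p) * X =
    (C x + C y * X : ℤ[X]).map (Int.castRingHom (ZMod p)) by simp, logNum_map, kummerForm, eval_map,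
    eval₂_at_one]
  rfl

set_option backward.isDefEq.respectTransparency false in
/-- **Kummer's criterion.** -/
theorem kummerForm_eq_zero {n : ℕ} (hn : Odd n) (hn3 : 3 ≤ n) (hnp : n + 2 ≤ p)
    (hB : ¬ (p : ℤ) ∣ (_root_.bernoulli (p - n)).num) {x y w : ℤ} (hxy : IsCoprime x y)
    (hs : ¬ (p : ℤ) ∣ x + y) (heq : x ^ p + y ^ p = (x + y) * w ^ p) :
    (p : ℤ) ∣ kummerForm n x y := by
  have hp : p.Prime := Fact.out
  have : NeZero p := ⟨hp.ne_zero⟩
  let K := CyclotomicField p ℚ
  have : IsCyclotomicExtension {p} ℚ K :=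
    inferInstanceAs (IsCyclotomicExtension {p} ℚ (CyclotomicField p ℚ))
  have : NumberField K := IsCyclotomicExtension.numberField {p} ℚ K
  have H := cycloRing_ringOfIntegers (K := K) (p := p) (by omega)
    (IsCyclotomicExtension.zeta_spec p ℚ K)
  change CycloRing (𝓞 K) p (FA.Ext.zetaInt p K) at H
  set z := FA.Ext.zetaInt p K with hz
  set F := (x : 𝓞 K) + z * y with hF
  obtain ⟨I, hI⟩ := span_factor_eq_pow (K := K) (i := 1) (by omega) hxy hs heq
    (Finset.mem_Ico.mpr ⟨le_rfl, hp.one_lt⟩)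
  rw [pow_one] at hI
  change Ideal.span {F} = I ^ p at hI
  have hF0 : F ≠ 0 := fun e => hs (H.int_dvd _ ⟨-(y : 𝓞 K), by
    push_cast
    linear_combination e⟩)
  have hI0 : I ≠ ⊥ := fun e => hF0 (by
    rw [e] at hI
    exact Ideal.span_singleton_eq_bot.mp (hI.trans (zero_pow hp.ne_zero)))
  let σ : (ZMod p)ˣ → (Ideal (𝓞 K))⁰ := fun d => ⟨I.map (FA.Ext.sigma p K d : 𝓞 K →+* 𝓞 K),
    mem_nonZeroDivisors_iff_ne_zero.mpr fun e => hI0 ((Ideal.map_eq_bot_iff_of_injective
      (FA.Ext.sigma p K d).injective).mp e)⟩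
  let I₀ : (Ideal (𝓞 K))⁰ := ⟨I, mem_nonZeroDivisors_iff_ne_zero.mpr hI0⟩
  set C₀ := ClassGroup.mk0 I₀
  have hCp : C₀ ^ p = 1 := by
    rw [← map_pow]
    exact (ClassGroup.mk0_eq_one_iff _).mpr ⟨⟨F, hI.symm⟩⟩
  have hproj : FA.Ext.weightProj p K n C₀ = 1 := by
    by_contra hne
    exact hB (FA.Ext.herbrand p K (by omega) hn (by omega) (by rw [← map_pow, hCp, map_one]) hne
      (weightProj_eigen p K n hCp)).2
  set b : (ZMod p)ˣ → ℕ := fun d => (((d⁻¹ : (ZMod p)ˣ) : ZMod p) ^ n).val with hb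
  set α := ∏ d, FA.Ext.sigma p K d F ^ b d with hα
  set J : (Ideal (𝓞 K))⁰ := ∏ d, σ d ^ b d with hJ
  have hspan : Ideal.span {α} = (J : Ideal (𝓞 K)) ^ p := by
    rw [hα, ← Ideal.prod_span_singleton, hJ, Submonoid.coe_finsetProd, ← Finset.prod_pow]
    refine Finset.prod_congr rfl fun d _ => ?_
    rw [← Ideal.span_singleton_pow, SubmonoidClass.coe_pow, ← pow_mul, mul_comm, pow_mul]
    congr 1
    show _ = (I.map (FA.Ext.sigma p K d : 𝓞 K →+* 𝓞 K)) ^ p
    rw [← Ideal.map_pow, ← hI, Ideal.map_span, Set.image_singleton]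
    rfl
  have hmk : ClassGroup.mk0 J = 1 := by
    rw [← hproj, hJ, map_prod]
    show _ = ∏ d : (ZMod p)ˣ, FA.Ext.sigmaCl p K d C₀ ^ b d
    exact Finset.prod_congr rfl fun d _ => by rw [map_pow, FA.Ext.sigmaCl_mk0 p K d I₀ (σ d) rfl]
  obtain ⟨j, e, he, hcongr⟩ := exists_conj_congr p K (by omega) hspan (by rw [hmk, map_one])
  -- as polynomials
  have hσF : ∀ d : (ZMod p)ˣ, FA.Ext.sigma p K d F = (x : 𝓞 K) + z ^ (d : ZMod p).val * y := fun d => by
    rw [hF, map_add, map_mul, map_intCast, map_intCast, FA.Ext.sigma_zetaInt]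
  set P : ℤ[X] := (∏ d : (ZMod p)ˣ, (C x + C y * X ^ (d : ZMod p).val) ^ (2 * b d)) -
    C e * (X ^ j * ∏ d : (ZMod p)ˣ, (C x + C y * X ^ ((-d : (ZMod p)ˣ) : ZMod p).val) ^ (2 * b d)) with hP
  have haev : aeval z P = α ^ 2 - (e : 𝓞 K) * z ^ j * FA.Ext.sigma p K (-1) α ^ 2 := by
    have h1 : α ^ 2 = ∏ d : (ZMod p)ˣ, ((x : 𝓞 K) + z ^ (d : ZMod p).val * y) ^ (2 * b d) := by
      rw [hα, ← Finset.prod_pow]
      exact Finset.prod_congr rfl fun d _ => by rw [hσF, ← pow_mul, mul_comm (b d)]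
    have h2 : FA.Ext.sigma p K (-1) α ^ 2 =
        ∏ d : (ZMod p)ˣ, ((x : 𝓞 K) + z ^ ((-d : (ZMod p)ˣ) : ZMod p).val * y) ^ (2 * b d) := by
      rw [hα, map_prod, ← Finset.prod_pow]
      exact Finset.prod_congr rfl fun d _ => by
        rw [map_pow, ← FA.Ext.sigma_mul_apply, neg_one_mul, hσF, ← pow_mul, mul_comm (b d)]
    rw [hP, h1, h2]
    simp only [map_sub, map_mul, map_prod, map_pow, map_add, aeval_C, aeval_X, algebraMap_int_eq,
      Int.coe_castRingHom, mul_comm (y : 𝓞 K), mul_assoc]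
  have hdvd := pow_dvd_map_of_dvd_aeval p K (haev ▸ hcongr)
  simp only [hP, Polynomial.map_sub, Polynomial.map_mul, Polynomial.map_prod, Polynomial.map_pow,
    Polynomial.map_add, Polynomial.map_C, Polynomial.map_X, Int.coe_castRingHom] at hdvd
  have hsum : ((x : ZMod p) + y) ≠ 0 := fun e' => hs ((ZMod.intCast_zmod_eq_zero_iff_dvd _ p).mp
    (by rw [Int.cast_add]; exact e'))
  have he' : (e : ZMod p) ≠ 0 := fun e' => he ((ZMod.intCast_zmod_eq_zero_iff_dvd _ p).mp e')
  obtain ⟨m, rfl⟩ : ∃ m, n = m + 2 := ⟨n - 2, by omega⟩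
  set L₀ := C (x : ZMod p) + C (y : ZMod p) * X with hL₀
  have hfac : ∀ a : ℕ, (C (x : ZMod p) + C (y : ZMod p) * X ^ a).eval 1 ≠ 0 := fun a => by simpa using hsum
  have hval : ∀ a : ℕ, logVal (m + 1) (C (x : ZMod p) + C (y : ZMod p) * X ^ a) =
      (a : ZMod p) ^ (m + 2) * logVal (m + 1) L₀ := fun a => by
    rw [← logVal_comp]; simp [hL₀]
  have hprod : ∀ f : (ZMod p)ˣ → ℕ, eval 1 (∏ d, (C (x : ZMod p) + C (y : ZMod p) * X ^ f d) ^ (2 * b d)) ≠ 0 :=
    fun f => by
      rw [eval_prod]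
      exact Finset.prod_ne_zero_iff.mpr fun d _ => by rw [eval_pow]; exact pow_ne_zero _ (hfac _)
  have key := logVal_congr (m + 1) (by omega) hdvd
  rw [logVal_mul _ (by simpa using he') (by rw [eval_mul]; exact mul_ne_zero (by simp) (hprod _)),
    logVal_mul _ (by simp) (hprod _),
    show logVal (m + 1) (C (e : ZMod p)) = 0 by rw [logVal, logNum_C, eval_zero, zero_div],
    show logVal (m + 1) (X ^ j : (ZMod p)[X]) = 0 by rw [logVal, logNum_X_pow, eval_zero, zero_div],
    logVal_prod_pow _ _ _ _ (fun d _ => hfac _), logVal_prod_pow _ _ _ _ (fun d _ => hfac _),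
    zero_add, zero_add] at key
  simp only [hval, ZMod.natCast_zmod_val, Nat.cast_mul, hb, Units.val_neg, hn.neg_pow] at key
  have hsum1 : (∑ d : (ZMod p)ˣ, (((d⁻¹ : (ZMod p)ˣ) : ZMod p)) ^ (m + 2) * (d : ZMod p) ^ (m + 2)) = -1 := by
    simp only [← mul_pow, Units.inv_mul, one_pow, Finset.sum_const, Finset.card_univ, ZMod.card_units p,
      nsmul_one, Nat.cast_sub hp.one_le, ZMod.natCast_self, Nat.cast_one, zero_sub]
  have h4 : (4 : ZMod p) * logVal (m + 1) L₀ = 0 := by
    have hs2 : ∑ d : (ZMod p)ˣ, ((2 : ℕ) : ZMod p) * (((d⁻¹ : (ZMod p)ˣ) : ZMod p)) ^ (m + 2) *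
        ((d : ZMod p) ^ (m + 2) * logVal (m + 1) L₀) = -2 * logVal (m + 1) L₀ := by
      rw [show (-2 : ZMod p) * logVal (m + 1) L₀ = ((2 : ℕ) : ZMod p) * (-1) * logVal (m + 1) L₀ by
        push_cast; ring, ← hsum1, Finset.mul_sum, Finset.sum_mul]
      exact Finset.sum_congr rfl fun d _ => by ring
    simp only [neg_mul, mul_neg, Finset.sum_neg_distrib, hs2] at key
    linear_combination -key
  have h0 := (mul_eq_zero.mp h4).resolve_left (by
    rw [show (4 : ZMod p) = 2 * 2 by norm_num]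
    exact mul_ne_zero (FA.Ext.two_ne_zero_of_five_le p (by omega)) (FA.Ext.two_ne_zero_of_five_le p (by omega)))
  rw [← ZMod.intCast_zmod_eq_zero_iff_dvd, kummerForm_cast, show m + 2 - 1 = m + 1 by omega]
  exact (div_eq_zero_iff.mp h0).resolve_right (pow_ne_zero _ (by simpa [hL₀] using hsum))

end FA.Regular
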