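import Fermat.Agent.Root.SummaryIrregularBelowHundred

/-!
# The irregular pairs between one hundred and `157`
-/

set_option autoImplicit false

namespace FA.OrderTheta

/-- The primes from `101` to `151` with a primitive root each. -/
def kummerTableHigh : List (ℕ × ℕ) :=
  [(101, 2), (103, 5), (107, 2), (109, 6), (113, 3), (127, 3), (131, 2), (137, 3), (139, 2), (149, 2),
    (151, 6)]

/-- The irregular pairs between one hundred and `157`. -/
def irregularPairsHigh : List (ℕ × ℕ) := [(101, 68), (103, 24), (131, 22), (149, 130)]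

theorem kummerTableHigh_check : ∀ t ∈ kummerTableHigh, t.2 % t.1 ≠ 0 ∧ ∀ j < (t.1 - 3) / 2,
    t.2 ^ (2 * j + 2) % t.1 ≠ 1 ∧
      ((∑ r ∈ Finset.range t.1, r ^ (2 * j + 1) * (t.2 * r / t.1)) % t.1 = 0 ↔
        (t.1, 2 * j + 2) ∈ irregularPairsHigh) := by
  unfold kummerTableHigh irregularPairsHigh
  decide +kernel

theorem kummerTableHigh_complete :
    ∀ q < 157, 100 ≤ q → q.Prime → ∃ t ∈ kummerTableHigh, t.1 = q := by
  unfold kummerTableHigh
  decide +kernel

/-- The irregular pairs between one hundred and `157`. -/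
theorem irregular_pairs_high (p k : ℕ) (hp : p.Prime) (hlo : 100 ≤ p) (hhi : p < 157) (hev : Even k)
    (hk : 2 ≤ k) (hkp : k ≤ p - 3) :
    (p : ℤ) ∣ (bernoulli k).num ↔ (p, k) ∈ [(101, 68), (103, 24), (131, 22), (149, 130)] := by
  have := Fact.mk hp
  obtain ⟨⟨q, g⟩, ht, rfl⟩ := kummerTableHigh_complete p hhi hlo hp
  obtain ⟨hg, hj⟩ := kummerTableHigh_check _ ht
  obtain ⟨j, rfl⟩ : ∃ j, k = 2 * j + 2 := ⟨k / 2 - 1, by rw [Nat.even_iff] at hev; omega⟩
  simp only at hg hj hlo hhi hkp ⊢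
  obtain ⟨h1, h2⟩ := hj j (by omega)
  rw [dvd_num_bernoulli_iff (by omega) hk hkp hev (a := g) (fun e => hg (by
      rwa [← Nat.dvd_iff_mod_eq_zero, ← ZMod.natCast_eq_zero_iff]))
    (fun e => h1 (by
      rw [← Nat.cast_pow, ← Nat.cast_one, ZMod.natCast_eq_natCast_iff'] at e
      rwa [Nat.one_mod_eq_one.mpr (by omega)] at e)),
    show 2 * j + 2 - 1 = 2 * j + 1 by omega, Nat.dvd_iff_mod_eq_zero]
  exact h2

end FA.OrderTheta
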