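import Fermat.Agent.Root.SummaryIrregularBelowHundred

/-!
# The irregular pairs between `157` and `233`

`157` is the only irregular prime here and has the two indices `62` and `110`.
-/

set_option autoImplicit false

namespace FA.OrderTheta

/-- The primes from `157` to `229` with a primitive root each. -/
def kummerTableNext : List (ℕ × ℕ) :=
  [(157, 5), (163, 2), (167, 5), (173, 2), (179, 2), (181, 2), (191, 19), (193, 5), (197, 2), (199, 3),
    (211, 2), (223, 3), (227, 2), (229, 6)]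

/-- The irregular pairs between `157` and `233`. -/
def irregularPairsNext : List (ℕ × ℕ) := [(157, 62), (157, 110)]

theorem kummerTableNext_check : ∀ t ∈ kummerTableNext, t.2 % t.1 ≠ 0 ∧ ∀ j < (t.1 - 3) / 2,
    t.2 ^ (2 * j + 2) % t.1 ≠ 1 ∧
      ((∑ r ∈ Finset.range t.1, r ^ (2 * j + 1) * (t.2 * r / t.1)) % t.1 = 0 ↔
        (t.1, 2 * j + 2) ∈ irregularPairsNext) := by
  unfold kummerTableNext irregularPairsNext
  decide +kernel

theorem kummerTableNext_complete :
    ∀ q < 233, 157 ≤ q → q.Prime → ∃ t ∈ kummerTableNext, t.1 = q := by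
  unfold kummerTableNext
  decide +kernel

/-- The irregular pairs between `157` and `233`. -/
theorem irregular_pairs_next (p k : ℕ) (hp : p.Prime) (hlo : 157 ≤ p) (hhi : p < 233) (hev : Even k)
    (hk : 2 ≤ k) (hkp : k ≤ p - 3) :
    (p : ℤ) ∣ (bernoulli k).num ↔ (p, k) ∈ [(157, 62), (157, 110)] := by
  have := Fact.mk hp
  obtain ⟨⟨q, g⟩, ht, rfl⟩ := kummerTableNext_complete p hhi hlo hp
  obtain ⟨hg, hj⟩ := kummerTableNext_check _ ht
  obtain ⟨j, rfl⟩ : ∃ j, k = 2 * j + 2 := ⟨k / 2 - 1, by rw [Nat.even_iff] at hev; omega⟩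
  simp only at hg hj hlo hhi hkp ⊢
  obtain ⟨h1, h2⟩ := hj j (by omega)
  rw [dvd_num_bernoulli_iff (by omega) hk hkp hev (a := g) (fun e => hg (by
      rwa [← Nat.dvd_iff_mod_eq_zero, ← ZMod.natCast_eq_zero_iff]))
    (fun e => h1 (by
      rw [← Nat.cast_pow, ← Nat.cast_one, ZMod.natCast_eq_natCast_iff'] at e
      rwa [Nat.one_mod_eq_one.mpr (by omega)] at e)),
    show 2 * j + 2 - 1 = 2 * j + 1 by omega, Nat.dvd_iff_mod_eq_zero]
  exact h2

end FA.OrderTheta
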