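import Fermat.Agent.ExtVanish.Herbrand

/-!
# Kummer's logarithmic derivatives

For a unit `u` of `ℚ(ζ_p)` written as `f(ζ)`, the `j`-th moment of `X f'(X) / f(X)` at `X = 1` modulo
`p` is well defined for `j + 3 ≤ p`.  It is multiplicative, `σ_d` multiplies it by `d^(j+1)`, and on
the cyclotomic unit `(ζ^a - 1)/(ζ - 1)` it is `a^j ∑ ⌊a r / p⌋ r^j`.
-/

set_option autoImplicit false

noncomputable section

open NumberField Polynomial
open scoped Classical

namespace FA.Regular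

variable (p : ℕ)

/-- The operator `X d/dX`. -/
def eulerOp : Module.End (ZMod p) (ZMod p)[X] :=
  LinearMap.mulLeft (ZMod p) X ∘ₗ derivative

theorem eulerOp_apply (f : (ZMod p)[X]) : eulerOp p f = X * derivative f := rfl

theorem eulerOp_X_pow (s : ℕ) : eulerOp p (X ^ s) = (s : (ZMod p)[X]) * X ^ s := by
  rw [eulerOp_apply, derivative_X_pow]
  rcases s with _ | s
  · simp
  · rw [Nat.add_sub_cancel, map_natCast, pow_succ]
    ring

theorem eulerOp_mul (f g : (ZMod p)[X]) :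
    eulerOp p (f * g) = eulerOp p f * g + f * eulerOp p g := by
  simp only [eulerOp_apply, derivative_mul]
  ring

theorem eulerOp_comp_X_pow (f : (ZMod p)[X]) (d : ℕ) :
    eulerOp p (f.comp (X ^ d)) = (d : (ZMod p)[X]) * (eulerOp p f).comp (X ^ d) := by
  simp only [eulerOp_apply, derivative_comp, mul_comp, X_comp]
  rw [← mul_assoc, ← eulerOp_apply, eulerOp_X_pow]
  ring

theorem pow_dvd_eulerOp {n : ℕ} {f : (ZMod p)[X]} (h : (X - 1) ^ (n + 1) ∣ f) :
    (X - 1) ^ n ∣ eulerOp p f := by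
  obtain ⟨g, rfl⟩ := h
  rw [eulerOp_mul, eulerOp_apply, derivative_pow, derivative_sub, derivative_X, derivative_one,
    sub_zero, mul_one, Nat.add_sub_cancel, pow_succ]
  exact ⟨X * C ((n + 1 : ℕ) : ZMod p) * g + (X - 1) * eulerOp p g, by ring⟩

/-- The moment `∑ c_s X^s ↦ ∑ c_s s^j`. -/
def momentAt (j : ℕ) : (ZMod p)[X] →ₗ[ZMod p] ZMod p :=
  (aeval (1 : ZMod p)).toLinearMap ∘ₗ eulerOp p ^ j

theorem momentAt_zero (f : (ZMod p)[X]) : momentAt p 0 f = f.eval 1 := by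
  simp [momentAt, coe_aeval_eq_eval]

theorem momentAt_succ (j : ℕ) (f : (ZMod p)[X]) :
    momentAt p (j + 1) f = momentAt p j (eulerOp p f) := by
  simp [momentAt, pow_succ, Module.End.mul_apply]

theorem momentAt_natCast_mul (j n : ℕ) (f : (ZMod p)[X]) :
    momentAt p j ((n : (ZMod p)[X]) * f) = (n : ZMod p) * momentAt p j f := by
  rw [← nsmul_eq_mul, map_nsmul, nsmul_eq_mul]

theorem momentAt_X_pow (j s : ℕ) : momentAt p j (X ^ s) = (s : ZMod p) ^ j := by
  induction j with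
  | zero => simp [momentAt_zero]
  | succ j ih => rw [momentAt_succ, eulerOp_X_pow, momentAt_natCast_mul, ih, pow_succ, mul_comm]

theorem momentAt_one (j : ℕ) : momentAt p (j + 1) 1 = 0 := by
  rw [momentAt_succ, ← pow_zero X, eulerOp_X_pow]
  simp

theorem momentAt_eq_zero_of_dvd (j : ℕ) : ∀ {f : (ZMod p)[X]}, (X - 1) ^ (j + 1) ∣ f →
    momentAt p j f = 0 := by
  induction j with
  | zero =>
    rintro f ⟨g, rfl⟩
    simp [momentAt_zero]
  | succ j ih =>
    intro f h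
    rw [momentAt_succ]
    exact ih (pow_dvd_eulerOp p h)

theorem momentAt_comp_X_pow (d j : ℕ) : ∀ f : (ZMod p)[X],
    momentAt p j (f.comp (X ^ d)) = (d : ZMod p) ^ j * momentAt p j f := by
  induction j with
  | zero => intro f; simp [momentAt_zero, eval_comp]
  | succ j ih =>
    intro f
    rw [momentAt_succ, momentAt_succ, eulerOp_comp_X_pow, momentAt_natCast_mul, ih, pow_succ]
    ring

variable [Fact p.Prime] (K : Type*) [Field K] [NumberField K] [IsCyclotomicExtension {p} ℚ K]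

/-- The ideal `((X - 1)^(p-1))`, the image of the `p`-th cyclotomic polynomial. -/
def truncIdeal : Ideal (ZMod p)[X] := Ideal.span {(X - 1) ^ (p - 1)}

theorem aeval_minpoly_trunc :
    aeval (Ideal.Quotient.mk (truncIdeal p) X)
      (minpoly ℤ (IsCyclotomicExtension.zeta_spec p ℚ K).integralPowerBasis.gen) = 0 := by
  have hp : p.Prime := Fact.out
  rw [IsPrimitiveRoot.integralPowerBasis_gen, ← RingOfIntegers.minpoly_coe,
    show ((IsCyclotomicExtension.zeta_spec p ℚ K).toInteger : K) =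
      IsCyclotomicExtension.zeta p ℚ K from rfl,
    ← cyclotomic_eq_minpoly (IsCyclotomicExtension.zeta_spec p ℚ K) hp.pos]
  have h : aeval (X : (ZMod p)[X]) (cyclotomic p ℤ) = (X - 1) ^ (p - 1) := by
    have h1 := cyclotomic_mul_prime_pow_eq (ZMod p) (p := p) (m := 1) (k := 1) hp.not_dvd_one one_pos
    rw [pow_one, mul_one, Nat.sub_self, pow_zero, cyclotomic_one] at h1
    rw [← h1, ← map_cyclotomic_int p (ZMod p), aeval_def, ← eval_map,
      show algebraMap ℤ (ZMod p)[X] = C.comp (Int.castRingHom (ZMod p)) from RingHom.ext_int _ _,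
      ← Polynomial.map_map, eval_map, eval₂_C_X]
  rw [show Ideal.Quotient.mk (truncIdeal p) X =
      (Ideal.Quotient.mk (truncIdeal p)).toIntAlgHom X from rfl, aeval_algHom_apply, h]
  exact Ideal.Quotient.eq_zero_iff_mem.mpr (Ideal.mem_span_singleton_self _)

/-- Reduction modulo `p`: `ζ ↦ X`. -/
def redHom : 𝓞 K →+* (ZMod p)[X] ⧸ truncIdeal p :=
  ((IsCyclotomicExtension.zeta_spec p ℚ K).integralPowerBasis.lift
    (Ideal.Quotient.mk (truncIdeal p) X) (aeval_minpoly_trunc p K)).toRingHom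

theorem redHom_zetaInt :
    redHom p K (FA.Ext.zetaInt p K) = Ideal.Quotient.mk (truncIdeal p) X := by
  have h := (IsCyclotomicExtension.zeta_spec p ℚ K).integralPowerBasis.lift_gen
    (Ideal.Quotient.mk (truncIdeal p) X) (aeval_minpoly_trunc p K)
  rwa [show (IsCyclotomicExtension.zeta_spec p ℚ K).integralPowerBasis.gen = FA.Ext.zetaInt p K from
    IsPrimitiveRoot.integralPowerBasis_gen _] at h

theorem redHom_aeval (g : ℤ[X]) :
    redHom p K (aeval (FA.Ext.zetaInt p K) g) =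
      Ideal.Quotient.mk (truncIdeal p) (g.map (Int.castRingHom (ZMod p))) := by
  induction g using Polynomial.induction_on' with
  | add a b ha hb => simp only [map_add, ha, hb, Polynomial.map_add]
  | monomial n a => simp [← C_mul_X_pow_eq_monomial, redHom_zetaInt]

theorem comp_X_pow_mem {f : (ZMod p)[X]} (hf : f ∈ truncIdeal p) (d : ℕ) :
    f.comp (X ^ d) ∈ truncIdeal p := by
  obtain ⟨g, rfl⟩ := Ideal.mem_span_singleton.mp hf
  refine Ideal.mem_span_singleton.mpr ?_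
  rw [mul_comp, pow_comp, sub_comp, X_comp, one_comp]
  exact Dvd.dvd.mul_right (pow_dvd_pow_of_dvd (sub_one_dvd_pow_sub_one X d) _) _

theorem redHom_sigma (d : (ZMod p)ˣ) {x : 𝓞 K} {f : (ZMod p)[X]}
    (hf : Ideal.Quotient.mk (truncIdeal p) f = redHom p K x) :
    redHom p K (FA.Ext.sigma p K d x) =
      Ideal.Quotient.mk (truncIdeal p) (f.comp (X ^ (d : ZMod p).val)) := by
  obtain ⟨g, hg⟩ := (IsCyclotomicExtension.zeta_spec p ℚ K).integralPowerBasis.exists_eq_aeval' x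
  rw [show (IsCyclotomicExtension.zeta_spec p ℚ K).integralPowerBasis.gen = FA.Ext.zetaInt p K from
    IsPrimitiveRoot.integralPowerBasis_gen _] at hg
  have h1 : FA.Ext.sigma p K d x =
      aeval (FA.Ext.zetaInt p K) (g.comp (X ^ (d : ZMod p).val)) := by
    rw [hg, aeval_comp, map_pow, aeval_X, ← FA.Ext.sigma_zetaInt]
    exact (aeval_algHom_apply (FA.Ext.sigma p K d).toRingHom.toIntAlgHom _ g).symm
  rw [h1, redHom_aeval, Polynomial.map_comp, Polynomial.map_pow, map_X]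
  refine Ideal.Quotient.eq.mpr ?_
  rw [← sub_comp]
  refine comp_X_pow_mem p (Ideal.Quotient.eq.mp ?_) _
  rw [hf, hg, redHom_aeval]

/-- A representative of the reduction. -/
def repPoly (x : 𝓞 K) : (ZMod p)[X] :=
  Function.surjInv Ideal.Quotient.mk_surjective (redHom p K x)

theorem mk_repPoly (x : 𝓞 K) : Ideal.Quotient.mk (truncIdeal p) (repPoly p K x) = redHom p K x :=
  Function.surjInv_eq Ideal.Quotient.mk_surjective _

/-- Kummer's logarithmic derivative of weight `j + 1`. -/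
def logDer (j : ℕ) (u : (𝓞 K)ˣ) : ZMod p :=
  momentAt p j (eulerOp p (repPoly p K (u : 𝓞 K)) * repPoly p K ((u⁻¹ : (𝓞 K)ˣ) : 𝓞 K))

theorem momentAt_congr {j : ℕ} (hj : j + 2 ≤ p) {f g : (ZMod p)[X]}
    (h : Ideal.Quotient.mk (truncIdeal p) f = Ideal.Quotient.mk (truncIdeal p) g) :
    momentAt p j f = momentAt p j g := by
  rw [← sub_eq_zero, ← map_sub]
  exact momentAt_eq_zero_of_dvd p j
    ((pow_dvd_pow _ (by omega)).trans (Ideal.mem_span_singleton.mp (Ideal.Quotient.eq.mp h)))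

theorem logDer_eq {j : ℕ} (hj : j + 3 ≤ p) (u : (𝓞 K)ˣ) {f g : (ZMod p)[X]}
    (hf : Ideal.Quotient.mk (truncIdeal p) f = redHom p K (u : 𝓞 K))
    (hg : Ideal.Quotient.mk (truncIdeal p) g = redHom p K ((u⁻¹ : (𝓞 K)ˣ) : 𝓞 K)) :
    logDer p K j u = momentAt p j (eulerOp p f * g) := by
  rw [logDer, ← sub_eq_zero, ← map_sub]
  refine momentAt_eq_zero_of_dvd p j ((pow_dvd_pow _ (show j + 1 ≤ p - 2 by omega)).trans ?_)
  rw [show eulerOp p (repPoly p K (u : 𝓞 K)) * repPoly p K ((u⁻¹ : (𝓞 K)ˣ) : 𝓞 K) - eulerOp p f * g =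
    eulerOp p (repPoly p K (u : 𝓞 K) - f) * repPoly p K ((u⁻¹ : (𝓞 K)ˣ) : 𝓞 K) +
      eulerOp p f * (repPoly p K ((u⁻¹ : (𝓞 K)ˣ) : 𝓞 K) - g) by rw [map_sub]; ring]
  refine dvd_add (Dvd.dvd.mul_right (pow_dvd_eulerOp p ?_) _) (Dvd.dvd.mul_left ?_ _)
  · rw [show p - 2 + 1 = p - 1 by omega]
    exact Ideal.mem_span_singleton.mp (Ideal.Quotient.eq.mp ((mk_repPoly p K _).trans hf.symm))
  · exact (pow_dvd_pow _ (by omega)).trans
      (Ideal.mem_span_singleton.mp (Ideal.Quotient.eq.mp ((mk_repPoly p K _).trans hg.symm)))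

theorem logDer_mul {j : ℕ} (hj : j + 3 ≤ p) (u v : (𝓞 K)ˣ) :
    logDer p K j (u * v) = logDer p K j u + logDer p K j v := by
  rw [logDer_eq p K hj (u * v) (f := repPoly p K (u : 𝓞 K) * repPoly p K (v : 𝓞 K))
    (g := repPoly p K ((u⁻¹ : (𝓞 K)ˣ) : 𝓞 K) * repPoly p K ((v⁻¹ : (𝓞 K)ˣ) : 𝓞 K))
    (by simp only [map_mul, mk_repPoly, Units.val_mul])
    (by simp only [map_mul, mk_repPoly, mul_inv_rev, Units.val_mul, mul_comm])]
  rw [logDer, logDer, ← map_add]
  refine momentAt_congr p (by omega) ?_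
  rw [eulerOp_mul]
  have hu : redHom p K (u : 𝓞 K) * redHom p K ((u⁻¹ : (𝓞 K)ˣ) : 𝓞 K) = 1 := by
    rw [← map_mul, Units.mul_inv, map_one]
  have hv : redHom p K (v : 𝓞 K) * redHom p K ((v⁻¹ : (𝓞 K)ˣ) : 𝓞 K) = 1 := by
    rw [← map_mul, Units.mul_inv, map_one]
  simp only [map_add, map_mul, mk_repPoly]
  linear_combination
    (Ideal.Quotient.mk (truncIdeal p) (eulerOp p (repPoly p K (u : 𝓞 K))) *
      redHom p K ((u⁻¹ : (𝓞 K)ˣ) : 𝓞 K)) * hv +
    (Ideal.Quotient.mk (truncIdeal p) (eulerOp p (repPoly p K (v : 𝓞 K))) *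
      redHom p K ((v⁻¹ : (𝓞 K)ˣ) : 𝓞 K)) * hu

/-- `logDer` as a homomorphism. -/
def logDerHom (j : ℕ) (hj : j + 3 ≤ p) : (𝓞 K)ˣ →* Multiplicative (ZMod p) :=
  MonoidHom.mk' (fun u => Multiplicative.ofAdd (logDer p K j u))
    fun u v => by rw [logDer_mul p K hj, ofAdd_add]

theorem toAdd_logDerHom {j : ℕ} (hj : j + 3 ≤ p) (u : (𝓞 K)ˣ) :
    Multiplicative.toAdd (logDerHom p K j hj u) = logDer p K j u := rfl

theorem logDer_sigmaU {j : ℕ} (hj : j + 3 ≤ p) (d : (ZMod p)ˣ) (u : (𝓞 K)ˣ) :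
    logDer p K j (FA.Ext.sigmaU p K d u) = (d : ZMod p) ^ (j + 1) * logDer p K j u := by
  rw [logDer_eq p K hj (FA.Ext.sigmaU p K d u)
    (f := (repPoly p K (u : 𝓞 K)).comp (X ^ (d : ZMod p).val))
    (g := (repPoly p K ((u⁻¹ : (𝓞 K)ˣ) : 𝓞 K)).comp (X ^ (d : ZMod p).val))
    (redHom_sigma p K d (mk_repPoly p K _)).symm
    (by rw [← map_inv]; exact (redHom_sigma p K d (mk_repPoly p K _)).symm),
    eulerOp_comp_X_pow, mul_assoc, ← mul_comp, momentAt_natCast_mul, momentAt_comp_X_pow,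
    ZMod.natCast_zmod_val, logDer, pow_succ']
  ring

theorem logDer_torsion {j : ℕ} (hj : j + 4 ≤ p) {t : (𝓞 K)ˣ}
    (ht : t ∈ NumberField.Units.torsion K) : logDer p K (j + 1) t = 0 := by
  have hp : p.Prime := Fact.out
  obtain ⟨r, hr⟩ := FA.Ext.torsion_eq_neg_zeta_pow K p (by omega) ht
  rw [logDer_eq p K (show j + 1 + 3 ≤ p by omega) t (f := (-X) ^ r)
    (g := repPoly p K ((t⁻¹ : (𝓞 K)ˣ) : 𝓞 K))
    (by rw [hr, map_pow, map_neg, map_pow, map_neg, redHom_zetaInt]) (mk_repPoly p K _)]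
  have he : eulerOp p ((-X) ^ r) = (r : (ZMod p)[X]) * (-X) ^ r := by
    rw [neg_pow, eulerOp_mul, eulerOp_X_pow,
      show ((-1 : (ZMod p)[X]) ^ r) = C ((-1) ^ r) by simp, eulerOp_apply, derivative_C]
    ring
  rw [momentAt_congr p (show j + 1 + 2 ≤ p by omega) (g := (r : (ZMod p)[X])), ← mul_one
    ((r : (ZMod p)[X])), momentAt_natCast_mul, momentAt_one, mul_zero]
  rw [he, map_mul, map_mul, mk_repPoly, map_pow, map_neg, ← redHom_zetaInt p K, ← map_neg,
    ← map_pow, ← hr, mul_assoc, ← map_mul, Units.mul_inv, map_one, mul_one]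

theorem logDer_eq_zero_of_congr_int {j : ℕ} (hj : j + 3 ≤ p) (u : (𝓞 K)ˣ) {n : ℤ}
    (h : (p : 𝓞 K) ∣ (u : 𝓞 K) - (n : 𝓞 K)) : logDer p K j u = 0 := by
  obtain ⟨c, hc⟩ := h
  have hp0 : ((p : ℕ) : (ZMod p)[X] ⧸ truncIdeal p) = 0 := by
    rw [← map_natCast (Ideal.Quotient.mk (truncIdeal p)),
      ← map_natCast (C : ZMod p →+* (ZMod p)[X]), ZMod.natCast_self, map_zero, map_zero]
  rw [logDer_eq p K hj u (f := C (n : ZMod p)) (g := repPoly p K ((u⁻¹ : (𝓞 K)ˣ) : 𝓞 K))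
    (by rw [eq_add_of_sub_eq' hc, map_add, map_mul, map_natCast, hp0, zero_mul, add_zero, map_intCast,
      map_intCast, map_intCast]) (mk_repPoly p K _),
    eulerOp_apply, derivative_C, mul_zero, zero_mul, map_zero]

/-! ### The cyclotomic units -/

theorem isUnit_cycU {a : ℕ} (ha : (a : ZMod p) ≠ 0) :
    IsUnit (∑ k ∈ Finset.range a, FA.Ext.zetaInt p K ^ k) := by
  have hp : p.Prime := Fact.out
  exact (FA.Ext.zetaInt_spec p K).geom_sum_isUnit hp.two_le
    ((Nat.Prime.coprime_iff_not_dvd hp).mpr fun h => ha ((ZMod.natCast_eq_zero_iff a p).mpr h)).symm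

/-- The unit `(ζ^a - 1)/(ζ - 1)`. -/
def cycU {a : ℕ} (ha : (a : ZMod p) ≠ 0) : (𝓞 K)ˣ := (isUnit_cycU p K ha).unit

theorem natCast_mul_geomSum {R : Type*} [CommRing R] (z : R) (a : ℕ) :
    (∑ k ∈ Finset.range a, (k : R) * z ^ k) * (z - 1) + (∑ k ∈ Finset.range a, z ^ k) * z =
      (a : R) * z ^ a := by
  induction a with
  | zero => simp
  | succ a ih =>
    rw [Finset.sum_range_succ, Finset.sum_range_succ]
    push_cast
    linear_combination ih

theorem sum_range_mul_pow_mul_sub_one {R : Type*} [CommRing R] {w : R} {n : ℕ}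
    (hw : w ^ n = 1) (hsum : ∑ r ∈ Finset.range n, w ^ r = 0) :
    (∑ r ∈ Finset.range n, (r : R) * w ^ r) * (w - 1) = (n : R) := by
  have h := natCast_mul_geomSum w n
  rwa [hsum, zero_mul, add_zero, hw, mul_one] at h

/-- The key identity for the logarithmic derivative of a cyclotomic unit. -/
theorem sum_natCast_mul_pow_eq {a : ℕ} (ha : (a : ZMod p) ≠ 0) :
    (∑ k ∈ Finset.range a, (k : 𝓞 K) * FA.Ext.zetaInt p K ^ k) =
      (∑ k ∈ Finset.range a, FA.Ext.zetaInt p K ^ k) * (((a : 𝓞 K) - 1) +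
        ∑ r ∈ Finset.range p, ((a * r / p : ℕ) : 𝓞 K) * FA.Ext.zetaInt p K ^ (a * r)) := by
  have hp : p.Prime := Fact.out
  set z := FA.Ext.zetaInt p K
  have hz := FA.Ext.zetaInt_spec p K
  have hza : IsPrimitiveRoot (z ^ a) p := hz.pow_of_coprime a
    ((Nat.Prime.coprime_iff_not_dvd hp).mpr fun h => ha ((ZMod.natCast_eq_zero_iff a p).mpr h)).symm
  have hz1 : z - 1 ≠ 0 := sub_ne_zero.mpr (hz.ne_one hp.one_lt)
  set u := ∑ k ∈ Finset.range a, z ^ k
  set J := ∑ r ∈ Finset.range p, ((a * r / p : ℕ) : 𝓞 K) * z ^ (a * r)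
  have hu : u * (z - 1) = z ^ a - 1 := geom_sum_mul z a
  set S1 := ∑ r ∈ Finset.range p, (r : 𝓞 K) * z ^ r
  set Sa := ∑ r ∈ Finset.range p, (r : 𝓞 K) * (z ^ a) ^ r
  have hS1 : S1 * (z - 1) = p :=
    sum_range_mul_pow_mul_sub_one hz.pow_eq_one (hz.geom_sum_eq_zero hp.one_lt)
  have hSa : Sa * (z ^ a - 1) = p :=
    sum_range_mul_pow_mul_sub_one hza.pow_eq_one (hza.geom_sum_eq_zero hp.one_lt)
  have hperm : ∑ r ∈ Finset.range p, ((a * r % p : ℕ) : 𝓞 K) * z ^ (a * r) = S1 := by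
    refine Finset.sum_nbij (fun r => a * r % p)
      (fun r _ => Finset.mem_range.mpr (Nat.mod_lt _ hp.pos)) ?_ ?_ fun r _ => ?_
    · intro r hr s hs h
      have h' : ((a * r : ℕ) : ZMod p) = (a * s : ℕ) := (ZMod.natCast_eq_natCast_iff' _ _ _).mpr h
      push_cast at h'
      have h'' := (ZMod.natCast_eq_natCast_iff' r s p).mp (mul_left_cancel₀ ha h')
      rwa [Nat.mod_eq_of_lt (Finset.mem_range.mp hr), Nat.mod_eq_of_lt (Finset.mem_range.mp hs)] at h''
    · intro s hs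
      refine ⟨((s : ZMod p) * (a : ZMod p)⁻¹).val,
        Finset.mem_coe.mpr (Finset.mem_range.mpr (ZMod.val_lt _)), ?_⟩
      have hs' : s < p := Finset.mem_range.mp hs
      simp only
      rw [← ZMod.val_natCast p, Nat.cast_mul, ZMod.natCast_zmod_val, mul_comm (s : ZMod p),
        ← mul_assoc, mul_inv_cancel₀ ha, one_mul, ZMod.val_cast_of_lt hs']
    · rw [← pow_eq_pow_mod _ hz.pow_eq_one]
  have hpJ : (p : 𝓞 K) * J = (a : 𝓞 K) * Sa - S1 := by
    rw [← hperm, eq_sub_iff_add_eq, Finset.mul_sum, Finset.mul_sum, ← Finset.sum_add_distrib]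
    refine Finset.sum_congr rfl fun r _ => ?_
    rw [← mul_assoc, ← add_mul, ← Nat.cast_mul, ← Nat.cast_add, Nat.div_add_mod, Nat.cast_mul,
      ← pow_mul, mul_assoc]
  have hJ : J * (z ^ a - 1) = (a : 𝓞 K) - u := by
    refine mul_left_cancel₀ (Nat.cast_ne_zero.mpr hp.ne_zero : (p : 𝓞 K) ≠ 0) ?_
    linear_combination (z ^ a - 1) * hpJ + (a : 𝓞 K) * hSa - u * hS1 + S1 * hu
  refine mul_right_cancel₀ hz1 ?_
  linear_combination natCast_mul_geomSum z a - hJ - ((a : 𝓞 K) - 1 + J) * hu + (-1 : 𝓞 K) * hu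

theorem logDer_cycU {a : ℕ} (ha : (a : ZMod p) ≠ 0) {j : ℕ} (hj : j + 4 ≤ p) :
    logDer p K (j + 1) (cycU p K ha) = (a : ZMod p) ^ (j + 1) *
      ∑ r ∈ Finset.range p, ((r ^ (j + 1) * (a * r / p) : ℕ) : ZMod p) := by
  set u := cycU p K ha
  rw [logDer_eq p K (show j + 1 + 3 ≤ p by omega) u (f := ∑ k ∈ Finset.range a, X ^ k)
    (g := repPoly p K ((u⁻¹ : (𝓞 K)ˣ) : 𝓞 K))
    (by simp [u, cycU, redHom_zetaInt]) (mk_repPoly p K _)]
  rw [momentAt_congr p (show j + 1 + 2 ≤ p by omega) (g := C ((a : ZMod p) - 1) +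
    ∑ r ∈ Finset.range p, ((a * r / p : ℕ) : (ZMod p)[X]) * X ^ (a * r))]
  · simp only [map_add, map_sum, momentAt_natCast_mul, momentAt_X_pow]
    rw [show (C ((a : ZMod p) - 1)) = ((a : ZMod p) - 1) • (1 : (ZMod p)[X]) by
      rw [Algebra.smul_def, mul_one]; rfl, map_smul, momentAt_one, smul_zero, zero_add,
      Finset.mul_sum]
    refine Finset.sum_congr rfl fun r _ => ?_
    push_cast
    ring
  · have h := congrArg (redHom p K) (congrArg (· * ((u⁻¹ : (𝓞 K)ˣ) : 𝓞 K))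
      (sum_natCast_mul_pow_eq p K ha))
    rw [show (∑ k ∈ Finset.range a, FA.Ext.zetaInt p K ^ k) = (u : 𝓞 K) from rfl,
      mul_right_comm, Units.mul_inv, one_mul] at h
    simp only [map_add, map_sub, map_mul, map_sum, map_pow, map_natCast, map_one, redHom_zetaInt,
      eulerOp_X_pow, mk_repPoly] at h ⊢
    exact h

end FA.Regular
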