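import Mathlib

/-!
An abstract setting for arithmetic in `ℤ[ζ_p]`: a domain with a primitive `p`-th root of unity `ζ`
such that `ζ - 1` is a prime whose residue ring is the prime field, and `(ζ - 1) ^ (p - 1) ~ p`.
-/

set_option autoImplicit false
set_option linter.unusedSectionVars false
set_option linter.unusedVariables false

namespace FA.Regular

open Finset

/-- The data needed to run Kummer's argument in a ring. -/
structure CycloRing (R : Type*) [CommRing R] (p : ℕ) (ζ : R) : Prop where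
  prim : IsPrimitiveRoot ζ p
  lam_prime : Prime (ζ - 1)
  assoc : Associated ((ζ - 1) ^ (p - 1)) (p : R)
  residue : ∀ x : R, ∃ n : ℤ, ζ - 1 ∣ x - (n : R)
  int_dvd : ∀ n : ℤ, ζ - 1 ∣ (n : R) → (p : ℤ) ∣ n

/-- A ring has Kummer's property at `p` if every unit congruent to an integer modulo `p` is a
`p`-th power. -/
def KummerProp (R : Type*) [CommRing R] (p : ℕ) : Prop :=
  ∀ u : Rˣ, (∃ n : ℤ, (p : R) ∣ (u : R) - (n : R)) → ∃ v : Rˣ, v ^ p = u

variable {R : Type*} [CommRing R] [IsDomain R] {p : ℕ} [hp : Fact p.Prime] {ζ : R}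

namespace CycloRing

omit [IsDomain R] in
theorem lam_dvd_prime (H : CycloRing R p ζ) : (ζ - 1) ^ (p - 1) ∣ (p : R) := H.assoc.dvd

theorem lam_dvd_prime_one (H : CycloRing R p ζ) : ζ - 1 ∣ (p : R) :=
  (dvd_pow_self _ (by have := hp.out.two_le; omega)).trans H.assoc.dvd

omit [IsDomain R] in
theorem prime_dvd_of_int (H : CycloRing R p ζ) {n : ℤ} (h : ζ - 1 ∣ (n : R)) :
    (p : R) ∣ (n : R) := by
  obtain ⟨k, rfl⟩ := H.int_dvd n h
  exact ⟨(k : R), by push_cast; ring⟩

omit [IsDomain R] hp in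
theorem lam_not_dvd_unit (H : CycloRing R p ζ) (u : Rˣ) : ¬ ζ - 1 ∣ (u : R) := fun h =>
  H.lam_prime.not_isUnit (isUnit_of_dvd_unit h u.isUnit)

/-- The `p`-th power of any element is congruent to an integer modulo `p`. -/
theorem pow_prime_int (H : CycloRing R p ζ) (x : R) :
    ∃ n : ℤ, (p : R) ∣ x ^ p - (n : R) := by
  obtain ⟨n, w, hw⟩ := H.residue x
  refine ⟨n ^ p, ?_⟩
  obtain ⟨r, hr⟩ := exists_add_pow_prime_eq hp.out (n : R) ((ζ - 1) * w)
  have hx : x = (n : R) + (ζ - 1) * w := by rw [← hw]; ring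
  have h1 : (p : R) ∣ ((ζ - 1) * w) ^ p := by
    rw [mul_pow]
    exact (H.assoc.symm.dvd.trans (pow_dvd_pow _ (Nat.sub_le _ _))).trans (dvd_mul_right _ _)
  obtain ⟨s, hs⟩ := h1
  refine ⟨s + (n : R) * ((ζ - 1) * w) * r, ?_⟩
  rw [hx, hr, hs]
  push_cast
  ring

theorem geom_sum_congr (H : CycloRing R p ζ) (i : ℕ) :
    ζ - 1 ∣ (∑ k ∈ range i, ζ ^ k) - (i : R) := by
  induction i with
  | zero => simp
  | succ i ih =>
    have h : ζ - 1 ∣ ζ ^ i - 1 := sub_one_dvd_pow_sub_one ζ i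
    have := dvd_add ih h
    convert this using 1
    rw [Finset.sum_range_succ]; push_cast; ring

theorem geom_sum_sub_isUnit (H : CycloRing R p ζ) {i j : ℕ} (hi : i < p) (hj : j < p)
    (hij : i ≠ j) : IsUnit ((∑ k ∈ range i, ζ ^ k) - ∑ k ∈ range j, ζ ^ k) := by
  wlog h : j < i generalizing i j
  · have := this hj hi hij.symm (by omega)
    simpa using this.neg
  obtain ⟨k, rfl⟩ := Nat.exists_eq_add_of_le h.le
  rw [Finset.sum_range_add, add_sub_cancel_left]
  simp_rw [pow_add, ← Finset.mul_sum]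
  refine IsUnit.mul ((H.prim.isUnit hp.out.ne_zero).pow _) ?_
  exact H.prim.geom_sum_isUnit hp.out.two_le
    ((hp.out.coprime_iff_not_dvd.2 (Nat.not_dvd_of_pos_of_lt (by omega) (by omega))).symm)

end CycloRing

end FA.Regular
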