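import Mathlib

/-!
# Terjanian's lemma

For odd squares `a`, `b`, coprime, and `Q_n = ∑_{i<n} a^i b^(n-1-i)`, the Jacobi symbol `(Q_m / Q_n)` is
`(m / n)` for coprime odd `m`, `n`.  So `Q_p` is no square for an odd prime `p`, and `x^(2p) + y^(2p) = z^(2p)`
with `x` even forces `p ∣ x`.
-/

set_option autoImplicit false

namespace FA.Regular

open scoped NumberTheorySymbols

/-- `(a^n - b^n) / (a - b)`. -/
def terjQ (a b n : ℕ) : ℕ := ∑ i ∈ Finset.range n, a ^ i * b ^ (n - 1 - i)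

theorem terjQ_add (a b r m : ℕ) : terjQ a b (r + m) = a ^ r * terjQ a b m + b ^ m * terjQ a b r := by
  rw [terjQ, terjQ, terjQ, Finset.sum_range_add, Finset.mul_sum, Finset.mul_sum, add_comm]
  congr 1
  · exact Finset.sum_congr rfl fun i _ => by
      rw [show r + m - 1 - (r + i) = m - 1 - i by omega, pow_add, mul_assoc]
  · refine Finset.sum_congr rfl fun i hi => ?_
    rw [Finset.mem_range] at hi
    rw [show r + m - 1 - i = m + (r - 1 - i) by omega, pow_add]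
    ring

theorem terjQ_dvd_mul (a b n : ℕ) : ∀ k, terjQ a b n ∣ terjQ a b (k * n)
  | 0 => by simp [terjQ]
  | k + 1 => by
    rw [Nat.succ_mul, terjQ_add]
    exact dvd_add (dvd_mul_left _ _) ((terjQ_dvd_mul a b n k).mul_left _)

theorem terjQ_pos {a : ℕ} (b : ℕ) (ha : 0 < a) {n : ℕ} (hn : 0 < n) : 0 < terjQ a b n := by
  obtain ⟨k, rfl⟩ : ∃ k, n = k + 1 := ⟨n - 1, by omega⟩
  rw [terjQ, Finset.sum_range_succ, Nat.add_sub_cancel, Nat.sub_self, pow_zero, mul_one]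
  exact Nat.lt_of_lt_of_le (pow_pos ha k) (Nat.le_add_left _ _)

theorem terjQ_mod_four {a b : ℕ} (ha : a % 4 = 1) (hb : b % 4 = 1) (n : ℕ) :
    terjQ a b n % 4 = n % 4 := by
  have h : ((terjQ a b n : ℕ) : ZMod 4) = (n : ZMod 4) := by
    rw [← Nat.div_add_mod a 4, ← Nat.div_add_mod b 4, ha, hb, terjQ]
    push_cast [show ((4 : ℕ) : ZMod 4) = 0 from rfl]
    simp [show (4 : ZMod 4) = 0 from rfl]
  exact (ZMod.natCast_eq_natCast_iff' _ _ _).mp h

theorem terjQ_coprime_left {a b : ℕ} (hab : a.Coprime b) {n : ℕ} (hn : 0 < n) :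
    a.Coprime (terjQ a b n) := by
  obtain ⟨k, rfl⟩ : ∃ k, n = 1 + k := ⟨n - 1, by omega⟩
  rw [terjQ_add, show terjQ a b 1 = 1 by simp [terjQ], pow_one, mul_one, Nat.coprime_mul_left_add_right]
  exact hab.pow_right k

theorem terjQ_coprime_right {a b : ℕ} (hab : a.Coprime b) {n : ℕ} (hn : 0 < n) :
    b.Coprime (terjQ a b n) := by
  obtain ⟨k, rfl⟩ : ∃ k, n = k + 1 := ⟨n - 1, by omega⟩
  rw [terjQ_add, show terjQ a b 1 = 1 by simp [terjQ], pow_one, mul_one, Nat.add_comm,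
    Nat.coprime_mul_left_add_right]
  exact hab.symm.pow_right k

/-- Powers of odd squares prime to the modulus have trivial symbol. -/
theorem jacobiSym_sq_pow {s N : ℕ} (h : (s ^ 2).Coprime N) (e : ℕ) : J(((s ^ 2) ^ e : ℕ) | N) = 1 := by
  rw [← pow_mul, mul_comm 2 e, pow_mul]
  push_cast
  refine jacobiSym.sq_one' ?_
  rw [← Nat.cast_pow, Int.gcd_natCast_natCast]
  exact Nat.Coprime.pow_left e ((Nat.coprime_pow_left_iff two_pos s N).mp h)

theorem sq_odd_mod_four {u : ℕ} (hu : Odd u) : u ^ 2 % 4 = 1 := by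
  obtain ⟨k, rfl⟩ := hu
  ring_nf
  omega

theorem odd_terjQ {a b : ℕ} (ha : a % 4 = 1) (hb : b % 4 = 1) {k : ℕ} (hk : Odd k) : Odd (terjQ a b k) := by
  rw [Nat.odd_iff] at hk ⊢
  have := terjQ_mod_four ha hb k
  omega

/-- From the symbols at the modulus `Q_m` for the indices below `m` to all indices. -/
theorem jacobiSym_terjQ_step {s t : ℕ} (hs : Odd s) (ht : Odd t) (hst : s.Coprime t) {m : ℕ} (hm : Odd m)
    (ih : ∀ r < m, Odd r → r.Coprime m →
      J((terjQ (s ^ 2) (t ^ 2) r : ℤ) | terjQ (s ^ 2) (t ^ 2) m) = J((r : ℤ) | m))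
    {n : ℕ} (hn : Odd n) (hnm : n.Coprime m) :
    J((terjQ (s ^ 2) (t ^ 2) n : ℤ) | terjQ (s ^ 2) (t ^ 2) m) = J((n : ℤ) | m) := by
  have hmn : m.Coprime n := hnm.symm
  have hab : (s ^ 2).Coprime (t ^ 2) := (hst.pow_left 2).pow_right 2
  have hQ : ∀ k, terjQ (s ^ 2) (t ^ 2) k % 4 = k % 4 :=
    terjQ_mod_four (sq_odd_mod_four hs) (sq_odd_mod_four ht)
  have hodd := fun {k : ℕ} (hk : Odd k) => odd_terjQ (sq_odd_mod_four hs) (sq_odd_mod_four ht) hk
  have hm0 : 0 < m := hm.pos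
  have hr2 : n % (2 * m) % 2 = 1 := by
    rw [Nat.mod_mod_of_dvd _ (dvd_mul_right 2 m)]; exact Nat.odd_iff.mp hn
  have hdiv : 2 * m * (n / (2 * m)) + n % (2 * m) = n := Nat.div_add_mod _ _
  have hsq : (((s ^ 2).Coprime (terjQ (s ^ 2) (t ^ 2) m))) := terjQ_coprime_left hab hm0
  have htq : (((t ^ 2).Coprime (terjQ (s ^ 2) (t ^ 2) m))) := terjQ_coprime_right hab hm0
  have hlt2 : n % (2 * m) < 2 * m := Nat.mod_lt _ (by omega)
  set k := n / (2 * m)
  set r := n % (2 * m) with hr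
  rcases le_or_gt r m with hrm | hrm
  · rcases hrm.eq_or_lt with e | e
    · -- `m ∣ n`
      have hd : m ∣ n := ⟨2 * k + 1, by rw [← hdiv, e]; ring⟩
      have : m = 1 := Nat.dvd_one.mp (hmn ▸ Nat.dvd_gcd dvd_rfl hd)
      subst this
      simp [terjQ, jacobiSym.one_right]
    · have hcop : r.Coprime m := by
        rw [← hdiv, Nat.mul_comm 2 m, Nat.mul_assoc, Nat.coprime_mul_left_add_right] at hmn
        exact hmn.symm
      have hro : Odd r := Nat.odd_iff.mpr hr2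
      have hz : ((terjQ (s ^ 2) (t ^ 2) (r + 2 * k * m) : ℕ) : ℤ) %
          (terjQ (s ^ 2) (t ^ 2) m : ℤ) =
          (((t ^ 2) ^ (2 * k * m) * terjQ (s ^ 2) (t ^ 2) r : ℕ) : ℤ) %
            (terjQ (s ^ 2) (t ^ 2) m : ℤ) := by
        obtain ⟨u, hu⟩ := terjQ_dvd_mul (s ^ 2) (t ^ 2) m (2 * k)
        rw [terjQ_add, hu, ← Int.natCast_mod, ← Int.natCast_mod, Nat.mul_left_comm,
          Nat.mul_add_mod]
      rw [show n = r + 2 * k * m by rw [← hdiv]; ring, jacobiSym.mod_left' hz, Nat.cast_mul,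
        jacobiSym.mul_left, jacobiSym_sq_pow htq, one_mul]
      rw [ih r (by omega) hro hcop]
      refine jacobiSym.mod_left' ?_
      push_cast
      rw [Int.add_mul_emod_self_right]
  · have hk : 2 * m - r + n = (2 * (k + 1)) * m := by
      rw [show (2 * (k + 1)) * m = 2 * m * k + 2 * m by ring]
      omega
    have hro : Odd (2 * m - r) := Nat.odd_iff.mpr (by omega)
    have hcop : (2 * m - r).Coprime m := by
      refine Nat.coprime_of_dvd' fun q _ h1 h2 => ?_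
      have h3 : q ∣ n := (Nat.dvd_add_right h1).mp (hk ▸ h2.mul_left _)
      exact hmn ▸ Nat.dvd_gcd h2 h3
    obtain ⟨u, hu⟩ := terjQ_dvd_mul (s ^ 2) (t ^ 2) m (2 * (k + 1))
    rw [← hk, terjQ_add] at hu
    set r' := 2 * m - r
    have hz : ((((s ^ 2) ^ r' : ℕ) : ℤ) * (terjQ (s ^ 2) (t ^ 2) n : ℤ)) %
        (terjQ (s ^ 2) (t ^ 2) m : ℤ) =
        (-((((t ^ 2) ^ n : ℕ) : ℤ) * (terjQ (s ^ 2) (t ^ 2) r' : ℤ))) %
          (terjQ (s ^ 2) (t ^ 2) m : ℤ) := by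
      rw [Int.emod_eq_emod_iff_emod_sub_eq_zero, sub_neg_eq_add]
      exact Int.emod_eq_zero_of_dvd ⟨(u : ℤ), by exact_mod_cast hu⟩
    have h := jacobiSym.mod_left' hz
    rw [jacobiSym.mul_left, jacobiSym_sq_pow hsq, one_mul, jacobiSym.neg _ (hodd hm),
      jacobiSym.mul_left, jacobiSym_sq_pow htq, one_mul, ih r' (by omega) hro hcop] at h
    rw [h]
    have hn' : (n : ℤ) % (m : ℤ) = (-(r' : ℤ)) % (m : ℤ) := by
      rw [Int.emod_eq_emod_iff_emod_sub_eq_zero, sub_neg_eq_add]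
      exact Int.emod_eq_zero_of_dvd ⟨2 * (k + 1), by
        rw [← Nat.cast_add, show n + r' = 2 * (k + 1) * m by omega]; push_cast; ring⟩
    rw [jacobiSym.mod_left' hn', jacobiSym.neg _ hm]
    congr 1
    rw [ZMod.χ₄_nat_mod_four, hQ, ← ZMod.χ₄_nat_mod_four]

/-- **Terjanian's lemma.** -/
theorem jacobiSym_terjQ {s t : ℕ} (hs : Odd s) (ht : Odd t) (hst : s.Coprime t) :
    ∀ {n : ℕ}, Odd n → ∀ {m : ℕ}, Odd m → m.Coprime n →
      J((terjQ (s ^ 2) (t ^ 2) m : ℤ) | terjQ (s ^ 2) (t ^ 2) n) = J((m : ℤ) | n) := by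
  intro n
  induction n using Nat.strong_induction_on with
  | _ n ih =>
    intro hn m hm hmn
    refine jacobiSym_terjQ_step hs ht hst hn (fun r hr hro hrn => ?_) hm hmn
    rw [← jacobiSym.quadratic_reciprocity_if
        (Nat.odd_iff.mp (odd_terjQ (sq_odd_mod_four hs) (sq_odd_mod_four ht) hro))
        (Nat.odd_iff.mp (odd_terjQ (sq_odd_mod_four hs) (sq_odd_mod_four ht) hn)),
      ← jacobiSym.quadratic_reciprocity_if (Nat.odd_iff.mp hro) (Nat.odd_iff.mp hn),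
      ih r hr hro hn hrn.symm, terjQ_mod_four (sq_odd_mod_four hs) (sq_odd_mod_four ht),
      terjQ_mod_four (sq_odd_mod_four hs) (sq_odd_mod_four ht)]

/-- A prime index gives no square. -/
theorem terjQ_not_sq {s t : ℕ} (hs : Odd s) (ht : Odd t) (hst : s.Coprime t) {p : ℕ} (hp : p.Prime)
    (hp2 : p ≠ 2) (u : ℕ) : terjQ (s ^ 2) (t ^ 2) p ≠ u ^ 2 := by
  intro hu
  have : Fact p.Prime := ⟨hp⟩
  have hodd : Odd p := hp.odd_of_ne_two hp2
  obtain ⟨d, hd⟩ := FiniteField.exists_nonsquare (F := ZMod p) (by rwa [ringChar.eq (ZMod p) p])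
  have hpd : (2 * 2).Coprime p := by
    refine Nat.Coprime.mul_left ?_ ?_ <;> exact (Nat.coprime_primes Nat.prime_two hp).mpr (Ne.symm hp2)
  obtain ⟨n, hn4, hnp⟩ := Nat.chineseRemainder hpd 1 d.val
  have hn4' : n % 4 = 1 := hn4
  have hno : Odd n := Nat.odd_iff.mpr (by omega)
  have hnd : (n : ZMod p) = d := by
    rw [(ZMod.natCast_eq_natCast_iff _ _ _).mpr hnp, ZMod.natCast_zmod_val]
  have hcop : p.Coprime n := (hp.coprime_iff_not_dvd).mpr fun h =>
    hd (by rw [← hnd, (ZMod.natCast_eq_zero_iff n p).mpr h]; exact IsSquare.zero)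
  have h := jacobiSym_terjQ hs ht hst hno hodd hcop
  rw [hu, Nat.cast_pow, jacobiSym.pow_left, ← jacobiSym.quadratic_reciprocity_one_mod_four hn4' hodd,
    ← jacobiSym.legendreSym.to_jacobiSym p, (legendreSym.eq_neg_one_iff p).mpr (by
      rw [Int.cast_natCast, hnd]; exact hd)] at h
  exact absurd h (by nlinarith [sq_nonneg (J((u : ℤ) | terjQ (s ^ 2) (t ^ 2) n))])

/-- **Terjanian's argument** for coprime `x`, `y` with `x` even. -/
theorem prime_dvd_of_even {p : ℕ} (hp : p.Prime) (hp2 : p ≠ 2) {x y z : ℕ} (hxy : x.Coprime y) (hx : Even x)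
    (hx0 : x ≠ 0) (heq : x ^ (2 * p) + y ^ (2 * p) = z ^ (2 * p)) : p ∣ x := by
  by_contra hpx
  have hpp := hp.pos
  have hyo : Odd y := by
    rw [← Nat.not_even_iff_odd]
    intro hy
    have := Nat.dvd_gcd (even_iff_two_dvd.mp hx) (even_iff_two_dvd.mp hy)
    rw [hxy] at this
    omega
  have hzo : Odd z := by
    have h2p : (2 * p) ≠ 0 := by omega
    have h := congrArg Odd heq
    rw [eq_iff_iff] at h
    exact (Nat.odd_pow_iff h2p).mp (h.mp ((hx.pow_of_ne_zero h2p).add_odd hyo.pow))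
  have hyz : y ^ 2 < z ^ 2 := by
    refine lt_of_pow_lt_pow_left₀ p (Nat.zero_le _) ?_
    rw [← pow_mul, ← pow_mul, ← heq]
    have : 0 < x ^ (2 * p) := pow_pos (Nat.pos_of_ne_zero hx0) _
    omega
  have hzy : z.Coprime y := by
    refine (Nat.coprime_pow_left_iff (show 0 < 2 * p by omega) _ _).mp ?_
    refine (Nat.coprime_pow_right_iff (show 0 < 2 * p by omega) _ _).mp ?_
    rw [← heq, Nat.coprime_add_self_left]
    exact (hxy.pow_left _).pow_right _
  set Q := terjQ (z ^ 2) (y ^ 2) p with hQ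
  have hprod : (z ^ 2 - y ^ 2) * Q = (x ^ p) ^ 2 := by
    have h : (((z ^ 2 - y ^ 2) * Q : ℕ) : ℤ) = (((x ^ p) ^ 2 : ℕ) : ℤ) := by
      have heq' : (x : ℤ) ^ (2 * p) + (y : ℤ) ^ (2 * p) = (z : ℤ) ^ (2 * p) := by exact_mod_cast heq
      rw [Nat.cast_mul, Nat.cast_sub hyz.le, hQ, terjQ]
      push_cast
      rw [mul_comm, geom_sum₂_mul, ← pow_mul, ← pow_mul, ← pow_mul, mul_comm p 2]
      linear_combination -heq'
    exact_mod_cast h
  have hcop : (z ^ 2 - y ^ 2).Coprime Q := by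
    refine Nat.coprime_of_dvd fun q hq h1 h2 => ?_
    have : Fact q.Prime := ⟨hq⟩
    have hcast : ((z ^ 2 : ℕ) : ZMod q) = ((y ^ 2 : ℕ) : ZMod q) :=
      sub_eq_zero.mp (by rw [← Nat.cast_sub hyz.le, (ZMod.natCast_eq_zero_iff _ q).mpr h1])
    have hQ0 : ((Q : ℕ) : ZMod q) = (p : ZMod q) * ((y ^ 2 : ℕ) : ZMod q) ^ (p - 1) := by
      rw [hQ, terjQ, Nat.cast_sum, Finset.sum_congr rfl fun i hi => ?_, Finset.sum_const, Finset.card_range,
        nsmul_eq_mul]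
      rw [Finset.mem_range] at hi
      rw [Nat.cast_mul, Nat.cast_pow (z ^ 2), Nat.cast_pow (y ^ 2), hcast, ← pow_add, show i + (p - 1 - i) = p - 1 by omega]
    rw [(ZMod.natCast_eq_zero_iff Q q).mpr h2, eq_comm, mul_eq_zero, ZMod.natCast_eq_zero_iff] at hQ0
    rcases hQ0 with h | h
    · obtain rfl := (Nat.prime_dvd_prime_iff_eq hq hp).mp h
      exact hpx (hq.dvd_of_dvd_pow (hq.dvd_of_dvd_pow (hprod ▸ h1.mul_right Q)))
    · have hy' := (ZMod.natCast_eq_zero_iff _ q).mp (eq_zero_of_pow_eq_zero h)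
      rw [eq_zero_of_pow_eq_zero h, ZMod.natCast_eq_zero_iff] at hcast
      have := Nat.dvd_gcd (hq.dvd_of_dvd_pow hcast) (hq.dvd_of_dvd_pow hy')
      rw [hzy] at this
      exact hq.one_lt.not_ge (Nat.le_of_dvd one_pos this)
  obtain ⟨u, hu⟩ := exists_associated_pow_of_mul_eq_pow (Nat.isUnit_iff.mpr (by
    rw [gcd_comm]; exact hcop)) (by rw [mul_comm]; exact hprod)
  exact terjQ_not_sq hzo hyo hzy hp hp2 u (associated_iff_eq.mp hu).symm

end FA.Regular
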