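import Fermat.Agent.Regular.LogDerivative

/-!
# Thaine's relation in every weight

The argument of `ExtVanish.Thaine` for an arbitrary cyclotomic unit `(ζ^a - 1)/(ζ - 1)`: if a character
of weight `i` of the class group is nonzero on a degree one prime, the projection of weight `i` of the
unit is a `p`-th power residue there.
-/

set_option autoImplicit false

noncomputable section

open NumberField IsDedekindDomain Polynomial
open scoped Classical nonZeroDivisors

namespace FA.Regular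

open FA.Ext

variable {K : Type*} [Field K] [NumberField K]
variable (p : ℕ) [Fact p.Prime] [IsCyclotomicExtension {p} ℚ K]

/-- The local computation at one degree one prime over `q`, for the unit `(ζ^a - 1)/(ζ - 1)`. -/
theorem exponent_congruence_cycU {F : Type*} [Field F] [NumberField F] [Algebra K F] {q : ℕ}
    [Fact q.Prime] [IsCyclotomicExtension {q} K F] {a₀ : ℕ} (hirr : Irreducible (cyclotomic q K))
    (hdeg : Module.finrank K F = q - 1)
    (v : HeightOneSpectrum (𝓞 K)) (hvp : (p : 𝓞 K) ∉ v.asIdeal)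
    (hv : Ideal.absNorm v.asIdeal = q) {g : (ZMod q)ˣ} {θ η : 𝓞 F} (hθ0 : θ ≠ 0)
    (hθ : auxInt K F hirr g θ * η = θ)
    (hη : (algebraMap (𝓞 K) (𝓞 F) (zetaInt p K) * auxZeta K F q - 1) * η =
      algebraMap (𝓞 K) (𝓞 F) (zetaInt p K ^ a₀) * auxZeta K F q - 1)
    {x : 𝓞 K}
    (hx : (Ideal.span {x}).map (algebraMap (𝓞 K) (𝓞 F)) = Ideal.span {θ} ^ (q - 1))
    {k : ℕ} {C : Ideal (𝓞 K)} (hC : ¬ v.asIdeal ∣ C) (hk : Ideal.span {x} = v.asIdeal ^ k * C) :
    ((g : ZMod q).val : 𝓞 K) ^ k * (∑ i ∈ Finset.range a₀, zetaInt p K ^ i) - 1 ∈ v.asIdeal := by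
  have hq : q.Prime := Fact.out
  have hq1 : q - 1 ≠ 0 := by have := hq.two_le; omega
  obtain ⟨-, V, hV, hVN⟩ := aux_degree (F := F) p v hvp hv
  set f := algebraMap (𝓞 K) (𝓞 F) with hf
  set lam := auxZeta K F q - 1
  have hVv : ∀ y : 𝓞 K, f y ∈ V.asIdeal ↔ y ∈ v.asIdeal := by
    have hle : v.asIdeal ≤ V.asIdeal.comap f := Ideal.map_le_iff_le_comap.mp
      (hV.le.trans (Ideal.pow_le_self hq1))
    have heq := v.isMaximal.eq_of_le (Ideal.comap_ne_top _ V.isPrime.ne_top) hle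
    exact fun y => by rw [← Ideal.mem_comap, ← heq]
  have hqV : (q : 𝓞 F) ∈ V.asIdeal := natCast_mem_of_absNorm_eq hVN
  have : NeZero q := ⟨hq.ne_zero⟩
  have hΛ : Associated (lam ^ (q - 1)) (q : 𝓞 F) :=
    IsCyclotomicExtension.Rat.associated_zeta_sub_one_pow_prime q
      (IsCyclotomicExtension.zeta_spec q K F)
  have hlamV : lam ∈ V.asIdeal :=
    V.isPrime.mem_of_pow_mem (q - 1) (Ideal.mem_of_dvd _ hΛ.symm.dvd hqV)
  -- `V` exactly divides `lam`
  have hsplit : Ideal.span {(q : 𝓞 F)} = V.asIdeal ^ (q - 1) *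
      ∏ d ∈ (Finset.univ.erase (1 : (ZMod p)ˣ)),
        (conjPrime (sigma p K d) v).asIdeal.map f := by
    have h2 := congrArg (Ideal.map f) (prod_conjPrime p v hvp (hv.symm ▸ hq))
    rw [← Ideal.mapHom_apply, map_prod,
      ← Finset.mul_prod_erase Finset.univ _ (Finset.mem_univ (1 : (ZMod p)ˣ))] at h2
    simp only [Ideal.mapHom_apply, Ideal.map_span, Set.image_singleton, map_natCast, hv] at h2
    have h1 : (conjPrime (sigma p K 1) v).asIdeal = v.asIdeal := by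
      ext y
      rw [mem_conjPrime, sigma_symm_apply, inv_one, sigma_one_apply]
    rw [h1, hV] at h2
    exact h2.symm
  have hlam2 : lam ∉ V.asIdeal ^ 2 := fun h => by
    have h3 : V.asIdeal ^ (q - 1) * V.asIdeal ∣ Ideal.span {(q : 𝓞 F)} := by
      rw [Ideal.dvd_span_singleton, ← pow_succ]
      refine Ideal.pow_le_pow_right (by omega : q - 1 + 1 ≤ 2 * (q - 1)) ?_
      rw [pow_mul]
      exact Ideal.mem_of_dvd _ hΛ.dvd (Ideal.pow_mem_pow h _)
    rw [hsplit] at h3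
    obtain ⟨d, hd, hdd⟩ := V.prime.exists_mem_finset_dvd
      ((mul_dvd_mul_iff_left (pow_ne_zero _ V.ne_bot)).mp h3)
    have hle : (conjPrime (sigma p K d) v).asIdeal ≤ v.asIdeal := fun y hy =>
      (hVv y).mp (Ideal.dvd_iff_le.mp hdd (Ideal.mem_map_of_mem f hy))
    have h2 : conjPrime (sigma p K d) v = conjPrime (sigma p K 1) v := by
      refine HeightOneSpectrum.ext (((conjPrime (sigma p K d) v).isMaximal.eq_of_le
        v.isPrime.ne_top hle).trans ?_)
      ext y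
      rw [mem_conjPrime, sigma_symm_apply, inv_one, sigma_one_apply]
    exact Finset.ne_of_mem_erase hd (conjPrime_injective p v hvp (hv.symm ▸ hq) h2)
  -- the exponent of `V` in `θ` is `k`
  have hθs : Ideal.span {θ} ≠ 0 := by simpa using hθ0
  obtain ⟨j, E, hE, hθE⟩ := WfDvdMonoid.max_power_factor hθs V.irreducible
  have hkj : k = j := by
    rw [hk, Ideal.map_mul, Ideal.map_pow, hV, hθE, mul_pow, ← pow_mul, ← pow_mul] at hx
    have h1 : ¬ V.asIdeal ∣ C.map f := fun hd => hC (Ideal.dvd_iff_le.mpr fun y hy =>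
      (hVv y).mp (Ideal.dvd_iff_le.mp hd (Ideal.mem_map_of_mem f hy)))
    obtain ⟨h2, -⟩ := pow_mul_unique V.prime h1 (fun hd => hE (V.prime.dvd_of_dvd_pow hd)) hx
    exact Nat.eq_of_mul_eq_mul_left (Nat.pos_of_ne_zero hq1) (h2.trans (mul_comm _ _))
  subst hkj
  have hθk : θ ∈ V.asIdeal ^ k := Ideal.dvd_span_singleton.mp ⟨E, hθE⟩
  have hθk1 : θ ∉ V.asIdeal ^ (k + 1) := fun h => by
    obtain ⟨D, hD⟩ := Ideal.dvd_span_singleton.mpr h
    rw [hθE, pow_succ, mul_assoc] at hD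
    exact hE ⟨D, mul_left_cancel₀ (pow_ne_zero _ V.ne_bot) hD⟩
  obtain ⟨r, hr⟩ := exists_eq_map_span_pow_sup V hlamV hlam2 k hθk
  obtain ⟨a, ha⟩ := exists_nat_sub_mem hq hVN r
  have hθa : θ - (a : 𝓞 F) * lam ^ k ∈ V.asIdeal ^ (k + 1) := by
    have h1 : (r - (a : 𝓞 F)) * lam ^ k ∈ V.asIdeal ^ (k + 1) := by
      rw [pow_succ']
      exact Ideal.mul_mem_mul ha (Ideal.pow_mem_pow hlamV k)
    simpa [sub_mul, sub_add_sub_cancel] using (V.asIdeal ^ (k + 1)).add_mem hr h1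
  have haV : (a : 𝓞 F) ∉ V.asIdeal := fun h => hθk1 (by
    have h1 : (a : 𝓞 F) * lam ^ k ∈ V.asIdeal ^ (k + 1) := by
      rw [pow_succ']; exact Ideal.mul_mem_mul h (Ideal.pow_mem_pow hlamV k)
    simpa using (V.asIdeal ^ (k + 1)).add_mem hθa h1)
  -- the automorphism fixes `V`
  set s := auxInt K F hirr g
  set gn := (g : ZMod q).val
  have hsV : ∀ y ∈ V.asIdeal, s y ∈ V.asIdeal := by
    intro y hy
    refine V.isPrime.mem_of_pow_mem (q - 1) ?_
    have h1 : (V.asIdeal ^ (q - 1)).map (s : 𝓞 F →+* 𝓞 F) = V.asIdeal ^ (q - 1) := by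
      rw [← hV, Ideal.map_map]
      congr 1
      exact RingHom.ext fun z => auxInt_algebraMap hirr g z
    refine Ideal.pow_le_self hq1 ?_
    rw [← h1, ← map_pow]
    exact Ideal.mem_map_of_mem _ (Ideal.pow_mem_pow hy _)
  have hsVk : ∀ y ∈ V.asIdeal ^ (k + 1), s y ∈ V.asIdeal ^ (k + 1) := fun y hy => by
    have h1 : (V.asIdeal).map (s : 𝓞 F →+* 𝓞 F) ≤ V.asIdeal := Ideal.map_le_iff_le_comap.mpr hsV
    exact (Ideal.pow_right_mono h1 (k + 1)) (Ideal.map_pow (s : 𝓞 F →+* 𝓞 F) _ (k + 1) ▸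
      Ideal.mem_map_of_mem (s : 𝓞 F →+* 𝓞 F) hy)
  -- congruences
  set G := ∑ i ∈ Finset.range gn, auxZeta K F q ^ i
  have hslam : s lam = lam * G := by
    rw [map_sub, map_one, auxInt_zeta, mul_comm, geom_sum_mul]
  let π := Ideal.Quotient.mk V.asIdeal
  have hπ1 : π (auxZeta K F q) = 1 := by
    rw [← sub_eq_zero, ← map_one π, ← map_sub]
    exact Ideal.Quotient.eq_zero_iff_mem.mpr hlamV
  have hπG : π G = (gn : 𝓞 F ⧸ V.asIdeal) := by simp [G, hπ1]
  have hπη : π η = π (f (∑ i ∈ Finset.range a₀, zetaInt p K ^ i)) := by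
    have h1 := congrArg π hη
    simp only [map_mul, map_sub, map_one, hπ1, mul_one, map_pow] at h1
    have hne : π (f (zetaInt p K)) - 1 ≠ 0 := by
      rw [← map_one π, ← map_sub, ← map_one f, ← map_sub]
      exact fun h => hvp (natCast_mem_of_primitiveRoot_sub_one_mem (zetaInt_spec p K)
        ((hVv _).mp (Ideal.Quotient.eq_zero_iff_mem.mp h)))
    refine mul_left_cancel₀ hne (h1.trans ?_)
    rw [map_sum, map_sum]
    simp only [map_pow]
    exact (mul_geom_sum _ a₀).symm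
  have key : lam ^ k * ((a : 𝓞 F) * (G ^ k * η - 1)) ∈ V.asIdeal ^ (k + 1) := by
    have h1 : s (θ - (a : 𝓞 F) * lam ^ k) * η ∈ V.asIdeal ^ (k + 1) :=
      (V.asIdeal ^ (k + 1)).mul_mem_right _ (hsVk _ hθa)
    rw [map_sub, map_mul, map_natCast, map_pow, hslam, sub_mul, hθ] at h1
    have h2 := (V.asIdeal ^ (k + 1)).sub_mem hθa h1
    convert h2 using 1
    rw [mul_pow]
    ring
  have key2 : G ^ k * η - 1 ∈ V.asIdeal := by
    obtain ⟨Y, hY⟩ := Ideal.dvd_span_singleton.mpr key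
    obtain ⟨W, hW⟩ := Ideal.dvd_span_singleton.mpr hlamV
    rw [← Ideal.span_singleton_mul_span_singleton, ← Ideal.span_singleton_pow, hW, mul_pow,
      pow_succ, mul_assoc, mul_assoc] at hY
    have h3 := mul_left_cancel₀ (pow_ne_zero _ V.ne_bot) hY
    rcases V.prime.dvd_or_dvd ⟨Y, h3⟩ with h4 | h4
    · exfalso
      refine hlam2 (Ideal.dvd_span_singleton.mp ?_)
      rw [hW, pow_two]
      exact mul_dvd_mul_left _ (V.prime.dvd_of_dvd_pow h4)
    · exact (V.isPrime.mem_or_mem (Ideal.dvd_span_singleton.mp h4)).resolve_left haV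
  refine (hVv _).mp (Ideal.Quotient.eq_zero_iff_mem.mp ?_)
  have h5 := Ideal.Quotient.eq_zero_iff_mem.mpr key2
  rw [map_sub, map_mul, map_pow, hπG, hπη, map_one] at h5
  simp only [map_sub, map_mul, map_pow, map_natCast, map_one]
  exact h5

/-- Thaine's theorem for a weight `i` eigenspace and the unit `(ζ^a - 1)/(ζ - 1)`. -/
theorem exists_residue_of_weight_char (h5 : 5 ≤ p) (i : ℕ) {a₀ : ℕ} (ha : (a₀ : ZMod p) ≠ 0)
    (φ : ClassGroup (𝓞 K) →* Multiplicative (ZMod p))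
    (hφ : ∀ (d : (ZMod p)ˣ) (I J : (Ideal (𝓞 K))⁰),
      J.1 = I.1.map (sigma p K d : 𝓞 K →+* 𝓞 K) →
      φ (ClassGroup.mk0 J) = φ (ClassGroup.mk0 I) ^ ((d : ZMod p) ^ i).val)
    (v : HeightOneSpectrum (𝓞 K)) (hvp : (p : 𝓞 K) ∉ v.asIdeal)
    (hv : (Ideal.absNorm v.asIdeal).Prime)
    (hφv : φ (ClassGroup.mk0 ⟨v.asIdeal, mem_nonZeroDivisors_iff_ne_zero.mpr v.ne_bot⟩) ≠ 1) :
    ∃ a : 𝓞 K, ((∏ d : (ZMod p)ˣ, sigmaU p K d⁻¹ (cycU p K ha) ^ ((d : ZMod p) ^ i).val : (𝓞 K)ˣ) : 𝓞 K) -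
      a ^ p ∈ v.asIdeal := by
  have hp : p.Prime := Fact.out
  set q := Ideal.absNorm v.asIdeal with hq
  have : Fact q.Prime := ⟨hv⟩
  have : NeZero q := ⟨hv.ne_zero⟩
  have hpq : p ∣ q - 1 := dvd_absNorm_sub_one (zetaInt_spec p K) v hvp
  have hq2 : q ≠ 2 := fun h => by
    rw [h] at hpq
    have := Nat.le_of_dvd (by norm_num) hpq
    omega
  let F := CyclotomicField q K
  have : NumberField F := IsCyclotomicExtension.numberField {q} K F
  obtain ⟨hirr, V₀, hV₀, hV₀N⟩ := aux_degree (F := F) p v hvp rfl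
  have hdeg : Module.finrank K F = q - 1 := by
    rw [IsCyclotomicExtension.finrank F hirr, Nat.totient_prime hv]
  have hgal : IsGalois K F := IsCyclotomicExtension.isGalois {q} K F
  obtain ⟨g, hg⟩ := IsCyclic.exists_generator (α := (ZMod q)ˣ)
  set z := zetaInt p K
  set f := algebraMap (𝓞 K) (𝓞 F)
  -- the norm one unit
  obtain ⟨m, hm⟩ := hpq
  have hzq : z ^ (q - 1) = 1 := by rw [hm, pow_mul, (zetaInt_spec p K).pow_eq_one, one_pow]
  have hz1 : z ≠ 1 := (zetaInt_spec p K).ne_one hp.one_lt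
  have hz2 : z ^ a₀ ≠ 1 := fun h => ha ((ZMod.natCast_eq_zero_iff a₀ p).mpr
    ((zetaInt_spec p K).pow_eq_one_iff_dvd a₀ |>.mp h))
  have hA := prod_auxInt_eq_one (F := F) hirr hq2 (c := z ^ a₀)
    (by rw [← pow_mul, mul_comm, pow_mul, hzq, one_pow]) hz2
  have hB := prod_auxInt_eq_one (F := F) hirr hq2 (c := z) hzq hz1
  obtain ⟨b, hb⟩ : ∃ b, (f z * auxZeta K F q - 1) * b = 1 := by
    refine ⟨∏ a ∈ Finset.univ.erase (1 : (ZMod q)ˣ),
      auxInt K F hirr a (f z * auxZeta K F q - 1), ?_⟩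
    nth_rewrite 1 [← auxInt_one hirr (f z * auxZeta K F q - 1)]
    rw [Finset.mul_prod_erase Finset.univ
      (fun a => auxInt K F hirr a (f z * auxZeta K F q - 1)) (Finset.mem_univ 1)]
    exact hB
  set η := (f (z ^ a₀) * auxZeta K F q - 1) * b
  have hηeq : (f z * auxZeta K F q - 1) * η = f (z ^ a₀) * auxZeta K F q - 1 := by
    rw [mul_left_comm, hb, mul_one]
  have hη : ∏ a : (ZMod q)ˣ, auxInt K F hirr a η = 1 := by
    have h1 := Finset.prod_congr (s₁ := (Finset.univ : Finset (ZMod q)ˣ)) rfl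
      fun a _ => congrArg (auxInt K F hirr a) hηeq
    simp only [map_mul] at h1
    rwa [Finset.prod_mul_distrib, hB, one_mul, hA] at h1
  obtain ⟨θ, hθ0, hθ⟩ := exists_hilbert90 hirr hg hη
  -- the norm
  set x := RingOfIntegers.norm K θ
  have hgen : ∀ i : ℕ, Ideal.span {auxInt K F hirr (g ^ i) θ} = Ideal.span {θ} := by
    intro i
    induction i with
    | zero => rw [pow_zero, auxInt_one]
    | succ i ih =>
      rw [pow_succ', auxInt_mul]
      have h1 := congrArg (Ideal.map (auxInt K F hirr g : 𝓞 F →+* 𝓞 F)) ih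
      simp only [Ideal.map_span, Set.image_singleton, RingHom.coe_coe] at h1
      rw [h1]
      refine Ideal.span_singleton_eq_span_singleton.mpr ?_
      have hu : IsUnit η := by
        refine IsUnit.of_mul_eq_one (∏ a ∈ Finset.univ.erase (1 : (ZMod q)ˣ),
          auxInt K F hirr a η) ?_
        nth_rewrite 1 [← auxInt_one hirr η]
        rw [Finset.mul_prod_erase Finset.univ (fun a => auxInt K F hirr a η) (Finset.mem_univ 1)]
        exact hη
      exact ⟨hu.unit, hθ⟩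
  have hxmap : (Ideal.span {x}).map f = Ideal.span {θ} ^ (q - 1) := by
    rw [Ideal.map_span, Set.image_singleton]
    have h1 : f x = ∏ a : (ZMod q)ˣ, auxInt K F hirr a θ := by
      refine RingOfIntegers.ext ?_
      rw [RingOfIntegers.coe_eq_algebraMap, RingOfIntegers.coe_eq_algebraMap, map_prod]
      refine Eq.trans (b := algebraMap K F (Algebra.norm K (θ : F))) rfl ?_
      rw [Algebra.norm_eq_prod_automorphisms]
      exact (Fintype.prod_equiv (IsCyclotomicExtension.autEquivPow F hirr).symm.toEquiv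
        (fun a => (auxInt K F hirr a θ : F)) (fun σ => σ (θ : F)) fun a => rfl).symm
    rw [h1, ← Ideal.prod_span_singleton, Finset.prod_congr rfl fun a _ => ?_, Finset.prod_const,
      Finset.card_univ, ZMod.card_units q]
    obtain ⟨i, rfl⟩ := mem_powers_iff_mem_zpowers.mpr (hg a)
    exact hgen i
  have hx0 : x ≠ 0 := fun h => by
    rw [h, Ideal.span_singleton_eq_bot.mpr rfl, Ideal.map_bot] at hxmap
    exact hθ0 (Ideal.span_singleton_eq_bot.mp ((pow_eq_zero_iff (by have := hv.two_le; omega)).mp hxmap.symm))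
  -- decomposition at the primes over `q`
  set P := fun d : (ZMod p)ˣ => (conjPrime (sigma p K d) v).asIdeal
  have hPinj : Set.InjOn P (Finset.univ : Finset (ZMod p)ˣ) :=
    fun d _ e _ h => conjPrime_injective p v hvp hv (HeightOneSpectrum.ext h)
  obtain ⟨k, R, hkR, hR⟩ := exists_prime_decomposition Finset.univ P
    (fun d _ => (conjPrime _ v).prime) hPinj (I := Ideal.span {x}) (by simpa using hx0)
  have hvpd : ∀ d, (p : 𝓞 K) ∉ P d := fun d h => hvp (by
    have := mem_conjPrime.mp h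
    rwa [map_natCast] at this)
  have hcong : ∀ d, ((g : ZMod q).val : 𝓞 K) ^ k d * (∑ i ∈ Finset.range a₀, z ^ i) - 1 ∈ P d := by
    intro d
    refine exponent_congruence_cycU p hirr hdeg (conjPrime (sigma p K d) v) (hvpd d)
      (absNorm_conjPrime _ v) hθ0 hθ hηeq hxmap
      (C := (∏ e ∈ Finset.univ.erase d, P e ^ k e) * R) ?_ ?_
    · intro hd
      rcases (conjPrime _ v).prime.dvd_or_dvd hd with h1 | h1
      · obtain ⟨e, he, hde⟩ := (conjPrime _ v).prime.exists_mem_finset_dvd h1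
        have h2 : P e ≤ P d := Ideal.dvd_iff_le.mp ((conjPrime _ v).prime.dvd_of_dvd_pow hde)
        exact Finset.ne_of_mem_erase he (hPinj (Finset.mem_univ e) (Finset.mem_univ d)
          ((conjPrime _ v).isMaximal.eq_of_le (conjPrime (sigma p K d) v).isPrime.ne_top h2))
      · exact hR d (Finset.mem_univ d) h1
    · rw [hkR, ← Finset.mul_prod_erase Finset.univ _ (Finset.mem_univ d), mul_assoc]
  -- the rest is a `p`-th power
  have hR0 : R ≠ 0 := fun h => hx0 (Ideal.span_singleton_eq_bot.mp (by rw [hkR, h, mul_zero]; rfl))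
  obtain ⟨J, hJ0, hRJ⟩ : ∃ J : Ideal (𝓞 K), J ≠ 0 ∧ R = J ^ p := by
    refine exists_eq_pow_of_forall_dvd hR0 fun W C i hW hWC hRW => ?_
    rcases Nat.eq_zero_or_pos i with rfl | hi
    · exact dvd_zero p
    let w : HeightOneSpectrum (𝓞 K) := ⟨W, Ideal.isPrime_of_prime hW, hW.ne_zero⟩
    have hWR : W ∣ R := hRW ▸ Dvd.dvd.mul_right (dvd_pow_self W hi.ne') C
    have hWP : ∀ d, W ≠ P d := fun d h => hR d (Finset.mem_univ d) (h ▸ hWR)
    have hqW : (q : 𝓞 K) ∉ W := fun hmem => by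
      have h1 : W ∣ ∏ d : (ZMod p)ˣ, P d := by
        rw [prod_conjPrime p v hvp hv, Ideal.dvd_span_singleton]; exact hmem
      obtain ⟨d, -, hd⟩ := hW.exists_mem_finset_dvd h1
      exact hWP d (associated_iff_eq.mp (hW.associated_of_dvd (conjPrime _ v).prime hd))
    have hWtop : W.map f ≠ ⊤ := fun h => by
      have h1 := congrArg Ideal.absNorm h
      rw [Ideal.absNorm_algebraMap, Ideal.absNorm_top, pow_eq_one_iff] at h1
      refine w.isPrime.ne_top (Ideal.absNorm_eq_one_iff.mp (h1.resolve_right ?_))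
      rw [← IsFractionRing.finrank_eq (𝓞 K) K (𝓞 F) F]
      exact Module.finrank_pos.ne' 
    obtain ⟨Q, hQ, hWQ⟩ := Ideal.exists_le_maximal _ hWtop
    have : Q.IsPrime := hQ.isPrime
    have : Q.LiesOver w.asIdeal :=
      ⟨w.isMaximal.eq_of_le (Ideal.comap_ne_top _ hQ.ne_top) (Ideal.map_le_iff_le_comap.mp hWQ)⟩
    have hine : ∀ σ ∈ Q.inertia (F ≃ₐ[K] F), σ = 1 := by
      intro σ hσ
      obtain ⟨a, rfl⟩ : ∃ a, auxAut K F hirr a = σ :=
        ⟨IsCyclotomicExtension.autEquivPow F hirr σ, MulEquiv.symm_apply_apply _ σ⟩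
      have h1 : auxInt K F hirr a (auxZeta K F q) - auxZeta K F q ∈ Q :=
        hσ (auxZeta K F q)
      rw [auxInt_zeta] at h1
      have hqQ : (q : 𝓞 F) ∉ Q := fun h => hqW (by
        have h2 : (q : 𝓞 K) ∈ Q.comap f := by rw [Ideal.mem_comap, map_natCast]; exact h
        rwa [← Ideal.under_def, ← Q.over_def w.asIdeal] at h2)
      have h2 := pow_eq_of_sub_mem (auxZeta_spec (K := K)) hqQ (ZMod.val_lt _) hv.one_lt
        (j := 1) (by rwa [pow_one])
      have ha : a = 1 := Units.ext (by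
        rw [← ZMod.natCast_zmod_val (a : ZMod q), h2, Nat.cast_one, Units.val_one])
      rw [ha]
      exact AlgEquiv.ext fun y => auxAut_one hirr y
    have hB : Ideal.span {θ} ≠ ⊥ := by simpa using hθ0
    refine dvd_trans ⟨m, hm⟩
      (dvd_exponent_of_map_eq_pow w Q hine (I := Ideal.span {x})
        (C := (∏ d, P d ^ k d) * C) ?_ ?_ hB hxmap)
    · intro hd
      rcases hW.dvd_or_dvd hd with h1 | h1
      · obtain ⟨d, -, hd'⟩ := hW.exists_mem_finset_dvd h1
        exact hWP d (associated_iff_eq.mp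
          (hW.associated_of_dvd (conjPrime _ v).prime (hW.dvd_of_dvd_pow hd')))
      · exact hWC h1
    · rw [hkR, hRW]
      exact mul_left_comm _ _ _
  -- evaluate the character
  have hIP : ∀ d, P d ∈ (Ideal (𝓞 K))⁰ := fun d =>
    mem_nonZeroDivisors_iff_ne_zero.mpr (conjPrime _ v).ne_bot
  set c := Multiplicative.toAdd
    (φ (ClassGroup.mk0 ⟨v.asIdeal, mem_nonZeroDivisors_iff_ne_zero.mpr v.ne_bot⟩))
  have hc : c ≠ 0 := fun h => hφv (toAdd_eq_zero.mp h)
  have hprinc : ClassGroup.mk0 (⟨Ideal.span {x}, mem_nonZeroDivisors_iff_ne_zero.mpr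
      (by simpa using hx0)⟩ : (Ideal (𝓞 K))⁰) = 1 :=
    (ClassGroup.mk0_eq_one_iff _).mpr ⟨x, rfl⟩
  have hsum : (∑ d : (ZMod p)ˣ, (k d : ZMod p) * (d : ZMod p) ^ i) * c = 0 := by
    have h1 : (⟨Ideal.span {x}, mem_nonZeroDivisors_iff_ne_zero.mpr
        (by simpa using hx0)⟩ : (Ideal (𝓞 K))⁰) =
        (∏ d, (⟨P d, hIP d⟩ : (Ideal (𝓞 K))⁰) ^ k d) *
          ⟨J, mem_nonZeroDivisors_iff_ne_zero.mpr hJ0⟩ ^ p := by
      refine Subtype.ext ?_
      simp only [Submonoid.coe_mul, Submonoid.coe_finsetProd, SubmonoidClass.coe_pow]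
      exact hkR.trans (by rw [hRJ])
    have h2 := congrArg (fun I => Multiplicative.toAdd (φ (ClassGroup.mk0 I))) h1
    simp only [hprinc, map_one, toAdd_one, map_mul, map_pow, map_prod, mult_zmod_pow, mul_one,
      mult_toAdd_prod] at h2
    rw [Finset.sum_mul, h2]
    refine Finset.sum_congr rfl fun d _ => ?_
    rw [hφ d ⟨v.asIdeal, mem_nonZeroDivisors_iff_ne_zero.mpr v.ne_bot⟩ ⟨P d, hIP d⟩ rfl,
      ← pow_mul, toAdd_pow, nsmul_eq_mul, Nat.cast_mul, ZMod.natCast_zmod_val]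
    ring
  obtain ⟨n, hn⟩ : p ∣ ∑ d : (ZMod p)ˣ, k d * ((d : ZMod p) ^ i).val := by
    rw [← ZMod.natCast_eq_zero_iff, Nat.cast_sum]
    simpa [ZMod.natCast_zmod_val] using (mul_eq_zero.mp hsum).resolve_right hc
  -- read off the residue
  set π := Ideal.Quotient.mk v.asIdeal
  set gn := (g : ZMod q).val
  set gi := ((g⁻¹ : (ZMod q)ˣ) : ZMod q).val
  have hgg : π (gn : 𝓞 K) * π (gi : 𝓞 K) = 1 := by
    have h1 : ((gn * gi : ℕ) : ZMod q) = ((1 : ℕ) : ZMod q) := by
      rw [Nat.cast_mul, ZMod.natCast_zmod_val, ZMod.natCast_zmod_val, Units.mul_inv, Nat.cast_one]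
    obtain ⟨t, ht⟩ := (ZMod.intCast_eq_intCast_iff_dvd_sub ((1 : ℕ) : ℤ) ((gn * gi : ℕ) : ℤ) q).mp
      (by exact_mod_cast h1.symm)
    rw [← map_mul, ← map_one π, ← sub_eq_zero, ← map_sub]
    refine Ideal.Quotient.eq_zero_iff_mem.mpr ?_
    have h2 : (gn : 𝓞 K) * gi - 1 = ((q : 𝓞 K)) * (t : 𝓞 K) := by
      have h3 := congrArg (Int.cast : ℤ → 𝓞 K) ht
      push_cast at h3
      exact h3
    rw [h2]
    exact v.asIdeal.mul_mem_right _ (natCast_mem_of_absNorm_eq rfl)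
  have hkd : ∀ d, π ((gn : 𝓞 K)) ^ k d *
      π (sigma p K d⁻¹ (cycU p K ha : 𝓞 K)) = 1 := by
    intro d
    have h1 := mem_conjPrime.mp (hcong d)
    rw [sigma_symm_apply, map_sub, map_mul, map_pow, map_natCast, map_one] at h1
    rw [show (cycU p K ha : 𝓞 K) = ∑ i ∈ Finset.range a₀, z ^ i from rfl, ← sub_eq_zero, ← map_pow,
      ← map_mul, ← map_one π, ← map_sub]
    exact Ideal.Quotient.eq_zero_iff_mem.mpr h1
  refine ⟨(gi : 𝓞 K) ^ n, Ideal.Quotient.eq_zero_iff_mem.mp ?_⟩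
  rw [map_sub, sub_eq_zero, map_pow, map_pow, ← pow_mul, mul_comm n, ← hn]
  have heps : π (((∏ d : (ZMod p)ˣ, sigmaU p K d⁻¹ (cycU p K ha) ^ ((d : ZMod p) ^ i).val : (𝓞 K)ˣ)) : 𝓞 K) =
      ∏ d : (ZMod p)ˣ, π (sigma p K d⁻¹ (cycU p K ha : 𝓞 K)) ^ ((d : ZMod p) ^ i).val := by
    rw [Units.coe_prod, map_prod]
    exact Finset.prod_congr rfl fun d _ => by rw [Units.val_pow_eq_pow_val, map_pow, sigmaU_coe]
  rw [heps, ← Finset.prod_pow_eq_pow_sum]
  refine Finset.prod_congr rfl fun d _ => ?_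
  rw [pow_mul]
  congr 1
  calc π (sigma p K d⁻¹ (cycU p K ha : 𝓞 K))
      = (π (gn : 𝓞 K) * π (gi : 𝓞 K)) ^ k d * π (sigma p K d⁻¹ (cycU p K ha : 𝓞 K)) := by
        rw [hgg, one_pow, one_mul]
    _ = π (gi : 𝓞 K) ^ k d * (π (gn : 𝓞 K) ^ k d * π (sigma p K d⁻¹ (cycU p K ha : 𝓞 K))) := by
        rw [mul_pow]; ring
    _ = π (gi : 𝓞 K) ^ k d := by rw [hkd, mul_one]

end FA.Regular
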