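import Fermat.Agent.Regular.Setup
import Fermat.Agent.Regular.Calc

/-!
A computable criterion for Kummer's property: units with independent leading terms modulo `p`.
-/

set_option autoImplicit false
set_option linter.unusedSectionVars false

namespace FA.Regular

open Finset

variable {R : Type*} [CommRing R] [IsDomain R] {p : ℕ} [hp : Fact p.Prime] {ζ : R}

/-- `x` is congruent to an integer modulo `(ζ - 1) ^ N`. -/
def IntMod (ζ : R) (N : ℕ) (x : R) : Prop := ∃ a : ℤ, (ζ - 1) ^ N ∣ x - (a : R)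

theorem IntMod.one (N : ℕ) : IntMod ζ N (1 : R) := ⟨1, by simp⟩

theorem IntMod.mul {N : ℕ} {x y : R} (hx : IntMod ζ N x) (hy : IntMod ζ N y) :
    IntMod ζ N (x * y) := by
  obtain ⟨a, c, hc⟩ := hx
  obtain ⟨b, d, hd⟩ := hy
  refine ⟨a * b, c * y + (a : R) * d, ?_⟩
  push_cast
  linear_combination y * hc + (a : R) * hd

theorem IntMod.pow {N : ℕ} {x : R} (hx : IntMod ζ N x) : ∀ n : ℕ, IntMod ζ N (x ^ n)
  | 0 => by rw [pow_zero]; exact IntMod.one N
  | n + 1 => by rw [pow_succ]; exact (hx.pow n).mul hx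

theorem IntMod.prod {ι : Type*} {N : ℕ} (s : Finset ι) (f : ι → R)
    (h : ∀ i ∈ s, IntMod ζ N (f i)) : IntMod ζ N (∏ i ∈ s, f i) :=
  Finset.prod_induction f (IntMod ζ N) (fun _ _ => IntMod.mul) (IntMod.one N) h

theorem IntMod.of_le {M N : ℕ} (h : M ≤ N) {x : R} (hx : IntMod ζ N x) : IntMod ζ M x := by
  obtain ⟨a, ha⟩ := hx
  exact ⟨a, (pow_dvd_pow _ h).trans ha⟩

theorem pow_congr_linear {t x a b : R} {N : ℕ} (hx : t ∣ x - (a + b)) (hb : t ∣ b ^ 2)
    (hN : 0 < N) : t ∣ x ^ N - (a ^ N + (N : R) * a ^ (N - 1) * b) := by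
  induction N, hN using Nat.le_induction with
  | base => simpa using hx
  | succ n hn ih =>
    obtain ⟨c, hc⟩ := hx
    obtain ⟨d, hd⟩ := hb
    obtain ⟨e, he⟩ := ih
    obtain ⟨m, rfl⟩ := Nat.exists_eq_add_of_le hn
    refine ⟨e * x + (a ^ (1 + m) + ((1 + m : ℕ) : R) * a ^ m * b) * c
      + ((1 + m : ℕ) : R) * a ^ m * d, ?_⟩
    rw [Nat.add_sub_cancel_left] at he
    rw [Nat.add_sub_cancel]
    push_cast at he ⊢
    linear_combination x * he + (a ^ (1 + m) + (1 + (m : R)) * a ^ m * b) * hc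
      + (1 + (m : R)) * a ^ m * hd

/-- Kummer's property follows from units with distinct leading degrees, as soon as they are as
many as a generating system of units modulo `p`-th powers. -/
theorem kummerProp_of_leading_terms (H : CycloRing R p ζ) {N : ℕ} (f : Fin N → Rˣ)
    (d : Fin N → ℕ) (hd : Function.Injective d) (hd1 : ∀ k, 1 ≤ d k) (hdp : ∀ k, d k < p - 1)
    (hf : ∀ k, ∃ a c : ℤ, ¬ (p : ℤ) ∣ a ∧ ¬ (p : ℤ) ∣ c ∧
      (ζ - 1) ^ (d k + 1) ∣ (f k : R) - ((a : R) + (c : R) * (ζ - 1) ^ (d k)))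
    {ι : Type*} [Fintype ι] (g : ι → Rˣ) (hι : Fintype.card ι ≤ N)
    (hg : ∀ u : Rˣ, ∃ (e : ι → ℤ) (v : Rˣ), u = (∏ i, g i ^ e i) * v ^ p) :
    KummerProp R p := by
  classical
  have hlam := H.lam_prime
  have hppow : ∀ (x : R), IntMod ζ (p - 1) (x ^ p) := by
    intro x
    obtain ⟨n, hn⟩ := H.pow_prime_int x
    exact ⟨n, H.lam_dvd_prime.trans hn⟩
  have hind : ∀ n : Fin N → ℕ, IntMod ζ (p - 1) (∏ k, (f k : R) ^ n k) → ∀ k, p ∣ n k := by
    intro n hn
    by_contra hcon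
    push Not at hcon
    obtain ⟨k, hk, hmin⟩ := (Finset.univ.filter fun k => ¬ p ∣ n k).exists_min_image d
      (by obtain ⟨k, hk⟩ := hcon; exact ⟨k, by simp [hk]⟩)
    rw [Finset.mem_filter] at hk
    obtain ⟨a, c, ha, hc, hfk⟩ := hf k
    have hrest : IntMod ζ (d k + 1) (∏ j ∈ univ.erase k, (f j : R) ^ n j) := by
      refine IntMod.prod _ _ fun j hj => ?_
      by_cases hpj : p ∣ n j
      · obtain ⟨q, hq⟩ := hpj
        refine IntMod.of_le (N := p - 1) (by have := hdp k; omega) ?_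
        rw [hq, mul_comm, pow_mul]
        exact hppow _
      · have hlt : d k + 1 ≤ d j := by
          have h1 := hmin j (by simp [hpj])
          have h2 : d k ≠ d j := fun h => (Finset.mem_erase.1 hj).1 (hd h).symm
          omega
        refine IntMod.pow ?_ _
        obtain ⟨a', c', -, -, hfj⟩ := hf j
        refine ⟨a', ?_⟩
        have h1 := (pow_dvd_pow (ζ - 1) (show d k + 1 ≤ d j + 1 by omega)).trans hfj
        have h2 : (ζ - 1) ^ (d k + 1) ∣ (c' : R) * (ζ - 1) ^ d j :=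
          dvd_mul_of_dvd_right (pow_dvd_pow _ hlt) _
        have := dvd_add h1 h2
        convert this using 1; ring
    obtain ⟨A, w1, hA⟩ := hrest
    have hnk : 0 < n k := Nat.pos_of_ne_zero fun h => hk.2 (h ▸ dvd_zero p)
    obtain ⟨w2, hpow⟩ := pow_congr_linear hfk (show (ζ - 1) ^ (d k + 1) ∣
        ((c : R) * (ζ - 1) ^ d k) ^ 2 by
      rw [mul_pow, ← pow_mul]
      exact dvd_mul_of_dvd_right (pow_dvd_pow _ (by have := hd1 k; omega)) _) hnk
    obtain ⟨B, hB⟩ := hn.of_le (show d k + 1 ≤ p - 1 by have := hdp k; omega)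
    obtain ⟨w3, hB⟩ := hB
    rw [← Finset.mul_prod_erase _ _ (Finset.mem_univ k)] at hB
    set Z : ℤ := (n k : ℤ) * a ^ (n k - 1) * c * A with hZ
    set W : ℤ := a ^ n k * A - B with hW
    have hsum : (ζ - 1) ^ (d k + 1) ∣ (W : R) + (Z : R) * (ζ - 1) ^ d k := by
      refine ⟨w3 - ((∏ j ∈ univ.erase k, (f j : R) ^ n j) * w2)
        - ((a : R) ^ n k + (n k : R) * (a : R) ^ (n k - 1) * ((c : R) * (ζ - 1) ^ d k)) * w1,
        ?_⟩
      simp only [hZ, hW]
      push_cast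
      linear_combination hB - (∏ j ∈ univ.erase k, (f j : R) ^ n j) * hpow
        - ((a : R) ^ n k + (n k : R) * (a : R) ^ (n k - 1) * ((c : R) * (ζ - 1) ^ d k)) * hA
    have hWd : ζ - 1 ∣ (W : R) := by
      have h1 : ζ - 1 ∣ (Z : R) * (ζ - 1) ^ d k :=
        dvd_mul_of_dvd_right (dvd_pow_self _ (by have := hd1 k; omega)) _
      have h2 := (dvd_pow_self (ζ - 1) (Nat.succ_ne_zero (d k))).trans hsum
      simpa using dvd_sub h2 h1
    have hWp : (ζ - 1) ^ (d k + 1) ∣ (W : R) :=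
      ((pow_dvd_pow _ (by have := hdp k; omega)).trans H.lam_dvd_prime).trans
        (H.prime_dvd_of_int hWd)
    have hZd : ζ - 1 ∣ (Z : R) := by
      have h := dvd_sub hsum hWp
      rw [add_sub_cancel_left, pow_succ', mul_dvd_mul_iff_right (pow_ne_zero _ hlam.ne_zero)] at h
      exact h
    have hA' : ¬ (p : ℤ) ∣ A := by
      rintro ⟨q, rfl⟩
      have h1 : ζ - 1 ∣ ((p * q : ℤ) : R) := by
        push_cast; exact dvd_mul_of_dvd_left H.lam_dvd_prime_one _
      have h2 : ζ - 1 ∣ (ζ - 1) ^ (d k + 1) * w1 :=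
        dvd_mul_of_dvd_left (dvd_pow_self _ (Nat.succ_ne_zero _)) _
      rw [← hA] at h2
      have h3 := dvd_add h2 h1
      rw [sub_add_cancel, hlam.dvd_finsetProd_iff] at h3
      obtain ⟨j, -, hj⟩ := h3
      exact H.lam_not_dvd_unit (f j) (hlam.dvd_of_dvd_pow hj)
    have hpI : Prime (p : ℤ) := Nat.prime_iff_prime_int.mp hp.out
    rcases hpI.dvd_or_dvd (H.int_dvd Z hZd) with h | h
    · rcases hpI.dvd_or_dvd h with h | h
      · rcases hpI.dvd_or_dvd h with h | h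
        · exact hk.2 (Int.natCast_dvd_natCast.1 h)
        · exact ha (hpI.dvd_of_dvd_pow h)
      · exact hc h
    · exact hA' h
  set Q := Rˣ ⧸ (powMonoidHom p : Rˣ →* Rˣ).range
  let π : Rˣ →* Q := QuotientGroup.mk' _
  have hπmul : ∀ x v : Rˣ, π (x * v ^ p) = π x := fun x v =>
    ((QuotientGroup.eq (s := (powMonoidHom p : Rˣ →* Rˣ).range)).2 ⟨v, by simp⟩).symm
  let F : (Fin N → Fin p) → Q := fun e => π (∏ k, f k ^ (e k : ℕ))
  let G : (ι → Fin p) → Q := fun e => π (∏ i, g i ^ (e i : ℕ))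
  have hG : Function.Surjective G := by
    intro q
    obtain ⟨u, rfl⟩ := QuotientGroup.mk'_surjective _ q
    obtain ⟨e, v, rfl⟩ := hg u
    have hp0 : (p : ℤ) ≠ 0 := by exact_mod_cast hp.out.ne_zero
    refine ⟨fun i => ⟨(e i % (p : ℤ)).toNat, ?_⟩, ?_⟩
    · have := Int.emod_lt_of_pos (e i) (show (0 : ℤ) < p by exact_mod_cast hp.out.pos)
      omega
    · show π _ = π _
      rw [hπmul, map_prod, map_prod]
      refine Finset.prod_congr rfl fun i _ => ?_
      conv_rhs => rw [← Int.emod_add_ediv_mul (e i) (p : ℤ), zpow_add, zpow_mul, zpow_natCast,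
        hπmul]
      rw [← zpow_natCast, Int.toNat_of_nonneg (Int.emod_nonneg _ hp0)]
  have hF : Function.Injective F := by
    intro e e' he
    have he' := QuotientGroup.eq.1 he
    obtain ⟨v, hv⟩ := he'
    rw [powMonoidHom_apply] at hv
    have h : ∏ k, f k ^ ((e' k : ℕ) + (p - (e k : ℕ))) = (v * ∏ k, f k) ^ p := by
      rw [mul_pow, hv, ← Finset.prod_pow, ← Finset.prod_inv_distrib, ← Finset.prod_mul_distrib,
        ← Finset.prod_mul_distrib]
      refine Finset.prod_congr rfl fun k _ => ?_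
      rw [← pow_sub_mul_pow (f k) ((e k).isLt.le), pow_add]
      rw [mul_comm (f k ^ (p - (e k : ℕ))) (f k ^ (e k : ℕ)), mul_comm _ (f k ^ (e' k : ℕ))]
      simp [mul_assoc]
    have := hind (fun k => (e' k : ℕ) + (p - (e k : ℕ))) (by
      have h' := congrArg Units.val h
      rw [Units.coe_prod] at h'
      simp only [Units.val_pow_eq_pow_val] at h'
      rw [h']
      exact hppow _)
    funext k
    obtain ⟨q, hq⟩ := this k
    have h1 := (e k).isLt
    have h2 := (e' k).isLt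
    ext
    rcases q with _ | _ | q
    · omega
    · omega
    · exfalso
      have h3 : 2 * p ≤ p * (q + 1 + 1) := by
        rw [mul_comm 2 p]; exact Nat.mul_le_mul_left _ (by omega)
      omega
  have : Finite Q := Finite.of_surjective G hG
  have hFsurj : Function.Surjective F := by
    refine (hF.bijective_of_nat_card_le ?_).2
    refine (Nat.card_le_card_of_surjective G hG).trans ?_
    simp only [Nat.card_eq_fintype_card, Fintype.card_pi, Finset.prod_const, Finset.card_univ,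
      Fintype.card_fin]
    exact Nat.pow_le_pow_right hp.out.pos hι
  rintro u ⟨m, hm⟩
  obtain ⟨e, he⟩ := hFsurj (π u)
  obtain ⟨v, hv⟩ := QuotientGroup.eq.1 he
  rw [powMonoidHom_apply] at hv
  have hu : u = (∏ k, f k ^ (e k : ℕ)) * v ^ p := by rw [hv, mul_inv_cancel_left]
  have he0 : ∀ k, p ∣ (e k : ℕ) := by
    refine hind (fun k => (e k : ℕ)) ?_
    have h : (∏ k, f k ^ (e k : ℕ)) = u * (v⁻¹) ^ p := by
      rw [hu, inv_pow, mul_inv_cancel_right]
    have h' := congrArg Units.val h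
    rw [Units.coe_prod] at h'
    simp only [Units.val_pow_eq_pow_val, Units.val_mul] at h'
    rw [h']
    exact IntMod.mul ⟨m, H.lam_dvd_prime.trans hm⟩ (hppow _)
  refine ⟨v, ?_⟩
  rw [hu, Finset.prod_eq_one, one_mul]
  intro k _
  rw [Nat.eq_zero_of_dvd_of_lt (he0 k) (e k).isLt, pow_zero]

/-- The product `∏ (1 + ζ + ⋯ + ζ ^ (a - 1)) ^ e` over a list of pairs `(a, e)`. -/
def cycloProd (ζ : R) : List (ℕ × ℕ) → R
  | [] => 1
  | (a, e) :: l => (∑ i ∈ range a, ζ ^ i) ^ e * cycloProd ζ l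

/-- The truncated expansion of `cycloProd` in powers of `ζ - 1`. -/
def cycloProdL (p : ℤ) (n : ℕ) : List (ℕ × ℕ) → List ℤ
  | [] => [1]
  | (a, e) :: l => mulT p n (powT p n (geomL a) e) (cycloProdL p n l)

/-- A certificate that `ζ ^ m * cycloProd ζ L` has leading terms in degrees `0` and `d`. -/
structure UnitCert where
  /-- The degree of the leading non-constant term. -/
  d : ℕ
  /-- The constant term. -/
  a : ℤ
  /-- The leading coefficient. -/
  c : ℤ
  /-- The exponent of `ζ`. -/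
  m : ℕ
  /-- The exponents of cyclotomic units. -/
  L : List (ℕ × ℕ)

/-- The Boolean test of a unit certificate. -/
def UnitCert.ok (p : ℕ) (C : UnitCert) : Bool :=
  decide (1 ≤ C.d) && decide (C.d < p - 1) && decide (C.a % (p : ℤ) ≠ 0) &&
    decide (C.c % (p : ℤ) ≠ 0) && C.L.all (fun x => decide (0 < x.1) && decide (x.1 < p)) &&
    decide (mulT p (C.d + 1) (powT p (C.d + 1) [1, 1] C.m) (cycloProdL p (C.d + 1) C.L)
      = C.a :: (List.replicate (C.d - 1) 0 ++ [C.c]))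

theorem isUnit_cycloProd (H : CycloRing R p ζ) :
    ∀ L : List (ℕ × ℕ), (∀ x ∈ L, 0 < x.1 ∧ x.1 < p) → IsUnit (cycloProd ζ L)
  | [], _ => isUnit_one
  | (a, e) :: l, h => by
    refine IsUnit.mul (IsUnit.pow _ ?_) (isUnit_cycloProd H l fun x hx => h x (by simp [hx]))
    obtain ⟨h1, h2⟩ := h (a, e) (by simp)
    exact H.prim.geom_sum_isUnit hp.out.two_le
      ((hp.out.coprime_iff_not_dvd.2 (Nat.not_dvd_of_pos_of_lt h1 h2)).symm)

theorem cycloProd_congr {n : ℕ} (hn : (ζ - 1) ^ n ∣ ((p : ℤ) : R)) :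
    ∀ L : List (ℕ × ℕ),
      (ζ - 1) ^ n ∣ cycloProd ζ L - evalL (ζ - 1) (cycloProdL (p : ℤ) n L)
  | [] => by simp [cycloProd, cycloProdL, evalL]
  | (a, e) :: l =>
    evalL_mulT_dvd hn (evalL_powT_dvd hn (by simp [evalL_geomL]) e) (cycloProd_congr hn l)

theorem UnitCert.spec (H : CycloRing R p ζ) (C : UnitCert) (h : C.ok p = true) :
    1 ≤ C.d ∧ C.d < p - 1 ∧ ∃ u : Rˣ, ∃ a c : ℤ, ¬ (p : ℤ) ∣ a ∧ ¬ (p : ℤ) ∣ c ∧
      (ζ - 1) ^ (C.d + 1) ∣ (u : R) - ((a : R) + (c : R) * (ζ - 1) ^ C.d) := by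
  simp only [UnitCert.ok, Bool.and_eq_true, decide_eq_true_eq, List.all_eq_true] at h
  obtain ⟨⟨⟨⟨⟨h1, h2⟩, h3⟩, h4⟩, h5⟩, h6⟩ := h
  refine ⟨h1, h2, ?_⟩
  obtain ⟨u, hu⟩ := ((H.prim.isUnit hp.out.ne_zero).pow C.m).mul (isUnit_cycloProd H C.L h5)
  refine ⟨u, C.a, C.c, fun h => h3 (Int.emod_eq_zero_of_dvd h),
    fun h => h4 (Int.emod_eq_zero_of_dvd h), ?_⟩
  have hn : (ζ - 1) ^ (C.d + 1) ∣ (((p : ℤ)) : R) := by
    rw [Int.cast_natCast]
    exact (pow_dvd_pow _ (by omega)).trans H.lam_dvd_prime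
  have hz : (ζ - 1) ^ (C.d + 1) ∣ ζ - evalL (ζ - 1) [1, 1] := by simp [evalL]
  have := evalL_mulT_dvd hn (evalL_powT_dvd hn hz C.m) (cycloProd_congr hn C.L)
  rw [h6] at this
  rw [hu]
  convert this using 2
  obtain ⟨k, hk⟩ := Nat.exists_eq_add_of_le h1
  rw [hk, Nat.add_sub_cancel_left]
  simp [evalL, evalL_append, evalL_replicate, pow_succ', pow_add]
  ring

/-- Kummer's property from a list of certificates. -/
theorem kummerProp_of_certs (H : CycloRing R p ζ) (Cs : List UnitCert)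
    (hok : Cs.all (UnitCert.ok p) = true) (hnodup : (Cs.map UnitCert.d).Nodup)
    {ι : Type*} [Fintype ι] (g : ι → Rˣ) (hι : Fintype.card ι ≤ Cs.length)
    (hg : ∀ u : Rˣ, ∃ (e : ι → ℤ) (v : Rˣ), u = (∏ i, g i ^ e i) * v ^ p) :
    KummerProp R p := by
  have hs : ∀ k : Fin Cs.length, (Cs.get k).ok p = true := fun k =>
    List.all_eq_true.1 hok _ (List.get_mem _ _)
  choose h1 h2 f hf using fun k => (Cs.get k).spec H (hs k)
  refine kummerProp_of_leading_terms H f (fun k => (Cs.get k).d) ?_ h1 h2 hf g hι hg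
  intro i j hij
  have := List.nodup_iff_injective_get.1 hnodup (a₁ := Fin.cast (by simp) i)
    (a₂ := Fin.cast (by simp) j) (by simpa using hij)
  simpa [Fin.ext_iff] using this

end FA.Regular
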