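import Fermat.Agent.Regular.ClassNumberValuation

/-!
# The valuations of the sums `∑ a ω^i(a)` at the irregular primes below `157`
-/

set_option autoImplicit false

namespace FA.Regular

theorem certValuation_thirtySeven : certValuation 37 32 = true := by decide +kernel

theorem certValuation_fiftyNine : certValuation 59 44 = true := by decide +kernel

theorem certValuation_sixtySeven : certValuation 67 58 = true := by decide +kernel

theorem certValuation_oneHundredOne : certValuation 101 68 = true := by decide +kernel

theorem certValuation_oneHundredThree : certValuation 103 24 = true := by decide +kernel

theorem certValuation_oneHundredThirtyOne : certValuation 131 22 = true := by decide +kernel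

theorem certValuation_oneHundredFortyNine : certValuation 149 130 = true := by decide +kernel

end FA.Regular
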