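import Fermat.Agent.Regular.CriterionConverse
import Fermat.Agent.Root.SummaryIrregularBelowHundred

/-!
# The plus part at the irregular primes below one hundred

At `p = 37, 59, 67` the projection of weight `32, 44, 58` of the unit `(ζ^a - 1)/(ζ - 1)` is no `p`-th
power residue at a prime `q ≡ 1 (mod p)`, so no `p`-th power, and Thaine's argument applies.
-/

set_option autoImplicit false

noncomputable section

open NumberField IsDedekindDomain
open scoped Classical nonZeroDivisors

namespace FA.Regular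

/-- `((unit of weight k at ζ = r)^((q-1)/p))`. -/
def residueSymbol (p k q : ℕ) (r : ZMod q) (a : ℕ) : ZMod q :=
  (∏ s ∈ Finset.Ico 1 p, (∑ i ∈ Finset.range a, r ^ (s * i)) ^ (s ^ (p - 1 - k) % p)) ^ ((q - 1) / p)

theorem residueSymbol_thirtySeven : residueSymbol 37 32 149 16 2 ≠ 1 := by
  decide +kernel

theorem residueSymbol_fiftyNine : residueSymbol 59 44 709 551 2 ≠ 1 := by
  decide +kernel

theorem residueSymbol_sixtySeven : residueSymbol 67 58 269 16 2 ≠ 1 := by
  decide +kernel

theorem root_thirtySeven : ∑ i ∈ Finset.range 37, (16 : ZMod 149) ^ i = 0 := by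
  decide +kernel

theorem root_fiftyNine : ∑ i ∈ Finset.range 59, (551 : ZMod 709) ^ i = 0 := by
  decide +kernel

theorem root_sixtySeven : ∑ i ∈ Finset.range 67, (16 : ZMod 269) ^ i = 0 := by
  decide +kernel

variable (p : ℕ) [Fact p.Prime] (K : Type*) [Field K] [NumberField K]
  [IsCyclotomicExtension {p} ℚ K]

section

variable {q : ℕ} [Fact q.Prime]

theorem aeval_minpoly_residue {r : ZMod q} (hr : ∑ i ∈ Finset.range p, r ^ i = 0) :
    Polynomial.aeval r (minpoly ℤ (IsCyclotomicExtension.zeta_spec p ℚ K).integralPowerBasis.gen) = 0 := by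
  have hp : p.Prime := Fact.out
  rw [IsPrimitiveRoot.integralPowerBasis_gen, ← RingOfIntegers.minpoly_coe,
    show ((IsCyclotomicExtension.zeta_spec p ℚ K).toInteger : K) =
      IsCyclotomicExtension.zeta p ℚ K from rfl,
    ← Polynomial.cyclotomic_eq_minpoly (IsCyclotomicExtension.zeta_spec p ℚ K) hp.pos, Polynomial.cyclotomic_prime, map_sum]
  simpa using hr

/-- `ζ ↦ r`. -/
def residueHom {r : ZMod q} (hr : ∑ i ∈ Finset.range p, r ^ i = 0) : 𝓞 K →+* ZMod q :=
  ((IsCyclotomicExtension.zeta_spec p ℚ K).integralPowerBasis.lift r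
    (aeval_minpoly_residue p K hr)).toRingHom

theorem residueHom_zeta {r : ZMod q} (hr : ∑ i ∈ Finset.range p, r ^ i = 0) :
    residueHom p K hr (FA.Ext.zetaInt p K) = r := by
  have h := (IsCyclotomicExtension.zeta_spec p ℚ K).integralPowerBasis.lift_gen r
    (aeval_minpoly_residue p K hr)
  rwa [show (IsCyclotomicExtension.zeta_spec p ℚ K).integralPowerBasis.gen = FA.Ext.zetaInt p K from
    IsPrimitiveRoot.integralPowerBasis_gen _] at h

/-- The value of the projected cyclotomic unit at a root. -/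
theorem residueHom_unitProj {k : ℕ} (hk : k ≤ p - 1) {r : ZMod q}
    (hr : ∑ i ∈ Finset.range p, r ^ i = 0) {a : ℕ} (ha : (a : ZMod p) ≠ 0) :
    residueHom p K hr (unitProj p K k (cycU p K ha) : 𝓞 K) ^ ((q - 1) / p) =
      residueSymbol p k q r a := by
  rw [residueSymbol]
  congr 1
  rw [unitProj_apply, Units.coe_prod, map_prod]
  have hp : p.Prime := Fact.out
  have : NeZero p := ⟨hp.ne_zero⟩
  refine Finset.prod_nbij (fun d : (ZMod p)ˣ => ((d⁻¹ : (ZMod p)ˣ) : ZMod p).val) ?_ ?_ ?_ ?_
  · exact fun d _ => Finset.mem_Ico.mpr ⟨Nat.pos_of_ne_zero ((ZMod.val_ne_zero _).mpr (Units.ne_zero _)),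
      ZMod.val_lt _⟩
  · exact fun d _ d' _ h => inv_injective (Units.ext (ZMod.val_injective p h))
  · intro s hs
    obtain ⟨h1, h2⟩ := Finset.mem_Ico.mp hs
    have hne : (s : ZMod p) ≠ 0 := fun h => by
      rw [ZMod.natCast_eq_zero_iff] at h
      exact absurd (Nat.le_of_dvd h1 h) (by omega)
    exact ⟨(Units.mk0 _ hne)⁻¹, Finset.mem_coe.mpr (Finset.mem_univ _), by
      simp only [inv_inv, Units.val_mk0, ZMod.val_cast_of_lt h2]⟩
  · intro d _
    rw [Units.val_pow_eq_pow_val, map_pow, FA.Ext.sigmaU_coe,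
      show (cycU p K ha : 𝓞 K) = ∑ i ∈ Finset.range a, FA.Ext.zetaInt p K ^ i from rfl]
    simp only [map_sum, map_pow, FA.Ext.sigma_zetaInt, residueHom_zeta, ← pow_mul]
    congr 1
    rw [← ZMod.val_natCast, Nat.cast_pow, ZMod.natCast_zmod_val]
    congr 1
    rw [← Units.val_pow_eq_pow_val, ← Units.val_pow_eq_pow_val]
    congr 1
    rw [inv_pow, eq_inv_iff_mul_eq_one, ← pow_add, Nat.add_sub_cancel' hk, ← ZMod.card_units p,
      pow_card_eq_one]

/-- A residue symbol other than one shows that the projected cyclotomic unit is no `p`-th power. -/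
theorem not_pow_of_residueSymbol {k : ℕ} (hk : k ≤ p - 1) {r : ZMod q}
    (hr : ∑ i ∈ Finset.range p, r ^ i = 0) (hpq : p ∣ q - 1) {a : ℕ} (ha : (a : ZMod p) ≠ 0)
    (hsym : residueSymbol p k q r a ≠ 1) (y : K) :
    y ^ p ≠ ((unitProj p K k (cycU p K ha) : 𝓞 K) : K) := by
  intro hy
  obtain ⟨w, hw, -⟩ := FA.Ext.exists_unit_pow_eq p K hy
  refine hsym ?_
  rw [← residueHom_unitProj p K hk hr ha, ← hw, Units.val_pow_eq_pow_val, map_pow, ← pow_mul,
    Nat.mul_div_cancel' hpq]
  exact ZMod.pow_card_sub_one_eq_one ((Units.isUnit w).map _).ne_zero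

end

/-- A class killed by `p` and fixed by conjugation is trivial when the even weights carry no class. -/
theorem eq_one_of_fixed (h5 : 5 ≤ p) {x : ClassGroup (𝓞 K)}
    (hev : ∀ i, Even i → i < p - 1 → FA.Ext.weightProj p K i x = 1) (hx : x ^ p = 1)
    (hconj : FA.Ext.sigmaCl p K (-1) x = x) : x = 1 := by
  have hp : p.Prime := Fact.out
  have hproj : ∀ i < p - 1, FA.Ext.weightProj p K i x = 1 := by
    intro i hi
    rcases Nat.even_or_odd i with hev' | hodd'
    · exact hev i hev' hi
    · set P := FA.Ext.weightProj p K i x with hP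
      have hPp : P ^ p = 1 := by rw [hP, ← map_pow, hx, map_one]
      have h1 : FA.Ext.sigmaCl p K (-1) P = P := by
        simp only [hP, FA.Ext.weightProj, MonoidHom.coe_mk, OneHom.coe_mk, map_prod, map_pow,
          ← FA.Ext.sigmaCl_mul]
        refine Finset.prod_congr rfl fun d _ => ?_
        rw [mul_comm, FA.Ext.sigmaCl_mul, hconj]
      rw [weightProj_eigen p K i hx, ← hP, Units.val_neg, Units.val_one,
        hodd'.neg_one_pow, show (-1 : ZMod p).val = p - 1 by
          obtain ⟨q, rfl⟩ : ∃ q, p = q + 1 := ⟨p - 1, by omega⟩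
          rw [ZMod.val_neg_one, Nat.add_sub_cancel]] at h1
      have h2 : P ^ (p - 2) = 1 := by
        refine mul_right_cancel (b := P) ?_
        rw [← pow_succ, show p - 2 + 1 = p - 1 by omega, h1, one_mul]
      have h3 : p.Coprime (p - 2) := (Nat.Prime.coprime_iff_not_dvd hp).mpr fun h => by
        have := Nat.le_of_dvd (by omega) h
        omega
      rw [← pow_one P, ← h3]
      exact pow_gcd_eq_one.mpr ⟨hPp, h2⟩
  have htot := prod_weightProj p K hx
  rw [Finset.prod_eq_one fun i hi => hproj i (Finset.mem_range.mp hi)] at htot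
  exact inv_eq_one.mp htot.symm

/-- No character of an irregular weight below one hundred. -/
theorem no_irregular_weight_char (hp100 : p < 100) {k : ℕ} (hev : Even k) (hk : 2 ≤ k)
    (hkp : k ≤ p - 3) (hB : (p : ℤ) ∣ (bernoulli k).num)
    (φ : ClassGroup (𝓞 K) →* Multiplicative (ZMod p))
    (hφ : ∀ (d : (ZMod p)ˣ) (I J : (Ideal (𝓞 K))⁰),
      J.1 = I.1.map (FA.Ext.sigma p K d : 𝓞 K →+* 𝓞 K) →
      φ (ClassGroup.mk0 J) = φ (ClassGroup.mk0 I) ^ ((d : ZMod p) ^ k).val)
    (hne : φ ≠ 1) : False := by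
  have h := (FA.Summary.irregular_pairs_lt_hundred p k Fact.out hp100 hev hk hkp).mp hB
  simp only [List.mem_cons, Prod.mk.injEq, List.not_mem_nil, or_false] at h
  rcases h with ⟨rfl, rfl⟩ | ⟨rfl, rfl⟩ | ⟨rfl, rfl⟩
  · have : Fact (Nat.Prime 149) := ⟨by norm_num⟩
    exact no_weight_char_of_not_pow 37 K (by norm_num) 32 (a := 2)
      (fun h => absurd ((ZMod.natCast_eq_zero_iff 2 37).mp h) (by norm_num))
      (not_pow_of_residueSymbol 37 K (by norm_num) root_thirtySeven (by norm_num)
        (fun h => absurd ((ZMod.natCast_eq_zero_iff 2 37).mp h) (by norm_num))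
        residueSymbol_thirtySeven) φ hφ hne
  · have : Fact (Nat.Prime 709) := ⟨by norm_num⟩
    exact no_weight_char_of_not_pow 59 K (by norm_num) 44 (a := 2)
      (fun h => absurd ((ZMod.natCast_eq_zero_iff 2 59).mp h) (by norm_num))
      (not_pow_of_residueSymbol 59 K (by norm_num) root_fiftyNine (by norm_num)
        (fun h => absurd ((ZMod.natCast_eq_zero_iff 2 59).mp h) (by norm_num))
        residueSymbol_fiftyNine) φ hφ hne
  · have : Fact (Nat.Prime 269) := ⟨by norm_num⟩
    exact no_weight_char_of_not_pow 67 K (by norm_num) 58 (a := 2)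
      (fun h => absurd ((ZMod.natCast_eq_zero_iff 2 67).mp h) (by norm_num))
      (not_pow_of_residueSymbol 67 K (by norm_num) root_sixtySeven (by norm_num)
        (fun h => absurd ((ZMod.natCast_eq_zero_iff 2 67).mp h) (by norm_num))
        residueSymbol_sixtySeven) φ hφ hne

/-- Below one hundred every even weight vanishes. -/
theorem even_weightProj_eq_one_lt_hundred (h5 : 5 ≤ p) (hp100 : p < 100) {i : ℕ} (hev : Even i)
    (hi : i < p - 1) {x : ClassGroup (𝓞 K)} (hx : x ^ p = 1) :
    FA.Ext.weightProj p K i x = 1 := by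
  by_cases hB : 2 ≤ i ∧ (p : ℤ) ∣ (bernoulli i).num
  · by_contra hne
    obtain ⟨φ, hφne, hφ⟩ := FA.Ext.exists_weight_char_of_eigen p K i
      (by rw [← map_pow, hx, map_one]) hne (weightProj_eigen p K i hx)
    have hodd := (Fact.out : p.Prime).eq_two_or_odd
    exact no_irregular_weight_char p K hp100 hev hB.1
      (by rw [Nat.even_iff] at hev; omega) hB.2 φ hφ hφne
  · exact even_weightProj_eq_one p K h5 hev hi (fun h h' => hB ⟨h, h'⟩) hx

end FA.Regular
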