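import Fermat.Agent.Regular.VandiverDescent
import Fermat.Agent.Root.SummaryHerbrandRibetBelowHundred

/-!
# Fermat's Last Theorem at a prime with one irregular index, from finite certificates

`DescentData` and the `p`-th powers modulo the auxiliary prime give the conjecture of Kummer and
Vandiver and both cases of Fermat's equation.
-/

set_option autoImplicit false

noncomputable section

open NumberField
open scoped nonZeroDivisors

namespace FA.Regular

/-- The conditions on the `p`-th powers modulo `q`, listed in `S`. -/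
structure AuxPowers (p q : ℕ) (S : List (ZMod q)) : Prop where
  powers : ∀ x : ZMod q, x ^ p ∈ S
  noSum : ∀ x ∈ S, ∀ y ∈ S, ∀ z ∈ S, x + y + z = 0 → x = 0 ∨ y = 0 ∨ z = 0
  notMem : (p : ZMod q) ∉ S
  cert : certPowers p q S = true

variable (p : ℕ) [Fact p.Prime]

/-- Fermat's theorem from its two cases. -/
theorem fermat_of_cases (hp2 : p ≠ 2)
    (hfirst : ∀ a b c : ℤ, ¬ (p : ℤ) ∣ a * b * c → a ^ p + b ^ p ≠ c ^ p)
    (hsecond : ∀ a b c : ℤ, c ≠ 0 → IsCoprime a b → IsCoprime b c → IsCoprime c a → ¬ (p : ℤ) ∣ a →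
      ¬ (p : ℤ) ∣ b → (p : ℤ) ∣ c → a ^ p + b ^ p + c ^ p ≠ 0) : FermatLastTheoremFor p := by
  refine fermatLastTheoremFor_iff_int.mpr fun a b c ha hb hc heq => ?_
  have hp : p.Prime := Fact.out
  have hodd : Odd p := hp.odd_of_ne_two hp2
  obtain ⟨g, a', b', hg, hab, rfl, rfl⟩ :=
    Int.exists_gcd_one' (Int.gcd_pos_of_ne_zero_left b ha)
  have hgc : (g : ℤ) ∣ c := (Int.pow_dvd_pow_iff hp.ne_zero).mp
    (heq ▸ dvd_add (pow_dvd_pow_of_dvd (dvd_mul_left _ _) p) (pow_dvd_pow_of_dvd (dvd_mul_left _ _) p))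
  obtain ⟨c', rfl⟩ := hgc
  have ha' : a' ≠ 0 := left_ne_zero_of_mul ha
  have hb' : b' ≠ 0 := left_ne_zero_of_mul hb
  have hc' : c' ≠ 0 := right_ne_zero_of_mul hc
  have heq' : a' ^ p + b' ^ p = c' ^ p := by
    refine mul_left_cancel₀ (pow_ne_zero p (Int.natCast_ne_zero.mpr hg.ne')) ?_
    linear_combination heq
  rw [← Int.isCoprime_iff_gcd_eq_one] at hab
  have hcop : ∀ {u v : ℤ}, u ^ p + v ^ p = c' ^ p → IsCoprime u v → IsCoprime u c' := by
    intro u v huv hc
    refine (IsCoprime.pow_iff hp.pos hp.pos).mp ?_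
    rw [← huv, add_comm]
    simpa using (hc.pow (m := p) (n := p)).add_mul_left_right 1
  have hac : IsCoprime a' c' := hcop heq' hab
  have hbc : IsCoprime b' c' := hcop (by linear_combination heq') hab.symm
  have hpI : Prime (p : ℤ) := Nat.prime_iff_prime_int.mp hp
  have hexcl : ∀ {x y : ℤ}, IsCoprime x y → (p : ℤ) ∣ x → ¬ (p : ℤ) ∣ y := fun hxy hx hy =>
    hpI.not_isUnit (hxy.isUnit_of_dvd' hx hy)
  have hsum : a' ^ p + b' ^ p + (-c') ^ p = 0 := by
    rw [hodd.neg_pow]; linear_combination heq'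
  by_cases h1 : (p : ℤ) ∣ a'
  · exact hsecond b' (-c') a' ha' hbc.neg_right hac.symm.neg_left hab (hexcl hab h1)
      (fun h => hexcl hac h1 (dvd_neg.1 h)) h1 (by linear_combination hsum)
  by_cases h2 : (p : ℤ) ∣ b'
  · exact hsecond (-c') a' b' hb' hac.symm.neg_left hab hbc.neg_right
      (fun h => hexcl hbc h2 (dvd_neg.1 h)) h1 h2 (by linear_combination hsum)
  by_cases h3 : (p : ℤ) ∣ c'
  · exact hsecond a' b' (-c') (neg_ne_zero.2 hc') hab hbc.neg_right hac.symm.neg_left
      h1 h2 h3.neg_right hsum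
  exact hfirst a' b' c'
    (fun h => (hpI.dvd_or_dvd h).elim (fun h => (hpI.dvd_or_dvd h).elim h1 h2) h3) heq'

variable {p} {k q a t : ℕ} {r : ZMod q} [Fact q.Prime]

/-- **The conjecture of Kummer and Vandiver** from `DescentData`. -/
theorem vandiver_of_descentData (K : Type*) [Field K] [NumberField K] [IsCyclotomicExtension {p} ℚ K]
    (D : DescentData p k q a r t) (x : ClassGroup (𝓞 K)) (hx : x ^ p = 1)
    (hfix : FA.Ext.sigmaCl p K (-1) x = x) : x = 1 := by
  have h8 := D.eight_le
  refine eq_one_of_fixed p K (by omega) (fun i hev hi => ?_) hx hfix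
  have hodd := (Fact.out : p.Prime).eq_two_or_odd
  by_cases hik : i = k
  · subst hik
    by_contra hne
    obtain ⟨φ, hφne, hφ⟩ := FA.Ext.exists_weight_char_of_eigen p K i
      (by rw [← map_pow, hx, map_one]) hne (weightProj_eigen p K i hx)
    exact no_weight_char_of_not_pow p K (by omega) i D.base
      (not_pow_of_residueSymbol p K (by omega) D.root D.dvd D.base D.symbol) φ hφ hφne
  · exact even_weightProj_eq_one p K (by omega) hev hi
      (fun h2 => D.regular i hev h2 (by rw [Nat.even_iff] at hev; omega) hik) hx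

set_option backward.isDefEq.respectTransparency false in
/-- **Fermat's Last Theorem** from `DescentData` and `AuxPowers`. -/
theorem fermat_of_descentData (D : DescentData p k q a r t) {S : List (ZMod q)} (A : AuxPowers p q S) :
    FermatLastTheoremFor p := by
  have hp : p.Prime := Fact.out
  have : NeZero p := ⟨hp.ne_zero⟩
  have h8 := D.eight_le
  refine fermat_of_cases p (by omega) (fun x y z h =>
    FA.Summary.first_case_of_auxiliary p (hp.odd_of_ne_two (by omega)) S A.powers A.noSum A.notMem x y z h)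
    fun x y z hz hxy hyz hzx hx hy hz' hsum => ?_
  exact second_case_of_descentData (CyclotomicField p ℚ) D
    (fun C hC hfix => vandiver_of_descentData (CyclotomicField p ℚ) D C hC hfix) S A.powers A.noSum
    A.notMem A.cert hz hsum hxy hyz hzx hx hy hz'

end FA.Regular
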