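import Fermat.Agent.Regular.VandiverTwoCertificates
import Fermat.Agent.Regular.VandiverGeneric

/-!
# The finite data at `157` and the auxiliary prime `1571`

`logTable157` lists logarithms to base `1024` of residues, `inverseTable157` their inverse at the third root;
both are checked by the kernel below.
-/

set_option autoImplicit false

namespace FA.Regular

/-- The logarithms at the roots `1024, 1024^2, 1024^3`. -/
def logTable157 : List (List (List ℕ)) := [
  [
    [0, 0, 0, 0, 0, 0], [0, 6, 122, 37, 33, 83], [151, 0, 110, 52, 9, 42],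
    [90, 90, 0, 136, 107, 58], [52, 79, 26, 0, 74, 73], [149, 137, 98, 18, 0, 79],
    [32, 3, 39, 7, 69, 0], [105, 83, 136, 144, 36, 55], [124, 73, 98, 62, 19, 1],
    [40, 131, 66, 27, 73, 149], [138, 25, 127, 131, 46, 50], [106, 126, 0, 43, 154, 34],
    [89, 73, 109, 77, 77, 0], [14, 64, 60, 40, 126, 109], [8, 150, 62, 6, 118, 154],
    [73, 155, 6, 37, 80, 17], [86, 78, 40, 134, 139, 51], [13, 120, 116, 39, 151, 94],
    [66, 43, 29, 30, 40, 74], [4, 124, 24, 84, 156, 149], [114, 134, 89, 47, 82, 5],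
    [120, 71, 67, 141, 99, 83], [85, 45, 33, 16, 31, 92], [131, 39, 61, 134, 55, 44],
    [109, 139, 50, 154, 36, 62], [20, 112, 142, 6, 50, 11], [22, 15, 135, 92, 27, 110],
    [136, 37, 32, 53, 41, 46], [153, 145, 22, 35, 118, 16], [96, 130, 58, 141, 56, 128],
    [101, 1, 2, 133, 40, 143], [123, 122, 143, 112, 109, 22], [55, 100, 142, 16, 140, 124],
    [118, 67, 40, 67, 77, 64], [44, 50, 59, 155, 37, 117], [140, 28, 75, 83, 84, 82],
    [153, 0, 119, 58, 17, 80], [45, 79, 50, 107, 100, 23], [19, 87, 134, 146, 2, 25],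
    [60, 66, 93, 83, 117, 3], [105, 58, 82, 118, 130, 25], [56, 113, 150, 26, 72, 11],
    [116, 140, 124, 1, 110, 75], [94, 119, 58, 105, 50, 57], [83, 4, 10, 4, 98, 11],
    [44, 123, 17, 57, 11, 118], [82, 49, 80, 78, 123, 19], [72, 31, 20, 43, 132, 127],
    [27, 35, 61, 128, 93, 154], [153, 49, 53, 8, 39, 18], [111, 6, 63, 18, 136, 117],
    [82, 117, 38, 88, 142, 59], [95, 106, 52, 59, 57, 66], [72, 22, 37, 75, 29, 16],
    [141, 152, 112, 61, 80, 78], [132, 66, 86, 14, 156, 115], [106, 58, 35, 78, 95, 65],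
    [94, 67, 117, 13, 33, 97], [105, 145, 112, 126, 61, 74], [27, 142, 64, 57, 56, 109],
    [59, 95, 154, 48, 151, 21], [102, 63, 146, 145, 59, 149], [56, 145, 121, 54, 32, 1],
    [12, 106, 120, 62, 42, 131], [66, 136, 114, 5, 50, 150], [135, 66, 88, 156, 2, 99],
    [72, 79, 18, 139, 94, 99], [2, 16, 40, 10, 125, 122], [129, 112, 75, 80, 84, 108],
    [12, 23, 62, 46, 109, 144], [80, 111, 61, 145, 152, 26], [20, 110, 104, 64, 108, 10],
    [117, 5, 23, 121, 125, 58], [60, 22, 89, 138, 117, 48], [8, 136, 47, 139, 107, 97],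
    [77, 25, 96, 70, 8, 60], [43, 29, 115, 19, 69, 53], [61, 125, 19, 11, 110, 55],
    [98, 43, 88, 7, 43, 110]],
  [
    [0, 0, 0, 0, 0, 0], [0, 52, 42, 134, 37, 2], [79, 0, 73, 150, 13, 33], [3, 7, 0, 23, 23, 47],
    [73, 62, 1, 0, 91, 108], [25, 131, 50, 140, 0, 144], [73, 77, 0, 83, 70, 0],
    [150, 6, 154, 1, 65, 53], [78, 134, 51, 50, 18, 118], [43, 30, 74, 139, 137, 72],
    [134, 47, 5, 75, 70, 101], [45, 16, 92, 7, 73, 2], [139, 154, 62, 4, 130, 32],
    [15, 92, 110, 99, 154, 129], [145, 35, 16, 17, 132, 106], [1, 133, 143, 120, 3, 65],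
    [100, 16, 124, 43, 87, 135], [50, 155, 117, 5, 52, 131], [0, 58, 80, 40, 83, 17],
    [87, 146, 25, 72, 39, 101], [58, 118, 25, 95, 124, 62], [140, 1, 75, 148, 152, 51],
    [4, 4, 11, 46, 109, 149], [49, 78, 19, 43, 77, 8], [35, 128, 154, 121, 133, 104],
    [6, 18, 117, 1, 25, 145], [106, 59, 66, 92, 47, 29], [152, 61, 78, 26, 130, 107],
    [58, 78, 65, 30, 120, 91], [145, 126, 74, 73, 25, 67], [95, 48, 21, 140, 54, 127],
    [145, 54, 1, 73, 119, 31], [136, 5, 150, 51, 84, 73], [79, 139, 99, 75, 39, 5],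
    [112, 80, 108, 1, 30, 23], [111, 145, 26, 134, 19, 109], [5, 121, 58, 115, 90, 118],
    [136, 139, 97, 85, 91, 19], [29, 19, 53, 144, 48, 31], [43, 7, 110, 87, 118, 74],
    [155, 41, 85, 155, 147, 38], [95, 140, 130, 59, 109, 118], [132, 91, 1, 155, 64, 76],
    [103, 57, 3, 77, 156, 44], [56, 79, 20, 75, 91, 22], [89, 83, 38, 105, 132, 69],
    [22, 112, 55, 9, 117, 144], [102, 58, 127, 138, 55, 48], [99, 24, 28, 87, 103, 48],
    [61, 133, 28, 64, 114, 153], [26, 129, 56, 126, 148, 146], [65, 13, 114, 54, 35, 126],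
    [61, 114, 55, 94, 66, 45], [39, 10, 138, 138, 138, 32], [11, 127, 137, 96, 138, 29],
    [33, 45, 129, 51, 21, 92], [8, 99, 3, 125, 39, 46], [44, 30, 139, 62, 27, 27],
    [78, 148, 133, 112, 84, 50], [71, 88, 8, 69, 12, 113], [124, 152, 68, 136, 132, 15],
    [113, 11, 10, 45, 16, 39], [35, 35, 32, 118, 143, 126], [130, 120, 30, 44, 105, 149],
    [21, 32, 19, 88, 84, 34], [125, 141, 134, 130, 51, 81], [83, 134, 139, 11, 4, 107],
    [50, 145, 55, 84, 101, 62], [122, 35, 134, 59, 19, 127], [58, 18, 83, 140, 119, 139],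
    [94, 13, 68, 57, 137, 4], [12, 51, 31, 136, 133, 134], [118, 94, 6, 21, 10, 52],
    [63, 137, 128, 108, 131, 150], [108, 4, 126, 152, 125, 62], [100, 4, 72, 57, 117, 120],
    [37, 75, 136, 108, 86, 34], [30, 76, 155, 79, 59, 115], [143, 17, 63, 20, 142, 10]],
  [
    [0, 0, 0, 0, 0, 0], [0, 58, 48, 18, 23, 11], [39, 0, 112, 47, 15, 37],
    [66, 149, 0, 85, 47, 15], [109, 0, 1, 0, 71, 145], [6, 17, 12, 120, 0, 13],
    [29, 74, 15, 72, 48, 0], [67, 83, 13, 76, 115, 56], [50, 62, 23, 32, 70, 101],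
    [32, 46, 117, 150, 4, 57], [2, 143, 52, 65, 123, 89], [40, 64, 127, 1, 136, 63],
    [119, 80, 49, 17, 84, 62], [93, 3, 6, 108, 86, 28], [124, 75, 98, 51, 38, 72],
    [17, 118, 156, 4, 23, 126], [61, 154, 60, 104, 78, 30], [38, 59, 138, 110, 97, 1],
    [112, 78, 145, 107, 19, 22], [117, 97, 83, 30, 18, 91], [154, 21, 18, 127, 88, 117],
    [120, 131, 101, 52, 55, 71], [18, 99, 44, 5, 21, 15], [62, 144, 39, 146, 108, 139],
    [23, 58, 125, 118, 93, 47], [96, 60, 16, 48, 43, 36], [88, 110, 19, 74, 134, 110],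
    [8, 103, 47, 81, 127, 93], [42, 1, 44, 76, 26, 11], [74, 39, 66, 122, 103, 117],
    [113, 38, 153, 69, 42, 112], [90, 126, 77, 49, 64, 28], [25, 28, 58, 48, 21, 36],
    [51, 13, 35, 6, 6, 150], [85, 114, 154, 126, 121, 146], [111, 125, 84, 88, 95, 94],
    [15, 137, 95, 29, 47, 42], [102, 41, 118, 30, 119, 120], [140, 139, 12, 27, 89, 88],
    [67, 10, 84, 47, 139, 125], [95, 68, 81, 15, 69, 134], [7, 65, 35, 79, 153, 25],
    [151, 30, 99, 149, 21, 118], [90, 84, 23, 17, 100, 54], [113, 139, 38, 107, 36, 18],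
    [64, 123, 102, 33, 11, 32], [115, 83, 154, 139, 15, 102], [34, 45, 156, 112, 59, 115],
    [114, 6, 39, 52, 41, 122], [84, 7, 95, 101, 101, 84], [153, 72, 105, 120, 130, 16],
    [103, 150, 133, 110, 21, 136], [102, 63, 34, 10, 102, 60], [110, 42, 133, 2, 35, 45],
    [98, 79, 46, 134, 88, 13], [98, 1, 116, 108, 98, 80], [0, 34, 99, 56, 86, 156],
    [62, 154, 10, 53, 100, 81], [116, 94, 144, 30, 34, 39], [89, 5, 150, 101, 112, 46],
    [61, 44, 155, 51, 99, 155], [135, 110, 138, 129, 80, 152], [58, 128, 120, 143, 11, 60],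
    [142, 124, 12, 135, 109, 132], [75, 82, 18, 111, 85, 15], [134, 25, 60, 101, 3, 128],
    [150, 11, 144, 85, 130, 59], [10, 11, 72, 149, 127, 104], [20, 127, 52, 90, 109, 147],
    [63, 117, 24, 145, 96, 149], [37, 16, 89, 6, 14, 20], [35, 65, 34, 91, 73, 137],
    [64, 109, 103, 77, 43, 111], [121, 1, 31, 31, 101, 139], [88, 99, 122, 31, 113, 55],
    [75, 108, 135, 23, 128, 125], [104, 10, 45, 51, 21, 55], [47, 97, 119, 19, 121, 147],
    [19, 55, 107, 8, 131, 131]]]

/-- The `j` at the third root with a given difference, for three pairs of indices. -/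
def inverseTable157 : List (List (List ℕ)) := [
  [
    [0], [22], [], [], [], [], [], [37], [], [15], [], [], [71], [], [24], [28], [], [25], [6, 72],
    [], [77], [], [], [70], [55], [10], [], [], [62], [43], [], [38], [49], [], [], [], [],
    [9, 35], [27], [], [39], [11, 20], [], [34], [], [56], [], [], [], [], [46], [48], [40], [69],
    [58], [45], [60], [], [], [], [], [], [], [], [32], [], [], [53], [], [], [66], [], [], [], [],
    [], [75], [], [], [33], [], [], [4, 65], [], [], [], [41], [63], [76], [], [], [], [59], [],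
    [], [], [3], [64], [], [8], [16], [], [], [26], [], [], [14], [], [], [73], [12, 52], [], [18],
    [51], [], [], [], [], [54], [], [], [13], [], [], [], [], [67], [23, 30], [], [],
    [5, 21, 47, 74], [57], [7], [], [17], [], [44], [68], [], [], [31, 42, 78], [], [], [29, 36],
    [], [], [], [61], [], [19], [], [], [], [], [], [], [50]],
  [
    [0, 73], [], [15], [], [], [36, 40], [38, 50], [], [], [], [], [], [], [], [], [], [], [69],
    [75], [], [42], [72], [26], [], [], [], [], [], [], [43], [], [], [], [35], [], [8], [], [],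
    [], [], [], [], [], [], [14], [27], [], [], [39], [16, 41], [12], [], [], [], [], [], [], [],
    [], [37, 44], [24], [70], [], [], [], [], [], [], [10, 48], [], [], [], [62], [19], [], [20],
    [9], [56], [68], [18], [57, 58], [], [], [17, 31, 34], [60], [51], [78], [], [7], [], [], [55],
    [30], [], [], [], [], [], [45, 54], [], [64], [], [66], [], [], [], [5, 21, 59], [25, 28],
    [47], [], [22], [], [63], [], [33], [], [52], [6, 71, 77], [], [], [], [], [61], [], [], [67],
    [], [], [49, 76], [], [], [2], [], [], [], [13], [53], [23], [11], [], [], [], [65], [], [],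
    [1], [], [], [29], [], [], [46], [74], [32], [], [], []],
  [
    [0, 78], [48], [58], [66], [53], [59], [32], [], [], [], [34], [], [], [24, 43], [], [], [],
    [31], [], [], [], [], [], [], [], [], [40], [], [30, 56], [22], [], [35, 38], [], [], [], [],
    [], [29], [], [], [], [], [], [20, 41], [], [14, 76], [51, 52], [], [], [], [3, 65], [62], [],
    [], [12], [], [49], [71], [1], [], [25], [4], [], [], [18], [11], [], [], [], [], [], [13, 74],
    [63], [], [], [16], [], [], [68, 73], [], [50], [], [], [], [9, 69], [67], [], [44, 55], [],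
    [33], [72], [], [19], [75], [], [], [], [], [], [], [], [], [7], [2], [15], [], [], [], [], [],
    [], [], [10, 27], [], [], [], [26], [], [57], [], [39], [], [], [61], [], [], [37], [54], [70],
    [46, 64], [], [], [21], [42], [45], [], [77], [], [8, 23], [], [], [], [], [], [], [], [], [],
    [47, 60], [], [17], [28], [], [], [], [36], []]]

theorem certLog_157 : certLog 157 1571 1024 logTable157 = true := by decide +kernel

theorem certInverse_157 : certInverse 157 [77, 100, 31] logTable157 inverseTable157 = true := by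
  decide +kernel

theorem certTriple_157 : certTriple 157 [77, 100, 31] logTable157 inverseTable157 = true := by
  decide +kernel

theorem certSingleHalf_157 : certSingleHalf 157 1571 1024 = true := by decide +kernel

theorem root_oneHundredFiftySeven : ∑ i ∈ Finset.range 157, (1024 : ZMod 1571) ^ i = 0 := by decide +kernel

theorem residueSymbol_157_62 : residueSymbol 157 62 1571 1024 2 = 1024 ^ 20 ∧
    residueSymbol 157 62 1571 (1024 ^ 2) 2 = 1024 ^ 70 ∧
    residueSymbol 157 62 1571 (1024 ^ 3) 2 = 1024 ^ 155 := by decide +kernel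

theorem residueSymbol_157_110 : residueSymbol 157 110 1571 1024 2 = 1024 ^ 71 ∧
    residueSymbol 157 110 1571 (1024 ^ 2) 2 = 1024 ^ 148 ∧
    residueSymbol 157 110 1571 (1024 ^ 3) 2 = 1024 ^ 35 := by decide +kernel

/-- No three nonzero values of the list sum to zero. -/
def certNoSum (q : ℕ) (S : List (ZMod q)) : Bool :=
  S.all fun x => S.all fun y => S.all fun z =>
    decide (x = 0) || decide (y = 0) || decide (z = 0) || decide (x + y + z ≠ 0)

theorem auxPowers_oneHundredFiftySeven :
    AuxPowers 157 1571 ([0, 1, 179, 382, 621, 746, 825, 950, 1189, 1392, 1570] : List (ZMod 1571)) := by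
  refine ⟨by decide +kernel, ?_, by decide +kernel, by decide +kernel⟩
  intro x hx y hy z hz hsum
  have h : certNoSum 1571 [0, 1, 179, 382, 621, 746, 825, 950, 1189, 1392, 1570] = true := by decide +kernel
  simp only [certNoSum, List.all_eq_true, Bool.or_eq_true, decide_eq_true_eq] at h
  rcases h x hx y hy z hz with ((h | h) | h) | h
  · exact Or.inl h
  · exact Or.inr (Or.inl h)
  · exact Or.inr (Or.inr h)
  · exact absurd hsum h

end FA.Regular
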