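import Fermat.Agent.Regular.VandiverBelowHundred

/-!
# The finite data for Vandiver's descent at `37`, `59` and `67`

For a root `r` of order `p` modulo `q`, `descentG` is the `(q-1)/p` power of
`(r^i - r^j)(r^(-i) - r^j)/((1 - r^i)(1 - r^(-i)))`.
-/

set_option autoImplicit false

namespace FA.Regular

/-- The power residue of the `i`-th real factor at a root where `ω + r^j θ` vanishes. -/
def descentG (p q : ℕ) (r : ZMod q) (i j : ℕ) : ZMod q :=
  ((r ^ i - r ^ j) * (r ^ (p - i) - r ^ j) * ((1 - r ^ i) * (1 - r ^ (p - i))) ^ (p - 1)) ^ ((q - 1) / p)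

/-- The indices `i ≠ ±j`. -/
def avoids (p i j : ℕ) : Bool := decide (i ≠ j ∧ i + j ≠ p)

/-- The pairs of indices used. -/
def descentPairs : List (ℕ × ℕ) :=
  (List.range 8).flatMap fun i => (List.range i).filterMap fun k =>
    if 0 < k then some (k, i) else none

/-- At every root the residues determine that no `j ≠ 0` occurs when the units agree. -/
def certSingle (p q : ℕ) (r : ZMod q) : Bool :=
  (List.range p).all fun c => (List.range p).all fun j => decide (c = 0) || decide (j = 0) ||
    descentPairs.any fun x => avoids p x.1 j && avoids p x.2 j &&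
      decide (descentG p q (r ^ c) x.1 j ≠ descentG p q (r ^ c) x.2 j)

/-- The two roots `r, r^2` cannot both have `j ≠ 0`. -/
def certDouble (p q : ℕ) (r : ZMod q) (t : ℕ) : Bool :=
  (List.range p).all fun j₁ => (List.range p).all fun j₂ => decide (j₁ = 0) || decide (j₂ = 0) ||
    descentPairs.any fun x => avoids p x.1 j₁ && avoids p x.1 j₂ && avoids p x.2 j₁ && avoids p x.2 j₂ &&
      decide (descentG p q r x.1 j₁ ^ t * descentG p q (r ^ 2) x.2 j₂ ≠
        descentG p q r x.2 j₁ ^ t * descentG p q (r ^ 2) x.1 j₂)

/-- The congruence condition on `p`-th powers modulo `q` which puts `q` in the term divisible by `p`. -/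
def certPowers (p q : ℕ) (S : List (ZMod q)) : Bool :=
  S.all fun s => S.all fun t => S.all fun u =>
    decide (s = 0) || decide (t = 0) || decide (u = 0) || decide (s + (p : ZMod q) * t ≠ p * u)

theorem certSingle_thirtySeven : certSingle 37 149 16 = true := by decide +kernel

theorem certSingle_fiftyNine : certSingle 59 827 671 = true := by decide +kernel

theorem certSingle_sixtySeven : certSingle 67 269 16 = true := by decide +kernel

theorem certDouble_thirtySeven : certDouble 37 149 16 7 = true := by decide +kernel

theorem certDouble_fiftyNine : certDouble 59 827 671 36 = true := by decide +kernel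

theorem certDouble_sixtySeven : certDouble 67 269 16 39 = true := by decide +kernel

theorem certPowers_thirtySeven : certPowers 37 149 [0, 1, 44, 105, 148] = true := by decide +kernel

theorem certPowers_fiftyNine :
    certPowers 59 827 [0, 1, 20, 124, 270, 337, 389, 400, 427, 438, 490, 557, 703, 807, 826] = true := by
  decide +kernel

theorem certPowers_sixtySeven : certPowers 67 269 [0, 1, 82, 187, 268] = true := by decide +kernel

theorem residueSymbol_fiftyNine_aux : residueSymbol 59 44 827 671 2 ≠ 1 := by decide +kernel

theorem root_fiftyNine_aux : ∑ i ∈ Finset.range 59, (671 : ZMod 827) ^ i = 0 := by decide +kernel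

theorem residueSymbol_thirtySeven_sq :
    residueSymbol 37 32 149 (16 ^ 2) 2 = residueSymbol 37 32 149 16 2 ^ 7 := by decide +kernel

theorem residueSymbol_fiftyNine_sq :
    residueSymbol 59 44 827 (671 ^ 2) 2 = residueSymbol 59 44 827 671 2 ^ 36 := by decide +kernel

theorem residueSymbol_sixtySeven_sq :
    residueSymbol 67 58 269 (16 ^ 2) 2 = residueSymbol 67 58 269 16 2 ^ 39 := by decide +kernel

end FA.Regular
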