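import Fermat.Agent.Regular.VandiverDescentStep
import Fermat.Agent.Regular.SophieGermain

/-!
# Vandiver's theorem on the second case

No solution of `a^p + b^p + c^p = 0` with `p ∣ c` exists when `DescentData` holds at an auxiliary prime
`q` which is forced to divide `c`.
-/

set_option autoImplicit false

noncomputable section

open NumberField

namespace FA.Regular

variable {p k q a t : ℕ} {r : ZMod q} [Fact p.Prime] (K : Type*) [Field K] [NumberField K]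
  [IsCyclotomicExtension {p} ℚ K] [Fact q.Prime]

/-- A step of the descent exists at every real solution. -/
def HasDescentStep (p : ℕ) [Fact p.Prime] (K : Type*) [Field K] [NumberField K]
    [IsCyclotomicExtension {p} ℚ K] (q : ℕ) : Prop :=
  ∀ {N : ℕ}, 1 ≤ N → ∀ {ω θ ξ : 𝓞 K} (η : (𝓞 K)ˣ), cj p K ω = ω → cj p K θ = θ →
    ¬ FA.Ext.zetaInt p K - 1 ∣ θ → IsCoprime ω θ → ¬ FA.Ext.zetaInt p K - 1 ∣ ξ → (q : 𝓞 K) ∣ ξ →
    ω ^ p + θ ^ p = (η : 𝓞 K) * realLam p K ^ (p * N) * ξ ^ p → DescentNext p K q ξ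

omit [Fact q.Prime] in
/-- No real solution of `ω^p + θ^p = η λ^(pN) ξ^p` with `q ∣ ξ`. -/
theorem no_real_solution_of_step (hstep : HasDescentStep p K q)
    {N : ℕ} (hN : 1 ≤ N) {ω θ ξ : 𝓞 K} (η : (𝓞 K)ˣ) (hω : cj p K ω = ω) (hθ : cj p K θ = θ)
    (hlθ : ¬ FA.Ext.zetaInt p K - 1 ∣ θ) (hco : IsCoprime ω θ)
    (hlξ : ¬ FA.Ext.zetaInt p K - 1 ∣ ξ) (hqξ : (q : 𝓞 K) ∣ ξ)
    (heq : ω ^ p + θ ^ p = (η : 𝓞 K) * realLam p K ^ (p * N) * ξ ^ p) : False := by
  classical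
  suffices ∀ (d N : ℕ) (ω θ ξ : 𝓞 K) (η : (𝓞 K)ˣ),
      (UniqueFactorizationMonoid.normalizedFactors (Ideal.span {ξ})).toFinset.card = d → 1 ≤ N →
      cj p K ω = ω → cj p K θ = θ → ¬ FA.Ext.zetaInt p K - 1 ∣ θ → IsCoprime ω θ →
      ¬ FA.Ext.zetaInt p K - 1 ∣ ξ → (q : 𝓞 K) ∣ ξ →
      ω ^ p + θ ^ p = (η : 𝓞 K) * realLam p K ^ (p * N) * ξ ^ p → False from
    this _ N ω θ ξ η rfl hN hω hθ hlθ hco hlξ hqξ heq
  intro d
  induction d using Nat.strong_induction_on with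
  | _ d ih =>
    intro N ω θ ξ η hd hN hω hθ hlθ hco hlξ hqξ heq
    obtain ⟨N', ω', θ', ξ', η', hN', hω', hθ', hlθ', hco', hlξ', hqξ', heq', hsub, P, hP, hPξ, hPξ'⟩ :=
      hstep hN η hω hθ hlθ hco hlξ hqξ heq
    have hspan : ∀ {x : 𝓞 K}, ¬ FA.Ext.zetaInt p K - 1 ∣ x → Ideal.span {x} ≠ ⊥ := fun hx e =>
      hx (Ideal.span_singleton_eq_bot.mp e ▸ dvd_zero _)
    refine ih _ (hd ▸ Finset.card_lt_card ((Finset.ssubset_iff_of_subset ?_).mpr ⟨P, ?_, ?_⟩))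
      N' ω' θ' ξ' η' rfl hN' hω' hθ' hlθ' hco' hlξ' hqξ' heq'
    · intro Q hQ
      rw [Multiset.mem_toFinset, Ideal.mem_normalizedFactors_iff (hspan hlξ')] at hQ
      rw [Multiset.mem_toFinset, Ideal.mem_normalizedFactors_iff (hspan hlξ)]
      exact ⟨hQ.1, (Ideal.span_singleton_le_iff_mem _).mpr
        (hsub Q hQ.1 ((Ideal.span_singleton_le_iff_mem _).mp hQ.2))⟩
    · rw [Multiset.mem_toFinset, Ideal.mem_normalizedFactors_iff (hspan hlξ)]
      exact ⟨hP.isPrime, (Ideal.span_singleton_le_iff_mem _).mpr hPξ⟩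
    · rw [Multiset.mem_toFinset, Ideal.mem_normalizedFactors_iff (hspan hlξ')]
      exact fun h => hPξ' ((Ideal.span_singleton_le_iff_mem _).mp h.2)

/-- No real solution when `DescentData` holds. -/
theorem no_real_solution (D : DescentData p k q a r t)
    (hclass : ∀ C : ClassGroup (𝓞 K), C ^ p = 1 → FA.Ext.sigmaCl p K (-1) C = C → C = 1)
    {N : ℕ} (hN : 1 ≤ N) {ω θ ξ : 𝓞 K} (η : (𝓞 K)ˣ) (hω : cj p K ω = ω) (hθ : cj p K θ = θ)
    (hlθ : ¬ FA.Ext.zetaInt p K - 1 ∣ θ) (hco : IsCoprime ω θ)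
    (hlξ : ¬ FA.Ext.zetaInt p K - 1 ∣ ξ) (hqξ : (q : 𝓞 K) ∣ ξ)
    (heq : ω ^ p + θ ^ p = (η : 𝓞 K) * realLam p K ^ (p * N) * ξ ^ p) : False :=
  no_real_solution_of_step K (exists_descent K D hclass) hN η hω hθ hlθ hco hlξ hqξ heq

/-- The descent applied to integers. -/
theorem no_solution_of_step (h8 : 8 ≤ p) (hqp : q ≠ p) (hstep : HasDescentStep p K q)
    {x y w : ℤ} (hw0 : w ≠ 0) (hsum : x ^ p + y ^ p + w ^ p = 0) (hxy : IsCoprime x y)
    (hy : ¬ (p : ℤ) ∣ y) (hpw : (p : ℤ) ∣ w) (hqw : (q : ℤ) ∣ w) : False := by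
  have hp : p.Prime := Fact.out
  have hodd : Odd p := hp.odd_of_ne_two (by omega)
  have H := cycloRing_zetaInt p K (by omega)
  obtain ⟨n, w0, hw0p, rfl⟩ :=
    WfDvdMonoid.max_power_factor hw0 (Nat.prime_iff_prime_int.mp hp).irreducible
  have hn : n ≠ 0 := by
    rintro rfl
    exact hw0p (by simpa using hpw)
  have hqw0 : (q : ℤ) ∣ w0 := by
    have hqI : Prime (q : ℤ) := Nat.prime_iff_prime_int.mp Fact.out
    refine (hqI.dvd_or_dvd hqw).resolve_left fun h => hqp ?_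
    exact (Nat.prime_dvd_prime_iff_eq Fact.out hp).mp (Int.natCast_dvd_natCast.1 (hqI.dvd_of_dvd_pow h))
  obtain ⟨g, hg, hgp⟩ := exists_realUnit_prime p K (by omega)
  refine no_real_solution_of_step K hstep (N := n * ((p - 1) / 2))
    (Nat.mul_pos (Nat.pos_of_ne_zero hn) (by omega)) (ω := (x : 𝓞 K)) (θ := (y : 𝓞 K))
    (ξ := (w0 : 𝓞 K)) (-(g ^ (n * p))) (map_intCast _ _) (map_intCast _ _)
    (fun h => hy (H.int_dvd _ h)) (by simpa using hxy.map (Int.castRingHom (𝓞 K)))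
    (fun h => hw0p (H.int_dvd _ h)) ?_ ?_
  · obtain ⟨c, rfl⟩ := hqw0
    exact ⟨(c : 𝓞 K), by push_cast; ring⟩
  · have h := congrArg (Int.cast : ℤ → 𝓞 K) hsum
    push_cast at h
    rw [mul_pow, ← pow_mul, ← hgp, mul_pow, ← pow_mul,
      show (p - 1) / 2 * (n * p) = p * (n * ((p - 1) / 2)) by ring] at h
    rw [Units.val_neg, Units.val_pow_eq_pow_val]
    linear_combination h

/-- The descent applied to integers when `DescentData` holds. -/
theorem no_solution_of_dvd (D : DescentData p k q a r t)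
    (hclass : ∀ C : ClassGroup (𝓞 K), C ^ p = 1 → FA.Ext.sigmaCl p K (-1) C = C → C = 1)
    {x y w : ℤ} (hw0 : w ≠ 0) (hsum : x ^ p + y ^ p + w ^ p = 0) (hxy : IsCoprime x y)
    (hy : ¬ (p : ℤ) ∣ y) (hpw : (p : ℤ) ∣ w) (hqw : (q : ℤ) ∣ w) : False :=
  no_solution_of_step K D.eight_le D.ne (exists_descent K D hclass) hw0 hsum hxy hy hpw hqw

omit [Fact p.Prime] in
/-- The cofactor of a sum of two `p`-th powers divisible by `p`. -/
theorem exists_cofactor_div {x y : ℤ} (hodd : Odd p) (h : (p : ℤ) ∣ x + y) :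
    ∃ S e : ℤ, sgCofactor p x y = p * S ∧ S = (-y) ^ (p - 1) + p * e := by
  obtain ⟨b, hb⟩ := h
  obtain ⟨e, he⟩ := odd_sq_dvd_geom_sum₂_sub (a := -y) (b := b) hodd
  refine ⟨(-y) ^ (p - 1) + p * e, e, ?_, rfl⟩
  rw [show -y + (p : ℤ) * b = x by linear_combination -hb] at he
  rw [sgCofactor]
  linear_combination he

/-- The case where the auxiliary prime divides a term prime to `p` is impossible. -/
theorem not_q_dvd {x y w : ℤ} (hodd : Odd p) (S : List (ZMod q)) (hS : ∀ u : ZMod q, u ^ p ∈ S)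
    (hpS : (p : ZMod q) ∉ S) (hpow : certPowers p q S = true) (hsum : x ^ p + y ^ p + w ^ p = 0)
    (hxy : IsCoprime x y) (hyw : IsCoprime y w) (hwx : IsCoprime w x) (hx : ¬ (p : ℤ) ∣ x)
    (hy : ¬ (p : ℤ) ∣ y) (hpw : (p : ℤ) ∣ w) (hqx : (x : ZMod q) = 0) : False := by
  have hp : p.Prime := Fact.out
  have hpI : Prime (p : ℤ) := Nat.prime_iff_prime_int.mp hp
  obtain ⟨A, T, hA, hT, -⟩ := exists_pow_of_sum hodd hsum hyw hx
  obtain ⟨B, -, hB, -, hBy⟩ :=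
    exists_pow_of_sum (a := y) (b := w) (c := x) hodd (by linear_combination hsum) hwx hy
  have hpd : (p : ℤ) ∣ x + y := by
    have h0 : ((x + y : ℤ) : ZMod p) = 0 := by
      have h := congrArg (Int.cast : ℤ → ZMod p) hsum
      push_cast at h ⊢
      rw [(ZMod.intCast_zmod_eq_zero_iff_dvd w p).mpr hpw, zero_pow hp.ne_zero, ZMod.pow_card,
        ZMod.pow_card, add_zero] at h
      exact h
    exact (ZMod.intCast_zmod_eq_zero_iff_dvd _ p).mp h0
  obtain ⟨S', e, hS', hS'e⟩ := exists_cofactor_div hodd hpd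
  have hS'p : ¬ (p : ℤ) ∣ S' := by
    intro h
    rw [hS'e, dvd_add_left (dvd_mul_right _ _)] at h
    exact hy (dvd_neg.mp (hpI.dvd_of_dvd_pow h))
  have hcopS : IsCoprime ((p : ℤ) * (x + y)) S' := by
    refine IsCoprime.mul_left (hpI.coprime_iff_not_dvd.2 hS'p) ?_
    rw [Int.isCoprime_iff_nat_coprime]
    refine Nat.coprime_of_dvd fun l hl h1 h2 => ?_
    rw [← Int.natCast_dvd] at h1 h2
    have := Fact.mk hl
    have hb : ((x + y : ℤ) : ZMod l) = 0 := (ZMod.intCast_zmod_eq_zero_iff_dvd _ _).2 h1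
    have hs : ((sgCofactor p x y : ℤ) : ZMod l) = 0 := by
      rw [hS']
      exact (ZMod.intCast_zmod_eq_zero_iff_dvd _ _).2 (h2.mul_left _)
    push_cast at hb
    rw [sgCofactor_intCast_of_eq_neg (eq_neg_of_add_eq_zero_left hb)] at hs
    rcases mul_eq_zero.1 hs with h | h
    · rw [(Nat.prime_dvd_prime_iff_eq hl hp).mp ((ZMod.natCast_eq_zero_iff p l).1 h)] at h2
      exact hS'p h2
    · have hx0 : (x : ZMod l) = 0 := eq_zero_of_pow_eq_zero h
      have hy0 : (y : ZMod l) = 0 := by simpa [hx0] using hb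
      exact (Nat.prime_iff_prime_int.mp hl).not_isUnit
        (hxy.isUnit_of_dvd' ((ZMod.intCast_zmod_eq_zero_iff_dvd _ _).1 hx0)
          ((ZMod.intCast_zmod_eq_zero_iff_dvd _ _).1 hy0))
  have hwp : (p : ℤ) * (x + y) * S' = (-w) ^ p := by
    rw [hodd.neg_pow, mul_comm (p : ℤ), mul_assoc, ← hS', mul_comm, sgCofactor_mul hodd]
    linear_combination hsum
  obtain ⟨C, hC⟩ := Int.eq_pow_of_mul_eq_pow_odd_left hcopS hodd hwp
  have hA' := congrArg (Int.cast : ℤ → ZMod q) hA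
  have hB' := congrArg (Int.cast : ℤ → ZMod q) hB
  have hC' := congrArg (Int.cast : ℤ → ZMod q) hC
  push_cast at hA' hB' hC'
  rw [hqx] at hB' hC'
  rw [add_zero] at hB'
  rw [zero_add] at hC'
  have hqP : Prime (q : ℤ) := Nat.prime_iff_prime_int.mp Fact.out
  have hy0 : (y : ZMod q) ≠ 0 := fun h => hqP.not_isUnit
    (hxy.isUnit_of_dvd' ((ZMod.intCast_zmod_eq_zero_iff_dvd _ _).1 hqx)
      ((ZMod.intCast_zmod_eq_zero_iff_dvd _ _).1 h))
  have hw0 : (w : ZMod q) ≠ 0 := fun h => hqP.not_isUnit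
    (hwx.isUnit_of_dvd' ((ZMod.intCast_zmod_eq_zero_iff_dvd _ _).1 h)
      ((ZMod.intCast_zmod_eq_zero_iff_dvd _ _).1 hqx))
  have hp0 : (p : ZMod q) ≠ 0 := fun h => hpS (by rw [h, ← zero_pow hp.ne_zero]; exact hS 0)
  have h := hpow
  simp only [certPowers, List.all_eq_true, Bool.or_eq_true, decide_eq_true_eq] at h
  rcases h _ (hS (C : ZMod q)) _ (hS (B : ZMod q)) _ (hS (A : ZMod q)) with ((h | h) | h) | h
  · rw [h] at hC'
    exact mul_ne_zero hp0 hy0 hC'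
  · rw [h] at hB'
    exact hw0 hB'
  · have hyw' : (y : ZMod q) = -(w : ZMod q) := eq_neg_of_add_eq_zero_left (hA'.trans h)
    have hT' := congrArg (Int.cast : ℤ → ZMod q) hT
    rw [sgCofactor_intCast_of_eq_neg hyw'] at hT'
    push_cast at hT'
    rw [hyw', hB', ← hodd.neg_pow] at hT'
    have hBq : (-(B : ZMod q)) ≠ 0 := fun h => hw0 (by
      rw [hB', neg_eq_zero.mp h, zero_pow hp.ne_zero])
    refine hpS ?_
    have := hS ((T : ZMod q) * (((-(B : ZMod q)) ^ (p - 1)))⁻¹)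
    rwa [mul_pow, ← hT', inv_pow, pow_right_comm, mul_inv_cancel_right₀
      (pow_ne_zero _ (pow_ne_zero _ hBq))] at this
  · refine h ?_
    rw [← hA', ← hB', ← hC']
    ring

/-- The second case is impossible when a step of the descent always exists. -/
theorem second_case_of_step (h8 : 8 ≤ p) (hqp : q ≠ p) (hstep : HasDescentStep p K q)
    (S : List (ZMod q)) (hS : ∀ u : ZMod q, u ^ p ∈ S)
    (h1 : ∀ x ∈ S, ∀ y ∈ S, ∀ z ∈ S, x + y + z = 0 → x = 0 ∨ y = 0 ∨ z = 0)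
    (hpS : (p : ZMod q) ∉ S) (hpow : certPowers p q S = true)
    {x y w : ℤ} (hw0 : w ≠ 0) (hsum : x ^ p + y ^ p + w ^ p = 0) (hxy : IsCoprime x y)
    (hyw : IsCoprime y w) (hwx : IsCoprime w x) (hx : ¬ (p : ℤ) ∣ x) (hy : ¬ (p : ℤ) ∣ y)
    (hpw : (p : ℤ) ∣ w) : False := by
  have hp : p.Prime := Fact.out
  have hodd : Odd p := hp.odd_of_ne_two (by omega)
  have h := congrArg (Int.cast : ℤ → ZMod q) hsum
  push_cast at h
  rcases h1 _ (hS _) _ (hS _) _ (hS _) h with h | h | h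
  · exact not_q_dvd hodd S hS hpS hpow hsum hxy hyw hwx hx hy hpw (eq_zero_of_pow_eq_zero h)
  · exact not_q_dvd hodd S hS hpS hpow (x := y) (y := x) (by linear_combination hsum) hxy.symm hwx.symm
      hyw.symm hy hx hpw (eq_zero_of_pow_eq_zero h)
  · exact no_solution_of_step K h8 hqp hstep hw0 hsum hxy hy hpw
      ((ZMod.intCast_zmod_eq_zero_iff_dvd _ _).mp (eq_zero_of_pow_eq_zero h))

/-- **Vandiver's theorem**: the second case is impossible. -/
theorem second_case_of_descentData (D : DescentData p k q a r t)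
    (hclass : ∀ C : ClassGroup (𝓞 K), C ^ p = 1 → FA.Ext.sigmaCl p K (-1) C = C → C = 1)
    (S : List (ZMod q)) (hS : ∀ u : ZMod q, u ^ p ∈ S)
    (h1 : ∀ x ∈ S, ∀ y ∈ S, ∀ z ∈ S, x + y + z = 0 → x = 0 ∨ y = 0 ∨ z = 0)
    (hpS : (p : ZMod q) ∉ S) (hpow : certPowers p q S = true)
    {x y w : ℤ} (hw0 : w ≠ 0) (hsum : x ^ p + y ^ p + w ^ p = 0) (hxy : IsCoprime x y)
    (hyw : IsCoprime y w) (hwx : IsCoprime w x) (hx : ¬ (p : ℤ) ∣ x) (hy : ¬ (p : ℤ) ∣ y)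
    (hpw : (p : ℤ) ∣ w) : False :=
  second_case_of_step K D.eight_le D.ne (exists_descent K D hclass) S hS h1 hpS hpow hw0 hsum hxy hyw hwx
    hx hy hpw

end FA.Regular
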