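import Fermat.Agent.Regular.VandiverBelowHundred

/-!
# Residues modulo a prime split completely in `ℚ(ζ_p)`

For a root `r` of `1 + X + ⋯ + X^(p-1)` modulo a prime `q` there is `ℤ[ζ_p] → ℤ/q`, `ζ ↦ r`, and an
integer of `ℚ(ζ_p)` is divisible by `q` when it vanishes under all of these.
-/

set_option autoImplicit false

noncomputable section

open NumberField Polynomial

namespace FA.Regular

variable (p : ℕ) [Fact p.Prime] (K : Type*) [Field K] [NumberField K]
  [IsCyclotomicExtension {p} ℚ K] {q : ℕ} [Fact q.Prime]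

theorem isPrimitiveRoot_residue (hqp : q ≠ p) {r : ZMod q} (hr : ∑ i ∈ Finset.range p, r ^ i = 0) :
    IsPrimitiveRoot r p := by
  have hp : p.Prime := Fact.out
  have hrp : r ^ p = 1 := by
    have h := geom_sum_mul r p
    rw [hr, zero_mul] at h
    exact (sub_eq_zero.mp h.symm)
  refine (IsPrimitiveRoot.iff_orderOf).mpr (orderOf_eq_prime hrp fun h1 => hqp ?_)
  rw [h1] at hr
  simp only [one_pow, Finset.sum_const, Finset.card_range, nsmul_one] at hr
  exact (Nat.prime_dvd_prime_iff_eq Fact.out hp).mp ((ZMod.natCast_eq_zero_iff p q).mp hr)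

theorem sum_pow_residue {r : ZMod q} (hr : IsPrimitiveRoot r p) {c : ℕ} (hc : ¬ p ∣ c) :
    ∑ i ∈ Finset.range p, (r ^ c) ^ i = 0 :=
  (hr.pow_of_coprime c ((Nat.Prime.coprime_iff_not_dvd Fact.out).mpr hc).symm).geom_sum_eq_zero
    (Fact.out : p.Prime).one_lt

/-- An element vanishing at every root modulo `q` is divisible by `q`. -/
theorem dvd_of_residueHom {r : ZMod q} (hr : IsPrimitiveRoot r p) {x : 𝓞 K}
    (h : ∀ (s : ZMod q) (hs : ∑ i ∈ Finset.range p, s ^ i = 0), residueHom p K hs x = 0) :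
    (q : 𝓞 K) ∣ x := by
  have hp : p.Prime := Fact.out
  obtain ⟨g, hgdeg, hgx⟩ :=
    (IsCyclotomicExtension.zeta_spec p ℚ K).integralPowerBasis.exists_eq_aeval x
  rw [IsPrimitiveRoot.integralPowerBasis_dim, Nat.totient_prime hp] at hgdeg
  rw [show (IsCyclotomicExtension.zeta_spec p ℚ K).integralPowerBasis.gen = FA.Ext.zetaInt p K from
    IsPrimitiveRoot.integralPowerBasis_gen _] at hgx
  have hnd : ∀ c : Fin (p - 1), ¬ p ∣ c.1 + 1 := fun c h => by
    have := Nat.le_of_dvd (by omega) h; have := c.2; omega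
  have hzero : g.map (Int.castRingHom (ZMod q)) = 0 := by
    refine eq_zero_of_natDegree_lt_card_of_eval_eq_zero _ (f := fun c : Fin (p - 1) => r ^ (c.1 + 1))
      ?_ ?_ ?_
    · exact fun a b hab => Fin.ext (Nat.succ_injective
        (hr.pow_inj (by have := a.2; omega) (by have := b.2; omega) hab))
    · intro c
      have hs := sum_pow_residue p hr (hnd c)
      have h1 := h _ hs
      rw [hgx, aeval_def, hom_eval₂, residueHom_zeta] at h1
      rwa [eval_map, RingHom.ext_int (Int.castRingHom (ZMod q))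
        ((residueHom p K hs).comp (algebraMap ℤ (𝓞 K)))]
    · rw [Fintype.card_fin]
      exact (natDegree_map_le).trans_lt hgdeg
  have hdvd : C (q : ℤ) ∣ g := (C_dvd_iff_dvd_coeff _ _).mpr fun n =>
    (ZMod.intCast_zmod_eq_zero_iff_dvd _ _).mp (by
      have := congrArg (fun f : (ZMod q)[X] => f.coeff n) hzero
      simpa using this)
  obtain ⟨g', rfl⟩ := hdvd
  rw [hgx, map_mul, aeval_C, algebraMap_int_eq, map_natCast]
  exact dvd_mul_right _ _

end FA.Regular
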