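import Fermat.Agent.Regular.VandiverFactors
import Fermat.Agent.Regular.VandiverResidue
import Fermat.Agent.Regular.VandiverUnits
import Fermat.Agent.Regular.VandiverCertificates

/-!
# Vandiver's descent

Let `k` be the only irregular index of `p`, no class of order `p` be fixed by conjugation, and `q` a prime
splitting in `ℚ(ζ_p)` with the finite data of `DescentData`.  Then `ω^p + θ^p = η λ^(pN) ξ^p` has no
solution in real numbers with `q ∣ ξ`.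
-/

set_option autoImplicit false

noncomputable section

open NumberField

namespace FA.Regular

/-- The data at an auxiliary prime `q`. -/
structure DescentData (p k q a : ℕ) (r : ZMod q) (t : ℕ) : Prop where
  eight_le : 8 ≤ p
  even : Even k
  two_le : 2 ≤ k
  le : k ≤ p - 3
  regular : ∀ i, Even i → 2 ≤ i → i ≤ p - 3 → i ≠ k → ¬ (p : ℤ) ∣ (bernoulli i).num
  base : (a : ZMod p) ≠ 0
  ne : q ≠ p
  dvd : p ∣ q - 1
  root : ∑ i ∈ Finset.range p, r ^ i = 0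
  symbol : residueSymbol p k q r a ≠ 1
  symbol_sq : residueSymbol p k q (r ^ 2) a = residueSymbol p k q r a ^ t
  not_dvd : ¬ p ∣ t
  single : certSingle p q r = true
  double : certDouble p q r t = true

theorem mem_descentPairs :
    ∀ x ∈ descentPairs, 0 < x.1 ∧ x.1 < 8 ∧ 0 < x.2 ∧ x.2 < 8 := by decide

variable {p k q a t : ℕ} {r : ZMod q}

theorem DescentData.exists_single (D : DescentData p k q a r t) {c j : ℕ} (hc0 : 0 < c) (hc : c < p)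
    (hj0 : 0 < j) (hj : j < p) : ∃ i l, i ∈ Finset.Ico 1 p ∧ l ∈ Finset.Ico 1 p ∧
      (i ≠ j ∧ i + j ≠ p) ∧ (l ≠ j ∧ l + j ≠ p) ∧
      descentG p q (r ^ c) i j ≠ descentG p q (r ^ c) l j := by
  have h := D.single
  simp only [certSingle, List.all_eq_true, List.mem_range, Bool.or_eq_true, List.any_eq_true,
    Bool.and_eq_true, avoids, decide_eq_true_eq] at h
  rcases h c hc j hj with (e | e) | ⟨⟨i, l⟩, hx, ⟨hi, hl⟩, hne⟩
  · omega
  · omega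
  obtain ⟨h1, h2, h3, h4⟩ := mem_descentPairs _ hx
  have := D.eight_le
  exact ⟨i, l, Finset.mem_Ico.mpr ⟨h1, by simp only at h2; omega⟩,
    Finset.mem_Ico.mpr ⟨h3, by simp only at h4; omega⟩, hi, hl, hne⟩

theorem DescentData.exists_double (D : DescentData p k q a r t) {j₁ j₂ : ℕ} (h₁ : 0 < j₁)
    (h₁' : j₁ < p) (h₂ : 0 < j₂) (h₂' : j₂ < p) : ∃ i l, i ∈ Finset.Ico 1 p ∧ l ∈ Finset.Ico 1 p ∧
      (i ≠ j₁ ∧ i + j₁ ≠ p) ∧ (i ≠ j₂ ∧ i + j₂ ≠ p) ∧ (l ≠ j₁ ∧ l + j₁ ≠ p) ∧ (l ≠ j₂ ∧ l + j₂ ≠ p) ∧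
      descentG p q r i j₁ ^ t * descentG p q (r ^ 2) l j₂ ≠
        descentG p q r l j₁ ^ t * descentG p q (r ^ 2) i j₂ := by
  have h := D.double
  simp only [certDouble, List.all_eq_true, List.mem_range, Bool.or_eq_true, List.any_eq_true,
    Bool.and_eq_true, avoids, decide_eq_true_eq] at h
  rcases h j₁ h₁' j₂ h₂' with (e | e) | ⟨⟨i, l⟩, hx, ⟨⟨⟨hi, hi'⟩, hl⟩, hl'⟩, hne⟩
  · omega
  · omega
  obtain ⟨h1, h2, h3, h4⟩ := mem_descentPairs _ hx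
  have := D.eight_le
  exact ⟨i, l, Finset.mem_Ico.mpr ⟨h1, by simp only at h2; omega⟩,
    Finset.mem_Ico.mpr ⟨h3, by simp only at h4; omega⟩, hi, hi', hl, hl', hne⟩

theorem descentG_zero (hp : p.Prime) (hdvd : p ∣ q - 1) [Fact q.Prime] {s : ZMod q}
    (hs : IsPrimitiveRoot s p) {i : ℕ} (hi : i ∈ Finset.Ico 1 p) : descentG p q s i 0 = 1 := by
  rw [Finset.mem_Ico] at hi
  have h1 : s ^ i - 1 ≠ 0 := sub_ne_zero.mpr (hs.pow_ne_one_of_pos_of_lt (by omega) hi.2)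
  have h2 : s ^ (p - i) - 1 ≠ 0 := sub_ne_zero.mpr (hs.pow_ne_one_of_pos_of_lt (by omega) (by omega))
  rw [descentG, pow_zero, show (1 - s ^ i) * (1 - s ^ (p - i)) = (s ^ i - 1) * (s ^ (p - i) - 1) by ring,
    ← pow_succ', Nat.sub_add_cancel hp.one_le, ← pow_mul, Nat.mul_div_cancel' hdvd]
  exact ZMod.pow_card_sub_one_eq_one (mul_ne_zero h1 h2)

variable [Fact p.Prime] (K : Type*) [Field K] [NumberField K] [IsCyclotomicExtension {p} ℚ K]
  [Fact q.Prime]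

/-- At a root modulo `q` some `ω + s^j θ` vanishes, and this determines the residues of the units. -/
theorem exists_residue_index (hp5 : 5 ≤ p) (hdvd : p ∣ q - 1) (hqp : q ≠ p) {s : ZMod q}
    (hs : ∑ i ∈ Finset.range p, s ^ i = 0) {N : ℕ} {ω θ ξ η : 𝓞 K} (hco : IsCoprime ω θ)
    (hqξ : (q : 𝓞 K) ∣ ξ) (heq : ω ^ p + θ ^ p = η * realLam p K ^ (p * N) * ξ ^ p)
    {e : ℕ → (𝓞 K)ˣ} {R : ℕ → 𝓞 K} {M : ℕ}
    (h0 : ω + θ = realLam p K ^ M * ((e 0 : 𝓞 K) * R 0 ^ p))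
    (hi : ∀ i ∈ Finset.Ico 1 p,
      (ω + FA.Ext.zetaInt p K ^ i * θ) * (ω + FA.Ext.zetaInt p K ^ (p - i) * θ) =
        realLam p K * gSq p K i * ((e i : 𝓞 K) * R i ^ p)) :
    ∃ j < p, (j = 0 → residueHom p K hs (R 0) = 0) ∧ ∃ T : ZMod q, T ≠ 0 ∧
      ∀ i ∈ Finset.Ico 1 p, i ≠ j → i + j ≠ p →
        residueHom p K hs (e i : 𝓞 K) ^ ((q - 1) / p) = T * descentG p q s i j := by
  have hp : p.Prime := Fact.out
  have hodd : Odd p := hp.odd_of_ne_two (by omega)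
  have : NeZero p := ⟨hp.ne_zero⟩
  have hprim := isPrimitiveRoot_residue p hqp hs
  set f := residueHom p K hs with hf
  have hfz : f (FA.Ext.zetaInt p K) = s := residueHom_zeta p K hs
  have hfξ : f ξ = 0 := by
    obtain ⟨c, rfl⟩ := hqξ
    rw [map_mul, map_natCast, ZMod.natCast_self, zero_mul]
  have heq' : f ω ^ p + f θ ^ p = 0 := by
    rw [← map_pow, ← map_pow, ← map_add, heq, map_mul, map_pow f ξ, hfξ, zero_pow hp.ne_zero, mul_zero]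
  have hθ : f θ ≠ 0 := by
    intro h
    rw [h, zero_pow hp.ne_zero, add_zero] at heq'
    obtain ⟨A, B, hAB⟩ := hco
    have := congrArg f hAB
    rw [map_add, map_mul, map_mul, h, eq_zero_of_pow_eq_zero heq', map_one, mul_zero, mul_zero,
      add_zero] at this
    exact zero_ne_one this
  obtain ⟨j, hj, hsj⟩ := hprim.eq_pow_of_pow_eq_one (ξ := -f ω / f θ) (by
    rw [div_pow, hodd.neg_pow, neg_eq_of_add_eq_zero_right heq', div_self (pow_ne_zero _ hθ)])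
  have hω : f ω = -(s ^ j * f θ) := by rw [hsj, div_mul_cancel₀ _ hθ, neg_neg]
  have hLne : f (realLam p K) ≠ 0 := by
    have h1 : s - 1 ≠ 0 := sub_ne_zero.mpr (hprim.ne_one hp.one_lt)
    have h2 : s ^ (p - 1) - 1 ≠ 0 :=
      sub_ne_zero.mpr (hprim.pow_ne_one_of_pos_of_lt (by omega) (by omega))
    rw [realLam, map_sub (cj p K), map_one, cj_zeta, map_mul, map_sub, map_sub, map_pow, map_one, hfz]
    exact mul_ne_zero h1 h2
  refine ⟨j, hj, fun hj0 => ?_, f θ ^ (2 * ((q - 1) / p)), pow_ne_zero _ hθ, fun i hi' hij hij' => ?_⟩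
  · have h := congrArg f h0
    rw [map_add, hω, hj0, pow_zero, one_mul, neg_add_cancel, map_mul, map_pow, map_mul, map_pow] at h
    exact eq_zero_of_pow_eq_zero (((mul_eq_zero.mp h.symm).resolve_left (pow_ne_zero _ hLne) |>
      mul_eq_zero.mp).resolve_left ((Units.isUnit (e 0)).map f).ne_zero)
  · obtain ⟨hi1, hip⟩ := Finset.mem_Ico.mp hi'
    have h := congrArg f (hi i hi')
    have hd : f (realLam p K * gSq p K i) = (1 - s ^ i) * (1 - s ^ (p - i)) := by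
      rw [realLam_mul_gSq p K hip.le, map_mul, map_sub, map_sub, map_pow, map_pow, map_one, hfz]
      ring
    rw [map_mul _ _ (_ * R i ^ p), hd, map_mul, map_add, map_add, map_mul, map_mul, map_mul, map_pow,
      map_pow, map_pow, hfz, hω] at h
    set den := (1 - s ^ i) * (1 - s ^ (p - i)) with hden
    set num := (s ^ i - s ^ j) * (s ^ (p - i) - s ^ j) with hnum
    have hnum0 : num ≠ 0 := mul_ne_zero
      (sub_ne_zero.mpr fun e' => hij (hprim.pow_inj hip hj e'))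
      (sub_ne_zero.mpr fun e' => hij' (by
        have := hprim.pow_inj (show p - i < p by omega) hj e'
        omega))
    have hden0 : den ≠ 0 := mul_ne_zero
      (sub_ne_zero.mpr fun e' => hprim.pow_ne_one_of_pos_of_lt (by omega) hip e'.symm)
      (sub_ne_zero.mpr fun e' => hprim.pow_ne_one_of_pos_of_lt (by omega) (by omega) e'.symm)
    have h' : den * (f (e i : 𝓞 K) * f (R i) ^ p) = f θ ^ 2 * num := by rw [← h, hnum]; ring
    have hR : f (R i) ≠ 0 := fun e' => by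
      rw [e', zero_pow hp.ne_zero, mul_zero, mul_zero] at h'
      exact mul_ne_zero (pow_ne_zero _ hθ) hnum0 h'.symm
    have hcancel : ∀ x : ZMod q, x ≠ 0 → (x ^ p) ^ ((q - 1) / p) = 1 := fun x hx => by
      rw [← pow_mul, Nat.mul_div_cancel' hdvd]
      exact ZMod.pow_card_sub_one_eq_one hx
    have h'' := congrArg (fun x => (x * den ^ (p - 1)) ^ ((q - 1) / p)) h'
    simp only [show den * (f (e i : 𝓞 K) * f (R i) ^ p) * den ^ (p - 1) =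
      den ^ p * f (R i) ^ p * f (e i : 𝓞 K) by
        rw [show den ^ p = den * den ^ (p - 1) by rw [← pow_succ', Nat.sub_add_cancel hp.one_le]]
        ring, mul_pow, hcancel _ hR, hcancel _ hden0, one_mul] at h''
    rw [h'', descentG, ← hden]
    simp only [hnum, mul_pow, ← pow_mul]
    ring

/-- A quotient of two of the units is congruent to an integer modulo `p`. -/
theorem exists_congr_quotient (h5 : 5 ≤ p) {N : ℕ} (hN : 1 ≤ N) {ω θ : 𝓞 K} {e : ℕ → (𝓞 K)ˣ}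
    {R : ℕ → 𝓞 K}
    (hi : ∀ i ∈ Finset.Ico 1 p,
      gSq p K i * ((e i : 𝓞 K) * R i ^ p + ω * θ) =
          realLam p K ^ (p * (2 * N - 1)) * ((e 0 : 𝓞 K) * R 0 ^ p) ^ 2 ∧
        ¬ FA.Ext.zetaInt p K - 1 ∣ R i)
    {i l : ℕ} (hi' : i ∈ Finset.Ico 1 p) (hl' : l ∈ Finset.Ico 1 p) :
    ∃ n : ℤ, (p : 𝓞 K) ∣ ((e i * (e l)⁻¹ : (𝓞 K)ˣ) : 𝓞 K) - (n : 𝓞 K) := by
  have hp : p.Prime := Fact.out
  have H := cycloRing_zetaInt p K (by omega)
  have hbig : (p : 𝓞 K) ∣ realLam p K ^ (p * (2 * N - 1)) := by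
    obtain ⟨g, -, hg⟩ := exists_realUnit_prime p K (by omega)
    rw [← hg]
    exact (Units.mul_right_dvd).mpr (pow_dvd_pow _ ((show (p - 1) / 2 ≤ p by omega).trans
      (Nat.le_mul_of_pos_right _ (by omega))))
  have hdvd : ∀ i ∈ Finset.Ico 1 p, (p : 𝓞 K) ∣ (e i : 𝓞 K) * R i ^ p + ω * θ := fun i hi' =>
    (isUnit_gSq p K hi').dvd_mul_left.mp ((hi i hi').1 ▸ dvd_mul_of_dvd_left hbig _)
  obtain ⟨ni, ci, hci⟩ := H.pow_prime_int (R i)
  obtain ⟨nl, cl, hcl⟩ := H.pow_prime_int (R l)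
  have hnp : ¬ (p : ℤ) ∣ ni := by
    rintro ⟨c', rfl⟩
    refine (hi i hi').2 (H.lam_prime.dvd_of_dvd_pow (n := p) ?_)
    rw [eq_add_of_sub_eq' hci, Int.cast_mul, Int.cast_natCast]
    exact dvd_add (dvd_mul_of_dvd_left H.lam_dvd_prime_one _)
      (dvd_mul_of_dvd_left H.lam_dvd_prime_one _)
  obtain ⟨A, B, hAB⟩ : IsCoprime (p : ℤ) ni :=
    (Nat.prime_iff_prime_int.mp hp).coprime_iff_not_dvd.2 hnp
  obtain ⟨d, hd⟩ := dvd_sub (hdvd i hi') (hdvd l hl')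
  have hABR : (A : 𝓞 K) * (p : 𝓞 K) + (B : 𝓞 K) * (ni : 𝓞 K) = 1 := by
    exact_mod_cast congrArg (Int.cast : ℤ → 𝓞 K) hAB
  refine ⟨nl * B,
    (↑(e l)⁻¹ : 𝓞 K) * ((e i : 𝓞 K) * A + (B : 𝓞 K) * (d - (e i : 𝓞 K) * ci + (e l : 𝓞 K) * cl)), ?_⟩
  rw [Units.val_mul]
  push_cast
  linear_combination (-(↑(e l)⁻¹ : 𝓞 K) * (e i : 𝓞 K)) * hABR + (B : 𝓞 K) * (↑(e l)⁻¹ : 𝓞 K) *
    (hd - (e i : 𝓞 K) * hci + (e l : 𝓞 K) * hcl) + (B : 𝓞 K) * (nl : 𝓞 K) * (e l).inv_mul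

/-- At a root the residue of a quotient of two units is the quotient of two `descentG`. -/
theorem exists_residue_ratio (hp5 : 5 ≤ p) (hdvd : p ∣ q - 1) (hqp : q ≠ p) {s : ZMod q}
    (hs : ∑ i ∈ Finset.range p, s ^ i = 0) {N : ℕ} {ω θ ξ η : 𝓞 K} (hco : IsCoprime ω θ)
    (hqξ : (q : 𝓞 K) ∣ ξ) (heq : ω ^ p + θ ^ p = η * realLam p K ^ (p * N) * ξ ^ p)
    {e : ℕ → (𝓞 K)ˣ} {R : ℕ → 𝓞 K} {M : ℕ}
    (h0 : ω + θ = realLam p K ^ M * ((e 0 : 𝓞 K) * R 0 ^ p))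
    (hi : ∀ i ∈ Finset.Ico 1 p,
      (ω + FA.Ext.zetaInt p K ^ i * θ) * (ω + FA.Ext.zetaInt p K ^ (p - i) * θ) =
        realLam p K * gSq p K i * ((e i : 𝓞 K) * R i ^ p)) :
    ∃ j < p, (j = 0 → residueHom p K hs (R 0) = 0) ∧
      ∀ i ∈ Finset.Ico 1 p, ∀ l ∈ Finset.Ico 1 p, i ≠ j ∧ i + j ≠ p → l ≠ j ∧ l + j ≠ p →
        ∀ (u v : (𝓞 K)ˣ), e i = u * v ^ p * e l →
          descentG p q s i j = residueHom p K hs (u : 𝓞 K) ^ ((q - 1) / p) * descentG p q s l j := by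
  obtain ⟨j, hj, hj0, T, hT, hval⟩ := exists_residue_index K hp5 hdvd hqp hs hco hqξ heq h0 hi
  refine ⟨j, hj, hj0, fun i hi' l hl' hij hlj u v huv => mul_left_cancel₀ hT ?_⟩
  rw [← hval i hi' hij.1 hij.2, mul_left_comm, ← hval l hl' hlj.1 hlj.2, huv, Units.val_mul, Units.val_mul,
    Units.val_pow_eq_pow_val, map_mul, map_mul, map_pow, mul_pow, mul_pow, ← pow_mul _ p,
    Nat.mul_div_cancel' hdvd, ZMod.pow_card_sub_one_eq_one ((Units.isUnit v).map _).ne_zero, mul_one]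

/-- The conclusion of a step of the descent. -/
def DescentNext (p : ℕ) [Fact p.Prime] (K : Type*) [Field K] [NumberField K]
    [IsCyclotomicExtension {p} ℚ K] (q : ℕ) (ξ : 𝓞 K) : Prop :=
  ∃ (N' : ℕ) (ω' θ' ξ' : 𝓞 K) (η' : (𝓞 K)ˣ), 1 ≤ N' ∧ cj p K ω' = ω' ∧ cj p K θ' = θ' ∧
    ¬ FA.Ext.zetaInt p K - 1 ∣ θ' ∧ IsCoprime ω' θ' ∧ ¬ FA.Ext.zetaInt p K - 1 ∣ ξ' ∧
    (q : 𝓞 K) ∣ ξ' ∧
    ω' ^ p + θ' ^ p = (η' : 𝓞 K) * realLam p K ^ (p * N') * ξ' ^ p ∧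
    (∀ P : Ideal (𝓞 K), P.IsPrime → ξ' ∈ P → ξ ∈ P) ∧
    ∃ P : Ideal (𝓞 K), P.IsMaximal ∧ ξ ∈ P ∧ ξ' ∉ P

/-- The descent step from units whose quotients are `p`-th powers. -/
theorem descent_of_pow_quot (h8 : 8 ≤ p) (hdvd : p ∣ q - 1) (hqp : q ≠ p)
    (hr : ∑ i ∈ Finset.range p, r ^ i = 0)
    (hsingle : ∀ c j, 0 < c → c < p → 0 < j → j < p → ∃ i l, i ∈ Finset.Ico 1 p ∧
      l ∈ Finset.Ico 1 p ∧ (i ≠ j ∧ i + j ≠ p) ∧ (l ≠ j ∧ l + j ≠ p) ∧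
      descentG p q (r ^ c) i j ≠ descentG p q (r ^ c) l j)
    {N : ℕ} (hN : 1 ≤ N) {ω θ ξ : 𝓞 K} (η : (𝓞 K)ˣ) (hco : IsCoprime ω θ) (hqξ : (q : 𝓞 K) ∣ ξ)
    (heq : ω ^ p + θ ^ p = (η : 𝓞 K) * realLam p K ^ (p * N) * ξ ^ p)
    {e : ℕ → (𝓞 K)ˣ} {R : ℕ → 𝓞 K} {M : ℕ} (he : ∀ i, cj p K (e i : 𝓞 K) = (e i : 𝓞 K))
    (hR : ∀ i, cj p K (R i) = R i) (h0 : ω + θ = realLam p K ^ M * ((e 0 : 𝓞 K) * R 0 ^ p))
    (hlR0 : ¬ FA.Ext.zetaInt p K - 1 ∣ R 0)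
    (hi : ∀ i ∈ Finset.Ico 1 p,
      (ω + FA.Ext.zetaInt p K ^ i * θ) * (ω + FA.Ext.zetaInt p K ^ (p - i) * θ) =
          realLam p K * gSq p K i * ((e i : 𝓞 K) * R i ^ p) ∧
      gSq p K i * ((e i : 𝓞 K) * R i ^ p + ω * θ) =
          realLam p K ^ (p * (2 * N - 1)) * ((e 0 : 𝓞 K) * R 0 ^ p) ^ 2 ∧
      ¬ FA.Ext.zetaInt p K - 1 ∣ R i)
    (hR12 : IsCoprime (R 1) (R 2)) (hR0ξ : R 0 ∣ ξ ^ p) {P : Ideal (𝓞 K)} (hP : P.IsMaximal)
    (hξP : ξ ∈ P) (hR0P : R 0 ∉ P)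
    (hquot : ∀ i ∈ Finset.Ico 1 p, ∀ l ∈ Finset.Ico 1 p, ∃ v : (𝓞 K)ˣ, e i = v ^ p * e l) :
    DescentNext p K q ξ := by
  have hp : p.Prime := Fact.out
  have : NeZero p := ⟨hp.ne_zero⟩
  have hodd : Odd p := hp.odd_of_ne_two (by omega)
  have H := cycloRing_zetaInt p K (by omega)
  set z := FA.Ext.zetaInt p K with hz
  have hprim := isPrimitiveRoot_residue p hqp hr
  -- `q` divides `R 0`
  have hqR0 : (q : 𝓞 K) ∣ R 0 := by
    refine dvd_of_residueHom p K hprim fun s hs => ?_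
    obtain ⟨c, hc, rfl⟩ := hprim.eq_pow_of_pow_eq_one (isPrimitiveRoot_residue p hqp hs).pow_eq_one
    obtain ⟨j, hj, hj0, h⟩ :=
      exists_residue_ratio K (by omega) hdvd hqp hs hco hqξ heq h0 fun i hi' => (hi i hi').1
    refine hj0 ?_
    by_contra hne
    have hc0 : 0 < c := Nat.pos_of_ne_zero fun e' =>
      (isPrimitiveRoot_residue p hqp hs).ne_one hp.one_lt (by rw [e', pow_zero])
    obtain ⟨i, l, hi', hl', hij, hlj, hG⟩ := hsingle c j hc0 hc (Nat.pos_of_ne_zero hne) hj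
    obtain ⟨v, hv⟩ := hquot i hi' l hl'
    exact hG (by rw [h i hi' l hl' hij hlj 1 v (by rw [one_mul, hv]), Units.val_one, map_one, one_pow,
      one_mul])
  -- the new solution
  have m1 : 1 ∈ Finset.Ico 1 p := Finset.mem_Ico.mpr ⟨le_rfl, hp.one_lt⟩
  have m2 : 2 ∈ Finset.Ico 1 p := Finset.mem_Ico.mpr ⟨by omega, by omega⟩
  obtain ⟨w, hwp⟩ := hquot 2 m2 1 m1
  have hwcj : cj p K (w : 𝓞 K) ^ p = (w : 𝓞 K) ^ p := by
    refine mul_right_cancel₀ (e 1).ne_zero ?_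
    have h := congrArg Units.val hwp
    rw [Units.val_mul, Units.val_pow_eq_pow_val] at h
    have h' := congrArg (cj p K) h
    rw [he, map_mul, he, map_pow] at h'
    rw [← h', h]
  obtain ⟨j, -, hj⟩ := H.prim.eq_pow_of_pow_eq_one
    (ξ := cj p K (w : 𝓞 K) * ((w⁻¹ : (𝓞 K)ˣ) : 𝓞 K))
    (by rw [mul_pow, hwcj, ← mul_pow, Units.mul_inv, one_pow])
  obtain ⟨h, hreal, hpw⟩ := exists_real_mul_zeta_pow p K (by omega) (x := (w : 𝓞 K)) (j := j) (by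
    rw [hj, mul_assoc, Units.inv_mul, mul_one])
  set W := FA.Ext.zetaInt p K ^ h * (w : 𝓞 K) with hW
  have hWu : IsUnit W := ((H.prim.isUnit hp.ne_zero).pow h).mul w.isUnit
  have hg1 : gSq p K 1 = 1 := by simp [gSq, geomS]
  have hg2 : gSq p K 2 = 2 + z + z ^ (p - 1) := by
    have h := pow_succ' z (p - 1)
    rw [Nat.sub_add_cancel hp.one_le, H.prim.pow_eq_one] at h
    simp only [gSq, geomS, Finset.sum_range_succ, Finset.sum_range_zero, zero_add, pow_zero, pow_one,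
      map_add, map_one, ← hz]
    rw [hz, cj_zeta, ← hz]
    linear_combination -h
  have hζ2 : IsUnit (1 + z + z ^ (p - 1)) := by
    have hz1 : z ^ (p - 1) * z = 1 := by rw [← pow_succ, Nat.sub_add_cancel hp.one_le, H.prim.pow_eq_one]
    rw [show 1 + z + z ^ (p - 1) = z ^ (p - 1) * ∑ i ∈ Finset.range 3, z ^ i by
      simp only [Finset.sum_range_succ, Finset.sum_range_zero, zero_add, pow_zero, pow_one]
      linear_combination -(1 + z) * hz1]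
    exact ((H.prim.isUnit hp.ne_zero).pow _).mul
      (H.prim.geom_sum_isUnit hp.two_le ((Nat.coprime_primes Nat.prime_three hp).mpr (by omega)))
  obtain ⟨g2, hg2u⟩ := isUnit_gSq p K m2
  obtain ⟨d, hdu⟩ := hζ2
  refine ⟨2 * N - 1, R 1, -(W * R 2), R 0 ^ 2, e 0 ^ 2 * d * g2⁻¹ * (e 1)⁻¹, by omega, hR 1,
    by rw [map_neg, map_mul, hreal, hR], fun h' => ?_, ?_, fun h' => hlR0 (H.lam_prime.dvd_of_dvd_pow h'),
    hqR0.trans (dvd_pow_self _ two_ne_zero), ?_, fun Q hQ h' => ?_,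
    P, hP, hξP, fun h' => hR0P (hP.isPrime.mem_of_pow_mem _ h')⟩
  · rw [dvd_neg] at h'
    rcases H.lam_prime.dvd_or_dvd h' with h' | h'
    · exact H.lam_prime.not_isUnit (isUnit_of_dvd_unit h' hWu)
    · exact (hi 2 m2).2.2 h'
  · exact ((isCoprime_mul_unit_left_right hWu _ _).mpr hR12).neg_right
  · have e1 := (hi 1 m1).2.1
    have e2 := (hi 2 m2).2.1
    rw [hg1, one_mul] at e1
    rw [← hg2u] at e2
    have hWp : (e 2 : 𝓞 K) = W ^ p * (e 1 : 𝓞 K) := by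
      rw [hW, hpw, hwp, Units.val_mul, Units.val_pow_eq_pow_val]
    have hd' : (d : 𝓞 K) = (g2 : 𝓞 K) - 1 := by rw [hdu, hg2u, hg2]; ring
    refine mul_left_cancel₀ (mul_ne_zero g2.ne_zero (e 1).ne_zero) ?_
    simp only [Units.val_mul, Units.val_pow_eq_pow_val]
    rw [hodd.neg_pow, mul_pow W, ← pow_mul (R 0) 2, mul_comm 2 p, pow_mul]
    linear_combination (g2 : 𝓞 K) * e1 - e2 + (g2 : 𝓞 K) * R 2 ^ p * hWp
      - (e 0 : 𝓞 K) ^ 2 * realLam p K ^ (p * (2 * N - 1)) * (R 0 ^ p) ^ 2 * hd'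
      - (d : 𝓞 K) * (e 0 : 𝓞 K) ^ 2 * realLam p K ^ (p * (2 * N - 1)) * (R 0 ^ p) ^ 2 *
        ((e 1 : 𝓞 K) * ((e 1)⁻¹ : (𝓞 K)ˣ) * g2.mul_inv + (e 1).mul_inv)
  · exact hQ.mem_of_pow_mem _ (Ideal.mem_of_dvd Q hR0ξ (hQ.mem_of_pow_mem _ h'))


/-- The descent step. -/
theorem exists_descent (D : DescentData p k q a r t)
    (hclass : ∀ C : ClassGroup (𝓞 K), C ^ p = 1 → FA.Ext.sigmaCl p K (-1) C = C → C = 1)
    {N : ℕ} (hN : 1 ≤ N) {ω θ ξ : 𝓞 K} (η : (𝓞 K)ˣ) (hω : cj p K ω = ω) (hθ : cj p K θ = θ)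
    (hlθ : ¬ FA.Ext.zetaInt p K - 1 ∣ θ) (hco : IsCoprime ω θ)
    (hlξ : ¬ FA.Ext.zetaInt p K - 1 ∣ ξ) (hqξ : (q : 𝓞 K) ∣ ξ)
    (heq : ω ^ p + θ ^ p = (η : 𝓞 K) * realLam p K ^ (p * N) * ξ ^ p) : DescentNext p K q ξ := by
  have hp : p.Prime := Fact.out
  have : NeZero p := ⟨hp.ne_zero⟩
  have h8 := D.eight_le
  obtain ⟨e, R, he, hR, h0, hlR0, hi, hR12, hR0ξ, P, hP, hξP, hR0P⟩ :=
    exists_factors p K (by omega) hclass hN η hω hθ hlθ hco hlξ heq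
  refine descent_of_pow_quot K h8 D.dvd D.ne D.root (fun c j hc0 hc hj0 hj => D.exists_single hc0 hc hj0 hj)
    hN η hco hqξ heq he hR h0 hlR0 hi hR12 hR0ξ hP hξP hR0P ?_
  set ε := unitProj p K k (cycU p K D.base) with hε
  have hprim := isPrimitiveRoot_residue p D.ne D.root
  have hεnp : ∀ y : K, y ^ p ≠ ((ε : 𝓞 K) : K) :=
    not_pow_of_residueSymbol p K (by have := D.le; omega) D.root D.dvd D.base D.symbol
  have hquot : ∀ i ∈ Finset.Ico 1 p, ∀ l ∈ Finset.Ico 1 p, ∃ (x : ℕ) (v : (𝓞 K)ˣ),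
      e i = ε ^ x * v ^ p * e l := by
    intro i hi' l hl'
    obtain ⟨n, hn⟩ := exists_congr_quotient K (by omega) hN (fun i h => (hi i h).2) hi' hl'
    obtain ⟨x, v, hxv⟩ := exists_eq_pow_mul_pow_of_congr p K (by omega) D.even D.two_le D.le D.regular
      D.base hεnp hn
    exact ⟨x, v, by rw [← hxv, inv_mul_cancel_right]⟩
  -- the residues
  have hEval : ∀ {s : ZMod q} (hs : ∑ i ∈ Finset.range p, s ^ i = 0),
      residueSymbol p k q s a ^ p = 1 := by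
    intro s hs
    rw [← residueHom_unitProj p K (by have := D.le; omega) hs D.base, ← pow_mul,
      Nat.div_mul_cancel D.dvd]
    exact ZMod.pow_card_sub_one_eq_one ((Units.isUnit ε).map _).ne_zero
  have hcore : ∀ {s : ZMod q} (hs : ∑ i ∈ Finset.range p, s ^ i = 0), ∃ j < p,
      ∀ i ∈ Finset.Ico 1 p, ∀ l ∈ Finset.Ico 1 p, i ≠ j ∧ i + j ≠ p → l ≠ j ∧ l + j ≠ p →
        ∀ (x : ℕ) (v : (𝓞 K)ˣ), e i = ε ^ x * v ^ p * e l →
          descentG p q s i j = residueSymbol p k q s a ^ x * descentG p q s l j := by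
    intro s hs
    obtain ⟨j, hj, -, h⟩ :=
      exists_residue_ratio K (by omega) D.dvd D.ne hs hco hqξ heq h0 fun i hi' => (hi i hi').1
    refine ⟨j, hj, fun i hi' l hl' hij hlj x v hxv => ?_⟩
    rw [h i hi' l hl' hij hlj _ v hxv, Units.val_pow_eq_pow_val, map_pow, pow_right_comm, hε,
      residueHom_unitProj p K (by have := D.le; omega) hs D.base]
  -- no exponent of `ε` survives
  have hroot2 := sum_pow_residue p hprim (c := 2) (fun h => by have := Nat.le_of_dvd two_pos h; omega)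
  obtain ⟨j₁, hj₁, h1⟩ := hcore D.root
  obtain ⟨j₂, hj₂, h2⟩ := hcore hroot2
  have hx : ∀ i ∈ Finset.Ico 1 p, ∀ l ∈ Finset.Ico 1 p, ∀ (x : ℕ) (v : (𝓞 K)ˣ),
      e i = ε ^ x * v ^ p * e l → p ∣ x := by
    have hord : orderOf (residueSymbol p k q r a) = p := orderOf_eq_prime (hEval D.root) D.symbol
    intro i hi' l hl' x v hxv
    have hp0 : ∀ i ∈ Finset.Ico 1 p, i ≠ 0 ∧ i + 0 ≠ p := fun i h => by
      rw [Finset.mem_Ico] at h; omega
    rcases Nat.eq_zero_or_pos j₁ with rfl | hj₁0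
    · have h := h1 i hi' l hl' (hp0 i hi') (hp0 l hl') x v hxv
      rw [descentG_zero hp D.dvd hprim hi', descentG_zero hp D.dvd hprim hl', mul_one] at h
      exact hord ▸ orderOf_dvd_iff_pow_eq_one.mpr h.symm
    rcases Nat.eq_zero_or_pos j₂ with rfl | hj₂0
    · have hprim2 := isPrimitiveRoot_residue p D.ne hroot2
      have h := h2 i hi' l hl' (hp0 i hi') (hp0 l hl') x v hxv
      rw [descentG_zero hp D.dvd hprim2 hi', descentG_zero hp D.dvd hprim2 hl', mul_one, D.symbol_sq,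
        ← pow_mul] at h
      exact ((Nat.Prime.dvd_mul hp).mp (hord ▸ orderOf_dvd_iff_pow_eq_one.mpr h.symm)).resolve_left
        D.not_dvd
    exfalso
    obtain ⟨i, l, hi', hl', hij₁, hij₂, hlj₁, hlj₂, hne⟩ := D.exists_double hj₁0 hj₁ hj₂0 hj₂
    obtain ⟨x, v, hxv⟩ := hquot i hi' l hl'
    refine hne ?_
    rw [h1 i hi' l hl' hij₁ hlj₁ x v hxv, h2 i hi' l hl' hij₂ hlj₂ x v hxv, D.symbol_sq, mul_pow,
      pow_right_comm _ t x]
    ring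
  intro i hi' l hl'
  obtain ⟨x, v, hxv⟩ := hquot i hi' l hl'
  obtain ⟨x', rfl⟩ := hx i hi' l hl' x v hxv
  exact ⟨ε ^ x' * v, by rw [hxv, mul_pow, ← pow_mul, mul_comm p x']⟩

end FA.Regular
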