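import Fermat.Agent.Regular.VandiverCertificates
import Fermat.Agent.Regular.VandiverResidue
import Fermat.Agent.Regular.AuxiliaryPrime

/-!
# Finite certificates for Vandiver's descent with two irregular indices

Since `descentG` changes by a factor independent of `i` when `j` becomes `p - j`, it suffices to look at
`j < (p + 1) / 2`.  The residues at the roots `r, r², r³` come as logarithms to base `r` in a table `L`;
`I` lists, for three disjoint pairs of indices, the `j` at the third root with a given weighted difference.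
-/

set_option autoImplicit false

namespace FA.Regular

/-- `descentG` computed in `ℕ`. -/
def residueN (p q b i j : ℕ) : ℕ :=
  auxPowMod q 16
    ((auxPowMod q 16 b i + (q - auxPowMod q 16 b j)) *
        (auxPowMod q 16 b (p - i) + (q - auxPowMod q 16 b j)) % q *
      auxPowMod q 16
        ((1 + (q - auxPowMod q 16 b i)) * (1 + (q - auxPowMod q 16 b (p - i))) % q) (p - 1) % q)
    ((q - 1) / p)

/-- At the roots `b^c`, `c < (p + 1) / 2`, no `j ≠ 0` occurs when the units agree. -/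
def certSingleHalf (p q b : ℕ) : Bool :=
  (List.range ((p + 1) / 2)).all fun c => (List.range ((p + 1) / 2)).all fun j =>
    decide (c = 0) || decide (j = 0) || descentPairs.any fun x => decide (x.1 ≠ j) && decide (x.2 ≠ j) &&
      decide (residueN p q (auxPowMod q 16 b c) x.1 j ≠ residueN p q (auxPowMod q 16 b c) x.2 j)

/-- The logarithm at the root `b^(c+1)` of the residue of the index `n + 1`. -/
def tableLog (L : List (List (List ℕ))) (c j n : ℕ) : ℕ := ((L.getD c []).getD j []).getD n 0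

/-- The table is the table of logarithms. -/
def certLog (p q b : ℕ) (L : List (List (List ℕ))) : Bool :=
  (List.range 3).all fun c => (List.range ((p + 1) / 2)).all fun j => (List.range 6).all fun n =>
    decide (j = n + 1) || decide (tableLog L c j n < 65536 ∧
      residueN p q (auxPowMod q 16 b (c + 1)) (n + 1) j = auxPowMod q 16 b (tableLog L c j n))

/-- The weighted difference of the logarithms of two indices. -/
def tableDiff (p : ℕ) (w : List ℕ) (L : List (List (List ℕ))) (c n m j : ℕ) : ℕ :=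
  (w.getD c 0 * tableLog L c j n + (p - w.getD c 0) * tableLog L c j m) % p

/-- The lists `I` contain every `j` at the third root. -/
def certInverse (p : ℕ) (w : List ℕ) (L I : List (List (List ℕ))) : Bool :=
  (List.range 3).all fun k => (List.range ((p + 1) / 2)).all fun j =>
    decide (j = 2 * k + 1) || decide (j = 2 * k + 2) ||
      ((I.getD k []).getD (tableDiff p w L 2 (2 * k) (2 * k + 1) j) []).contains j

/-- Some pair of the six indices separates the triple. -/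
def tableRefuted (p : ℕ) (w : List ℕ) (L : List (List (List ℕ))) (j₁ j₂ j₃ : ℕ) : Bool :=
  (List.range 6).any fun m => (List.range m).any fun n =>
    decide (j₁ ≠ n + 1 ∧ j₁ ≠ m + 1 ∧ j₂ ≠ n + 1 ∧ j₂ ≠ m + 1 ∧ j₃ ≠ n + 1 ∧ j₃ ≠ m + 1) &&
      decide ((tableDiff p w L 0 n m j₁ + tableDiff p w L 1 n m j₂ + tableDiff p w L 2 n m j₃) % p ≠ 0)

/-- Each triple with at most one zero is separated. -/
def certTriple (p : ℕ) (w : List ℕ) (L I : List (List (List ℕ))) : Bool :=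
  (List.range ((p + 1) / 2)).all fun j₁ => (List.range ((p + 1) / 2)).all fun j₂ =>
    decide (j₁ = 0 ∧ j₂ = 0) || (List.range 3).any fun k =>
      decide (j₁ ≠ 2 * k + 1 ∧ j₁ ≠ 2 * k + 2 ∧ j₂ ≠ 2 * k + 1 ∧ j₂ ≠ 2 * k + 2) &&
        ((2 * k + 1) :: (2 * k + 2) :: (I.getD k []).getD
          ((2 * p - (tableDiff p w L 0 (2 * k) (2 * k + 1) j₁ + tableDiff p w L 1 (2 * k) (2 * k + 1) j₂)) % p)
          []).all fun j₃ =>
          decide (j₃ = 0 ∧ (j₁ = 0 ∨ j₂ = 0)) || tableRefuted p w L j₁ j₂ j₃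

variable {p q : ℕ}

theorem residueN_cast [Fact q.Prime] (hp : p < 65536) (hq : q < 65536) (b : ℕ) {i j : ℕ} (hi : i < p)
    (hj : j < p) : ((residueN p q b i j : ℕ) : ZMod q) = descentG p q (b : ZMod q) i j := by
  have hq0 : 0 < q := (Fact.out : q.Prime).pos
  have hpow : ∀ c e, e < 65536 → ((auxPowMod q 16 c e : ℕ) : ZMod q) = (c : ZMod q) ^ e := fun c e he =>
    auxPowMod_cast q 16 c e he
  have hle : ∀ e, auxPowMod q 16 b e ≤ q := fun e => (auxPowMod_lt hq0 16 b e).le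
  rw [residueN, hpow _ _ ((Nat.div_le_self _ _).trans_lt (by omega)), descentG, ZMod.natCast_mod, Nat.cast_mul,
    hpow _ (p - 1) (by omega), ZMod.natCast_mod, ZMod.natCast_mod, Nat.cast_mul, Nat.cast_mul, Nat.cast_add,
    Nat.cast_add, Nat.cast_add, Nat.cast_add, Nat.cast_sub (hle i), Nat.cast_sub (hle (p - i)),
    Nat.cast_sub (hle j), hpow _ i (by omega), hpow _ (p - i) (by omega), hpow _ j (by omega),
    ZMod.natCast_self, Nat.cast_one]
  ring

theorem residueN_lt [Fact q.Prime] (b i j : ℕ) : residueN p q b i j < q :=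
  auxPowMod_lt (Fact.out : q.Prime).pos 16 _ _

/-- `j` and `p - j` give residues whose ratio does not depend on `i`. -/
theorem descentG_sub [Fact q.Prime] {s : ZMod q} (hs : s ^ p = 1) {i j : ℕ} (hi : i ≤ p) (hj : j ≤ p) :
    descentG p q s i (p - j) = (s ^ (p - j)) ^ (2 * ((q - 1) / p)) * descentG p q s i j := by
  have hab : s ^ i * s ^ (p - i) = 1 := by rw [← pow_add, Nat.add_sub_cancel' hi, hs]
  have hjj : s ^ j * s ^ (p - j) = 1 := by rw [← pow_add, Nat.add_sub_cancel' hj, hs]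
  rw [descentG, descentG, show (s ^ i - s ^ (p - j)) * (s ^ (p - i) - s ^ (p - j)) =
    (s ^ (p - j)) ^ 2 * ((s ^ i - s ^ j) * (s ^ (p - i) - s ^ j)) by
      linear_combination (1 - (s ^ (p - j)) ^ 2) * hab -
        (s ^ j * s ^ (p - j) + 1 - s ^ i * s ^ (p - j) - s ^ (p - i) * s ^ (p - j)) * hjj,
    mul_assoc, mul_pow, ← pow_mul]

/-- The root inverse to `s` sees `p - j`. -/
theorem descentG_inv {r : ZMod q} (hr : r ^ p = 1) {c i j : ℕ} (hc : c ≤ p) (hi : i ≤ p) (hj : j ≤ p) :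
    descentG p q (r ^ (p - c)) i j = descentG p q (r ^ c) i (p - j) := by
  have key : ∀ n ≤ p, (r ^ (p - c)) ^ n = (r ^ c) ^ (p - n) := fun n hn => by
    rw [← pow_mul, ← pow_mul]
    refine (pow_eq_pow_mod ((p - c) * n) hr).trans ((pow_eq_pow_mod (c * (p - n)) hr).trans ?_).symm
    congr 1
    refine (Nat.ModEq.add_right_cancel' (c * n) ?_ : _ ≡ _ [MOD p])
    rw [← Nat.mul_add, Nat.sub_add_cancel hn, ← Nat.add_mul, Nat.sub_add_cancel hc]
    exact (Nat.modEq_zero_iff_dvd.2 (dvd_mul_left p c)).trans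
      (Nat.modEq_zero_iff_dvd.2 (dvd_mul_right p n)).symm
  rw [descentG, descentG, key i hi, key (p - i) (Nat.sub_le _ _), key j hj, Nat.sub_sub_self hi]
  congr 1
  ring

/-- Every `j` is represented by some `h < (p + 1) / 2`. -/
theorem exists_half [Fact q.Prime] (hodd : Odd p) {s : ZMod q} (hs : s ^ p = 1) {j : ℕ} (hj : j < p) :
    ∃ h < (p + 1) / 2, (j = 0 ↔ h = 0) ∧ ∃ τ : ZMod q, τ ≠ 0 ∧ ∀ i ∈ Finset.Ico 1 ((p + 1) / 2),
      ((i ≠ j ∧ i + j ≠ p) ↔ h ≠ i) ∧ descentG p q s i j = τ * descentG p q s i h := by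
  rw [Nat.odd_iff] at hodd
  by_cases hjH : j < (p + 1) / 2
  · refine ⟨j, hjH, Iff.rfl, 1, one_ne_zero, fun i hi => ⟨?_, (one_mul _).symm⟩⟩
    rw [Finset.mem_Ico] at hi
    omega
  · refine ⟨p - j, by omega, by omega, (s ^ (p - (p - j))) ^ (2 * ((q - 1) / p)),
      pow_ne_zero _ (pow_ne_zero _ ?_), fun i hi => ?_⟩
    · intro h0
      rw [h0, zero_pow (by omega)] at hs
      exact zero_ne_one hs
    · rw [Finset.mem_Ico] at hi
      refine ⟨by omega, ?_⟩
      rw [← descentG_sub hs (by omega) (Nat.sub_le p j), Nat.sub_sub_self hj.le]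

/-- `certSingleHalf` at every root. -/
theorem exists_single_of_half [Fact p.Prime] [Fact q.Prime] (h15 : 15 ≤ p) (hp : p < 65536) (hq : q < 65536)
    {b : ℕ} (hb : (b : ZMod q) ^ p = 1) (hcert : certSingleHalf p q b = true) {c j : ℕ} (hc0 : 0 < c)
    (hc : c < p) (hj0 : 0 < j) (hj : j < p) : ∃ i l, i ∈ Finset.Ico 1 p ∧ l ∈ Finset.Ico 1 p ∧
      (i ≠ j ∧ i + j ≠ p) ∧ (l ≠ j ∧ l + j ≠ p) ∧
      descentG p q ((b : ZMod q) ^ c) i j ≠ descentG p q ((b : ZMod q) ^ c) l j := by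
  have hodd : Odd p := (Fact.out : p.Prime).odd_of_ne_two (by omega)
  have hmod := Nat.odd_iff.mp hodd
  simp only [certSingleHalf, List.all_eq_true, List.mem_range, Bool.or_eq_true, List.any_eq_true,
    Bool.and_eq_true, decide_eq_true_eq] at hcert
  -- the half of the roots
  have key : ∀ c, 0 < c → c < (p + 1) / 2 → ∀ j, 0 < j → j < p → ∃ i l, i ∈ Finset.Ico 1 p ∧
      l ∈ Finset.Ico 1 p ∧ (i ≠ j ∧ i + j ≠ p) ∧ (l ≠ j ∧ l + j ≠ p) ∧
      descentG p q ((b : ZMod q) ^ c) i j ≠ descentG p q ((b : ZMod q) ^ c) l j := by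
    intro c hc0 hc j hj0 hj
    obtain ⟨h, hh, h0, τ, hτ, hrep⟩ :=
      exists_half hodd (show ((b : ZMod q) ^ c) ^ p = 1 by rw [← pow_mul, mul_comm, pow_mul, hb, one_pow]) hj
    rcases hcert c hc h hh with (e | e) | ⟨⟨i, l⟩, hx, ⟨hi, hl⟩, hne⟩
    · omega
    · omega
    have hx' : 0 < i ∧ i < 8 ∧ 0 < l ∧ l < 8 :=
      (by decide : ∀ x ∈ descentPairs, 0 < x.1 ∧ x.1 < 8 ∧ 0 < x.2 ∧ x.2 < 8) _ hx
    obtain ⟨hiv, hig⟩ := hrep i (Finset.mem_Ico.mpr (by omega))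
    obtain ⟨hlv, hlg⟩ := hrep l (Finset.mem_Ico.mpr (by omega))
    refine ⟨i, l, Finset.mem_Ico.mpr (by omega), Finset.mem_Ico.mpr (by omega), hiv.2 (Ne.symm hi),
      hlv.2 (Ne.symm hl), fun e => hne ?_⟩
    rw [hig, hlg] at e
    replace e := mul_left_cancel₀ hτ e
    have hcast : ((auxPowMod q 16 b c : ℕ) : ZMod q) = (b : ZMod q) ^ c :=
      auxPowMod_cast q 16 b c (by norm_num; omega)
    rw [← hcast, ← residueN_cast hp hq _ (show i < p by omega) (show h < p by omega),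
      ← residueN_cast hp hq _ (show l < p by omega) (show h < p by omega),
      ZMod.natCast_eq_natCast_iff'] at e
    rwa [Nat.mod_eq_of_lt (residueN_lt _ _ _), Nat.mod_eq_of_lt (residueN_lt _ _ _)] at e
  by_cases hcH : c < (p + 1) / 2
  · exact key c hc0 hcH j hj0 hj
  obtain ⟨i, l, hi, hl, hiv, hlv, hne⟩ := key (p - c) (by omega) (by omega) (p - j) (by omega) (by omega)
  have hi' := Finset.mem_Ico.mp hi
  have hl' := Finset.mem_Ico.mp hl
  refine ⟨i, l, hi, hl, by omega, by omega, fun e => hne ?_⟩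
  rw [show c = p - (p - c) by omega, descentG_inv hb (by omega) hi'.2.le hj.le,
    descentG_inv hb (by omega) hl'.2.le hj.le] at e
  exact e

theorem tableDiff_cast (w : List ℕ) (L : List (List (List ℕ))) {c n m j : ℕ} (hw : w.getD c 0 ≤ p) :
    ((tableDiff p w L c n m j : ℕ) : ZMod p) =
      ((w.getD c 0 * tableLog L c j n : ℕ) : ZMod p) - ((w.getD c 0 * tableLog L c j m : ℕ) : ZMod p) := by
  rw [tableDiff, ZMod.natCast_mod, Nat.cast_add, Nat.cast_mul (p - w.getD c 0), Nat.cast_sub hw,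
    ZMod.natCast_self, Nat.cast_mul, Nat.cast_mul]
  ring

/-- The representatives of a triple with at most one zero are separated. -/
theorem tableRefuted_of_cert (hp0 : 0 < p) {w : List ℕ} {L I : List (List (List ℕ))}
    (hI : certInverse p w L I = true) (hT : certTriple p w L I = true) {a₁ a₂ a₃ : ℕ}
    (ha₁ : a₁ < (p + 1) / 2) (ha₂ : a₂ < (p + 1) / 2) (ha₃ : a₃ < (p + 1) / 2)
    (h12 : ¬ (a₁ = 0 ∧ a₂ = 0)) (h13 : ¬ (a₁ = 0 ∧ a₃ = 0)) (h23 : ¬ (a₂ = 0 ∧ a₃ = 0)) :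
    tableRefuted p w L a₁ a₂ a₃ = true := by
  simp only [certTriple, List.all_eq_true, List.mem_range, Bool.or_eq_true, List.any_eq_true,
    Bool.and_eq_true, decide_eq_true_eq] at hT
  rcases hT a₁ ha₁ a₂ ha₂ with e | ⟨k, hk, hkv, hcand⟩
  · omega
  by_contra hne
  have hk3 : a₃ = 2 * k + 1 ∨ a₃ = 2 * k + 2 ∨ (a₃ ≠ 2 * k + 1 ∧ a₃ ≠ 2 * k + 2) := by omega
  have hmem : a₃ ∈ (2 * k + 1) :: (2 * k + 2) :: (I.getD k []).getD ((2 * p -
      (tableDiff p w L 0 (2 * k) (2 * k + 1) a₁ + tableDiff p w L 1 (2 * k) (2 * k + 1) a₂)) % p) [] := by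
    rcases hk3 with e | e | ⟨e1, e2⟩
    · simp [e]
    · simp [e]
    simp only [certInverse, List.all_eq_true, List.mem_range, Bool.or_eq_true, decide_eq_true_eq,
      List.contains_iff_mem] at hI
    rcases hI k hk a₃ ha₃ with (e | e) | e
    · omega
    · omega
    -- the third difference is forced
    have hzero : (tableDiff p w L 0 (2 * k) (2 * k + 1) a₁ + tableDiff p w L 1 (2 * k) (2 * k + 1) a₂ +
        tableDiff p w L 2 (2 * k) (2 * k + 1) a₃) % p = 0 := by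
      by_contra h0
      refine hne ?_
      simp only [tableRefuted, List.any_eq_true, List.mem_range, Bool.and_eq_true, decide_eq_true_eq]
      exact ⟨2 * k + 1, by omega, 2 * k, by omega, by omega, h0⟩
    have b0 : ∀ c a, tableDiff p w L c (2 * k) (2 * k + 1) a < p := fun c a => Nat.mod_lt _ (by omega)
    have e' : tableDiff p w L 2 (2 * k) (2 * k + 1) a₃ = (2 * p -
        (tableDiff p w L 0 (2 * k) (2 * k + 1) a₁ + tableDiff p w L 1 (2 * k) (2 * k + 1) a₂)) % p := by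
      have := b0 0 a₁; have := b0 1 a₂; have := b0 2 a₃
      generalize tableDiff p w L 0 (2 * k) (2 * k + 1) a₁ = x at *
      generalize tableDiff p w L 1 (2 * k) (2 * k + 1) a₂ = y at *
      generalize tableDiff p w L 2 (2 * k) (2 * k + 1) a₃ = z at *
      obtain ⟨m, hm⟩ := Nat.dvd_of_mod_eq_zero hzero
      have hm3 : m < 3 := by
        by_contra h3
        have := Nat.mul_le_mul_left p (show 3 ≤ m by omega)
        omega
      rw [show 2 * p - (x + y) = z + (2 - m) * p by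
        interval_cases m <;> omega, Nat.add_mul_mod_self_right, Nat.mod_eq_of_lt this]
    exact List.mem_cons_of_mem _ (List.mem_cons_of_mem _ (e' ▸ e))
  rcases hcand a₃ hmem with e | e
  · omega
  · exact hne e

/-- The table gives the residues at the three roots. -/
theorem descentG_eq_tableLog [Fact q.Prime] (h15 : 15 ≤ p) (hp : p < 65536) (hq : q < 65536) {b : ℕ}
    {L : List (List (List ℕ))} (hL : certLog p q b L = true) {c j i : ℕ} (hc : c < 3)
    (hj : j < (p + 1) / 2) (hi : i < 6) (hij : j ≠ i + 1) :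
    descentG p q ((b : ZMod q) ^ (c + 1)) (i + 1) j = (b : ZMod q) ^ tableLog L c j i := by
  simp only [certLog, List.all_eq_true, List.mem_range, Bool.or_eq_true, decide_eq_true_eq] at hL
  obtain ⟨hlt, h⟩ := (hL c hc j hj i hi).resolve_left hij
  have h' := congrArg (Nat.cast : ℕ → ZMod q) h
  rwa [residueN_cast hp hq _ (show i + 1 < p by omega) (show j < p by omega),
    auxPowMod_cast q 16 b _ (by norm_num; omega), auxPowMod_cast q 16 b _ (by norm_num; omega)] at h'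

/-- A nonzero sum of the weighted differences separates the products of residues. -/
theorem residue_ne_of_tableDiff [Fact p.Prime] [Fact q.Prime] (h15 : 15 ≤ p) (hp : p < 65536)
    (hq : q < 65536) {b : ℕ} (hb : IsPrimitiveRoot (b : ZMod q) p) {w : List ℕ}
    (hw : ∀ c < 3, w.getD c 0 ≤ p) {L : List (List (List ℕ))} (hL : certLog p q b L = true)
    {a₁ a₂ a₃ n m : ℕ} (ha₁ : a₁ < (p + 1) / 2) (ha₂ : a₂ < (p + 1) / 2) (ha₃ : a₃ < (p + 1) / 2)
    (hm : m < 6) (hn : n < 6)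
    (hav : a₁ ≠ n + 1 ∧ a₁ ≠ m + 1 ∧ a₂ ≠ n + 1 ∧ a₂ ≠ m + 1 ∧ a₃ ≠ n + 1 ∧ a₃ ≠ m + 1)
    (hne : (tableDiff p w L 0 n m a₁ + tableDiff p w L 1 n m a₂ + tableDiff p w L 2 n m a₃) % p ≠ 0) :
    descentG p q (b : ZMod q) (n + 1) a₁ ^ w.getD 0 0 *
      descentG p q ((b : ZMod q) ^ 2) (n + 1) a₂ ^ w.getD 1 0 *
      descentG p q ((b : ZMod q) ^ 3) (n + 1) a₃ ^ w.getD 2 0 ≠
      descentG p q (b : ZMod q) (m + 1) a₁ ^ w.getD 0 0 *
      descentG p q ((b : ZMod q) ^ 2) (m + 1) a₂ ^ w.getD 1 0 *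
      descentG p q ((b : ZMod q) ^ 3) (m + 1) a₃ ^ w.getD 2 0 := by
  intro e
  refine hne ?_
  obtain ⟨v1, u1, v2, u2, v3, u3⟩ := hav
  have D := fun {c j i : ℕ} (hc : c < 3) (hj : j < (p + 1) / 2) (hi : i < 6) (hij : j ≠ i + 1) =>
    descentG_eq_tableLog h15 hp hq hL hc hj hi hij
  have A1 : descentG p q (b : ZMod q) (n + 1) a₁ = (b : ZMod q) ^ tableLog L 0 a₁ n := by
    simpa using D (show 0 < 3 by omega) ha₁ hn v1
  have A2 : descentG p q (b : ZMod q) (m + 1) a₁ = (b : ZMod q) ^ tableLog L 0 a₁ m := by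
    simpa using D (show 0 < 3 by omega) ha₁ hm u1
  rw [A1, A2, D (show 1 < 3 by omega) ha₂ hn v2, D (show 1 < 3 by omega) ha₂ hm u2,
    D (show 2 < 3 by omega) ha₃ hn v3, D (show 2 < 3 by omega) ha₃ hm u3] at e
  simp only [← pow_mul, ← pow_add] at e
  rw [(hb.isOfFinOrder (by omega)).pow_eq_pow_iff_modEq, ← hb.eq_orderOf,
    ← ZMod.natCast_eq_natCast_iff, Nat.cast_add, Nat.cast_add, Nat.cast_add, Nat.cast_add] at e
  rw [← ZMod.val_natCast, ZMod.val_eq_zero, Nat.cast_add, Nat.cast_add,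
    tableDiff_cast w L (hw 0 (by omega)), tableDiff_cast w L (hw 1 (by omega)),
    tableDiff_cast w L (hw 2 (by omega))]
  push_cast at e ⊢
  linear_combination e

/-- `certTriple` at every triple. -/
theorem exists_triple_of_cert [Fact p.Prime] [Fact q.Prime] (h15 : 15 ≤ p) (hp : p < 65536) (hq : q < 65536)
    {b : ℕ} (hb : IsPrimitiveRoot (b : ZMod q) p) {w : List ℕ} (hw : ∀ c < 3, w.getD c 0 ≤ p)
    {L I : List (List (List ℕ))} (hL : certLog p q b L = true) (hI : certInverse p w L I = true)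
    (hT : certTriple p w L I = true) {j₁ j₂ j₃ : ℕ} (h₁ : j₁ < p) (h₂ : j₂ < p) (h₃ : j₃ < p)
    (h12 : ¬ (j₁ = 0 ∧ j₂ = 0)) (h13 : ¬ (j₁ = 0 ∧ j₃ = 0)) (h23 : ¬ (j₂ = 0 ∧ j₃ = 0)) :
    ∃ i l, i ∈ Finset.Ico 1 p ∧ l ∈ Finset.Ico 1 p ∧
      ((i ≠ j₁ ∧ i + j₁ ≠ p) ∧ (i ≠ j₂ ∧ i + j₂ ≠ p) ∧ (i ≠ j₃ ∧ i + j₃ ≠ p)) ∧
      ((l ≠ j₁ ∧ l + j₁ ≠ p) ∧ (l ≠ j₂ ∧ l + j₂ ≠ p) ∧ (l ≠ j₃ ∧ l + j₃ ≠ p)) ∧
      descentG p q (b : ZMod q) i j₁ ^ w.getD 0 0 * descentG p q ((b : ZMod q) ^ 2) i j₂ ^ w.getD 1 0 *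
          descentG p q ((b : ZMod q) ^ 3) i j₃ ^ w.getD 2 0 ≠
        descentG p q (b : ZMod q) l j₁ ^ w.getD 0 0 * descentG p q ((b : ZMod q) ^ 2) l j₂ ^ w.getD 1 0 *
          descentG p q ((b : ZMod q) ^ 3) l j₃ ^ w.getD 2 0 := by
  have hodd : Odd p := (Fact.out : p.Prime).odd_of_ne_two (by omega)
  have hmod := Nat.odd_iff.mp hodd
  have hroot : ∀ c, ((b : ZMod q) ^ c) ^ p = 1 := fun c => by
    rw [← pow_mul, mul_comm, pow_mul, hb.pow_eq_one, one_pow]
  obtain ⟨a₁, ha₁, z₁, τ₁, hτ₁, hr₁⟩ := exists_half hodd (hroot 1) h₁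
  obtain ⟨a₂, ha₂, z₂, τ₂, hτ₂, hr₂⟩ := exists_half hodd (hroot 2) h₂
  obtain ⟨a₃, ha₃, z₃, τ₃, hτ₃, hr₃⟩ := exists_half hodd (hroot 3) h₃
  have href : tableRefuted p w L a₁ a₂ a₃ = true :=
    tableRefuted_of_cert (by omega) hI hT ha₁ ha₂ ha₃ (fun h => h12 ⟨z₁.2 h.1, z₂.2 h.2⟩)
      (fun h => h13 ⟨z₁.2 h.1, z₃.2 h.2⟩) fun h => h23 ⟨z₂.2 h.1, z₃.2 h.2⟩
  simp only [tableRefuted, List.any_eq_true, List.mem_range, Bool.and_eq_true, decide_eq_true_eq] at href
  obtain ⟨m, hm, n, hn, hav, hne⟩ := href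
  have hni : n + 1 ∈ Finset.Ico 1 ((p + 1) / 2) := Finset.mem_Ico.mpr (by omega)
  have hmi : m + 1 ∈ Finset.Ico 1 ((p + 1) / 2) := Finset.mem_Ico.mpr (by omega)
  obtain ⟨v1, g1⟩ := hr₁ _ hni
  obtain ⟨v2, g2⟩ := hr₂ _ hni
  obtain ⟨v3, g3⟩ := hr₃ _ hni
  obtain ⟨u1, f1⟩ := hr₁ _ hmi
  obtain ⟨u2, f2⟩ := hr₂ _ hmi
  obtain ⟨u3, f3⟩ := hr₃ _ hmi
  refine ⟨n + 1, m + 1, Finset.mem_Ico.mpr (by omega), Finset.mem_Ico.mpr (by omega),
    ⟨v1.2 hav.1, v2.2 hav.2.2.1, v3.2 hav.2.2.2.2.1⟩,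
    ⟨u1.2 hav.2.1, u2.2 hav.2.2.2.1, u3.2 hav.2.2.2.2.2⟩, fun e => ?_⟩
  rw [pow_one] at g1 f1
  rw [g1, g2, g3, f1, f2, f3] at e
  have hT' : τ₁ ^ w.getD 0 0 * τ₂ ^ w.getD 1 0 * τ₃ ^ w.getD 2 0 ≠ 0 :=
    mul_ne_zero (mul_ne_zero (pow_ne_zero _ hτ₁) (pow_ne_zero _ hτ₂)) (pow_ne_zero _ hτ₃)
  simp only [mul_pow] at e
  replace e : descentG p q (b : ZMod q) (n + 1) a₁ ^ w.getD 0 0 *
      descentG p q ((b : ZMod q) ^ 2) (n + 1) a₂ ^ w.getD 1 0 *
      descentG p q ((b : ZMod q) ^ 3) (n + 1) a₃ ^ w.getD 2 0 =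
      descentG p q (b : ZMod q) (m + 1) a₁ ^ w.getD 0 0 *
      descentG p q ((b : ZMod q) ^ 2) (m + 1) a₂ ^ w.getD 1 0 *
      descentG p q ((b : ZMod q) ^ 3) (m + 1) a₃ ^ w.getD 2 0 :=
    mul_left_cancel₀ hT' (by linear_combination e)
  exact residue_ne_of_tableDiff h15 hp hq hb hw hL ha₁ ha₂ ha₃ hm (by omega) hav hne e

end FA.Regular
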