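import Fermat.Agent.Regular.VandiverGeneric

/-!
# Vandiver's descent with two irregular indices

Let `k₁, k₂` be the irregular indices of `p` and `ε₁, ε₂` the projected cyclotomic units.  The units of
the descent are `ε₁^x ε₂^y` times `p`-th powers.  At three roots `r, r², r³` modulo `q` weights `w` kill
the residues of both units, and the certificate in `TwoIndexData` shows that this is impossible unless
two of the roots have `j = 0`, when both exponents are divisible by `p`.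
-/

set_option autoImplicit false

noncomputable section

open NumberField
open scoped nonZeroDivisors

namespace FA.Regular

/-- The residue symbols of the two units at the roots `r^c`, `r^d` are independent. -/
def SymbolsIndependent (p k₁ k₂ q a : ℕ) (r : ZMod q) (c d : ℕ) : Prop :=
  residueSymbol p k₂ q (r ^ c) a ≠ 1 ∧ ∃ u v : ℕ,
    residueSymbol p k₂ q (r ^ c) a ^ u * residueSymbol p k₂ q (r ^ d) a ^ v = 1 ∧
    residueSymbol p k₁ q (r ^ c) a ^ u * residueSymbol p k₁ q (r ^ d) a ^ v ≠ 1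

/-- The data at an auxiliary prime `q` for two irregular indices. -/
structure TwoIndexData (p k₁ k₂ q a : ℕ) (r : ZMod q) (w₁ w₂ w₃ : ℕ) : Prop where
  eight_le : 8 ≤ p
  even₁ : Even k₁
  two_le₁ : 2 ≤ k₁
  le₁ : k₁ ≤ p - 3
  even₂ : Even k₂
  two_le₂ : 2 ≤ k₂
  le₂ : k₂ ≤ p - 3
  distinct : k₁ ≠ k₂
  regular : ∀ i, Even i → 2 ≤ i → i ≤ p - 3 → i ≠ k₁ → i ≠ k₂ → ¬ (p : ℤ) ∣ (bernoulli i).num
  base : (a : ZMod p) ≠ 0
  ne : q ≠ p
  dvd : p ∣ q - 1
  root : ∑ i ∈ Finset.range p, r ^ i = 0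
  symbol₁ : residueSymbol p k₁ q r a ≠ 1
  symbol₂ : residueSymbol p k₂ q r a ≠ 1
  killed₁ : residueSymbol p k₁ q r a ^ w₁ * residueSymbol p k₁ q (r ^ 2) a ^ w₂ *
    residueSymbol p k₁ q (r ^ 3) a ^ w₃ = 1
  killed₂ : residueSymbol p k₂ q r a ^ w₁ * residueSymbol p k₂ q (r ^ 2) a ^ w₂ *
    residueSymbol p k₂ q (r ^ 3) a ^ w₃ = 1
  indep₁₂ : SymbolsIndependent p k₁ k₂ q a r 1 2
  indep₁₃ : SymbolsIndependent p k₁ k₂ q a r 1 3
  indep₂₃ : SymbolsIndependent p k₁ k₂ q a r 2 3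
  single : ∀ c j, 0 < c → c < p → 0 < j → j < p → ∃ i l, i ∈ Finset.Ico 1 p ∧ l ∈ Finset.Ico 1 p ∧
    (i ≠ j ∧ i + j ≠ p) ∧ (l ≠ j ∧ l + j ≠ p) ∧
    descentG p q (r ^ c) i j ≠ descentG p q (r ^ c) l j
  triple : ∀ j₁ j₂ j₃, j₁ < p → j₂ < p → j₃ < p →
    ¬ (j₁ = 0 ∧ j₂ = 0) → ¬ (j₁ = 0 ∧ j₃ = 0) → ¬ (j₂ = 0 ∧ j₃ = 0) →
    ∃ i l, i ∈ Finset.Ico 1 p ∧ l ∈ Finset.Ico 1 p ∧
      ((i ≠ j₁ ∧ i + j₁ ≠ p) ∧ (i ≠ j₂ ∧ i + j₂ ≠ p) ∧ (i ≠ j₃ ∧ i + j₃ ≠ p)) ∧
      ((l ≠ j₁ ∧ l + j₁ ≠ p) ∧ (l ≠ j₂ ∧ l + j₂ ≠ p) ∧ (l ≠ j₃ ∧ l + j₃ ≠ p)) ∧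
      descentG p q r i j₁ ^ w₁ * descentG p q (r ^ 2) i j₂ ^ w₂ * descentG p q (r ^ 3) i j₃ ^ w₃ ≠
        descentG p q r l j₁ ^ w₁ * descentG p q (r ^ 2) l j₂ ^ w₂ * descentG p q (r ^ 3) l j₃ ^ w₃

variable {p k₁ k₂ q a w₁ w₂ w₃ : ℕ} {r : ZMod q} [Fact p.Prime]

theorem dvd_of_pow_eq_one {M : Type*} [CommMonoid M] {x : M} (hxp : x ^ p = 1) (hx : x ≠ 1) {n : ℕ}
    (hn : x ^ n = 1) : p ∣ n :=
  orderOf_eq_prime hxp hx ▸ orderOf_dvd_iff_pow_eq_one.mpr hn

variable (K : Type*) [Field K] [NumberField K] [IsCyclotomicExtension {p} ℚ K] [Fact q.Prime]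

include K in
theorem residueSymbol_pow_prime {k : ℕ} (hk : k ≤ p - 1) (hdvd : p ∣ q - 1) {s : ZMod q}
    (hs : ∑ i ∈ Finset.range p, s ^ i = 0) (ha : (a : ZMod p) ≠ 0) : residueSymbol p k q s a ^ p = 1 := by
  rw [← residueHom_unitProj p K hk hs ha, ← pow_mul, Nat.div_mul_cancel hdvd]
  exact ZMod.pow_card_sub_one_eq_one ((Units.isUnit (unitProj p K k (cycU p K ha))).map _).ne_zero

/-- The descent step with two irregular indices. -/
theorem exists_descent_two (D : TwoIndexData p k₁ k₂ q a r w₁ w₂ w₃)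
    (hclass : ∀ C : ClassGroup (𝓞 K), C ^ p = 1 → FA.Ext.sigmaCl p K (-1) C = C → C = 1) :
    HasDescentStep p K q := by
  intro N hN ω θ ξ η hω hθ hlθ hco hlξ hqξ heq
  have hp : p.Prime := Fact.out
  have : NeZero p := ⟨hp.ne_zero⟩
  have h8 := D.eight_le
  have hl1 := D.le₁
  have hl2 := D.le₂
  obtain ⟨e, R, he, hR, h0, hlR0, hi, hR12, hR0ξ, P, hP, hξP, hR0P⟩ :=
    exists_factors p K (by omega) hclass hN η hω hθ hlθ hco hlξ heq
  refine descent_of_pow_quot K h8 D.dvd D.ne D.root D.single hN η hco hqξ heq he hR h0 hlR0 hi hR12 hR0ξ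
    hP hξP hR0P ?_
  set ε := unitProj p K k₁ (cycU p K D.base) with hε
  set δ := unitProj p K k₂ (cycU p K D.base) with hδ
  have hprim := isPrimitiveRoot_residue p D.ne D.root
  have hroot : ∀ c, 0 < c → c < p → ∑ i ∈ Finset.range p, (r ^ c) ^ i = 0 := fun c hc hcp =>
    sum_pow_residue p hprim (Nat.not_dvd_of_pos_of_lt hc hcp)
  have hquot : ∀ i ∈ Finset.Ico 1 p, ∀ l ∈ Finset.Ico 1 p, ∃ (x y : ℕ) (v : (𝓞 K)ˣ),
      e i = ε ^ x * δ ^ y * v ^ p * e l := by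
    intro i hi' l hl'
    obtain ⟨n, hn⟩ := exists_congr_quotient K (by omega) hN (fun i h => (hi i h).2) hi' hl'
    obtain ⟨x, y, v, hv⟩ := exists_eq_pow_mul_pow_mul_pow_of_congr p K (by omega) D.even₁ D.two_le₁ D.le₁
      D.even₂ D.two_le₂ D.le₂ D.distinct D.regular D.base
      (not_pow_of_residueSymbol p K (by omega) D.root D.dvd D.base D.symbol₁)
      (not_pow_of_residueSymbol p K (by omega) D.root D.dvd D.base D.symbol₂) hn
    exact ⟨x, y, v, by rw [← hv, inv_mul_cancel_right]⟩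
  have hcore : ∀ c, 0 < c → c < p → ∃ j < p,
      ∀ i ∈ Finset.Ico 1 p, ∀ l ∈ Finset.Ico 1 p, i ≠ j ∧ i + j ≠ p → l ≠ j ∧ l + j ≠ p →
        ∀ (x y : ℕ) (v : (𝓞 K)ˣ), e i = ε ^ x * δ ^ y * v ^ p * e l →
          descentG p q (r ^ c) i j = residueSymbol p k₁ q (r ^ c) a ^ x *
            residueSymbol p k₂ q (r ^ c) a ^ y * descentG p q (r ^ c) l j := by
    intro c hc hcp
    have hs := hroot c hc hcp
    obtain ⟨j, hj, -, h⟩ :=
      exists_residue_ratio K (by omega) D.dvd D.ne hs hco hqξ heq h0 fun i hi' => (hi i hi').1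
    refine ⟨j, hj, fun i hi' l hl' hij hlj x y v hv => ?_⟩
    rw [h i hi' l hl' hij hlj _ v hv, Units.val_mul, Units.val_pow_eq_pow_val, Units.val_pow_eq_pow_val,
      map_mul, map_pow, map_pow, mul_pow, pow_right_comm _ x, pow_right_comm _ y, hε, hδ,
      residueHom_unitProj p K (by omega) hs D.base, residueHom_unitProj p K (by omega) hs D.base]
  obtain ⟨j₁, hj₁, h1⟩ := hcore 1 one_pos (by omega)
  obtain ⟨j₂, hj₂, h2⟩ := hcore 2 two_pos (by omega)
  obtain ⟨j₃, hj₃, h3⟩ := hcore 3 three_pos (by omega)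
  -- two roots with `j = 0` kill both exponents
  have hzero : ∀ c d, 0 < c → c < p → 0 < d → d < p → SymbolsIndependent p k₁ k₂ q a r c d →
      ∀ x y : ℕ, residueSymbol p k₁ q (r ^ c) a ^ x * residueSymbol p k₂ q (r ^ c) a ^ y = 1 →
        residueSymbol p k₁ q (r ^ d) a ^ x * residueSymbol p k₂ q (r ^ d) a ^ y = 1 → p ∣ x ∧ p ∣ y := by
    intro c d hc hcp hd hdp hind x y hcx hdx
    obtain ⟨hB, u, v, huv, hA⟩ := hind
    have hAp : ∀ c, 0 < c → c < p → residueSymbol p k₁ q (r ^ c) a ^ p = 1 := fun c hc hcp =>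
      residueSymbol_pow_prime K (by omega) D.dvd (hroot c hc hcp) D.base
    have hx : p ∣ x := by
      refine dvd_of_pow_eq_one (p := p) ?_ hA ?_
      · rw [mul_pow, pow_right_comm _ u, pow_right_comm _ v, hAp c hc hcp, hAp d hd hdp, one_pow, one_pow,
          one_mul]
      · have h := congrArg₂ (fun s t : ZMod q => s ^ u * t ^ v) hcx hdx
        simp only [one_pow, one_mul] at h
        have h' : (residueSymbol p k₁ q (r ^ c) a ^ u * residueSymbol p k₁ q (r ^ d) a ^ v) ^ x *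
            (residueSymbol p k₂ q (r ^ c) a ^ u * residueSymbol p k₂ q (r ^ d) a ^ v) ^ y = 1 := by
          refine Eq.trans ?_ h
          simp only [mul_pow, ← pow_mul, mul_comm u, mul_comm v]
          ring
        rwa [huv, one_pow, mul_one] at h'
    refine ⟨hx, ?_⟩
    obtain ⟨x', rfl⟩ := hx
    rw [pow_mul, hAp c hc hcp, one_pow, one_mul] at hcx
    exact dvd_of_pow_eq_one (residueSymbol_pow_prime K (by omega) D.dvd (hroot c hc hcp) D.base) hB hcx
  have hG : ∀ c, 0 < c → c < p → ∀ i ∈ Finset.Ico 1 p, descentG p q (r ^ c) i 0 = 1 := fun c hc hcp _ hi' =>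
    descentG_zero hp D.dvd (isPrimitiveRoot_residue p D.ne (hroot c hc hcp)) hi'
  intro i hi' l hl'
  obtain ⟨x, y, v, hv⟩ := hquot i hi' l hl'
  suffices p ∣ x ∧ p ∣ y by
    obtain ⟨⟨x', rfl⟩, y', rfl⟩ := this
    exact ⟨ε ^ x' * δ ^ y' * v, by rw [hv, mul_pow, mul_pow, ← pow_mul, ← pow_mul, mul_comm p x', mul_comm p y']⟩
  have hav : ∀ n ∈ Finset.Ico 1 p, n ≠ 0 ∧ n + 0 ≠ p := fun n hn => by
    rw [Finset.mem_Ico] at hn; omega
  -- a root with `j = 0` gives a relation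
  have hrel : ∀ c j, 0 < c → c < p → j = 0 →
      (∀ i ∈ Finset.Ico 1 p, ∀ l ∈ Finset.Ico 1 p, i ≠ j ∧ i + j ≠ p → l ≠ j ∧ l + j ≠ p →
        ∀ (x y : ℕ) (v : (𝓞 K)ˣ), e i = ε ^ x * δ ^ y * v ^ p * e l →
          descentG p q (r ^ c) i j = residueSymbol p k₁ q (r ^ c) a ^ x *
            residueSymbol p k₂ q (r ^ c) a ^ y * descentG p q (r ^ c) l j) →
      residueSymbol p k₁ q (r ^ c) a ^ x * residueSymbol p k₂ q (r ^ c) a ^ y = 1 := by
    rintro c j hc hcp rfl h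
    have h' := h i hi' l hl' (hav i hi') (hav l hl') x y v hv
    rw [hG c hc hcp i hi', hG c hc hcp l hl', mul_one] at h'
    exact h'.symm
  by_cases h12 : j₁ = 0 ∧ j₂ = 0
  · exact hzero 1 2 one_pos (by omega) two_pos (by omega) D.indep₁₂ x y
      (hrel 1 j₁ one_pos (by omega) h12.1 h1) (hrel 2 j₂ two_pos (by omega) h12.2 h2)
  by_cases h13 : j₁ = 0 ∧ j₃ = 0
  · exact hzero 1 3 one_pos (by omega) three_pos (by omega) D.indep₁₃ x y
      (hrel 1 j₁ one_pos (by omega) h13.1 h1) (hrel 3 j₃ three_pos (by omega) h13.2 h3)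
  by_cases h23 : j₂ = 0 ∧ j₃ = 0
  · exact hzero 2 3 two_pos (by omega) three_pos (by omega) D.indep₂₃ x y
      (hrel 2 j₂ two_pos (by omega) h23.1 h2) (hrel 3 j₃ three_pos (by omega) h23.2 h3)
  exfalso
  obtain ⟨n, m, hn, hm, ⟨n1, n2, n3⟩, ⟨m1, m2, m3⟩, hne⟩ := D.triple j₁ j₂ j₃ hj₁ hj₂ hj₃ h12 h13 h23
  obtain ⟨X, Y, V, hV⟩ := hquot n hn m hm
  have g1 := h1 n hn m hm n1 m1 X Y V hV
  have g2 := h2 n hn m hm n2 m2 X Y V hV
  have g3 := h3 n hn m hm n3 m3 X Y V hV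
  rw [pow_one] at g1
  refine hne ?_
  rw [g1, g2, g3]
  have k1 := congrArg (· ^ X) D.killed₁
  have k2 := congrArg (· ^ Y) D.killed₂
  simp only [mul_pow, one_pow, ← pow_mul] at k1 k2
  simp only [mul_pow, ← pow_mul, mul_comm X, mul_comm Y]
  linear_combination (descentG p q r m j₁ ^ w₁ * descentG p q (r ^ 2) m j₂ ^ w₂ *
      descentG p q (r ^ 3) m j₃ ^ w₃ * residueSymbol p k₂ q r a ^ (w₁ * Y) *
      residueSymbol p k₂ q (r ^ 2) a ^ (w₂ * Y) * residueSymbol p k₂ q (r ^ 3) a ^ (w₃ * Y)) * k1 +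
    (descentG p q r m j₁ ^ w₁ * descentG p q (r ^ 2) m j₂ ^ w₂ * descentG p q (r ^ 3) m j₃ ^ w₃) * k2

/-- **The conjecture of Kummer and Vandiver** with two irregular indices. -/
theorem vandiver_of_twoIndexData (D : TwoIndexData p k₁ k₂ q a r w₁ w₂ w₃) (x : ClassGroup (𝓞 K))
    (hx : x ^ p = 1) (hfix : FA.Ext.sigmaCl p K (-1) x = x) : x = 1 := by
  have h8 := D.eight_le
  have hl1 := D.le₁
  have hl2 := D.le₂
  refine eq_one_of_fixed p K (by omega) (fun i hev hi => ?_) hx hfix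
  have hodd := (Fact.out : p.Prime).eq_two_or_odd
  by_cases hik : i = k₁ ∨ i = k₂
  · have hnp : ∀ y : K, y ^ p ≠ ((unitProj p K i (cycU p K D.base) : 𝓞 K) : K) := by
      rcases hik with rfl | rfl
      · exact not_pow_of_residueSymbol p K (by omega) D.root D.dvd D.base D.symbol₁
      · exact not_pow_of_residueSymbol p K (by omega) D.root D.dvd D.base D.symbol₂
    by_contra hne
    obtain ⟨φ, hφne, hφ⟩ := FA.Ext.exists_weight_char_of_eigen p K i
      (by rw [← map_pow, hx, map_one]) hne (weightProj_eigen p K i hx)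
    exact no_weight_char_of_not_pow p K (by omega) i D.base hnp φ hφ hφne
  · exact even_weightProj_eq_one p K (by omega) hev hi
      (fun h2 => D.regular i hev h2 (by rw [Nat.even_iff] at hev; omega) (fun h => hik (Or.inl h))
        fun h => hik (Or.inr h)) hx

set_option backward.isDefEq.respectTransparency false in
/-- **Fermat's Last Theorem** from `TwoIndexData` and `AuxPowers`. -/
theorem fermat_of_twoIndexData (D : TwoIndexData p k₁ k₂ q a r w₁ w₂ w₃) {S : List (ZMod q)}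
    (A : AuxPowers p q S) : FermatLastTheoremFor p := by
  have hp : p.Prime := Fact.out
  have : NeZero p := ⟨hp.ne_zero⟩
  have h8 := D.eight_le
  refine fermat_of_cases p (by omega) (fun x y z h =>
    FA.Summary.first_case_of_auxiliary p (hp.odd_of_ne_two (by omega)) S A.powers A.noSum A.notMem x y z h)
    fun x y z hz hxy hyz hzx hx hy hz' hsum => ?_
  exact second_case_of_step (CyclotomicField p ℚ) h8 D.ne
    (exists_descent_two (CyclotomicField p ℚ) D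
      fun C hC hfix => vandiver_of_twoIndexData (CyclotomicField p ℚ) D C hC hfix)
    S A.powers A.noSum A.notMem A.cert hz hsum hxy hyz hzx hx hy hz'

end FA.Regular
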