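import Mathlib.Data.ZMod.Basic

/-!
# No Wieferich prime between ten thousand and one hundred thousand

The kernel computes `2^(n-1)` modulo `n^2` for the odd numbers `n` of this range.
-/

set_option autoImplicit false

namespace FA.Regular

/-- `2^(n-1)` is never `1` modulo `n^2` for odd `10000 < n < 100000`. -/
def wieferichScan : Bool := (List.range 90).all fun a => (List.range 500).all fun b =>
  !(Nat.beq (2 ^ (10000 + 1000 * a + 2 * b) %
    ((10001 + 1000 * a + 2 * b) * (10001 + 1000 * a + 2 * b))) 1)

theorem wieferichScan_ok : wieferichScan = true := by decide +kernel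

/-- No odd `n` in the range satisfies Wieferich's congruence. -/
theorem two_pow_ne_one_of_range {n : ℕ} (hodd : Odd n) (hlo : 10000 ≤ n) (hhi : n < 100000) :
    (2 : ZMod (n ^ 2)) ^ (n - 1) ≠ 1 := by
  rw [Nat.odd_iff] at hodd
  intro h
  have h' : 2 ^ (n - 1) % (n * n) = 1 := by
    rw [← sq]
    have hc : ((2 ^ (n - 1) : ℕ) : ZMod (n ^ 2)) = ((1 : ℕ) : ZMod (n ^ 2)) := by
      rw [Nat.cast_pow, Nat.cast_ofNat, Nat.cast_one]; exact h
    rw [ZMod.natCast_eq_natCast_iff'] at hc
    rw [hc, Nat.one_mod_eq_one, sq]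
    intro e
    have := Nat.eq_one_of_mul_eq_one_left e
    omega
  have hs := wieferichScan_ok
  simp only [wieferichScan, List.all_eq_true, List.mem_range, Bool.not_eq_eq_eq_not, Bool.not_true,
    ← Bool.not_eq_true, Nat.beq_eq] at hs
  have := hs ((n - 10001) / 1000) (by omega) ((n - 10001) % 1000 / 2) (by omega)
  rw [show 10001 + 1000 * ((n - 10001) / 1000) + 2 * ((n - 10001) % 1000 / 2) = n by omega,
    show 10000 + 1000 * ((n - 10001) / 1000) + 2 * ((n - 10001) % 1000 / 2) = n - 1 by omega] at this
  exact this h'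

end FA.Regular
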